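import Mathlib
import Fermat.Agent.LT.Base.Cusp

/-!
# Local invariant kernels and their products

A local kernel at a finite place is a function of two cosets, invariant under the group and with
finite rows; a local kernel at infinity is an invariant bounded function of two points of the
hyperbolic space, supported near the diagonal.  Their products are point kernels.
-/

set_option autoImplicit false

noncomputable section

open Matrix IsDedekindDomain NumberField Filter MeasureTheory
open scoped MatrixGroups ENNReal ComplexConjugate ContDiff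

namespace FermatAgent.LT

variable {L : Type*} [Field L] [NumberField L] {U : Level L} {v : HeightOneSpectrum (𝓞 L)}

/-- An invariant kernel at a finite place. -/
@[ext] structure LocKer (U : Level L) (v : HeightOneSpectrum (𝓞 L)) where
  /-- the kernel -/
  k : G2 L ⧸ U.loc v → G2 L ⧸ U.loc v → ℂ
  inv : ∀ (g : G2 L) c d, k (g • c) (g • d) = k c d
  row : ∀ c, {d | k c d ≠ 0}.Finite

namespace LocKer

open Classical in
/-- The identity kernel. -/
instance : One (LocKer U v) where
  one :=
    { k := fun c d => if c = d then 1 else 0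
      inv := fun g c d => by simp
      row := fun c => (Set.finite_singleton c).subset fun d hd => by
        by_contra h
        exact hd (if_neg fun e => h e.symm) }

open Classical in
/-- The identity kernel. -/
lemma one_k (c d : G2 L ⧸ U.loc v) : (1 : LocKer U v).k c d = if c = d then 1 else 0 := rfl

/-- Composition. -/
instance : Mul (LocKer U v) where
  mul A B :=
    { k := fun c e => ∑' d, A.k c d * B.k d e
      inv := fun g c e => by
        rw [← (MulAction.toPerm g).tsum_eq fun d => A.k (g • c) d * B.k d (g • e)]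
        simp [A.inv, B.inv]
      row := fun c => ((A.row c).biUnion fun d _ => B.row d).subset fun e he => by
        obtain ⟨d, hd⟩ : ∃ d, A.k c d * B.k d e ≠ 0 := by
          by_contra h
          push Not at h
          exact he (by simp [h])
        exact Set.mem_biUnion (left_ne_zero_of_mul hd) (right_ne_zero_of_mul hd) }

/-- The product of kernels. -/
lemma mul_k (A B : LocKer U v) (c e : G2 L ⧸ U.loc v) :
    (A * B).k c e = ∑' d, A.k c d * B.k d e := rfl

/-- One is a left identity. -/
protected lemma one_mul (A : LocKer U v) : 1 * A = A := by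
  classical
  ext c e
  rw [mul_k, tsum_eq_single c fun d hd => by simp [one_k, Ne.symm hd]]
  simp [one_k]

protected lemma mul_one (A : LocKer U v) : A * 1 = A := by
  classical
  ext c e
  rw [mul_k, tsum_eq_single e fun d hd => by simp [one_k, hd]]
  simp [one_k]

protected lemma mul_assoc (A B C : LocKer U v) : A * B * C = A * (B * C) := by
  classical
  ext c e
  simp only [mul_k]
  set s := (A.row c).toFinset
  set t := s.biUnion fun d => (B.row d).toFinset
  have hA : ∀ d ∉ s, A.k c d = 0 := fun d hd => by simpa [s] using hd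
  have h1 : ∀ e', (∑' d, A.k c d * B.k d e') = ∑ d ∈ s, A.k c d * B.k d e' :=
    fun e' => tsum_eq_sum fun d hd => by simp [hA d hd]
  simp only [h1]
  rw [tsum_eq_sum (s := t) fun e' he' => by
    rw [Finset.sum_eq_zero fun d hd => ?_, zero_mul]
    have : B.k d e' = 0 := by
      by_contra h
      exact he' (Finset.mem_biUnion.mpr ⟨d, hd, by simpa using h⟩)
    simp [this]]
  rw [tsum_eq_sum (s := s) fun d hd => by simp [hA d hd]]
  simp only [Finset.sum_mul]
  rw [Finset.sum_comm]
  refine Finset.sum_congr rfl fun d hd => ?_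
  rw [tsum_eq_sum (s := t) fun e' he' => by
    have : B.k d e' = 0 := by
      by_contra h
      exact he' (Finset.mem_biUnion.mpr ⟨d, hd, by simpa using h⟩)
    simp [this], Finset.mul_sum]
  exact Finset.sum_congr rfl fun e' _ => by ring

instance : Monoid (LocKer U v) where
  one_mul := LocKer.one_mul
  mul_one := LocKer.mul_one
  mul_assoc := LocKer.mul_assoc

/-- A bound for the entries. -/
def bnd (A : LocKer U v) : ℝ :=
  ∑ d ∈ (A.row (QuotientGroup.mk 1)).toFinset, ‖A.k (QuotientGroup.mk 1) d‖

/-- The bound is nonnegative. -/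
lemma bnd_nonneg (A : LocKer U v) : 0 ≤ A.bnd := Finset.sum_nonneg fun _ _ => norm_nonneg _

/-- The bound bounds the kernel. -/
lemma norm_le_bnd (A : LocKer U v) (c d : G2 L ⧸ U.loc v) : ‖A.k c d‖ ≤ A.bnd := by
  induction c using QuotientGroup.induction_on with
  | H g =>
    have e : A.k (QuotientGroup.mk g) d = A.k (QuotientGroup.mk 1) (g⁻¹ • d) := by
      conv_rhs => rw [← A.inv g]
      rw [smul_inv_smul, MulAction.Quotient.smul_mk, smul_eq_mul, mul_one]
    rw [e]
    by_cases h : A.k (QuotientGroup.mk 1) (g⁻¹ • d) = 0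
    · rw [h, norm_zero]; exact A.bnd_nonneg
    · exact Finset.single_le_sum (f := fun d => ‖A.k (QuotientGroup.mk 1) d‖)
        (fun _ _ => norm_nonneg _) (by simpa using h)

/-- Hermitian kernels. -/
def IsHerm (A : LocKer U v) : Prop := ∀ c d, conj (A.k d c) = A.k c d

/-- The identity kernel is Hermitian. -/
lemma isHerm_one : (1 : LocKer U v).IsHerm := by
  classical
  intro c d
  by_cases h : c = d <;> simp [one_k, h, Ne.symm]

open Classical in
/-- Sums over triples pinned at the first coordinate, each kernel moved by its bijection, compose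
around the cycle. -/
lemma finite_and_tsum_cycle {F : Type*} (k₁ k₂ k₃ : LocKer U v)
    (c₁ c₂ c₃ : G2 L ⧸ U.loc v ≃ G2 L ⧸ U.loc v)
    (h₂ : ∀ a b, k₂.k (c₁ (c₃ a)) (c₁ (c₃ b)) = k₂.k a b)
    (h₃ : ∀ a b, k₃.k (c₁ a) (c₁ b) = k₃.k a b)
    (Φ : (G2 L ⧸ U.loc v) × (G2 L ⧸ U.loc v) × (G2 L ⧸ U.loc v) ≃ F) {f : F → ℂ}
    (z : G2 L ⧸ U.loc v)
    (hf : ∀ a b c, f (Φ (a, b, c)) =
      if a = z then k₁.k (c₁ c) z * (k₂.k (c₂ z) b * k₃.k (c₃ b) c) else 0) :
    {x | f x ≠ 0}.Finite ∧ ∑' x, f x = (k₂ * (k₃ * k₁)).k (c₁ (c₃ (c₂ z))) z := by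
  set g := fun q : (G2 L ⧸ U.loc v) × (G2 L ⧸ U.loc v) =>
    k₁.k (c₁ q.2) z * (k₂.k (c₂ z) q.1 * k₃.k (c₃ q.1) q.2)
  have hfin : g.support.Finite := by
    refine ((k₂.row (c₂ z)).biUnion fun b _ => (k₃.row (c₃ b)).image (b, ·)).subset ?_
    rintro ⟨b, c⟩ hq
    simp only [g, Function.mem_support, ne_eq, mul_eq_zero, not_or] at hq
    exact Set.mem_biUnion (x := b) hq.2.1 ⟨c, hq.2.2, rfl⟩
  have hinj : Function.Injective fun q : (G2 L ⧸ U.loc v) × (G2 L ⧸ U.loc v) => Φ (z, q) :=
    fun a b e => congrArg Prod.snd (Φ.injective e)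
  have hsub : ∀ x, f x ≠ 0 → ∃ q, g q ≠ 0 ∧ Φ (z, q) = x := fun x hx => by
    obtain ⟨⟨a, b, c⟩, rfl⟩ := Φ.surjective x
    rw [hf] at hx
    split_ifs at hx with ha
    · exact ⟨(b, c), hx, by rw [ha]⟩
    · exact absurd rfl hx
  refine ⟨(hfin.image _).subset hsub, ?_⟩
  rw [← hinj.tsum_eq fun x hx => by obtain ⟨q, -, hq⟩ := hsub x hx; exact ⟨q, hq⟩,
    tsum_congr (g := g) fun q => by rw [hf, if_pos rfl],
    (summable_of_hasFiniteSupport hfin).tsum_prod, mul_k,
    ← (c₃.trans c₁).tsum_eq (f := fun d => k₂.k (c₁ (c₃ (c₂ z))) d * (k₃ * k₁).k d z)]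
  refine tsum_congr fun b => ?_
  rw [Equiv.trans_apply, h₂, mul_k, ← tsum_mul_left,
    ← c₁.tsum_eq (f := fun c => k₂.k (c₂ z) b * (k₃.k (c₁ (c₃ b)) c * k₁.k c z))]
  refine tsum_congr fun c => ?_
  simp only [g, h₃]
  ring

end LocKer

/-- The indicator of the graph of a bijection has one nonzero value on each line. -/
lemma hasSum_indicator_of_bijective {α β : Type*} [DecidableEq β] {e : α → β}
    (he : Function.Bijective e) (y : β) :
    HasSum (fun z => if y = e z then (1 : ℝ) else 0) 1 ∧
      {z | (if y = e z then (1 : ℝ) else 0) ≠ 0}.Finite := by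
  classical
  obtain ⟨z, rfl⟩ := he.2 y
  refine ⟨(hasSum_ite_eq z (1 : ℝ)).congr_fun fun z' => by simp [he.1.eq_iff, eq_comm], ?_⟩
  exact (Set.finite_singleton z).subset fun z' h => by simp_all [he.1.eq_iff]

/-- An invariant kernel at an infinite place. -/
structure InfKer where
  /-- the kernel -/
  k : H3 → H3 → ℂ
  meas : Measurable (Function.uncurry k)
  inv : ∀ (g : GL (Fin 2) ℂ) p q, k (g • p) (g • q) = k p q
  /-- a bound -/
  C : ℝ
  C_nonneg : 0 ≤ C
  bound : ∀ p q, ‖k p q‖ ≤ C
  /-- the radius -/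
  ρ : ℝ
  supp : ∀ p q, k p q ≠ 0 → H3.coshDist p q ≤ ρ

variable (U) in
/-- A finite product of local kernels. -/
structure KerData where
  /-- the components at infinity -/
  inf : InfinitePlace L → InfKer
  /-- the finite components -/
  fin : ∀ v, LocKer U v
  /-- the places with nontrivial components -/
  S : Finset (HeightOneSpectrum (𝓞 L))
  fin_eq_one : ∀ v ∉ S, fin v = 1

namespace KerData

variable (D : KerData U)

/-- The infinite part. -/
def kinf (p q : InfPts L) : ℂ := ∏ w, (D.inf w).k (p w) (q w)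

open Classical in
/-- The finite part. -/
def kfin (c d : FinCoset U) : ℂ :=
  if ∀ w ∉ D.S, c.1 w = d.1 w then ∏ w ∈ D.S, (D.fin w).k (c.1 w) (d.1 w) else 0

/-- Nonzero entries of a product kernel. -/
lemma kfin_ne_zero {c d : FinCoset U} (h : D.kfin c d ≠ 0) :
    (∀ w ∉ D.S, c.1 w = d.1 w) ∧ ∀ w ∈ D.S, (D.fin w).k (c.1 w) (d.1 w) ≠ 0 := by
  unfold kfin at h
  split_ifs at h with h1
  · exact ⟨h1, Finset.prod_ne_zero_iff.mp h⟩
  · exact absurd rfl h

lemma kfin_smul (g : G2 L) (c d : FinCoset U) : D.kfin (g • c) (g • d) = D.kfin c d := by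
  classical
  unfold kfin
  refine if_congr (forall_congr' fun w => forall_congr' fun _ => ?_)
    (Finset.prod_congr rfl fun w _ => ?_) rfl
  · simp
  · simp [(D.fin w).inv]

open Classical in
/-- Rows of a product kernel are finite. -/
lemma finite_row (c : FinCoset U) : {d | D.kfin c d ≠ 0}.Finite := by
  let f : FinCoset U → (w : D.S) → G2 L ⧸ U.loc w.1 := fun d w => d.1 w
  refine Set.Finite.of_finite_image (f := f) ?_ ?_
  · refine (Set.Finite.pi (t := fun w : D.S => {e | (D.fin w.1).k (c.1 w) e ≠ 0})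
      fun w => (D.fin w.1).row _).subset ?_
    rintro _ ⟨d, hd, rfl⟩ w -
    exact (D.kfin_ne_zero hd).2 w.1 w.2
  · intro d hd e he h
    ext w
    by_cases hw : w ∈ D.S
    · exact congrFun h ⟨w, hw⟩
    · rw [← (D.kfin_ne_zero hd).1 w hw, (D.kfin_ne_zero he).1 w hw]

lemma norm_kfin_le (c d : FinCoset U) : ‖D.kfin c d‖ ≤ ∏ w ∈ D.S, (D.fin w).bnd := by
  unfold kfin
  split_ifs
  · rw [norm_prod]
    exact Finset.prod_le_prod (fun _ _ => norm_nonneg _) fun w _ => (D.fin w).norm_le_bnd _ _
  · simpa using Finset.prod_nonneg fun w _ => (D.fin w).bnd_nonneg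

lemma measurable_kinf : Measurable (Function.uncurry D.kinf) := by
  show Measurable fun p : InfPts L × InfPts L => ∏ w, (D.inf w).k (p.1 w) (p.2 w)
  refine Finset.measurable_prod _ fun w _ => ?_
  exact (D.inf w).meas.comp (f := fun p : InfPts L × InfPts L => (p.1 w, p.2 w))
    (((measurable_pi_apply w).comp measurable_fst).prodMk
      ((measurable_pi_apply w).comp measurable_snd))

lemma kinf_smul (g : G2 L) (p q : InfPts L) : D.kinf (g • p) (g • q) = D.kinf p q := by
  induction g using Matrix.ProjGenLinGroup.induction_on with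
  | mk g =>
    refine Finset.prod_congr rfl fun w _ => ?_
    simp only [infPts_smul_apply, ProjGenLinGroup.map_mk, H3.mk_smul]
    exact (D.inf w).inv _ _ _

open Classical in
/-- The point kernel. -/
def toPtKer : PtKer U where
  k x y := D.kinf x.1 y.1 * D.kfin x.2 y.2
  meas := by
    have h : Measurable (Function.uncurry fun c d : FinCoset U => D.kfin c d) :=
      measurable_of_countable _
    exact (D.measurable_kinf.comp ((measurable_fst.comp measurable_fst).prodMk
      (measurable_fst.comp measurable_snd))).mul (h.comp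
      ((measurable_snd.comp measurable_fst).prodMk (measurable_snd.comp measurable_snd)))
  inv g x y := by simp [Prod.smul_fst, Prod.smul_snd, D.kinf_smul, D.kfin_smul]
  C := (∏ w, (D.inf w).C) * ∏ w ∈ D.S, (D.fin w).bnd
  C_nonneg := mul_nonneg (Finset.prod_nonneg fun w _ => (D.inf w).C_nonneg)
    (Finset.prod_nonneg fun w _ => (D.fin w).bnd_nonneg)
  bound x y := by
    rw [norm_mul]
    refine mul_le_mul ?_ (D.norm_kfin_le _ _) (norm_nonneg _)
      (Finset.prod_nonneg fun w _ => (D.inf w).C_nonneg)
    rw [kinf, norm_prod]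
    exact Finset.prod_le_prod (fun _ _ => norm_nonneg _) fun w _ => (D.inf w).bound _ _
  ρ := ∑ w, max (D.inf w).ρ 0
  nbr c := (D.finite_row c).toFinset
  supp x y h := by
    refine ⟨fun w => ?_, by simpa using right_ne_zero_of_mul h⟩
    have h1 : (D.inf w).k (x.1 w) (y.1 w) ≠ 0 :=
      (Finset.prod_ne_zero_iff.mp (left_ne_zero_of_mul h)) w (Finset.mem_univ w)
    exact ((D.inf w).supp _ _ h1).trans ((le_max_left _ _).trans
      (Finset.single_le_sum (fun w _ => le_max_right (D.inf w).ρ 0) (Finset.mem_univ w)))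

/-- The point kernel of a product kernel. -/
lemma toPtKer_k (x y : Space U) : D.toPtKer.k x y = D.kinf x.1 y.1 * D.kfin x.2 y.2 := rfl

/-- Hermitian real data give symmetric point kernels. -/
lemma conj_toPtKer (hi : ∀ w p q, conj ((D.inf w).k q p) = (D.inf w).k p q)
    (hf : ∀ w ∈ D.S, (D.fin w).IsHerm) (x y : Space U) :
    conj (D.toPtKer.k y x) = D.toPtKer.k x y := by
  classical
  simp only [toPtKer_k, map_mul, kinf, map_prod, hi]
  congr 1
  unfold kfin
  rw [apply_ite conj, map_prod, map_zero]
  exact if_congr (forall_congr' fun w => forall_congr' fun _ => eq_comm)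
    (Finset.prod_congr rfl fun w hw => hf w hw _ _) rfl

end KerData

end FermatAgent.LT
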