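import Mathlib
import Fermat.Agent.LT.Descent.LocKer

/-!
# Indicator kernels of subgroups at a place

For a subgroup `H` containing the level, with finitely many cosets of the level, the indicator of
two cosets differing by an element of `H` is a local kernel.
-/

set_option autoImplicit false

noncomputable section

open Matrix IsDedekindDomain NumberField Filter
open scoped MatrixGroups ComplexConjugate

namespace FermatAgent.LT.LocKer

variable {L : Type*} [Field L] [NumberField L] {U : Level L} {v : HeightOneSpectrum (𝓞 L)}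

open Classical in
/-- The indicator of two cosets differing by an element of `H`. -/
def indF (H : Subgroup (G2 L)) (c d : G2 L ⧸ U.loc v) : ℂ :=
  if (c.out : G2 L)⁻¹ * d.out ∈ H then 1 else 0

variable {H H' : Subgroup (G2 L)}

open Classical in
/-- The indicator kernel on representatives. -/
lemma indF_mk (hH : U.loc v ≤ H) (g h : G2 L) :
    indF H (QuotientGroup.mk g : G2 L ⧸ U.loc v) (QuotientGroup.mk h) =
      if g⁻¹ * h ∈ H then 1 else 0 := by
  obtain ⟨a, ha⟩ := QuotientGroup.mk_out_eq_mul (U.loc v) g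
  obtain ⟨b, hb⟩ := QuotientGroup.mk_out_eq_mul (U.loc v) h
  unfold indF
  refine if_congr ?_ rfl rfl
  rw [ha, hb, show (g * (a : G2 L))⁻¹ * (h * b) = (a : G2 L)⁻¹ * ((g⁻¹ * h) * b) by group,
    H.mul_mem_cancel_left (inv_mem (hH a.2)), H.mul_mem_cancel_right (hH b.2)]

/-- The indicator kernel is invariant. -/
lemma indF_smul (hH : U.loc v ≤ H) (g : G2 L) (c d : G2 L ⧸ U.loc v) :
    indF H (g • c) (g • d) = indF H c d := by
  induction c using QuotientGroup.induction_on with | H a =>
  induction d using QuotientGroup.induction_on with | H b =>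
  rw [MulAction.Quotient.smul_mk, MulAction.Quotient.smul_mk, smul_eq_mul, smul_eq_mul,
    indF_mk hH, indF_mk hH]
  rw [show (g * a)⁻¹ * (g * b) = a⁻¹ * b by group]

/-- The indicator kernel is symmetric. -/
lemma indF_symm (hH : U.loc v ≤ H) (c d : G2 L ⧸ U.loc v) : indF H d c = indF H c d := by
  induction c using QuotientGroup.induction_on with | H a =>
  induction d using QuotientGroup.induction_on with | H b =>
  rw [indF_mk hH, indF_mk hH, ← H.inv_mem_iff (x := b⁻¹ * a), _root_.mul_inv_rev, inv_inv]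

/-- The indicator kernel is real. -/
lemma conj_indF (c d : G2 L ⧸ U.loc v) : conj (indF H c d) = indF H c d := by
  unfold indF
  split_ifs <;> simp

/-- The cosets at distance in `H` from a coset. -/
def ball (H : Subgroup (G2 L)) (c : G2 L ⧸ U.loc v) : Set (G2 L ⧸ U.loc v) :=
  {d | indF H c d ≠ 0}

/-- Membership in a ball. -/
lemma mem_ball {c d : G2 L ⧸ U.loc v} :
    d ∈ ball H c ↔ (c.out : G2 L)⁻¹ * d.out ∈ H := by
  show indF H c d ≠ 0 ↔ _
  unfold indF
  split_ifs with h <;> simp [h]

variable (H) in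
/-- The cosets in `H` of the level. -/
def ballEquiv (hH : U.loc v ≤ H) (c : G2 L ⧸ U.loc v) :
    ball H c ≃ H ⧸ (U.loc v).subgroupOf H where
  toFun d := QuotientGroup.mk ⟨(c.out : G2 L)⁻¹ * d.1.out, mem_ball.mp d.2⟩
  invFun q := ⟨QuotientGroup.mk ((c.out : G2 L) * (q.out : H)), by
    refine mem_ball.mpr ?_
    obtain ⟨a, ha⟩ := QuotientGroup.mk_out_eq_mul (U.loc v) ((c.out : G2 L) * (q.out : H))
    rw [ha, show (c.out : G2 L)⁻¹ * ((c.out * (q.out : H)) * a) = (q.out : H).1 * a by group]
    exact H.mul_mem (q.out : H).2 (hH a.2)⟩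
  left_inv d := by
    refine Subtype.ext ?_
    obtain ⟨a, ha⟩ := QuotientGroup.mk_out_eq_mul ((U.loc v).subgroupOf H)
      (⟨(c.out : G2 L)⁻¹ * d.1.out, mem_ball.mp d.2⟩ : H)
    show QuotientGroup.mk _ = d.1
    rw [ha]
    conv_rhs => rw [← QuotientGroup.out_eq' d.1]
    rw [QuotientGroup.eq]
    simp only [Subgroup.coe_mul]
    rw [show ((c.out : G2 L) * ((c.out : G2 L)⁻¹ * d.1.out * ((a : H) : G2 L)))⁻¹ * d.1.out =
      ((a : H) : G2 L)⁻¹ by group]
    exact inv_mem a.2
  right_inv q := by
    conv_rhs => rw [← QuotientGroup.out_eq' q]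
    rw [QuotientGroup.eq, Subgroup.mem_subgroupOf]
    obtain ⟨a, ha⟩ := QuotientGroup.mk_out_eq_mul (U.loc v) ((c.out : G2 L) * (q.out : H))
    simp only [ha, Subgroup.coe_mul, Subgroup.coe_inv]
    rw [show (((c.out : G2 L))⁻¹ * (c.out * (q.out : H) * a))⁻¹ * (q.out : H) =
      (a : G2 L)⁻¹ by group]
    exact inv_mem a.2

/-- The size of a ball. -/
lemma card_ball (hH : U.loc v ≤ H) (c : G2 L ⧸ U.loc v) :
    Nat.card (ball H c) = (U.loc v).relIndex H :=
  Nat.card_congr (ballEquiv H hH c)

/-- Balls are finite. -/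
lemma finite_ball (hH : U.loc v ≤ H) (hfin : (U.loc v).relIndex H ≠ 0) (c : G2 L ⧸ U.loc v) :
    (ball H c).Finite :=
  Nat.finite_of_card_ne_zero (by rwa [card_ball hH c])

/-- Composing a smaller indicator on the left. -/
lemma indF_mul_indF (hH : U.loc v ≤ H) (hle : H ≤ H') (hfin : (U.loc v).relIndex H ≠ 0)
    (c e : G2 L ⧸ U.loc v) :
    ∑' d, indF H c d * indF H' d e = (U.loc v).relIndex H * indF H' c e := by
  classical
  rw [tsum_eq_sum (s := (finite_ball hH hfin c).toFinset) fun d hd => by
    have : indF H c d = 0 := by simpa [ball] using hd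
    rw [this, zero_mul]]
  have e1 : ∀ d ∈ (finite_ball hH hfin c).toFinset, indF H c d * indF H' d e = indF H' c e := by
    intro d hd
    have h1 := mem_ball.mp ((Set.Finite.mem_toFinset _).mp hd)
    unfold indF
    rw [if_pos h1, one_mul]
    refine if_congr ?_ rfl rfl
    rw [show (c.out : G2 L)⁻¹ * e.out =
      ((c.out : G2 L)⁻¹ * d.out) * ((d.out : G2 L)⁻¹ * e.out) by group,
      H'.mul_mem_cancel_left (hle h1)]
  rw [Finset.sum_congr rfl e1, Finset.sum_const, nsmul_eq_mul, ← card_ball hH c,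
    Nat.card_eq_card_finite_toFinset (finite_ball hH hfin c)]

/-- Composing a smaller indicator on the right. -/
lemma indF_mul_indF' (hH : U.loc v ≤ H) (hle : H ≤ H') (hfin : (U.loc v).relIndex H ≠ 0)
    (c e : G2 L ⧸ U.loc v) :
    ∑' d, indF H' c d * indF H d e = (U.loc v).relIndex H * indF H' c e := by
  have h := indF_mul_indF hH hle hfin e c
  rw [indF_symm (hH.trans hle) c e] at h
  rw [← h]
  refine tsum_congr fun d => ?_
  rw [indF_symm hH d e, indF_symm (hH.trans hle) c d, mul_comm]

/-- Sums against indicators converge. -/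
lemma summable_indF_mul (hH : U.loc v ≤ H) (hfin : (U.loc v).relIndex H ≠ 0)
    (c : G2 L ⧸ U.loc v) (f : G2 L ⧸ U.loc v → ℂ) : Summable fun d => indF H c d * f d :=
  summable_of_hasFiniteSupport ((finite_ball hH hfin c).subset fun _ hd => left_ne_zero_of_mul hd)

end FermatAgent.LT.LocKer
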