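import Mathlib
import Fermat.Agent.LT.Whit.Tame3
import Fermat.Agent.LT.Descent.Indic

/-!
# The rank one cuspidal idempotent at a place with three residue classes

The difference of the normalised indicators of `locD` and `locK` is a hermitian idempotent kernel;
the indicator of `locK` is the sum of the residual translates of that of `locD`.
-/

set_option autoImplicit false

noncomputable section

open Matrix IsDedekindDomain NumberField Filter
open FermatAgent.LT.Whit (locD locD_le locK1_le_locD)
open scoped MatrixGroups ComplexConjugate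

namespace FermatAgent.LT

variable {L : Type*} [Field L] [NumberField L] {v : HeightOneSpectrum (𝓞 L)} {U : Level L}

/-- The kernel of the idempotent. -/
def e11 (hU : U.loc v = locK1 v) : LocKer U v where
  k c d := ((U.loc v).relIndex (locD v) : ℂ)⁻¹ * LocKer.indF (locD v) c d -
    ((U.loc v).relIndex (locK v) : ℂ)⁻¹ * LocKer.indF (locK v) c d
  inv g c d := by
    rw [LocKer.indF_smul (hU.trans_le (locK1_le_locD v)),
      LocKer.indF_smul (hU.trans_le (locK1_le v))]
  row c := (LocKer.finite_ball (hU.trans_le (locK1_le v))
      (by rw [hU]; exact relIndex_locK1_ne_zero v) c).subset fun d hd => by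
    by_contra h
    have hK : LocKer.indF (locK v) c d = 0 := by simpa [LocKer.ball] using h
    have hD : LocKer.indF (locD v) c d = 0 := by
      unfold LocKer.indF at hK ⊢
      rw [if_neg fun hh => ?_]
      rw [if_pos (locD_le v hh)] at hK
      exact one_ne_zero hK
    exact hd (by simp [hD, hK])

/-- The level has finite index in the dihedral subgroup. -/
lemma relIndex_locD_ne_zero (hU : U.loc v = locK1 v) : (U.loc v).relIndex (locD v) ≠ 0 := fun h =>
  relIndex_locK1_ne_zero v <| by
    rw [← Subgroup.relIndex_mul_relIndex (locK1 v) (locD v) (locK v) (locK1_le_locD v) (locD_le v),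
      ← hU, h, zero_mul]

/-- The idempotent is Hermitian. -/
lemma isHerm_e11 (hU : U.loc v = locK1 v) : (e11 hU).IsHerm := fun c d => by
  simp [e11, LocKer.conj_indF, LocKer.indF_symm (hU.trans_le (locK1_le_locD v)) c d,
    LocKer.indF_symm (hU.trans_le (locK1_le v)) c d]

/-- The kernel is idempotent. -/
theorem e11_mul_self (hU : U.loc v = locK1 v) : e11 hU * e11 hU = e11 hU := by
  have hD := hU.trans_le (locK1_le_locD v)
  have hK := hU.trans_le (locK1_le v)
  have fD := relIndex_locD_ne_zero hU
  have fK : (U.loc v).relIndex (locK v) ≠ 0 := by rw [hU]; exact relIndex_locK1_ne_zero v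
  refine LocKer.ext ?_
  funext c e
  rw [LocKer.mul_k]
  simp only [e11]
  set a : ℂ := ((U.loc v).relIndex (locD v) : ℂ)⁻¹
  set b : ℂ := ((U.loc v).relIndex (locK v) : ℂ)⁻¹
  set D := locD v
  set K := locK v
  calc ∑' d, (a * LocKer.indF D c d - b * LocKer.indF K c d) *
        (a * LocKer.indF D d e - b * LocKer.indF K d e)
      = ∑' d, (LocKer.indF D c d * (a * a * LocKer.indF D d e - a * b * LocKer.indF K d e) +
          LocKer.indF K c d * (b * b * LocKer.indF K d e - b * a * LocKer.indF D d e)) :=
        tsum_congr fun d => by ring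
    _ = (a * a) * ∑' d, LocKer.indF D c d * LocKer.indF D d e -
          (a * b) * ∑' d, LocKer.indF D c d * LocKer.indF K d e +
        ((b * b) * ∑' d, LocKer.indF K c d * LocKer.indF K d e -
          (b * a) * ∑' d, LocKer.indF K c d * LocKer.indF D d e) := by
        rw [(LocKer.summable_indF_mul hD fD c _).tsum_add (LocKer.summable_indF_mul hK fK c _)]
        simp only [mul_sub, mul_left_comm (LocKer.indF D c _) (a * a),
          mul_left_comm (LocKer.indF D c _) (a * b), mul_left_comm (LocKer.indF K c _) (b * b),
          mul_left_comm (LocKer.indF K c _) (b * a)]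
        rw [((LocKer.summable_indF_mul hD fD c _).mul_left _).tsum_sub
            ((LocKer.summable_indF_mul hD fD c _).mul_left _),
          ((LocKer.summable_indF_mul hK fK c _).mul_left _).tsum_sub
            ((LocKer.summable_indF_mul hK fK c _).mul_left _)]
        simp only [tsum_mul_left]
    _ = _ := by
        rw [LocKer.indF_mul_indF hD le_rfl fD, LocKer.indF_mul_indF hD (locD_le v) fD,
          LocKer.indF_mul_indF hK le_rfl fK, LocKer.indF_mul_indF' hD (locD_le v) fD]
        have ea : a * ((U.loc v).relIndex D : ℂ) = 1 := inv_mul_cancel₀ (by exact_mod_cast fD)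
        have eb : b * ((U.loc v).relIndex K : ℂ) = 1 := inv_mul_cancel₀ (by exact_mod_cast fK)
        linear_combination (a * LocKer.indF D c e - 2 * b * LocKer.indF K c e) * ea +
          (b * LocKer.indF K c e) * eb

open LocKer in
/-- The indicator of the maximal compact group is the sum of the translated indicators of the
normaliser. -/
lemma indF_locK_eq_sum (h3 : Whit.IsThree v) (hU : U.loc v = locK1 v) (g : G2 L)
    (d : G2 L ⧸ U.loc v) :
    indF (locK v) (QuotientGroup.mk g) d =
      ∑ b ∈ Whit.residues v, indF (locD v) (QuotientGroup.mk (g * Whit.nB b)) d := by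
  classical
  induction d using QuotientGroup.induction_on with | H h =>
  simp only [indF_mk (hU.trans_le (locK1_le_locD v)), indF_mk (hU.trans_le (locK1_le v)),
    _root_.mul_inv_rev, mul_assoc]
  by_cases hM : g⁻¹ * h ∈ locK v
  · obtain ⟨b₀, hb₀, hd⟩ := h3.exists_nB_mem hM
    rw [if_pos hM, Finset.sum_eq_single b₀
      (fun b hb hne => if_neg fun hbD => hne (Whit.eq_of_nB_mem_locD hb hb₀ hbD hd))
      (fun h => absurd hb₀ h), if_pos hd]
  · rw [if_neg hM]
    refine (Finset.sum_eq_zero fun b hb => if_neg fun hh => hM ?_).symm
    exact ((locK v).mul_mem_cancel_left (inv_mem (Whit.nB_mem_locK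
      ((Whit.isResidues v).le_one b hb)))).mp (locD_le v hh)

/-- The sums over residual translations in the first variable vanish. -/
lemma sum_e11_residues (h3 : Whit.IsThree v) (hU : U.loc v = locK1 v) (g : G2 L)
    (d : G2 L ⧸ U.loc v) :
    ∑ b ∈ Whit.residues v, (e11 hU).k (QuotientGroup.mk (g * Whit.nB b)) d = 0 := by
  classical
  have hK : ∀ b ∈ Whit.residues v,
      LocKer.indF (locK v) (QuotientGroup.mk (g * Whit.nB b) : G2 L ⧸ U.loc v) d =
        LocKer.indF (locK v) (QuotientGroup.mk g) d := fun b hb => by
    induction d using QuotientGroup.induction_on with | H h =>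
    simp only [LocKer.indF_mk (hU.trans_le (locK1_le v)), _root_.mul_inv_rev, mul_assoc,
      (locK v).mul_mem_cancel_left (inv_mem (Whit.nB_mem_locK
        ((Whit.isResidues v).le_one b hb)))]
  simp only [e11]
  rw [Finset.sum_sub_distrib, ← Finset.mul_sum, ← indF_locK_eq_sum h3 hU, Finset.sum_congr rfl
    (fun b hb => by rw [hK b hb]), Finset.sum_const, Whit.card_residues, h3.absNorm, nsmul_eq_mul,
    ← Subgroup.relIndex_mul_relIndex (U.loc v) (locD v) (locK v)
      (hU.trans_le (locK1_le_locD v)) (locD_le v), h3.relIndex_locD]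
  push_cast
  field_simp
  ring

end FermatAgent.LT
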