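import Mathlib

/-!
# Semilinear maps of order three

An automorphism of order three of a field, fixed points of semilinear maps of order three span,
and the resulting forms of Hilbert's theorem 90 for scalars, quadratic algebras and two by two
matrices.
-/

set_option autoImplicit false

noncomputable section

open Matrix
open scoped MatrixGroups

namespace FermatAgent.LT

/-- An automorphism of order exactly three. -/
structure Cyc3 {L : Type*} [Field L] (τ : L ≃+* L) : Prop where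
  cube : ∀ x, τ (τ (τ x)) = x
  exists_ne : ∃ x, τ x ≠ x

namespace Cyc3

variable {L : Type*} [Field L] {τ : L ≃+* L}

/-- The sum over an orbit. -/
def orb {V : Type*} [Add V] (ψ : V → V) (v : V) : V := v + ψ v + ψ (ψ v)

/-- Triples `a`, `c` dual with respect to the powers of the automorphism `σ`: the sum of
`c j * σⁱ (a j)` over `j` is one for `i = 0` and zero for `i = 1, 2`. -/
theorem exists_dual (h : Cyc3 τ) : ∃ a c : Fin 3 → L, ∑ j, c j * a j = 1 ∧
    ∑ j, c j * τ (a j) = 0 ∧ ∑ j, c j * τ (τ (a j)) = 0 := by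
  obtain ⟨x, hx⟩ := h.exists_ne
  have h1 : x - τ x ≠ 0 := sub_ne_zero.mpr (Ne.symm hx)
  have h2 : x - τ (τ x) ≠ 0 := sub_ne_zero.mpr fun e => hx (by
    have h' := congrArg τ e
    rwa [h.cube] at h')
  refine ⟨![1, x, x ^ 2], ![τ x * τ (τ x) / ((x - τ x) * (x - τ (τ x))),
    -(τ x + τ (τ x)) / ((x - τ x) * (x - τ (τ x))), 1 / ((x - τ x) * (x - τ (τ x)))],
    ?_, ?_, ?_⟩ <;>
    simp [Fin.sum_univ_three] <;> field_simp <;> ring

section Module

variable {V : Type*} [AddCommGroup V] [Module L V] {ψ : V → V}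

lemma orb_fixed (hadd : ∀ u v, ψ (u + v) = ψ u + ψ v) (hcube : ∀ v, ψ (ψ (ψ v)) = v) (v : V) :
    ψ (orb ψ v) = orb ψ v := by
  simp only [orb, hadd, hcube]
  abel

/-- The orbit sums span. -/
lemma eq_sum_orb (hsmul : ∀ (l : L) v, ψ (l • v) = τ l • ψ v) {a c : Fin 3 → L}
    (h0 : ∑ j, c j * a j = 1) (h1 : ∑ j, c j * τ (a j) = 0)
    (h2 : ∑ j, c j * τ (τ (a j)) = 0) (v : V) :
    v = ∑ j, c j • orb ψ (a j • v) := by
  simp only [orb, hsmul, smul_add, smul_smul, Finset.sum_add_distrib, ← Finset.sum_smul, h0, h1, h2,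
    one_smul, zero_smul, add_zero]

/-- A semilinear map of order three of a non-zero module fixes a non-zero vector. -/
theorem exists_fixed_ne_zero (h : Cyc3 τ) (hadd : ∀ u v, ψ (u + v) = ψ u + ψ v)
    (hsmul : ∀ (l : L) v, ψ (l • v) = τ l • ψ v) (hcube : ∀ v, ψ (ψ (ψ v)) = v)
    {v : V} (hv : v ≠ 0) : ∃ w, w ≠ 0 ∧ ψ w = w := by
  obtain ⟨a, c, h0, h1, h2⟩ := h.exists_dual
  by_contra hne
  push Not at hne
  refine hv ((eq_sum_orb hsmul h0 h1 h2 v).trans (Finset.sum_eq_zero fun j _ => ?_))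
  by_contra h'
  exact hne _ (fun e => h' (by rw [e, smul_zero])) (orb_fixed hadd hcube _)

/-- Some orbit sum of a vector of norm one has a norm which is not small. -/
theorem exists_orb_large {Γ₀ : Type*} [LinearOrderedCommGroupWithZero Γ₀] (μ : Valuation L Γ₀)
    (hadd : ∀ u v, ψ (u + v) = ψ u + ψ v) (hsmul : ∀ (l : L) v, ψ (l • v) = τ l • ψ v)
    {Q : V → L} (hQ : ∀ (c₀ c₁ c₂ : L) x y z, Q (c₀ • x + c₁ • y + c₂ • z) =
      c₀ ^ 2 * Q x + c₁ ^ 2 * Q y + c₂ ^ 2 * Q z + c₀ * c₁ * (Q (x + y) - Q x - Q y) +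
        c₀ * c₂ * (Q (x + z) - Q x - Q z) + c₁ * c₂ * (Q (y + z) - Q y - Q z))
    {e : V} (he : Q e = 1) {α c : Fin 3 → L} (h0 : ∑ j, c j * α j = 1)
    (h1 : ∑ j, c j * τ (α j) = 0) (h2 : ∑ j, c j * τ (τ (α j)) = 0) {A C : Γ₀}
    (hA : ∀ i, μ (α i) ≤ A) (hC : ∀ i, μ (c i) ≤ C) :
    ∃ x, μ x ≤ A ∧ 1 ≤ C * C * μ (Q (orb ψ (x • e))) := by
  by_contra hne
  push Not at hne
  have key : ∀ i j y, μ y ≤ A → μ (c i * c j * Q (orb ψ (y • e))) < 1 := fun i j y hy => by
    rw [map_mul, map_mul]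
    exact lt_of_le_of_lt (mul_le_mul_left (mul_le_mul' (hC i) (hC j)) _) (hne y hy)
  have hsm : ∀ i j, μ (c i * c j * (Q (orb ψ (α i • e) + orb ψ (α j • e)) -
      Q (orb ψ (α i • e)) - Q (orb ψ (α j • e)))) < 1 := fun i j => by
    have hij : μ (α i + α j) ≤ A := (μ.map_add _ _).trans (max_le (hA i) (hA j))
    rw [show orb ψ (α i • e) + orb ψ (α j • e) = orb ψ ((α i + α j) • e) by
      simp only [orb, add_smul, hadd]; abel, mul_sub, mul_sub]
    exact lt_of_le_of_lt (μ.map_sub _ _) (max_lt (lt_of_le_of_lt (μ.map_sub _ _)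
      (max_lt (key i j _ hij) (key i j _ (hA i)))) (key i j _ (hA j)))
  have hsm' : ∀ i, μ (c i ^ 2 * Q (orb ψ (α i • e))) < 1 := fun i => by
    rw [sq]; exact key i i _ (hA i)
  have e3 := congrArg (fun y => μ (Q y)) (eq_sum_orb (τ := τ) hsmul h0 h1 h2 e)
  simp only [Fin.sum_univ_three, hQ, he, map_one] at e3
  refine e3.symm.not_lt ?_
  refine μ.map_add_lt (μ.map_add_lt (μ.map_add_lt
    (μ.map_add_lt (μ.map_add_lt ?_ ?_) ?_) ?_) ?_) ?_
  exacts [hsm' 0, hsm' 1, hsm' 2, hsm 0 1, hsm 0 2, hsm 1 2]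

end Module

/-- Hilbert's theorem 90: a scalar of norm one is `s / σ(s)`. -/
theorem exists_eq_mul_map (h : Cyc3 τ) {u : L} (hu : u * τ u * τ (τ u) = 1) :
    ∃ s, s ≠ 0 ∧ u * τ s = s :=
  h.exists_fixed_ne_zero (V := L) (ψ := fun x => u * τ x)
    (fun x y => by simp only [map_add, mul_add])
    (fun l x => by simp only [smul_eq_mul, map_mul]; ring)
    (fun x => by simp only [map_mul, h.cube, ← mul_assoc, hu, one_mul]) one_ne_zero

/-- A scalar with cube a square norm is a norm. -/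
lemma exists_norm_eq {m e : L} (he : e ≠ 0) (hm : τ m = m) (hm0 : m ≠ 0)
    (hne : e * τ e * τ (τ e) = m ^ 2) : (m / e) * τ (m / e) * τ (τ (m / e)) = m := by
  have h1 : τ e ≠ 0 := by simpa using he
  have h2 : τ (τ e) ≠ 0 := by simpa using he
  simp only [map_div₀, hm]
  field_simp
  linear_combination -hne

section Quadratic

variable {a b : L}

/-- The action on a quadratic algebra with fixed coefficients. -/
def qmap (τ : L ≃+* L) (ha : τ a = a) (hb : τ b = b) :
    QuadraticAlgebra L a b →+* QuadraticAlgebra L a b where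
  toFun z := ⟨τ z.re, τ z.im⟩
  map_one' := by ext <;> simp [QuadraticAlgebra.re_one, QuadraticAlgebra.im_one]
  map_mul' z w := by ext <;> simp [ha, hb]
  map_zero' := by ext <;> simp
  map_add' z w := by ext <;> simp

variable (ha : τ a = a) (hb : τ b = b)

@[simp] lemma qmap_re (z : QuadraticAlgebra L a b) : (qmap τ ha hb z).re = τ z.re := rfl

@[simp] lemma qmap_im (z : QuadraticAlgebra L a b) : (qmap τ ha hb z).im = τ z.im := rfl

/-- The semilinear map has order three. -/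
lemma qmap_cube (h : Cyc3 τ) (z : QuadraticAlgebra L a b) :
    qmap τ ha hb (qmap τ ha hb (qmap τ ha hb z)) = z := by ext <;> simp [h.cube]

/-- The semilinear map commutes with the norm form. -/
lemma norm_qmap (z : QuadraticAlgebra L a b) : (qmap τ ha hb z).norm = τ z.norm := by
  simp [QuadraticAlgebra.norm_def, ha, hb]

/-- The norm of a combination of three elements through the norms of elements and pairs. -/
lemma norm_comb (c₀ c₁ c₂ : L) (x y z : QuadraticAlgebra L a b) :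
    (c₀ • x + c₁ • y + c₂ • z).norm = c₀ ^ 2 * x.norm + c₁ ^ 2 * y.norm + c₂ ^ 2 * z.norm +
      c₀ * c₁ * ((x + y).norm - x.norm - y.norm) + c₀ * c₂ * ((x + z).norm - x.norm - z.norm) +
      c₁ * c₂ * ((y + z).norm - y.norm - z.norm) := by
  simp [QuadraticAlgebra.norm_def]
  ring

/-- Hilbert's theorem 90 for a quadratic algebra. -/
theorem exists_eq_mul_qmap (h : Cyc3 τ) {η : QuadraticAlgebra L a b}
    (hη : η * qmap τ ha hb η * qmap τ ha hb (qmap τ ha hb η) = 1) :
    ∃ t : QuadraticAlgebra L a b, t.norm ≠ 0 ∧ η * qmap τ ha hb t = t := by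
  obtain ⟨α, c, h0, h1, h2⟩ := h.exists_dual
  set ψ : QuadraticAlgebra L a b → QuadraticAlgebra L a b := fun z => η * qmap τ ha hb z
  have hadd : ∀ u v, ψ (u + v) = ψ u + ψ v := fun u v => by simp only [ψ, map_add, mul_add]
  have hsmul : ∀ (l : L) v, ψ (l • v) = τ l • ψ v := fun l v => by
    simp only [ψ]
    rw [← mul_smul_comm]
    congr 1
    ext <;> simp
  have hcube : ∀ v, ψ (ψ (ψ v)) = v := fun v => by
    simp only [ψ, map_mul, h.qmap_cube ha hb, ← mul_assoc, hη, one_mul]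
  by_contra hne
  push Not at hne
  have hz : ∀ u, ψ u = u → u.norm = 0 := fun u hu => by_contra fun h' => hne u h' hu
  set T : Fin 3 → QuadraticAlgebra L a b := fun j => orb ψ (α j • 1)
  have hT : ∀ j, ψ (T j) = T j := fun j => orb_fixed hadd hcube _
  have hT2 : ∀ i j, ψ (T i + T j) = T i + T j := fun i j => by rw [hadd, hT, hT]
  have e := congrArg QuadraticAlgebra.norm (eq_sum_orb hsmul h0 h1 h2 (1 : QuadraticAlgebra L a b))
  rw [Fin.sum_univ_three, norm_comb] at e
  simp only [show ∀ j, orb ψ (α j • (1 : QuadraticAlgebra L a b)) = T j from fun j => rfl,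
    hz _ (hT _), hz _ (hT2 _ _)] at e
  simp at e

end Quadratic

section Matrices

variable (τ) in
/-- The action on matrices. -/
abbrev gmap : GL (Fin 2) L →* GL (Fin 2) L := GeneralLinearGroup.map (τ : L →+* L)

/-- The generator has order three on matrices. -/
lemma gmap_cube (h : Cyc3 τ) (g : GL (Fin 2) L) : gmap τ (gmap τ (gmap τ g)) = g := by
  apply Units.ext
  ext i j
  simp [h.cube]

/-- Hilbert's theorem 90 for `GL₂`: a matrix of norm one is `B σ(B)⁻¹`. -/
theorem exists_gl_eq (h : Cyc3 τ) {C : GL (Fin 2) L}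
    (hC : C * gmap τ C * gmap τ (gmap τ C) = 1) : ∃ B : GL (Fin 2) L, B = C * gmap τ B := by
  obtain ⟨α, c, h0, h1, h2⟩ := h.exists_dual
  set ψ : (Fin 2 → L) → Fin 2 → L := fun v => C.val *ᵥ (⇑τ ∘ v)
  have hτv : ∀ (M : Matrix (Fin 2) (Fin 2) L) (v : Fin 2 → L),
      ⇑τ ∘ (M *ᵥ v) = M.map τ *ᵥ (⇑τ ∘ v) := fun M v => by
    funext i
    fin_cases i <;> simp [Matrix.mulVec, dotProduct, map_mul]
  have hadd : ∀ u v, ψ (u + v) = ψ u + ψ v := fun u v => by
    simp only [ψ]
    rw [← Matrix.mulVec_add]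
    congr 1
    funext i
    simp
  have hsmul : ∀ (l : L) v, ψ (l • v) = τ l • ψ v := fun l v => by
    simp only [ψ]
    rw [← Matrix.mulVec_smul]
    congr 1
    funext i
    simp
  have hcube : ∀ v, ψ (ψ (ψ v)) = v := fun v => by
    simp only [ψ, hτv, Matrix.mulVec_mulVec]
    have e : C.val * (C.val.map τ * (C.val.map τ).map τ) = 1 := by
      have := congrArg Units.val hC
      simpa [mul_assoc] using this
    have e3 : ⇑τ ∘ ⇑τ ∘ ⇑τ ∘ v = v := funext fun i => h.cube (v i)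
    rw [Matrix.map_mul, e, Matrix.one_mulVec, e3]
  let D : (Fin 2 → L) → (Fin 2 → L) → L := fun v w => v 0 * w 1 - v 1 * w 0
  by_contra hne
  push Not at hne
  have hz : ∀ v w, ψ v = v → ψ w = w → D v w = 0 := by
    intro v w hv hw
    by_contra hD
    refine hne (GeneralLinearGroup.mkOfDetNeZero !![v 0, w 0; v 1, w 1] ?_) (Units.ext ?_)
    · simpa [Matrix.det_fin_two, D, mul_comm (w 0)] using hD
    · have hv0 := congrFun hv 0
      have hv1 := congrFun hv 1
      have hw0 := congrFun hw 0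
      have hw1 := congrFun hw 1
      simp [ψ] at hv0 hv1 hw0 hw1
      ext i j
      fin_cases i <;> fin_cases j <;>
        simp [GeneralLinearGroup.mkOfDetNeZero, Matrix.mul_apply, Fin.sum_univ_two,
          hv0, hv1, hw0, hw1]
  set T : (Fin 2 → L) → Fin 3 → Fin 2 → L := fun v j => orb ψ (α j • v)
  have e0 : (![1, 0] : Fin 2 → L) = ∑ i, c i • T ![1, 0] i := eq_sum_orb hsmul h0 h1 h2 _
  have e1 : (![0, 1] : Fin 2 → L) = ∑ i, c i • T ![0, 1] i := eq_sum_orb hsmul h0 h1 h2 _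
  have key : D (∑ i, c i • T ![1, 0] i) (∑ i, c i • T ![0, 1] i) = 0 := by
    have hexp : D (∑ i, c i • T ![1, 0] i) (∑ i, c i • T ![0, 1] i) =
        ∑ i, ∑ j, c i * c j * D (T ![1, 0] i) (T ![0, 1] j) := by
      simp only [D, Fin.sum_univ_three]
      simp only [Pi.add_apply, Pi.smul_apply, smul_eq_mul]
      ring
    rw [hexp]
    refine Finset.sum_eq_zero fun i _ => Finset.sum_eq_zero fun j _ => ?_
    rw [hz _ _ (orb_fixed hadd hcube _) (orb_fixed hadd hcube _), mul_zero]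
  rw [← e0, ← e1] at key
  simp [D] at key

end Matrices

end Cyc3

end FermatAgent.LT
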