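import Fermat.Agent.CFT.Selmer.TwoByTwo

/-!
# Centralisers of two by two matrices

A nonscalar two by two matrix is cyclic: its centraliser is spanned by one and itself, it is
similar to the companion matrix of its trace and determinant, and for trace zero an element
anticommutes with it.
-/

set_option autoImplicit false

noncomputable section

open Matrix
open scoped MatrixGroups

namespace FermatAgent.LT.Quad

variable {F : Type*} [Field F]

/-- A scalar matrix. -/
def IsScal (M : Matrix (Fin 2) (Fin 2) F) : Prop := M 0 1 = 0 ∧ M 1 0 = 0 ∧ M 0 0 = M 1 1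

/-- Scalar matrices are multiples of one. -/
lemma isScal_iff {M : Matrix (Fin 2) (Fin 2) F} : IsScal M ↔ ∃ x : F, M = x • 1 := by
  refine ⟨fun ⟨h1, h2, h3⟩ => ⟨M 0 0, ?_⟩, ?_⟩
  · ext i j
    fin_cases i <;> fin_cases j <;> simp [h1, h2, h3]
  · rintro ⟨x, rfl⟩
    simp [IsScal]

/-- Trivial classes are scalar. -/
lemma mk_eq_one_iff {g : GL (Fin 2) F} :
    (ProjGenLinGroup.mk g : PGL(2, F)) = 1 ↔ IsScal g.val := by
  rw [← map_one ProjGenLinGroup.mk, Matrix.ProjGenLinGroup.mk_eq_mk_iff]
  refine ⟨?_, fun h => ?_⟩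
  · rintro ⟨u, hu⟩
    have e := congrArg Units.val hu
    simp only [Units.val_mul, GeneralLinearGroup.coe_scalar, Units.val_one] at e
    have h := fun i j => congrFun (congrFun e i) j
    have h01 := h 0 1
    have h10 := h 1 0
    have h00 := h 0 0
    have h11 := h 1 1
    simp [Matrix.mul_apply, Fin.sum_univ_two] at h01 h10 h00 h11
    exact ⟨h01, h10, by rw [← mul_right_cancel₀ u.ne_zero (h00.trans h11.symm)]⟩
  · obtain ⟨x, hx⟩ := isScal_iff.mp h
    have hx0 : x ≠ 0 := fun h0 => (GeneralLinearGroup.det g).ne_zero (by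
      show g.val.det = 0
      simp [hx, h0])
    refine ⟨Units.mk0 x⁻¹ (inv_ne_zero hx0), Units.ext ?_⟩
    ext i j
    fin_cases i <;> fin_cases j <;>
      simp [GeneralLinearGroup.coe_scalar, Matrix.mul_apply, Fin.sum_univ_two, hx, hx0]

/-- The Cayley–Hamilton relation. -/
lemma mul_self_eq (M : Matrix (Fin 2) (Fin 2) F) :
    M * M = (-M.det) • 1 + M.trace • M := by
  ext i j
  fin_cases i <;> fin_cases j <;>
    simp [Matrix.det_fin_two, Matrix.trace_fin_two, Matrix.mul_apply, Fin.sum_univ_two] <;> ring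

/-- Linear combinations of one and `M` commute with `M`. -/
lemma commute_lin (M : Matrix (Fin 2) (Fin 2) F) (x y : F) : Commute (x • 1 + y • M) M :=
  ((Commute.one_left M).smul_left x).add_left ((Commute.refl M).smul_left y)

/-- Two elements of the centraliser commute. -/
lemma commute_of_commute {M N N' : Matrix (Fin 2) (Fin 2) F} (hM : ¬IsScal M)
    (hN : Commute N M) (hN' : Commute N' M) : Commute N N' := by
  obtain ⟨x, y, rfl⟩ := CFT.Selmer.exists_eq_add_of_commute hM hN.symm.eq
  exact ((Commute.one_left N').smul_left x).add_left (hN'.symm.smul_left y)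

lemma lin_inj {M : Matrix (Fin 2) (Fin 2) F} (hM : ¬IsScal M) {x y x' y' : F}
    (h : x • (1 : Matrix (Fin 2) (Fin 2) F) + y • M = x' • 1 + y' • M) : x = x' ∧ y = y' := by
  have hy : y = y' := by
    by_contra hne
    refine hM (isScal_iff.mpr ⟨(x' - x) / (y - y'), ?_⟩)
    have e := fun i j => congrFun (congrFun h i) j
    ext i j
    have eij := e i j
    have hd := sub_ne_zero.mpr hne
    simp only [Matrix.add_apply, Matrix.smul_apply, smul_eq_mul] at eij ⊢
    field_simp
    linear_combination eij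
  subst hy
  refine ⟨?_, rfl⟩
  have h' := congrFun (congrFun h 0) 0
  simp at h'
  linear_combination h'

/-- The companion matrix. -/
def comp (t d : F) : Matrix (Fin 2) (Fin 2) F := !![0, -d; 1, t]

/-- A nonscalar matrix has a cyclic basis: it is similar to the companion matrix of its trace and
determinant. -/
theorem exists_comp {M : Matrix (Fin 2) (Fin 2) F} (hM : ¬IsScal M) :
    ∃ P : GL (Fin 2) F, M * P.val = P.val * comp M.trace M.det := by
  suffices h : ∃ u v : F, u * (M 1 0 * u + M 1 1 * v) - v * (M 0 0 * u + M 0 1 * v) ≠ 0 by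
    obtain ⟨u, v, h⟩ := h
    refine ⟨GeneralLinearGroup.mkOfDetNeZero
      !![u, M 0 0 * u + M 0 1 * v; v, M 1 0 * u + M 1 1 * v]
      (by simpa [Matrix.det_fin_two, mul_comm v] using h), ?_⟩
    ext i j
    fin_cases i <;> fin_cases j <;>
      simp [GeneralLinearGroup.mkOfDetNeZero, comp, Matrix.det_fin_two, Matrix.trace_fin_two,
        Matrix.mul_apply, Fin.sum_univ_two] <;> ring
  by_contra h
  push Not at h
  have h0 := h 1 0
  have h1 := h 0 1
  have h2 := h 1 1
  ring_nf at h0 h1 h2
  refine hM ⟨?_, h0, ?_⟩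
  · linear_combination -h1
  · linear_combination -h2 + h0 + h1

/-- Nonscalar matrices with the same trace and determinant are similar. -/
theorem exists_similar {M N : Matrix (Fin 2) (Fin 2) F} (hM : ¬IsScal M) (hN : ¬IsScal N)
    (ht : M.trace = N.trace) (hd : M.det = N.det) :
    ∃ P : GL (Fin 2) F, M * P.val = P.val * N := by
  obtain ⟨P, hP⟩ := exists_comp hM
  obtain ⟨Q, hQ⟩ := exists_comp hN
  refine ⟨P * Q⁻¹, ?_⟩
  rw [ht, hd] at hP
  rw [Units.val_mul, ← mul_assoc, hP, mul_assoc, mul_assoc]
  congr 1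
  rw [eq_comm, Units.eq_mul_inv_iff_mul_eq, mul_assoc, hQ, ← mul_assoc, Units.inv_mul, one_mul]

/-- An element anticommuting with a nonscalar matrix of trace zero. -/
theorem exists_anticommute {M : Matrix (Fin 2) (Fin 2) F} (hM : ¬IsScal M) (ht : M.trace = 0) :
    ∃ J : GL (Fin 2) F, J.val * M = -(M * J.val) := by
  obtain ⟨P, hP⟩ := exists_comp hM
  let D : GL (Fin 2) F := GeneralLinearGroup.mkOfDetNeZero !![1, 0; 0, -1]
    (by simp [Matrix.det_fin_two])
  have hD : D.val * comp 0 M.det = -(comp 0 M.det * D.val) := by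
    ext i j
    fin_cases i <;> fin_cases j <;>
      simp [D, GeneralLinearGroup.mkOfDetNeZero, comp, Matrix.mul_apply, Fin.sum_univ_two]
  rw [ht] at hP
  have hM' : M = P.val * comp 0 M.det * (P⁻¹).val := by
    rw [← hP, mul_assoc, Units.mul_inv, mul_one]
  refine ⟨P * D * P⁻¹, ?_⟩
  rw [Units.val_mul, Units.val_mul, hM', ← hM']
  have e1 : P.val * D.val * (P⁻¹).val * M = P.val * (D.val * comp 0 M.det) * (P⁻¹).val := by
    conv_lhs => rw [hM']
    simp only [mul_assoc, Units.inv_mul_cancel_left]
  have e2 : M * (P.val * D.val * (P⁻¹).val) = P.val * (comp 0 M.det * D.val) * (P⁻¹).val := by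
    conv_lhs => rw [hM']
    simp only [mul_assoc, Units.inv_mul_cancel_left]
  rw [e1, e2, hD, mul_neg, neg_mul]

/-- A quadratic algebra as a centraliser. -/
def toMat {a b : F} (M : Matrix (Fin 2) (Fin 2) F) (hM : M * M = a • 1 + b • M) :
    QuadraticAlgebra F a b →ₐ[F] Matrix (Fin 2) (Fin 2) F :=
  QuadraticAlgebra.lift ⟨M, hM⟩

/-- The map of the quadratic algebra. -/
@[simp] lemma toMat_apply {a b : F} (M : Matrix (Fin 2) (Fin 2) F) (hM : M * M = a • 1 + b • M)
    (z : QuadraticAlgebra F a b) : toMat M hM z = z.re • 1 + z.im • M := rfl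

/-- The map of the quadratic algebra is injective. -/
lemma toMat_injective {a b : F} {M : Matrix (Fin 2) (Fin 2) F} (hM : ¬IsScal M)
    (hM' : M * M = a • 1 + b • M) : Function.Injective (toMat M hM') := fun z z' e => by
  rw [toMat_apply, toMat_apply] at e
  obtain ⟨e1, e2⟩ := lin_inj hM e
  exact QuadraticAlgebra.ext e1 e2

/-- The determinant is the norm. -/
lemma det_toMat {a b : F} (M : Matrix (Fin 2) (Fin 2) F) (ha : a = -M.det) (hb : b = M.trace)
    (z : QuadraticAlgebra F a b) :
    (z.re • (1 : Matrix (Fin 2) (Fin 2) F) + z.im • M).det = z.norm := by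
  subst ha hb
  simp [QuadraticAlgebra.norm_def, Matrix.det_fin_two, Matrix.trace_fin_two]
  ring

end FermatAgent.LT.Quad
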