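import Mathlib
import Fermat.Agent.LT.Base.Functorial
import Fermat.Agent.LT.Descent.ClassesCyc
import Fermat.Agent.LT.Descent.ClassesQuad

/-!
# Twisted conjugation and its norm

Twisted conjugation `c ↦ g c σ(g)⁻¹` on `PGL₂` of a cyclic cubic extension, its norm, and the
notion of a twisted representative: an element of the centraliser of a matrix over the base whose
norm is that matrix up to a scalar of the base.
-/

set_option autoImplicit false

noncomputable section

open Matrix
open scoped MatrixGroups

namespace FermatAgent.LT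

/-- A scalar matrix as an element of `GL₂`. -/
abbrev sc {F : Type*} [CommRing F] (u : Fˣ) : GL (Fin 2) F := GeneralLinearGroup.scalar (Fin 2) u

section Scalar

variable {F : Type*} [Field F]

/-- The matrix of a scalar. -/
lemma sc_val (u : Fˣ) : (sc u).val = (u : F) • (1 : Matrix (Fin 2) (Fin 2) F) := by
  ext i j
  fin_cases i <;> fin_cases j <;> simp [sc, GeneralLinearGroup.coe_scalar]

/-- Scalars are central. -/
lemma sc_comm (u : Fˣ) (g : GL (Fin 2) F) : sc u * g = g * sc u :=
  Units.ext (by simp only [Units.val_mul, sc_val, smul_mul_assoc, one_mul, mul_smul_comm, mul_one])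

/-- The scalar one. -/
lemma sc_one : sc (1 : Fˣ) = 1 := map_one _

/-- Scalars multiply. -/
lemma sc_mul (u v : Fˣ) : sc u * sc v = sc (u * v) := (map_mul _ u v).symm

/-- Scalars are scalar matrices. -/
lemma isScal_sc (u : Fˣ) : Quad.IsScal (sc u).val := Quad.isScal_iff.mpr ⟨u, sc_val u⟩

/-- Scalar matrices are scalars. -/
lemma exists_sc_of_isScal {g : GL (Fin 2) F} (h : Quad.IsScal g.val) : ∃ u : Fˣ, g = sc u := by
  obtain ⟨x, hx⟩ := Quad.isScal_iff.mp h
  have hx0 : x ≠ 0 := fun h0 => (GeneralLinearGroup.det g).ne_zero (by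
    show g.val.det = 0
    simp [hx, h0])
  exact ⟨Units.mk0 x hx0, Units.ext (by rw [hx, sc_val, Units.val_mk0])⟩

/-- The determinant of a scalar. -/
lemma det_sc (u : Fˣ) : (sc u).val.det = (u : F) ^ 2 := by
  simp [pow_two]

/-- Field maps preserve scalars. -/
lemma map_sc {E : Type*} [Field E] (f : F →+* E) (u : Fˣ) :
    GeneralLinearGroup.map f (sc u) = sc (Units.map (f : F →* E) u) := by
  apply Units.ext
  ext i j
  fin_cases i <;> fin_cases j <;> simp [sc, GeneralLinearGroup.coe_scalar]

/-- Field maps commute with determinants. -/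
lemma det_map {E : Type*} [Field E] (f : F →+* E) (g : GL (Fin 2) F) :
    (GeneralLinearGroup.map f g).val.det = f g.val.det := by
  simp [Matrix.det_fin_two]

/-- Field maps commute with traces. -/
lemma trace_map {E : Type*} [Field E] (f : F →+* E) (g : GL (Fin 2) F) :
    (GeneralLinearGroup.map f g).val.trace = f g.val.trace := by
  simp [Matrix.trace_fin_two]

/-- Field maps preserve non-scalars. -/
lemma not_isScal_map {E : Type*} [Field E] (f : F →+* E) {g : GL (Fin 2) F}
    (h : ¬Quad.IsScal g.val) : ¬Quad.IsScal (GeneralLinearGroup.map f g).val := fun ⟨h1, h2, h3⟩ =>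
  h ⟨(map_eq_zero f).mp (by simpa using h1), (map_eq_zero f).mp (by simpa using h2),
    f.injective (by simpa using h3)⟩

/-- Field maps are injective on matrices. -/
lemma map_injective {E : Type*} [Field E] (f : F →+* E) :
    Function.Injective (GeneralLinearGroup.map f : GL (Fin 2) F → GL (Fin 2) E) := fun a b h => by
  apply Units.ext
  ext i j
  have := congrArg (fun g : GL (Fin 2) E => g.val i j) h
  exact f.injective (by simpa using this)

/-- Field maps are injective on classes. -/
lemma g2Map_injective {E : Type*} [Field E] (f : F →+* E) : Function.Injective (g2Map f) := by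
  rw [injective_iff_map_eq_one]
  intro g
  induction g using Matrix.ProjGenLinGroup.induction_on with | mk g =>
  rw [ProjGenLinGroup.map_mk, Quad.mk_eq_one_iff, Quad.mk_eq_one_iff]
  intro h
  by_contra h'
  exact not_isScal_map f h' h

/-- A trivial class comes from a scalar. -/
lemma isScal_of_mk_eq_one {g : GL (Fin 2) F} (h : (ProjGenLinGroup.mk g : G2 F) = 1) :
    ∃ u : Fˣ, g = sc u := exists_sc_of_isScal (Quad.mk_eq_one_iff.mp h)

end Scalar

variable {K L : Type*} [Field K] [Field L] [Algebra K L]

/-- A generator `τ` of a cyclic cubic extension `L / K`: of order three with fixed field `K`. -/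
structure IsTwist (K : Type*) {L : Type*} [Field K] [Field L] [Algebra K L] (τ : L ≃+* L) : Prop
    extends Cyc3 τ where
  fix : ∀ x : K, τ (algebraMap K L x) = algebraMap K L x
  surj : ∀ x, τ x = x → ∃ k, algebraMap K L k = x

variable {τ : L ≃+* L}

variable (τ) in
/-- The twisted norm `c σ(c) σ²(c)` on `PGL₂`, `σ` induced by the generator. -/
def tnrm (c : G2 L) : G2 L :=
  c * g2Map (τ : L →+* L) c * g2Map (τ : L →+* L) (g2Map (τ : L →+* L) c)

variable (τ) in
/-- Twisted conjugation `c ↦ g c σ(g)⁻¹`. -/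
def tconj (g c : G2 L) : G2 L := g * c * (g2Map (τ : L →+* L) g)⁻¹

/-- Twisted conjugation is an action. -/
lemma tconj_mul (g h c : G2 L) : tconj τ (g * h) c = tconj τ g (tconj τ h c) := by
  simp [tconj, map_mul, _root_.mul_inv_rev, mul_assoc]

@[simp] lemma tconj_one (c : G2 L) : tconj τ 1 c = c := by simp [tconj]

/-- The inverse of a twisted conjugation. -/
lemma tconj_inv {g c c' : G2 L} (h : tconj τ g c = c') : tconj τ g⁻¹ c' = c := by
  rw [← h, ← tconj_mul, inv_mul_cancel, tconj_one]

variable (τ) in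
/-- The twisted centraliser: the elements fixing `c` under twisted conjugation. -/
def tcent (c : G2 L) : Subgroup (G2 L) where
  carrier := {g | tconj τ g c = c}
  one_mem' := tconj_one c
  mul_mem' {g h} hg hh := by
    show tconj τ (g * h) c = c
    rw [tconj_mul, show tconj τ h c = c from hh]
    exact hg
  inv_mem' {g} hg := tconj_inv hg

/-- Membership in the twisted centraliser. -/
@[simp] lemma mem_tcent {g c : G2 L} : g ∈ tcent τ c ↔ tconj τ g c = c := Iff.rfl

variable (τ) in
/-- The norm `γ σ(γ) σ²(γ)` of an invertible matrix. -/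
def nrmGL (γ : GL (Fin 2) L) : GL (Fin 2) L :=
  γ * Cyc3.gmap τ γ * Cyc3.gmap τ (Cyc3.gmap τ γ)

/-- The norm of a class. -/
lemma tnrm_mk (γ : GL (Fin 2) L) :
    tnrm τ (ProjGenLinGroup.mk γ) = ProjGenLinGroup.mk (nrmGL τ γ) := by
  simp [tnrm, nrmGL]

/-- The norm of one. -/
lemma tnrm_one : tnrm τ 1 = 1 := by simp [tnrm]

namespace Cyc3

/-- The generator has order three on classes. -/
lemma g2Map_cube (h : Cyc3 τ) (g : G2 L) :
    g2Map (τ : L →+* L) (g2Map (τ : L →+* L) (g2Map (τ : L →+* L) g)) = g := by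
  induction g using Matrix.ProjGenLinGroup.induction_on with | mk g =>
  simp only [ProjGenLinGroup.map_mk]
  exact congrArg _ (h.gmap_cube g)

/-- The norm intertwines twisted and ordinary conjugation. -/
lemma tnrm_tconj (h : Cyc3 τ) (g c : G2 L) : tnrm τ (tconj τ g c) = g * tnrm τ c * g⁻¹ := by
  simp only [tnrm, tconj, map_mul, map_inv, h.g2Map_cube]
  group

/-- The generator conjugates the norm. -/
lemma gmap_nrmGL (h : Cyc3 τ) (γ : GL (Fin 2) L) :
    gmap τ (nrmGL τ γ) = γ⁻¹ * nrmGL τ γ * γ := by
  simp only [nrmGL, map_mul, h.gmap_cube]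
  group

/-- The generator fixes square roots of fixed elements. -/
lemma eq_of_sq_eq (h : Cyc3 τ) {x : L} (hx : τ x ^ 2 = x ^ 2) : τ x = x := by
  rcases sq_eq_sq_iff_eq_or_eq_neg.mp hx with e | e
  · exact e
  · have e2 : τ (τ x) = x := by rw [e, map_neg, e, neg_neg]
    have := h.cube x
    rwa [e2] at this

end Cyc3

/-- The determinant of a norm. -/
lemma det_nrmGL (γ : GL (Fin 2) L) :
    (nrmGL τ γ).val.det = γ.val.det * τ γ.val.det * τ (τ γ.val.det) := by
  simp only [nrmGL, Units.val_mul, Matrix.det_mul, det_map, RingHom.coe_coe]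

/-- The generator on scalars. -/
lemma gmap_sc (u : Lˣ) : Cyc3.gmap τ (sc u) = sc (Units.map (τ : L →* L) u) :=
  map_sc _ u

/-- The norm of a scalar. -/
lemma nrmGL_sc (u : Lˣ) :
    nrmGL τ (sc u) = sc (u * Units.map (τ : L →* L) u *
      Units.map (τ : L →* L) (Units.map (τ : L →* L) u)) := by
  simp [nrmGL, gmap_sc]

/-- Scalars pull out of the norm. -/
lemma nrmGL_mul_sc (γ : GL (Fin 2) L) (u : Lˣ) :
    nrmGL τ (γ * sc u) = nrmGL τ γ * nrmGL τ (sc u) := by
  apply Units.ext
  simp only [nrmGL, map_mul, gmap_sc, Units.val_mul, sc_val, smul_mul_assoc,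
    mul_smul_comm, mul_one, smul_smul]

variable (τ) in
/-- A matrix over the base seen above. -/
abbrev upGL (δ : GL (Fin 2) K) : GL (Fin 2) L := GeneralLinearGroup.map (algebraMap K L) δ

namespace IsTwist

variable (h : IsTwist K τ)

include h

/-- The generator fixes lifts. -/
lemma gmap_up (δ : GL (Fin 2) K) : Cyc3.gmap τ (upGL (L := L) δ) = upGL δ := by
  apply Units.ext
  ext i j
  simp [h.fix]

/-- The centraliser algebra of a matrix of the base commutes with the generator. -/
lemma toMat_qmap {δ : GL (Fin 2) K} {a b : L} (ha : τ a = a) (hb : τ b = b)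
    (hM : (upGL (L := L) δ).val * (upGL (L := L) δ).val = a • 1 + b • (upGL (L := L) δ).val)
    (z : QuadraticAlgebra L a b) :
    Quad.toMat _ hM (Cyc3.qmap τ ha hb z) = (Quad.toMat _ hM z).map τ := by
  have hMτ : (upGL (L := L) δ).val.map τ = (upGL (L := L) δ).val :=
    congrArg Units.val (h.gmap_up δ)
  rw [Quad.toMat_apply, Quad.toMat_apply, Matrix.map_add _ (map_add τ),
    Matrix.map_smul' _ _ _ (map_mul τ), Matrix.map_smul' _ _ _ (map_mul τ), hMτ,
    Matrix.map_one _ (map_zero τ) (map_one τ)]
  rfl

/-- The generator fixes classes from the base. -/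
lemma g2Map_incl (d : G2 K) :
    g2Map (τ : L →+* L) (g2Map (algebraMap K L) d) = g2Map (algebraMap K L) d := by
  induction d using Matrix.ProjGenLinGroup.induction_on with | mk d =>
  simp only [ProjGenLinGroup.map_mk]
  exact congrArg _ (h.gmap_up d)

/-- The generator fixes units of the base. -/
lemma map_unit (u : Kˣ) : Units.map (τ : L →* L) (Units.map (algebraMap K L : K →* L) u) =
    Units.map (algebraMap K L : K →* L) u := Units.ext (h.fix _)

/-- Fixed units come from the base. -/
lemma exists_unit {u : Lˣ} (hu : τ (u : L) = u) :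
    ∃ k : Kˣ, Units.map (algebraMap K L : K →* L) k = u := by
  obtain ⟨k, hk⟩ := h.surj _ hu
  exact ⟨Units.mk0 k fun e => u.ne_zero (by rw [← hk, e, map_zero]), Units.ext hk⟩

omit h in
/-- Two is nonzero above. -/
lemma two_ne_zero_L (h2 : (2 : K) ≠ 0) : (2 : L) ≠ 0 := fun e => h2 ((algebraMap K L).injective
  (by rw [map_ofNat, map_zero, e]))

end IsTwist

/-- A representative of the norm `δ`: a matrix over `L` commuting with `δ` whose norm is `δ` up
to a scalar of the base. -/
structure IsRep (τ : L ≃+* L) (δ : GL (Fin 2) K) (γ : GL (Fin 2) L) : Prop where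
  comm : Commute γ (upGL δ)
  nrm : ∃ u : Kˣ, nrmGL τ γ = upGL δ * sc (Units.map (algebraMap K L : K →* L) u)

/-- A representative has the given norm class. -/
lemma IsRep.tnrm_eq {δ : GL (Fin 2) K} {γ : GL (Fin 2) L} (hγ : IsRep τ δ γ) :
    tnrm τ (ProjGenLinGroup.mk γ) = g2Map (algebraMap K L) (ProjGenLinGroup.mk δ) := by
  obtain ⟨u, hu⟩ := hγ.nrm
  rw [tnrm_mk, hu, map_mul, ProjGenLinGroup.mk_scalar, mul_one, ProjGenLinGroup.map_mk]

/-- Conjugate over the base to a matrix which is congruent to a scalar modulo more than `9`. -/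
def NearOne {K : Type*} [Field K] [NumberField K]
    (v : IsDedekindDomain.HeightOneSpectrum (NumberField.RingOfIntegers K)) (δ : GL (Fin 2) K) :
    Prop :=
  ∃ (B : GL (Fin 2) K) (s : Kˣ),
    ∀ i j, v.valuation K (((s : K) • (B⁻¹ * δ * B).val - 1) i j) < v.valuation K 9

end FermatAgent.LT
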