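import Mathlib
import Fermat.Agent.LT.Descent.LocKer

/-!
# Radial kernels

A smooth function with compact support of the hyperbolic distance gives an invariant kernel, a
smooth function in relative coordinates; small translations fix a coset.
-/

set_option autoImplicit false

noncomputable section

open Matrix IsDedekindDomain NumberField Filter MeasureTheory
open scoped MatrixGroups ENNReal ComplexConjugate ContDiff

namespace FermatAgent.LT

/-- A profile of a radial kernel. -/
structure Profile where
  /-- the function of the hyperbolic cosine of the distance -/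
  f : ℝ → ℝ
  smooth : ContDiff ℝ ∞ f
  /-- the radius -/
  ρ : ℝ
  supp : ∀ x, f x ≠ 0 → x ≤ ρ

namespace Profile

variable (P : Profile)

/-- A radial kernel is bounded. -/
lemma exists_bound : ∃ C, ∀ p q : H3, ‖(P.f (H3.coshDist p q) : ℂ)‖ ≤ C := by
  obtain ⟨C, hC⟩ := (isCompact_Icc (a := (1 : ℝ)) (b := max P.ρ 1)).exists_bound_of_continuousOn
    P.smooth.continuous.continuousOn
  refine ⟨max C 0, fun p q => ?_⟩
  rw [Complex.norm_real]
  by_cases h : P.f (H3.coshDist p q) = 0
  · simp [h]
  · refine (hC _ ⟨?_, (P.supp _ h).trans (le_max_left _ _)⟩).trans (le_max_left _ _)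
    unfold H3.coshDist
    have := p.t_pos
    have := q.t_pos
    have := Complex.normSq_nonneg (p.z - q.z)
    exact le_add_of_nonneg_right (by positivity)

lemma H3.continuous_coshDist : Continuous fun x : H3 × H3 => H3.coshDist x.1 x.2 := by
  unfold H3.coshDist
  have hz1 : Continuous fun x : H3 × H3 => x.1.z := H3.continuous_z.comp continuous_fst
  have hz2 : Continuous fun x : H3 × H3 => x.2.z := H3.continuous_z.comp continuous_snd
  have ht1 : Continuous fun x : H3 × H3 => x.1.t := H3.continuous_t.comp continuous_fst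
  have ht2 : Continuous fun x : H3 × H3 => x.2.t := H3.continuous_t.comp continuous_snd
  exact continuous_const.add (((Complex.continuous_normSq.comp (hz1.sub hz2)).add
    ((ht1.sub ht2).pow 2)).div ((continuous_const.mul ht1).mul ht2) fun x =>
      mul_ne_zero (mul_ne_zero two_ne_zero x.1.t_pos.ne') x.2.t_pos.ne')

/-- The radial kernel. -/
def ker : InfKer where
  k p q := (P.f (H3.coshDist p q) : ℂ)
  meas := by
    have h : Measurable fun x : H3 × H3 => H3.coshDist x.1 x.2 :=
      H3.continuous_coshDist.measurable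
    exact (Complex.continuous_ofReal.comp P.smooth.continuous).measurable.comp h
  inv g p q := by rw [H3.coshDist_smul]
  C := max P.exists_bound.choose 0
  C_nonneg := le_max_right _ _
  bound p q := (P.exists_bound.choose_spec p q).trans (le_max_left _ _)
  ρ := P.ρ
  supp p q h := P.supp _ (by simpa using h)

/-- The hyperbolic cosine of the distance in relative coordinates. -/
def relDist (s : ℝ) (u : ℂ) : ℝ :=
  1 + (Complex.normSq u + (1 - Real.exp s) ^ 2) / (2 * Real.exp s)

/-- The distance in relative coordinates. -/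
lemma coshDist_eq_relDist (p q : H3) :
    H3.coshDist p q = relDist (Real.log (q.t / p.t)) ((q.z - p.z) / (p.t : ℂ)) := by
  have hp := p.t_pos
  have hq := q.t_pos
  unfold H3.coshDist relDist
  rw [Real.exp_log (div_pos hq hp), Complex.normSq_div, Complex.normSq_ofReal,
    ← Complex.normSq_neg (p.z - q.z), neg_sub]
  field_simp

/-- The relative distance is smooth. -/
lemma contDiff_relDist : ContDiff ℝ ∞ fun x : ℝ × ℂ => relDist x.1 x.2 := by
  have hexp : ContDiff ℝ ∞ fun x : ℝ × ℂ => Real.exp x.1 := Real.contDiff_exp.comp contDiff_fst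
  have hns : ContDiff ℝ ∞ fun x : ℝ × ℂ => Complex.normSq x.2 := by
    simp only [Complex.normSq_apply]
    have h1 : ContDiff ℝ ∞ fun x : ℝ × ℂ => x.2.re := Complex.reCLM.contDiff.comp contDiff_snd
    have h2 : ContDiff ℝ ∞ fun x : ℝ × ℂ => x.2.im := Complex.imCLM.contDiff.comp contDiff_snd
    exact (h1.mul h1).add (h2.mul h2)
  exact contDiff_const.add ((hns.add ((contDiff_const.sub hexp).pow 2)).div
    (contDiff_const.mul hexp) fun x => mul_ne_zero two_ne_zero (Real.exp_pos _).ne')

/-- Small relative distance bounds the coordinates. -/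
lemma bound_of_relDist {s : ℝ} {u : ℂ} (h : relDist s u ≤ P.ρ) :
    |s| ≤ Real.log (2 * max P.ρ 1 + 2) ∧ ‖u‖ ≤ 2 * (2 * max P.ρ 1 + 2) := by
  set ρ := max P.ρ 1
  have hρ : 1 ≤ ρ := le_max_right _ _
  let p : H3 := ⟨0, 1, one_pos⟩
  let q : H3 := ⟨u, Real.exp s, Real.exp_pos s⟩
  have hd : H3.coshDist p q ≤ ρ := by
    rw [coshDist_eq_relDist]
    refine le_trans (le_of_eq ?_) (h.trans (le_max_left P.ρ 1))
    simp [p, q]
  obtain ⟨h1, h2, h3⟩ := H3.coord_bounds_of_coshDist hd
  simp only [p, q, mul_one, zero_sub, Complex.normSq_neg, one_mul] at h1 h2 h3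
  refine ⟨abs_le.mpr ⟨?_, (Real.le_log_iff_exp_le (by linarith)).mpr h1⟩, ?_⟩
  · rw [neg_le, Real.le_log_iff_exp_le (by linarith), Real.exp_neg]
    rw [inv_le_iff_one_le_mul₀ (Real.exp_pos s)]
    exact h2
  · rw [Complex.normSq_eq_norm_sq] at h3
    nlinarith [norm_nonneg u, Real.exp_pos s]

end Profile

variable {L : Type*} [Field L] [NumberField L] {U : Level L}

/-- Small translations fix a coset. -/
lemma exists_fix_bound (hU : U.IsCongr) (v : HeightOneSpectrum (𝓞 L)) (c : G2 L ⧸ U.loc v) :
    ∃ γ : WithZero (Multiplicative ℤ), γ ≠ 0 ∧ ∀ x : L, v.valuation L x ≤ γ →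
      (ProjGenLinGroup.mk (uB x) : G2 L) • c = c := by
  induction c using QuotientGroup.induction_on with
  | H g₀ =>
    obtain ⟨g, rfl⟩ := ProjGenLinGroup.mk_surjective g₀
    let C : WithZero (Multiplicative ℤ) :=
      max 1 ((Finset.univ : Finset (Fin 2 × Fin 2)).sup' Finset.univ_nonempty fun ij =>
        v.valuation L ((g⁻¹).val ij.1 0) * v.valuation L (g.val 1 ij.2))
    obtain ⟨n, hn⟩ := hU v
    refine ⟨WithZero.exp (-((n : ℤ) + 1)) / C, div_ne_zero WithZero.exp_ne_zero
      (lt_of_lt_of_le zero_lt_one (le_max_left _ _)).ne', fun x hx => ?_⟩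
    have hC0 : 0 < C := lt_of_lt_of_le zero_lt_one (le_max_left _ _)
    rw [le_div_iff₀ hC0] at hx
    rw [MulAction.Quotient.smul_mk, QuotientGroup.eq, smul_eq_mul, _root_.mul_inv_rev, mul_assoc,
      ← map_inv, ← map_inv, ← map_mul, ← map_mul]
    suffices hk : g⁻¹ * ((uB x)⁻¹ * g) ∈ locGL v ∧ ∀ i j, v.valuation L
        (((g⁻¹ * ((uB x)⁻¹ * g)).val - 1) i j) ≤ WithZero.exp (-((n : ℤ) + 1)) from hn _ hk.1 hk.2
    have e : ∀ i j, (g⁻¹ * ((uB x)⁻¹ * g)).val i j =
        (if i = j then 1 else 0) - x * ((g⁻¹).val i 0 * g.val 1 j) := by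
      intro i j
      have hu : ((uB x)⁻¹ : GL (Fin 2) L) = uB (-x) :=
        inv_eq_of_mul_eq_one_right (by rw [← uB_add, add_neg_cancel]; ext i j; fin_cases i <;>
          fin_cases j <;> simp)
      have h1 : ((g⁻¹).val * g.val) i j = if i = j then 1 else 0 := by
        rw [← Units.val_mul, inv_mul_cancel, Units.val_one, Matrix.one_apply]
      rw [hu, ← h1]
      simp only [Units.val_mul, uB_val, Matrix.mul_apply, Fin.sum_univ_two, Matrix.of_apply,
        Matrix.cons_val', Matrix.cons_val_zero, Matrix.cons_val_one, Matrix.cons_val_fin_one]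
      ring
    have hsmall' : ∀ i j, v.valuation L (x * ((g⁻¹).val i 0 * g.val 1 j)) ≤
        WithZero.exp (-((n : ℤ) + 1)) := by
      intro i j
      rw [map_mul, map_mul]
      refine le_trans (mul_le_mul_right ?_ _) hx
      refine le_trans ?_ (le_max_right _ _)
      exact Finset.le_sup' (fun ij : Fin 2 × Fin 2 => v.valuation L ((g⁻¹).val ij.1 0) *
        v.valuation L (g.val 1 ij.2)) (Finset.mem_univ (i, j))
    have hsmall : ∀ i j, v.valuation L (x * ((g⁻¹).val i 0 * g.val 1 j)) < 1 := fun i j =>
      (hsmall' i j).trans_lt (by rw [← WithZero.exp_zero, WithZero.exp_lt_exp]; omega)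
    refine ⟨⟨fun i j => ?_, ?_⟩, fun i j => ?_⟩
    · rw [e]
      refine ((v.valuation L).map_sub _ _).trans (max_le ?_ (hsmall i j).le)
      split_ifs <;> simp
    · have h1 : (g⁻¹).val.det * g.val.det = 1 := by
        rw [← Matrix.det_mul, ← Units.val_mul, inv_mul_cancel, Units.val_one, Matrix.det_one]
      have h2 : ((uB x)⁻¹ : GL (Fin 2) L).val.det = 1 := by
        have := congrArg Matrix.det (Units.inv_mul (uB x))
        rwa [Matrix.det_mul, Matrix.det_one, show (uB x).val.det = 1 by
          simp [Matrix.det_fin_two], mul_one] at this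
      rw [Units.val_mul, Units.val_mul, Matrix.det_mul, Matrix.det_mul, h2, one_mul, h1, map_one]
    · rw [Matrix.sub_apply, e, Matrix.one_apply, sub_sub_cancel_left, Valuation.map_neg]
      exact hsmall' i j

end FermatAgent.LT
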