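import Mathlib
import Fermat.Agent.LT.Base.PointKer
import Fermat.Agent.LT.Base.Siegel
import Fermat.Agent.LT.Base.FundDomain

/-!
# Composition of point kernels and of their automorphisations

Point kernels with boundedly many neighbours compose, and the automorphisation of a composite is
the integral over a fundamental domain of the product of the automorphisations.
-/

set_option autoImplicit false

noncomputable section

open Matrix IsDedekindDomain NumberField Filter MeasureTheory
open scoped MatrixGroups ENNReal ComplexConjugate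

namespace FermatAgent.LT

namespace H3

lemma coshDist_base_le (q : H3) : coshDist base q ≤ 1 + bnd q := by
  have hq := q.t_pos
  have hn := Complex.normSq_nonneg q.z
  unfold coshDist bnd
  simp only [base, zero_sub, Complex.normSq_neg, mul_one]
  rw [add_le_add_iff_left, div_le_iff₀ (by positivity)]
  have e : (q.t + (2 * Complex.normSq q.z + 2) / q.t) * (2 * q.t) =
      2 * q.t ^ 2 + 4 * Complex.normSq q.z + 4 := by field_simp; ring
  rw [e]
  nlinarith

lemma one_le_of_coshDist {ρ : ℝ} {p q : H3} (h : coshDist p q ≤ ρ) : 1 ≤ ρ :=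
  le_trans (le_add_of_nonneg_right (by
    have := Complex.normSq_nonneg (p.z - q.z)
    have := p.t_pos
    have := q.t_pos
    positivity)) h

lemma nearC_nonneg {ρ : ℝ} (h : 0 ≤ ρ) : 0 ≤ nearC ρ := by
  unfold nearC
  positivity

/-- A crude triangle inequality. -/
lemma coshDist_trans {a b : ℝ} {p q r : H3} (h1 : coshDist p q ≤ a) (h2 : coshDist q r ≤ b) :
    coshDist p r ≤ 1 + nearC b * (nearC a * 3) := by
  obtain ⟨g, rfl, -⟩ := exists_smul_base p
  obtain ⟨q', rfl⟩ : ∃ q', g • q' = q := ⟨g⁻¹ • q, smul_inv_smul g q⟩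
  obtain ⟨r', rfl⟩ : ∃ r', g • r' = r := ⟨g⁻¹ • r, smul_inv_smul g r⟩
  rw [coshDist_smul] at h1 h2 ⊢
  refine (coshDist_base_le r').trans (add_le_add_right ((bnd_le_of_coshDist h2).trans ?_) 1)
  exact mul_le_mul_of_nonneg_left ((bnd_le_of_coshDist h1).trans (le_of_eq (by rw [bnd_base])))
    (nearC_nonneg (zero_le_one.trans (one_le_of_coshDist h2)))

/-- Balls have finite volume. -/
lemma vol_ball_lt_top (p : H3) (ρ : ℝ) : vol {q | coshDist p q ≤ ρ} < ⊤ := by
  by_cases hne : {q | coshDist p q ≤ ρ} = ∅
  · simp [hne]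
  obtain ⟨q₀, hq₀⟩ := Set.nonempty_iff_ne_empty.mpr hne
  have hρ := one_le_of_coshDist hq₀
  refine lt_of_le_of_lt (measure_mono fun q hq => ?_) (vol_box_lt_top
    (‖p.z‖ + 2 * ρ * (p.t * ((2 * ρ + 2) * p.t)) + 1)
    (c := p.t / (2 * ρ + 2)) (div_pos p.t_pos (by linarith)))
  obtain ⟨h1, h2, h3⟩ := coord_bounds_of_coshDist hq
  refine ⟨?_, (div_le_iff₀' (by linarith)).mpr h2⟩
  have h4 : ‖p.z - q.z‖ ^ 2 ≤ 2 * ρ * (p.t * ((2 * ρ + 2) * p.t)) := by
    rw [← Complex.normSq_eq_norm_sq]
    refine h3.trans (mul_le_mul_of_nonneg_left (mul_le_mul_of_nonneg_left h1 p.t_pos.le) ?_)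
    linarith
  have h5 : ‖q.z‖ ≤ ‖p.z‖ + ‖p.z - q.z‖ := by
    simpa [norm_sub_rev] using norm_le_insert' q.z p.z
  nlinarith [norm_nonneg (p.z - q.z), sq_nonneg (‖p.z - q.z‖ - 1)]

end H3

variable {L : Type*} [Field L] [NumberField L] {U : Level L}

instance Space.instSigmaFiniteVol : SigmaFinite (Space.vol U) := by
  unfold Space.vol
  infer_instance

namespace PtKer

variable (A B : PtKer U)

/-- A box containing the support of a row. -/
def rowBox (x : Space U) : Set (Space U) :=
  (Set.univ.pi fun w => {q | H3.coshDist (x.1 w) q ≤ A.ρ}) ×ˢ (A.nbr x.2 : Set (FinCoset U))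

/-- The support of a row lies in its box. -/
lemma mem_rowBox {x y : Space U} (h : A.k x y ≠ 0) : y ∈ A.rowBox x :=
  ⟨fun w _ => (A.supp x y h).1 w, (A.supp x y h).2⟩

/-- Boxes have finite volume. -/
lemma vol_rowBox_lt_top (x : Space U) : Space.vol U (A.rowBox x) < ⊤ := by
  rw [rowBox, Space.vol, Measure.prod_prod, Measure.pi_pi, Measure.count_apply_finset]
  exact ENNReal.mul_lt_top (ENNReal.prod_lt_top fun w _ => H3.vol_ball_lt_top _ _)
    (ENNReal.natCast_lt_top _)

/-- Rows times bounded measurable functions are integrable. -/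
lemma integrable_row (x : Space U) {f : Space U → ℂ} (hf : Measurable f) {C : ℝ}
    (hC : ∀ y, ‖f y‖ ≤ C) : Integrable (fun y => A.k x y * f y) (Space.vol U) := by
  have hsupp : Function.support (fun y => A.k x y * f y) ⊆ A.rowBox x := fun y hy =>
    A.mem_rowBox (left_ne_zero_of_mul hy)
  rw [← integrableOn_iff_integrable_of_support_subset hsupp]
  have : IsFiniteMeasure ((Space.vol U).restrict (A.rowBox x)) :=
    ⟨by rw [Measure.restrict_apply_univ]; exact A.vol_rowBox_lt_top x⟩
  refine Integrable.of_bound ((A.meas.comp measurable_prodMk_left).mul hf).aestronglyMeasurable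
    (A.C * C) (ae_of_all _ fun y => ?_)
  rw [norm_mul]
  exact mul_le_mul (A.bound x y) (hC y) (norm_nonneg _) A.C_nonneg

/-- Translations are measurable embeddings. -/
lemma measurableEmbedding_smul (g : G2 L) : MeasurableEmbedding fun y : Space U => g • y :=
  ((MeasurableEquiv.smul g : Space U ≃ᵐ Space U)).measurableEmbedding

/-- Boxes have bounded volume. -/
lemma real_vol_rowBox_le {N : ℕ} (hN : ∀ c, (A.nbr c).card ≤ N) (x : Space U) :
    (Space.vol U).real (A.rowBox x) ≤
      N * (H3.vol {q | H3.coshDist H3.base q ≤ A.ρ}).toReal ^ Fintype.card (InfinitePlace L) := by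
  have e : ∀ p : H3, H3.vol {q | H3.coshDist p q ≤ A.ρ} =
      H3.vol {q | H3.coshDist H3.base q ≤ A.ρ} := fun p => by
    obtain ⟨g, rfl, -⟩ := H3.exists_smul_base p
    rw [← (H3.measurePreserving_smul g).measure_preimage]
    · simp [Set.preimage, H3.coshDist_smul]
    · refine (IsClosed.measurableSet (isClosed_le ?_ continuous_const)).nullMeasurableSet
      unfold H3.coshDist
      exact continuous_const.add ((((Complex.continuous_normSq.comp
        (continuous_const.sub H3.continuous_z))).add
        ((continuous_const.sub H3.continuous_t).pow 2)).div (continuous_const.mul H3.continuous_t)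
          fun q => mul_ne_zero (mul_ne_zero two_ne_zero (g • H3.base).t_pos.ne') q.t_pos.ne')
  rw [rowBox, Measure.real, Space.vol, Measure.prod_prod, Measure.pi_pi,
    Measure.count_apply_finset, ENNReal.toReal_mul, ENNReal.toReal_prod, mul_comm]
  simp only [e, Finset.prod_const, Finset.card_univ, ENNReal.toReal_natCast]
  exact mul_le_mul_of_nonneg_right (by exact_mod_cast hN _) (pow_nonneg ENNReal.toReal_nonneg _)

/-- Composition of point kernels. -/
def comp {N : ℕ} (hN : ∀ c, (A.nbr c).card ≤ N) : PtKer U where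
  k x z := ∫ y, A.k x y * B.k y z ∂Space.vol U
  meas := by
    have h : StronglyMeasurable (Function.uncurry fun (p : Space U × Space U) y =>
        A.k p.1 y * B.k y p.2) :=
      ((A.meas.comp ((measurable_fst.comp measurable_fst).prodMk measurable_snd)).mul
        (B.meas.comp
          (measurable_snd.prodMk (measurable_snd.comp measurable_fst)))).stronglyMeasurable
    exact h.integral_prod_right.measurable
  inv g x z := by
    show ∫ y, A.k (g • x) y * B.k y (g • z) ∂Space.vol U = _
    rw [← (Space.measurePreserving_smul g).integral_comp (measurableEmbedding_smul g)]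
    simp [A.inv, B.inv]
  C := A.C * B.C *
    (N * (H3.vol {q | H3.coshDist H3.base q ≤ A.ρ}).toReal ^ Fintype.card (InfinitePlace L))
  C_nonneg := mul_nonneg (mul_nonneg A.C_nonneg B.C_nonneg)
    (mul_nonneg (Nat.cast_nonneg _) (pow_nonneg ENNReal.toReal_nonneg _))
  bound x z := by
    have hsupp : Function.support (fun y => A.k x y * B.k y z) ⊆ A.rowBox x := fun y hy =>
      A.mem_rowBox (left_ne_zero_of_mul hy)
    rw [← setIntegral_eq_integral_of_forall_compl_eq_zero (s := A.rowBox x) fun y hy => by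
      by_contra h
      exact hy (hsupp h)]
    refine (norm_setIntegral_le_of_norm_le_const (A.vol_rowBox_lt_top x) (C := A.C * B.C)
      fun y _ => ?_).trans ?_
    · rw [norm_mul]
      exact mul_le_mul (A.bound x y) (B.bound y z) (norm_nonneg _) A.C_nonneg
    · exact mul_le_mul_of_nonneg_left (A.real_vol_rowBox_le hN x)
        (mul_nonneg A.C_nonneg B.C_nonneg)
  ρ := 1 + H3.nearC (max B.ρ 0) * (H3.nearC (max A.ρ 0) * 3)
  nbr c := by classical exact (A.nbr c).biUnion B.nbr
  supp x z h := by
    classical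
    obtain ⟨y, hy⟩ : ∃ y, A.k x y * B.k y z ≠ 0 := by
      by_contra hh
      push Not at hh
      exact h (by simp [hh])
    obtain ⟨h1, h1'⟩ := A.supp x y (left_ne_zero_of_mul hy)
    obtain ⟨h2, h2'⟩ := B.supp y z (right_ne_zero_of_mul hy)
    exact ⟨fun w => H3.coshDist_trans ((h1 w).trans (le_max_left _ _))
      ((h2 w).trans (le_max_left _ _)), Finset.mem_biUnion.mpr ⟨_, h1', h2'⟩⟩

/-- Unfolding the integral of an automorphised row against an invariant function. -/
theorem integral_row_eq_setIntegral {f : Space U → ℂ} (hf : Measurable f)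
    (hinv : ∀ (g : G2 L) y, f (g • y) = f y) {C : ℝ} (hC : ∀ y, ‖f y‖ ≤ C) {s : Set (Space U)}
    (hs : IsFundamentalDomain (G2 L) s (Space.vol U)) (x : Space U) :
    ∫ y, A.k x y * f y ∂Space.vol U = ∫ y in s, A.aut x y * f y ∂Space.vol U := by
  have hint : Integrable (fun y => A.k x y * f y) (Space.vol U) := A.integrable_row x hf hC
  rw [hs.integral_eq_tsum'' _ hint,
    ← integral_tsum (f := fun (g : G2 L) y => A.k x (g • y) * f (g • y))]
  · refine integral_congr_ae (ae_of_all _ fun y => ?_)
    simp only [hinv]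
    exact tsum_mul_right
  · exact fun g => ((((A.meas.comp measurable_prodMk_left).mul hf)).comp
      (measurable_const_smul g)).aestronglyMeasurable.restrict
  · rw [← hs.lintegral_eq_tsum'' fun y => ‖A.k x y * f y‖ₑ]
    exact hint.2.ne

/-- The automorphisation of a composite is the composite of the automorphisations. -/
theorem aut_comp {N : ℕ} (hN : ∀ c, (A.nbr c).card ≤ N) {CB : ℝ}
    (hCB : ∀ x y, ‖B.aut x y‖ ≤ CB) {s : Set (Space U)}
    (hs : IsFundamentalDomain (G2 L) s (Space.vol U)) (x z : Space U) :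
    (A.comp B hN).aut x z = ∫ y in s, A.aut x y * B.aut y z ∂Space.vol U := by
  classical
  have hmB : Measurable fun y => B.aut y z :=
    B.measurable_aut.comp (measurable_id.prodMk measurable_const)
  have h1 := A.integral_row_eq_setIntegral hmB (fun g y => B.aut_smul_left g y z) (hCB · z) hs x
  rw [← h1]
  obtain ⟨Bd, hBd⟩ := ((Set.finite_range fun w => H3.bnd (x.1 w)).union
    (Set.finite_range fun w => H3.bnd (z.1 w))).bddAbove
  obtain ⟨S, hS⟩ := B.exists_finite_support (A.nbr x.2) {z.2}
    (max Bd (H3.nearC A.ρ * Bd))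
  have hS' : ∀ y, A.k x y ≠ 0 → ∀ γ, B.k y (γ • z) ≠ 0 → γ ∈ S := by
    intro y hy γ hγ
    refine hS y z (A.supp x y hy).2 (Finset.mem_singleton_self _) (fun w => ?_)
      (fun w => (hBd (Or.inr ⟨w, rfl⟩)).trans (le_max_left _ _)) γ hγ
    refine (H3.bnd_le_of_coshDist ((A.supp x y hy).1 w)).trans (le_trans ?_ (le_max_right _ _))
    exact mul_le_mul_of_nonneg_left (hBd (Or.inl ⟨w, rfl⟩))
      (H3.nearC_nonneg (zero_le_one.trans (H3.one_le_of_coshDist ((A.supp x y hy).1 w))))
  have h2 : ∀ y, A.k x y * B.aut y z = ∑ γ ∈ S, A.k x y * B.k y (γ • z) := fun y => by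
    by_cases hy : A.k x y = 0
    · simp [hy]
    · rw [← Finset.mul_sum, aut, tsum_eq_sum fun γ hγ => ?_]
      by_contra h
      exact hγ (hS' y hy γ h)
  have hint' : ∀ γ : G2 L, Integrable (fun y => A.k x y * B.k y (γ • z)) (Space.vol U) := fun γ =>
    A.integrable_row x (B.meas.comp (measurable_id.prodMk measurable_const)) (B.bound · _)
  simp only [h2]
  rw [integral_finsetSum _ fun γ _ => hint' γ]
  show ∑' γ : G2 L, ∫ y, A.k x y * B.k y (γ • z) ∂Space.vol U = _
  refine tsum_eq_sum fun γ hγ => integral_eq_zero_of_ae (ae_of_all _ fun y => ?_)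
  by_contra h
  exact hγ (hS' y (left_ne_zero_of_mul h) γ (right_ne_zero_of_mul h))

end PtKer

end FermatAgent.LT
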