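import Mathlib
import Fermat.Agent.LT.Descent.Compose
import Fermat.Agent.LT.Base.KernelTrace

/-!
# Operators of bounded automorphised kernels on a fundamental domain
-/

set_option autoImplicit false

noncomputable section

open Matrix IsDedekindDomain NumberField Filter MeasureTheory
open scoped MatrixGroups ENNReal ComplexConjugate InnerProductSpace

namespace FermatAgent.LT

variable {L : Type*} [Field L] [NumberField L] {U : Level L}

/-- A point kernel whose automorphisation is bounded. -/
structure AutKer (U : Level L) extends PtKer U where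
  /-- a bound of the automorphisation -/
  CA : ℝ
  CA_nonneg : 0 ≤ CA
  aut_bound : ∀ x y, ‖toPtKer.aut x y‖ ≤ CA
  /-- a bound of the rows in the finite part -/
  N : ℕ
  nbr_card : ∀ c, (nbr c).card ≤ N

namespace AutKer

variable (A B : AutKer U)

/-- The bounded kernel. -/
def bker : BKer (Space U) where
  k := A.toPtKer.aut
  meas := A.toPtKer.measurable_aut
  C := A.CA
  C_nonneg := A.CA_nonneg
  bound := A.aut_bound

variable {s : Set (Space U)} (hs : IsFundamentalDomain (G2 L) s (Space.vol U))

include hs in
/-- The automorphisation of a composite. -/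
lemma aut_comp_eq (x z : Space U) :
    (A.toPtKer.comp B.toPtKer A.nbr_card).aut x z =
      ∫ y in s, A.toPtKer.aut x y * B.toPtKer.aut y z ∂Space.vol U :=
  A.toPtKer.aut_comp B.toPtKer A.nbr_card B.aut_bound hs x z

variable [IsFiniteMeasure ((Space.vol U).restrict s)]

include hs in
/-- The operator of a composite. -/
lemma op_comp_eq :
    (BKer.op ((Space.vol U).restrict s) A.bker).comp (BKer.op ((Space.vol U).restrict s) B.bker) =
      BKer.op ((Space.vol U).restrict s) (BKer.comp ((Space.vol U).restrict s) A.bker B.bker) ∧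
    ∀ x z, (BKer.comp ((Space.vol U).restrict s) A.bker B.bker).k x z =
      (A.toPtKer.comp B.toPtKer A.nbr_card).aut x z :=
  ⟨(BKer.op_comp _ _).symm, fun x z => (A.aut_comp_eq B hs x z).symm⟩

end AutKer

lemma PtKer.conj_aut (A : PtKer U) (h : ∀ x y, conj (A.k y x) = A.k x y) (x y : Space U) :
    conj (A.aut y x) = A.aut x y := by
  rw [PtKer.aut, PtKer.aut, Complex.conj_tsum, ← (Equiv.inv (G2 L)).tsum_eq]
  refine tsum_congr fun γ => ?_
  simp only [Equiv.inv_apply, h]
  rw [← A.inv γ, smul_inv_smul]

namespace AutKer

variable (A : AutKer U)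

/-- Symmetric data give self-adjoint operators. -/
lemma isSymmetric_op {s : Set (Space U)} [IsFiniteMeasure ((Space.vol U).restrict s)]
    (h : ∀ x y, conj (A.k y x) = A.k x y) :
    ((BKer.op ((Space.vol U).restrict s) A.bker :
      Lp ℂ 2 ((Space.vol U).restrict s) →L[ℂ] Lp ℂ 2 ((Space.vol U).restrict s)) :
        Lp ℂ 2 ((Space.vol U).restrict s) →ₗ[ℂ] Lp ℂ 2 ((Space.vol U).restrict s)).IsSymmetric :=
  BKer.isSymmetric_op (A.toPtKer.conj_aut h)

/-- The pairing of a hermitian kernel against a twisted one, as a single automorphised integral. -/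
theorem pair_compLeft (B : AutKer U) (h : ∀ x y, conj (A.k y x) = A.k x y) (σ : Space U → Space U)
    (hσ : Measurable σ) {s : Set (Space U)} (hs : IsFundamentalDomain (G2 L) s (Space.vol U))
    :
    BKer.pair ((Space.vol U).restrict s) A.bker (B.bker.compLeft σ hσ) =
      ∫ x in s, (B.toPtKer.comp A.toPtKer B.nbr_card).aut (σ x) x ∂Space.vol U := by
  unfold BKer.pair
  refine integral_congr_ae (ae_of_all _ fun x => ?_)
  dsimp only
  rw [B.aut_comp_eq A hs]
  refine integral_congr_ae (ae_of_all _ fun y => ?_)
  simp only [BKer.compLeft, bker]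
  rw [← A.toPtKer.conj_aut h y x, mul_comm]

end AutKer

end FermatAgent.LT
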