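import Mathlib
import Fermat.Agent.LT.Descent.CuspKer
import Fermat.Agent.LT.Descent.Ops

/-!
# Rows of product kernels have boundedly many entries
-/

set_option autoImplicit false

noncomputable section

open Matrix IsDedekindDomain NumberField Filter MeasureTheory
open scoped MatrixGroups ENNReal ComplexConjugate

namespace FermatAgent.LT

variable {L : Type*} [Field L] [NumberField L] {U : Level L}

/-- Rows have equal sizes. -/
lemma LocKer.row_card {v : HeightOneSpectrum (𝓞 L)} (A : LocKer U v) (c : G2 L ⧸ U.loc v) :
    (A.row c).toFinset.card = (A.row (QuotientGroup.mk 1)).toFinset.card := by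
  induction c using QuotientGroup.induction_on with
  | H g =>
    refine Finset.card_bij (fun d _ => g⁻¹ • d) (fun d hd => ?_) (fun a _ b _ h => ?_)
      fun d hd => ?_
    · simp only [Set.Finite.mem_toFinset, Set.mem_ofPred_eq] at hd ⊢
      rwa [← A.inv g, smul_inv_smul, MulAction.Quotient.smul_mk, smul_eq_mul, mul_one]
    · exact smul_left_cancel _ h
    · refine ⟨g • d, ?_, inv_smul_smul g d⟩
      simp only [Set.Finite.mem_toFinset, Set.mem_ofPred_eq] at hd ⊢
      rwa [← A.inv g, MulAction.Quotient.smul_mk, smul_eq_mul, mul_one] at hd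

open Classical in
/-- Neighbourhoods have bounded size. -/
lemma KerData.card_nbr_le (D : KerData U) (c : FinCoset U) :
    (D.toPtKer.nbr c).card ≤
      ∏ w ∈ D.S, ((D.fin w).row (QuotientGroup.mk 1)).toFinset.card := by
  show (D.finite_row c).toFinset.card ≤ _
  rw [← Finset.prod_congr rfl fun w _ => (D.fin w).row_card (c.1 w), ← Finset.card_pi]
  refine Finset.card_le_card_of_injOn (fun d w _ => d.1 w) (fun d hd => ?_) ?_
  · simp only [Finset.mem_coe, Set.Finite.mem_toFinset, Set.mem_ofPred_eq] at hd
    simp only [Finset.mem_coe, Finset.mem_pi, Set.Finite.mem_toFinset, Set.mem_ofPred_eq]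
    exact fun w hw => (D.kfin_ne_zero hd).2 w hw
  · intro d hd e he h
    simp only [Finset.mem_coe, Set.Finite.mem_toFinset, Set.mem_ofPred_eq] at hd he
    ext w
    by_cases hw : w ∈ D.S
    · exact congrFun (congrFun h w) hw
    · rw [← (D.kfin_ne_zero hd).1 w hw, (D.kfin_ne_zero he).1 w hw]

end FermatAgent.LT
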