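import Mathlib
import Fermat.Agent.LT.Descent.Compose
import Fermat.Agent.LT.Descent.LocKer
import Fermat.Agent.LT.Base.Functorial

/-!
# Convolution of invariant kernels at an infinite place

The convolution of two invariant kernels of hyperbolic space is one, associative, and preserves
invariance under the flip of the horizontal coordinate.
-/

set_option autoImplicit false

noncomputable section

open Matrix Filter MeasureTheory
open scoped MatrixGroups ENNReal ComplexConjugate

namespace FermatAgent.LT

namespace InfKer

/-- Balls are measurable. -/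
lemma measurableSet_ball (p : H3) (ρ : ℝ) : MeasurableSet {q | H3.coshDist p q ≤ ρ} := by
  refine (isClosed_le ?_ continuous_const).measurableSet
  unfold H3.coshDist
  exact continuous_const.add ((((Complex.continuous_normSq.comp
    (continuous_const.sub H3.continuous_z))).add
    ((continuous_const.sub H3.continuous_t).pow 2)).div (continuous_const.mul H3.continuous_t)
      fun q => mul_ne_zero (mul_ne_zero two_ne_zero p.t_pos.ne') q.t_pos.ne')

/-- Balls have equal volumes. -/
lemma vol_ball_eq (p : H3) (ρ : ℝ) :
    H3.vol {q | H3.coshDist p q ≤ ρ} = H3.vol {q | H3.coshDist H3.base q ≤ ρ} := by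
  obtain ⟨g, rfl, -⟩ := H3.exists_smul_base p
  rw [← (H3.measurePreserving_smul g).measure_preimage (measurableSet_ball _ _).nullMeasurableSet]
  simp [Set.preimage, H3.coshDist_smul]

variable (A B C : InfKer)

/-- Rows against bounded functions are integrable. -/
lemma integrable_row (p : H3) {f : H3 → ℂ} (hf : Measurable f) {M : ℝ} (hM : ∀ q, ‖f q‖ ≤ M) :
    Integrable (fun q => A.k p q * f q) H3.vol := by
  have hsupp : Function.support (fun q => A.k p q * f q) ⊆ {q | H3.coshDist p q ≤ A.ρ} :=
    fun q hq => A.supp p q (left_ne_zero_of_mul hq)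
  rw [← integrableOn_iff_integrable_of_support_subset hsupp]
  have : IsFiniteMeasure (H3.vol.restrict {q | H3.coshDist p q ≤ A.ρ}) :=
    ⟨by rw [Measure.restrict_apply_univ]; exact H3.vol_ball_lt_top _ _⟩
  refine Integrable.of_bound ((A.meas.comp measurable_prodMk_left).mul hf).aestronglyMeasurable
    (A.C * M) (ae_of_all _ fun q => ?_)
  rw [norm_mul]
  exact mul_le_mul (A.bound p q) (hM q) (norm_nonneg _) A.C_nonneg

/-- Convolution. -/
def comp : InfKer where
  k p r := ∫ q, A.k p q * B.k q r ∂H3.vol
  meas := by
    have h : StronglyMeasurable (Function.uncurry fun (x : H3 × H3) q => A.k x.1 q * B.k q x.2) :=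
      ((A.meas.comp ((measurable_fst.comp measurable_fst).prodMk measurable_snd)).mul
        (B.meas.comp
          (measurable_snd.prodMk (measurable_snd.comp measurable_fst)))).stronglyMeasurable
    exact h.integral_prod_right.measurable
  inv g p r := by
    show ∫ q, A.k (g • p) q * B.k q (g • r) ∂H3.vol = _
    rw [← (H3.measurePreserving_smul g).integral_comp
      (MeasurableEquiv.smul g : H3 ≃ᵐ H3).measurableEmbedding]
    simp [A.inv, B.inv]
  C := A.C * B.C * (H3.vol {q | H3.coshDist H3.base q ≤ A.ρ}).toReal
  C_nonneg := mul_nonneg (mul_nonneg A.C_nonneg B.C_nonneg) ENNReal.toReal_nonneg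
  bound p r := by
    rw [← setIntegral_eq_integral_of_forall_compl_eq_zero (s := {q | H3.coshDist p q ≤ A.ρ})
      fun q hq => by
        by_contra h
        exact hq (A.supp p q (left_ne_zero_of_mul h))]
    refine (norm_setIntegral_le_of_norm_le_const (H3.vol_ball_lt_top _ _) (C := A.C * B.C)
      fun q _ => ?_).trans (le_of_eq (by rw [Measure.real, vol_ball_eq]))
    rw [norm_mul]
    exact mul_le_mul (A.bound p q) (B.bound q r) (norm_nonneg _) A.C_nonneg
  ρ := 1 + H3.nearC (max B.ρ 0) * (H3.nearC (max A.ρ 0) * 3)
  supp p r h := by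
    obtain ⟨q, hq⟩ : ∃ q, A.k p q * B.k q r ≠ 0 := by
      by_contra hh
      push Not at hh
      exact h (by simp [hh])
    exact H3.coshDist_trans ((A.supp p q (left_ne_zero_of_mul hq)).trans (le_max_left _ _))
      ((B.supp q r (right_ne_zero_of_mul hq)).trans (le_max_left _ _))

/-- The composed kernel. -/
lemma comp_k (p r : H3) : (A.comp B).k p r = ∫ q, A.k p q * B.k q r ∂H3.vol := rfl

/-- Composition is associative. -/
lemma comp_assoc (p r : H3) : ((A.comp B).comp C).k p r = (A.comp (B.comp C)).k p r := by
  simp only [comp_k, ← integral_mul_const, ← integral_const_mul, ← mul_assoc]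
  refine (integral_integral_swap ?_).symm
  set Ball := {q | H3.coshDist p q ≤ A.ρ}
  set Ball' := {s | H3.coshDist p s ≤ (A.comp B).ρ}
  have hsupp : Function.support (Function.uncurry fun q s => A.k p q * B.k q s * C.k s r) ⊆
      Ball ×ˢ Ball' := fun x hx => by
    have h1 := A.supp _ _ (left_ne_zero_of_mul (left_ne_zero_of_mul hx))
    have h2 := B.supp _ _ (right_ne_zero_of_mul (left_ne_zero_of_mul hx))
    exact ⟨h1, H3.coshDist_trans (h1.trans (le_max_left _ _)) (h2.trans (le_max_left _ _))⟩
  rw [← integrableOn_iff_integrable_of_support_subset hsupp]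
  refine IntegrableOn.of_bound ?_ ?_ (A.C * B.C * C.C) (ae_of_all _ fun x => ?_)
  · rw [Measure.prod_prod]
    exact ENNReal.mul_lt_top (H3.vol_ball_lt_top _ _) (H3.vol_ball_lt_top _ _)
  · exact (((A.meas.comp (measurable_const.prodMk measurable_fst)).mul (B.meas.comp
      (measurable_fst.prodMk measurable_snd))).mul
      (C.meas.comp (measurable_snd.prodMk measurable_const))).aestronglyMeasurable
  · simp only [Function.uncurry, norm_mul]
    exact mul_le_mul (mul_le_mul (A.bound _ _) (B.bound _ _) (norm_nonneg _) A.C_nonneg)
      (C.bound _ _) (norm_nonneg _) (mul_nonneg A.C_nonneg B.C_nonneg)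

/-- Invariance under conjugation of the horizontal coordinate. -/
def IsFlip : Prop := ∀ p q, A.k (H3.flip p) (H3.flip q) = A.k p q

/-- Compositions of flip invariant kernels are flip invariant. -/
lemma IsFlip.comp {A B : InfKer} (hA : A.IsFlip) (hB : B.IsFlip) : (A.comp B).IsFlip := by
  intro p r
  let e : H3 ≃ᵐ H3 :=
    { toFun := H3.flip
      invFun := H3.flip
      left_inv := H3.flip_flip
      right_inv := H3.flip_flip
      measurable_toFun := H3.continuous_flip.measurable
      measurable_invFun := H3.continuous_flip.measurable }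
  simp only [comp_k]
  rw [← H3.measurePreserving_flip.integral_comp (f := H3.flip) e.measurableEmbedding]
  simp only [hA _ _, hB _ _]

end InfKer

end FermatAgent.LT
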