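import Mathlib

/-!
# Cyclic triples

An integral over three copies of a space of a cyclically twisted product of invariant kernels is
the integral over one copy of the composite kernel at the composite twist.
-/

set_option autoImplicit false

noncomputable section

open MeasureTheory

namespace FermatAgent.LT.Triple

variable {P : Type*} [MeasurableSpace P] (μ : Measure P) [SigmaFinite μ]

/-- Three copies as a product. -/
def split : (Fin 3 → P) ≃ᵐ P × P × P where
  toFun y := (y 0, y 1, y 2)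
  invFun y := ![y.1, y.2.1, y.2.2]
  left_inv y := by
    funext i
    fin_cases i <;> rfl
  right_inv y := rfl
  measurable_toFun := (measurable_pi_apply 0).prodMk ((measurable_pi_apply 1).prodMk
    (measurable_pi_apply 2))
  measurable_invFun := by
    refine measurable_pi_lambda _ fun i => ?_
    fin_cases i
    · exact measurable_fst
    · exact measurable_fst.comp measurable_snd
    · exact measurable_snd.comp measurable_snd

/-- Splitting triples preserves the measure. -/
lemma measurePreserving_split :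
    MeasurePreserving (split (P := P)) (Measure.pi fun _ => μ) (μ.prod (μ.prod μ)) := by
  refine MeasurePreserving.symm (split (P := P)).symm ⟨(split (P := P)).symm.measurable, ?_⟩
  symm
  refine Measure.pi_eq fun s hs => ?_
  rw [(split (P := P)).symm.map_apply]
  have e : (split (P := P)).symm ⁻¹' Set.univ.pi s = s 0 ×ˢ (s 1 ×ˢ s 2) := by
    ext ⟨a, b, c⟩
    simp only [Set.mem_preimage, Set.mem_univ_pi, Set.mem_prod, Fin.forall_fin_succ,
      IsEmpty.forall_iff,
      and_true]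
    rfl
  rw [e, Measure.prod_prod, Measure.prod_prod, Fin.prod_univ_three, mul_assoc]

variable {μ}

/-- The composite of three kernels. -/
def comp3 (μ : Measure P) (k₁ k₂ k₃ : P → P → ℂ) (a b : P) : ℂ :=
  ∫ z : P × P, k₁ z.1 b * k₂ z.2 z.1 * k₃ a z.2 ∂μ.prod μ

/-- The integral over three copies of a cyclically twisted product of invariant kernels is the
integral over one copy of their composite at the composite twist. -/
theorem integral_twisted (k₁ k₂ k₃ : P → P → ℂ) (A₁ A₂ A₃ : P ≃ᵐ P)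
    (h₁ : MeasurePreserving A₁ μ μ) (h₂ : MeasurePreserving A₂ μ μ)
    (hk₂ : ∀ p q, k₂ (A₁ p) (A₁ q) = k₂ p q) (hk₃ : ∀ p q, k₃ (A₁ (A₂ p)) (A₁ (A₂ q)) = k₃ p q)
    (Ψ : P → ℂ)
    (hint : Integrable (fun y : P × P × P => Ψ y.1 * (k₁ (A₁ y.2.1) y.1 * k₂ (A₂ y.2.2) y.2.1 *
      k₃ (A₃ y.1) y.2.2)) (μ.prod (μ.prod μ))) :
    ∫ y : P × P × P, Ψ y.1 * (k₁ (A₁ y.2.1) y.1 * k₂ (A₂ y.2.2) y.2.1 * k₃ (A₃ y.1) y.2.2)
        ∂μ.prod (μ.prod μ) =
      ∫ y, Ψ y * comp3 μ k₁ k₂ k₃ (A₁ (A₂ (A₃ y))) y ∂μ := by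
  let e : P × P × P ≃ᵐ P × P × P :=
    MeasurableEquiv.prodCongr (MeasurableEquiv.refl P) (MeasurableEquiv.prodCongr A₁ (A₂.trans A₁))
  have he : MeasurePreserving e (μ.prod (μ.prod μ)) (μ.prod (μ.prod μ)) :=
    (MeasurePreserving.id μ).prod (h₁.prod (h₁.comp h₂))
  let G : P × P × P → ℂ := fun z => Ψ z.1 * (k₁ z.2.1 z.1 * k₂ z.2.2 z.2.1 *
    k₃ (A₁ (A₂ (A₃ z.1))) z.2.2)
  have hGe : ∀ y, G (e y) = Ψ y.1 * (k₁ (A₁ y.2.1) y.1 * k₂ (A₂ y.2.2) y.2.1 *
      k₃ (A₃ y.1) y.2.2) := by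
    rintro ⟨a, b, c⟩
    show Ψ a * (k₁ (A₁ b) a * k₂ (A₁ (A₂ c)) (A₁ b) * k₃ (A₁ (A₂ (A₃ a))) (A₁ (A₂ c))) = _
    rw [hk₂, hk₃]
  have hG : Integrable G (μ.prod (μ.prod μ)) := by
    rw [← he.integrable_comp_emb e.measurableEmbedding]
    exact hint.congr (ae_of_all _ fun y => (hGe y).symm)
  calc _ = ∫ y, G (e y) ∂μ.prod (μ.prod μ) := by simp only [hGe]
    _ = ∫ z, G z ∂μ.prod (μ.prod μ) := he.integral_comp e.measurableEmbedding G
    _ = _ := by
      rw [integral_prod _ hG]
      refine integral_congr_ae (ae_of_all _ fun y => ?_)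
      simp only [G, comp3]
      rw [integral_const_mul]

end FermatAgent.LT.Triple
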