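import Mathlib
import Fermat.Agent.LT.Descent.Triple
import Fermat.Agent.LT.Descent.LocKer
import Fermat.Agent.LT.Base.SpaceMap

/-!
# The three places at infinity of a cyclic cubic extension

An automorphism of order three permutes three infinite places cyclically.  The twisted product of
kernels over them collapses to the composite kernel at one place evaluated at the norm.
-/

set_option autoImplicit false

noncomputable section

open Matrix IsDedekindDomain NumberField Filter MeasureTheory
open scoped MatrixGroups ENNReal ComplexConjugate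

namespace FermatAgent.LT

variable {L : Type*} [Field L] {τ : L ≃+* L}

/-- An enumeration of three places permuted cyclically. -/
structure InfCycle (τ : L ≃+* L) where
  /-- the places -/
  e : Fin 3 ≃ InfinitePlace L
  comap_e : ∀ i, (e i).comap (τ : L →+* L) = e (i + 1)
  complex : ∀ i, (e i).IsComplex
  cube : ∀ x, τ (τ (τ x)) = x

namespace InfCycle

variable (T : InfCycle τ)

/-- The norm of a group element. -/
def nrm (_T : InfCycle τ) (c : G2 L) : G2 L :=
  c * g2Map (τ : L →+* L) c * g2Map (τ : L →+* L) (g2Map (τ : L →+* L) c)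

/-- The twist at the `i`th place. -/
def tw (i : Fin 3) : H3 → H3 := twistPt (τ : L →+* L) (T.e i)

/-- The embedded action at the `i`th place. -/
def act (i : Fin 3) (c : G2 L) (p : H3) : H3 := (ProjGenLinGroup.map (T.e i).embedding c) • p

lemma act_mul (i : Fin 3) (a b : G2 L) (p : H3) : T.act i (a * b) p = T.act i a (T.act i b p) := by
  simp [act, map_mul, mul_smul]

lemma tw_tw (i : Fin 3) (p : H3) : T.tw i (T.tw i p) = p := twistPt_twistPt_symm _ _ p

lemma tw_act (i : Fin 3) (c : G2 L) (p : H3) :
    T.tw i (T.act (i + 1) c p) = T.act i (g2Map (τ : L →+* L) c) (T.tw i p) := by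
  induction c using Matrix.ProjGenLinGroup.induction_on with | mk g =>
  simp only [act, ProjGenLinGroup.map_mk, H3.mk_smul]
  have h := twistPt_smul (τ : L →+* L) (T.e i) g (T.tw i p)
  rw [T.comap_e i] at h
  rw [show twistPt (τ : L →+* L) (T.e i) (T.tw i p) = p from T.tw_tw i p] at h
  rw [← h]
  exact T.tw_tw i _

lemma conj_embedding_ne (i : Fin 3) :
    ComplexEmbedding.conjugate (T.e i).embedding ≠ (T.e i).embedding :=
  fun h => InfinitePlace.isComplex_iff.mp (T.complex i) h

/-- The three twists compose to the identity. -/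
lemma tw_comp (p : H3) : T.tw 0 (T.tw 1 (T.tw 2 p)) = p := by
  classical
  let f : Fin 3 → Bool := fun i =>
    decide ((T.e i).embedding.comp (τ : L →+* L) = (T.e (i + 1)).embedding)
  have htw : ∀ i q, T.tw i q = if f i then q else H3.flip q := fun i q => by
    simp only [tw, twistPt, f, T.comap_e i, decide_eq_true_eq]
  let cj : Bool → ℂ →+* ℂ := fun b => if b then RingHom.id ℂ else starRingEnd ℂ
  have hemb : ∀ i x, (T.e i).embedding (τ x) = cj (f i) ((T.e (i + 1)).embedding x) := by
    intro i x
    by_cases h : (T.e i).embedding.comp (τ : L →+* L) = (T.e (i + 1)).embedding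
    · simp only [f, decide_eq_true h, cj, if_true]
      exact congrFun (congrArg DFunLike.coe h) x
    · have h' := (comap_embedding_eq_or (τ : L →+* L) (T.e i)).resolve_left
        (by rwa [T.comap_e i])
      rw [T.comap_e i] at h'
      simp only [f, decide_eq_false h, cj, Bool.false_eq_true, if_false]
      have := congrFun (congrArg DFunLike.coe h') x
      simp only [ComplexEmbedding.conjugate_coe_eq, RingHom.coe_comp, RingHom.coe_coe,
        Function.comp_apply] at this
      rw [← this, Complex.conj_conj]
  have h3 : ∀ x, (T.e 0).embedding x = cj (f 0) (cj (f 1) (cj (f 2) ((T.e 0).embedding x))) := by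
    intro x
    conv_lhs => rw [← T.cube x]
    rw [hemb 0, show (0 : Fin 3) + 1 = 1 from rfl, hemb 1, show (1 : Fin 3) + 1 = 2 from rfl,
      hemb 2, show (2 : Fin 3) + 1 = 0 from rfl]
  have hne := T.conj_embedding_ne 0
  cases h0 : f 0 <;> cases h1 : f 1 <;> cases h2 : f 2 <;>
    simp only [h0, h1, h2, cj, Bool.false_eq_true, if_false, if_true, RingHom.id_apply,
      Complex.conj_conj] at h3 <;>
    first
    | (simp [htw, h0, h1, h2, H3.flip_flip]; done)
    | exact absurd (RingHom.ext fun x => (h3 x).symm) hne

/-- Composite of the twisted maps: the action of the norm. -/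
lemma twisted_comp (c : G2 L) (p : H3) :
    T.act 0 c (T.tw 0 (T.act 1 c (T.tw 1 (T.act 2 c (T.tw 2 p))))) = T.act 0 (T.nrm c) p := by
  have e1 : ∀ q, T.tw 1 (T.act 2 c q) = T.act 1 (g2Map (τ : L →+* L) c) (T.tw 1 q) :=
    fun q => T.tw_act 1 c q
  have e0 : ∀ a q, T.tw 0 (T.act 1 a q) = T.act 0 (g2Map (τ : L →+* L) a) (T.tw 0 q) :=
    fun a q => T.tw_act 0 a q
  rw [e1, e0, e0, T.tw_comp, nrm, act_mul, act_mul]

/-- The step map at the `i`th place. -/
def step (i : Fin 3) (c : G2 L) : H3 ≃ᵐ H3 where
  toFun p := T.act i c (T.tw i p)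
  invFun p := T.tw i (T.act i c⁻¹ p)
  left_inv p := by
    show T.tw i (T.act i c⁻¹ (T.act i c (T.tw i p))) = p
    rw [← act_mul, inv_mul_cancel]
    simp [act, tw_tw]
  right_inv p := by
    show T.act i c (T.tw i (T.tw i (T.act i c⁻¹ p))) = p
    rw [tw_tw, ← act_mul, mul_inv_cancel]
    simp [act]
  measurable_toFun := by
    induction c using Matrix.ProjGenLinGroup.induction_on with | mk g =>
    simp only [act, ProjGenLinGroup.map_mk, H3.mk_smul]
    exact (measurable_const_smul (GeneralLinearGroup.map (T.e i).embedding g)).comp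
      (measurePreserving_twistPt (τ : L →+* L) (T.e i)).measurable
  measurable_invFun := by
    induction c using Matrix.ProjGenLinGroup.induction_on with | mk g =>
    simp only [act, ← map_inv, ProjGenLinGroup.map_mk, H3.mk_smul]
    exact (measurePreserving_twistPt (τ : L →+* L) (T.e i)).measurable.comp
      (measurable_const_smul (GeneralLinearGroup.map (T.e i).embedding g⁻¹))

/-- The steps preserve the volume. -/
lemma measurePreserving_step (i : Fin 3) (c : G2 L) :
    MeasurePreserving (T.step i c) H3.vol H3.vol := by
  induction c using Matrix.ProjGenLinGroup.induction_on with | mk g =>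
  have e : ⇑(T.step i (ProjGenLinGroup.mk g)) =
      (fun p => GeneralLinearGroup.map (T.e i).embedding g • p) ∘
      twistPt (τ : L →+* L) (T.e i) := by
    funext p
    simp [step, act, tw, H3.mk_smul]
  rw [e]
  exact (H3.measurePreserving_smul _).comp (measurePreserving_twistPt _ _)

/-- Kernels invariant under the conjugation of the horizontal coordinate. -/
lemma step_inv (i : Fin 3) (c : G2 L) {k : InfKer}
    (hflip : ∀ p q, k.k (H3.flip p) (H3.flip q) = k.k p q) (p q : H3) :
    k.k (T.step i c p) (T.step i c q) = k.k p q := by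
  induction c using Matrix.ProjGenLinGroup.induction_on with | mk g =>
  show k.k (T.act i (ProjGenLinGroup.mk g) (T.tw i p))
      (T.act i (ProjGenLinGroup.mk g) (T.tw i q)) = _
  simp only [act, ProjGenLinGroup.map_mk, H3.mk_smul]
  rw [k.inv]
  unfold tw twistPt
  split_ifs
  · rfl
  · exact hflip p q

end InfCycle

end FermatAgent.LT
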