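import Mathlib
import Fermat.Agent.LT.Descent.Compose

/-!
# Twisted classes and their sums

For a semilinear map `σ` the sum over `c` of `k (c • σ x) x` splits along sets stable under twisted
conjugation, and the partial sums over these sets are invariant.
-/

set_option autoImplicit false

noncomputable section

open Matrix IsDedekindDomain NumberField Filter MeasureTheory
open scoped MatrixGroups ENNReal

namespace FermatAgent.LT

variable {L : Type*} [Field L] [NumberField L] {U : Level L}

/-- A measurable self-map of the space, semilinear for an automorphism of the group. -/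
structure Semilin (U : Level L) where
  /-- the automorphism of the group -/
  sg : G2 L →* G2 L
  /-- the map -/
  map : Space U → Space U
  meas : Measurable map
  map_smul : ∀ (g : G2 L) x, map (g • x) = sg g • map x

namespace Semilin

variable (σ : Semilin U)

/-- Twisted conjugation. -/
def conj (g c : G2 L) : G2 L := g * c * (σ.sg g)⁻¹

/-- Twisted conjugation is an action. -/
lemma conj_mul (g h c : G2 L) : σ.conj (g * h) c = σ.conj g (σ.conj h c) := by
  simp [conj, map_mul, _root_.mul_inv_rev, mul_assoc]

/-- One acts trivially. -/
@[simp] lemma conj_one (c : G2 L) : σ.conj 1 c = c := by simp [conj]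

/-- The twisted centraliser. -/
def centralizer (c : G2 L) : Subgroup (G2 L) where
  carrier := {g | σ.conj g c = c}
  one_mem' := σ.conj_one c
  mul_mem' {g h} hg hh := by
    show σ.conj (g * h) c = c
    rw [conj_mul, show σ.conj h c = c from hh]
    exact hg
  inv_mem' {g} hg := by
    show σ.conj g⁻¹ c = c
    conv_lhs => rw [← show σ.conj g c = c from hg]
    rw [← conj_mul, inv_mul_cancel, conj_one]

/-- A set stable under twisted conjugation. -/
def Stable (C : Set (G2 L)) : Prop := ∀ g c, c ∈ C → σ.conj g c ∈ C

/-- The twisted class of an element. -/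
def cls (c : G2 L) : Set (G2 L) := Set.range fun g => σ.conj g c

variable (k : PtKer U)

/-- The function `k (c • σ x) x` of a group element `c`. -/
def term (c : G2 L) (x : Space U) : ℂ := k.k (c • σ.map x) x

/-- Terms transform under the group. -/
lemma term_smul (c g : G2 L) (x : Space U) :
    σ.term k c (g • x) = σ.term k (σ.conj g⁻¹ c) x := by
  unfold term
  rw [σ.map_smul, ← k.inv g⁻¹, inv_smul_smul]
  simp [conj, mul_smul]

/-- Only finitely many terms are nonzero. -/
lemma finite_term (x : Space U) : {c : G2 L | σ.term k c x ≠ 0}.Finite := by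
  refine (((k.finite_support (σ.map x) x).image fun γ => γ⁻¹)).subset fun c hc =>
    ⟨c⁻¹, ?_, inv_inv c⟩
  show k.k (σ.map x) (c⁻¹ • x) ≠ 0
  rwa [← k.inv c, smul_inv_smul]

/-- Terms are measurable. -/
lemma measurable_term (c : G2 L) : Measurable (σ.term k c) :=
  k.meas.comp (((measurable_const_smul c).comp σ.meas).prodMk measurable_id)

/-- The sum of the terms over a set of group elements. -/
def sumOn (C : Set (G2 L)) (x : Space U) : ℂ := ∑' c : G2 L, C.indicator (fun c => σ.term k c x) c

lemma summable_sumOn (C : Set (G2 L)) (x : Space U) :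
    Summable (C.indicator fun c => σ.term k c x) :=
  summable_of_hasFiniteSupport ((σ.finite_term k x).subset fun c hc => by
    simp only [Function.mem_support] at hc
    intro h
    exact hc (by by_cases hC : c ∈ C <;> simp [hC, h]))

/-- The sum over all classes is the automorphisation. -/
lemma sumOn_univ (x : Space U) : σ.sumOn k Set.univ x = k.aut (σ.map x) x := by
  unfold sumOn PtKer.aut
  rw [← (Equiv.inv (G2 L)).tsum_eq]
  refine tsum_congr fun γ => ?_
  simp only [Set.indicator_univ, term, Equiv.inv_apply]
  rw [← k.inv γ, smul_inv_smul]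

/-- Sums over disjoint sets add. -/
lemma sumOn_union {C D : Set (G2 L)} (h : Disjoint C D) (x : Space U) :
    σ.sumOn k (C ∪ D) x = σ.sumOn k C x + σ.sumOn k D x := by
  unfold sumOn
  rw [← (σ.summable_sumOn k C x).tsum_add (σ.summable_sumOn k D x)]
  exact tsum_congr fun c => congrFun (Set.indicator_union_of_disjoint h _) c

/-- Sums are measurable. -/
lemma measurable_sumOn (C : Set (G2 L)) : Measurable (σ.sumOn k C) := by
  classical
  obtain ⟨e, he⟩ := exists_surjective_nat (G2 L)
  refine measurable_of_tendsto_metrizable
    (f := fun n x => ∑ c ∈ (Finset.range n).image e, C.indicator (fun c => σ.term k c x) c)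
    (fun n => Finset.measurable_sum _ fun c _ => ?_) ?_
  · by_cases hc : c ∈ C
    · simpa [hc] using σ.measurable_term k c
    · simp [hc]
  rw [tendsto_pi_nhds]
  intro x
  have h : Tendsto (fun n => (Finset.range n).image e) atTop atTop :=
    tendsto_atTop_finset_of_monotone (fun m n h => Finset.image_subset_image (Finset.range_mono h))
      fun c => by
        obtain ⟨n, rfl⟩ := he c
        exact ⟨n + 1, Finset.mem_image_of_mem e (Finset.mem_range.mpr (Nat.lt_succ_self n))⟩
  exact (σ.summable_sumOn k C x).hasSum.comp h

/-- Sums over stable sets are invariant. -/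
lemma sumOn_smul {C : Set (G2 L)} (hC : σ.Stable C) (g : G2 L) (x : Space U) :
    σ.sumOn k C (g • x) = σ.sumOn k C x := by
  classical
  let e : G2 L ≃ G2 L :=
    ⟨σ.conj g⁻¹, σ.conj g, fun c => by rw [← conj_mul, mul_inv_cancel, conj_one],
      fun c => by rw [← conj_mul, inv_mul_cancel, conj_one]⟩
  unfold sumOn
  rw [← e.tsum_eq fun c => C.indicator (fun c => σ.term k c x) c]
  refine tsum_congr fun c => ?_
  have hiff : σ.conj g⁻¹ c ∈ C ↔ c ∈ C :=
    ⟨fun h => by simpa [← conj_mul] using hC g _ h, fun h => hC _ _ h⟩
  simp only [Set.indicator_apply, e, Equiv.coe_fn_mk, hiff, term_smul]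

end Semilin

end FermatAgent.LT
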