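import Mathlib
import Fermat.Agent.LT.Descent.InfTriple
import Fermat.Agent.LT.Descent.InfComp
import Fermat.Agent.LT.Descent.Unfold

/-!
# Pushing a twisted term forward to the base field

The integral over the space of the cubic extension of a twisted term against a weight which is
carried by the base field is an integral over the space of the base field of the composite kernel
at the norm.
-/

set_option autoImplicit false

noncomputable section

open Matrix IsDedekindDomain NumberField Filter MeasureTheory
open scoped MatrixGroups ENNReal ComplexConjugate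

namespace FermatAgent.LT

variable (K L : Type*) [Field K] [NumberField K] [Field L] [NumberField L] [Algebra K L]

/-- A cyclic cubic extension of a field with one infinite place, with the three places above and
levels above and below. -/
structure TwistCtx where
  /-- the automorphism -/
  τ : L ≃+* L
  fix : ∀ x : K, τ (algebraMap K L x) = algebraMap K L x
  /-- the infinite places -/
  T : InfCycle τ
  /-- the infinite place of the base -/
  v : InfinitePlace K
  uniq : ∀ v' : InfinitePlace K, v' = v
  /-- the level above -/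
  UL : Level L
  /-- the level below -/
  UK : Level K
  stable : ∀ w g, g2Map (τ : L →+* L) g ∈ UL.loc w ↔ g ∈ UL.loc ((placeMap τ).symm w)

/-- Slices along a countable factor with the counting measure. -/
lemma integrable_slice {α β : Type*} [MeasurableSpace α] [MeasurableSpace β]
    [Countable β] {μ : Measure α} [SFinite μ] {f : α × β → ℂ}
    (h : Integrable f (μ.prod Measure.count)) (b : β) : Integrable (fun a => f (a, b)) μ := by
  have hae := h.prod_left_ae
  rw [ae_iff, Measure.count_eq_zero_iff] at hae
  by_contra hb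
  exact Set.eq_empty_iff_forall_notMem.mp hae b hb

namespace TwistCtx

variable {K L} (X : TwistCtx K L)

/-- The semilinear map. -/
def σ : Semilin X.UL where
  sg := g2Map (X.τ : L →+* L)
  map := (LevelHom.ofAut X.stable).map
  meas := (LevelHom.ofAut X.stable).measurable_map
  map_smul g x := (LevelHom.ofAut X.stable).map_smul g x

/-- The inclusion of groups. -/
abbrev incl : G2 K →* G2 L := g2Map (algebraMap K L)

/-- The twisted finite map. -/
def finTwist (γ : G2 L) (x : FinCoset X.UL) : FinCoset X.UL :=
  γ • (LevelHom.ofAut X.stable).finMap x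

/-- The projection at infinity. -/
def proj (p : InfPts L) : InfPts K := fun _ =>
  twistPt (algebraMap K L) (X.T.e 0) (p (X.T.e 0))

/-- The infinite points as triples. -/
def triEquiv : InfPts L ≃ᵐ H3 × H3 × H3 :=
  (MeasurableEquiv.piCongrLeft (fun _ : InfinitePlace L => H3) X.T.e).symm.trans Triple.split

/-- The three coordinates at infinity. -/
lemma triEquiv_apply (p : InfPts L) :
    X.triEquiv p = (p (X.T.e 0), p (X.T.e 1), p (X.T.e 2)) := rfl

/-- The coordinates preserve the volume. -/
lemma measurePreserving_triEquiv :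
    MeasurePreserving X.triEquiv (Measure.pi fun _ : InfinitePlace L => H3.vol)
      (H3.vol.prod (H3.vol.prod H3.vol)) :=
  (Triple.measurePreserving_split H3.vol).comp
    (measurePreserving_piCongrLeft (fun _ : InfinitePlace L => H3.vol) X.T.e).symm

/-- The first place restricts to the place below. -/
lemma comap_e_zero : (X.T.e 0).comap (algebraMap K L) = X.v := X.uniq _

/-- A product at infinity along the twisted cycle. -/
lemma prod_twisted {R : Type*} [CommMonoid R] (k : H3 → H3 → R) (γ : G2 L) (p : InfPts L) :
    ∏ w, k ((γ • (LevelHom.infMap (X.τ : L →+* L) p)) w) (p w) =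
      k (X.T.step 0 γ (p (X.T.e 1))) (p (X.T.e 0)) * k (X.T.step 1 γ (p (X.T.e 2))) (p (X.T.e 1)) *
        k (X.T.step 2 γ (p (X.T.e 0))) (p (X.T.e 2)) := by
  have hstep : ∀ i, (γ • (LevelHom.infMap (X.τ : L →+* L) p)) (X.T.e i) =
      X.T.step i γ (p (X.T.e (i + 1))) := by
    intro i
    rw [infPts_smul_apply]
    show _ • twistPt (X.τ : L →+* L) (X.T.e i) (p ((X.T.e i).comap (X.τ : L →+* L))) = _
    rw [X.T.comap_e i]
    rfl
  rw [← X.T.e.prod_comp, Fin.prod_univ_three, hstep, hstep, hstep]
  rfl

/-- A composite of three copies of a kernel. -/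
lemma comp3_eq (k : InfKer) (a b : H3) :
    Triple.comp3 H3.vol k.k k.k k.k a b = (k.comp (k.comp k)).k a b := by
  rw [Triple.comp3, InfKer.comp_k]
  have hint : Integrable (fun z : H3 × H3 => k.k z.1 b * k.k z.2 z.1 * k.k a z.2)
      (H3.vol.prod H3.vol) := by
    have hsupp : Function.support (fun z : H3 × H3 => k.k z.1 b * k.k z.2 z.1 * k.k a z.2) ⊆
        {q | H3.coshDist a q ≤ 1 + H3.nearC (max k.ρ 0) * (H3.nearC (max k.ρ 0) * 3)} ×ˢ
          {q | H3.coshDist a q ≤ k.ρ} := fun z hz => by
      have h1 := k.supp _ _ (right_ne_zero_of_mul hz)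
      have h2 := k.supp _ _ (right_ne_zero_of_mul (left_ne_zero_of_mul hz))
      exact ⟨H3.coshDist_trans (h1.trans (le_max_left _ _)) (h2.trans (le_max_left _ _)), h1⟩
    rw [← integrableOn_iff_integrable_of_support_subset hsupp]
    refine IntegrableOn.of_bound ?_ ?_ (k.C * k.C * k.C) (ae_of_all _ fun z => ?_)
    · rw [Measure.prod_prod]
      exact ENNReal.mul_lt_top (H3.vol_ball_lt_top _ _) (H3.vol_ball_lt_top _ _)
    · exact (((k.meas.comp (measurable_fst.prodMk measurable_const)).mul (k.meas.comp
        (measurable_snd.prodMk measurable_fst))).mul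
        (k.meas.comp (measurable_const.prodMk measurable_snd))).aestronglyMeasurable
    · simp only [norm_mul]
      exact mul_le_mul (mul_le_mul (k.bound _ _) (k.bound _ _) (norm_nonneg _) k.C_nonneg)
        (k.bound _ _) (norm_nonneg _) (mul_nonneg k.C_nonneg k.C_nonneg)
  rw [integral_prod_symm _ hint]
  refine integral_congr_ae (ae_of_all _ fun q => ?_)
  dsimp only
  rw [InfKer.comp_k, ← integral_const_mul]
  exact integral_congr_ae (ae_of_all _ fun r => by ring)

lemma flip_twist {k : InfKer} (hk : k.IsFlip) {F : Type*} [Field F] {M : Type*} [Field M]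
    (φ : F →+* M) (w : InfinitePlace M) (p q : H3) :
    k.k (twistPt φ w p) (twistPt φ w q) = k.k p q := by
  unfold twistPt
  split_ifs
  · rfl
  · exact hk p q

/-- At infinity the twisted product over the three places, against a function from below, is the
threefold composite kernel at the norm. -/
theorem integral_inf (γ : G2 L) (δ : G2 K) (hN : X.T.nrm γ = incl δ) (k : InfKer) (hk : k.IsFlip)
    (θ : InfPts K → ℂ)
    (hint : Integrable (fun p : InfPts L => θ (X.proj p) *
      ∏ w, k.k ((γ • (LevelHom.infMap (X.τ : L →+* L) p)) w) (p w))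
      (Measure.pi fun _ : InfinitePlace L => H3.vol)) :
    ∫ p : InfPts L, θ (X.proj p) *
        ∏ w, k.k ((γ • (LevelHom.infMap (X.τ : L →+* L) p)) w) (p w)
        ∂(Measure.pi fun _ : InfinitePlace L => H3.vol) =
      ∫ z : InfPts K, θ z * (k.comp (k.comp k)).k ((δ • z) X.v) (z X.v)
        ∂(Measure.pi fun _ : InfinitePlace K => H3.vol) := by
  set Θ₀ : H3 → ℂ := fun a => θ fun _ => twistPt (algebraMap K L) (X.T.e 0) a
  set G : H3 × H3 × H3 → ℂ := fun y => Θ₀ y.1 * (k.k (X.T.step 0 γ y.2.1) y.1 *
    k.k (X.T.step 1 γ y.2.2) y.2.1 * k.k (X.T.step 2 γ y.1) y.2.2)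
  have hG : ∀ p, θ (X.proj p) * ∏ w, k.k ((γ • (LevelHom.infMap (X.τ : L →+* L) p)) w) (p w) =
      G (X.triEquiv p) := by
    intro p
    rw [X.prod_twisted]
    simp only [G, X.triEquiv_apply]
    rfl
  simp only [hG] at hint ⊢
  have hint' : Integrable G (H3.vol.prod (H3.vol.prod H3.vol)) := by
    rw [← X.measurePreserving_triEquiv.integrable_comp_emb X.triEquiv.measurableEmbedding]
    exact hint
  rw [X.measurePreserving_triEquiv.integral_comp X.triEquiv.measurableEmbedding G,
    Triple.integral_twisted k.k k.k k.k (X.T.step 0 γ) (X.T.step 1 γ) (X.T.step 2 γ)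
      (X.T.measurePreserving_step 0 γ) (X.T.measurePreserving_step 1 γ)
      (fun p q => X.T.step_inv 0 γ hk p q)
      (fun p q => by rw [X.T.step_inv 0 γ hk, X.T.step_inv 1 γ hk]) Θ₀ hint']
  have hcomp : ∀ a, X.T.step 0 γ (X.T.step 1 γ (X.T.step 2 γ a)) = X.T.act 0 (incl δ) a :=
    fun a => by rw [← hN]; exact X.T.twisted_comp γ a
  simp only [hcomp, comp3_eq]
  -- transport to the base field
  set tw := twistPt (algebraMap K L) (X.T.e 0)
  have htw2 : ∀ a, tw (tw a) = a := twistPt_twistPt_symm _ _
  have hact : ∀ a, X.T.act 0 (incl δ) (tw a) = tw ((ProjGenLinGroup.map X.v.embedding δ) • a) := by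
    intro a
    induction δ using Matrix.ProjGenLinGroup.induction_on with | mk g =>
    have h := twistPt_smul (algebraMap K L) (X.T.e 0) g (tw a)
    rw [X.comap_e_zero, show twistPt (algebraMap K L) (X.T.e 0) (tw a) = a from htw2 a] at h
    simp only [InfCycle.act, ProjGenLinGroup.map_mk, H3.mk_smul]
    rw [← h]
    exact (htw2 _).symm
  let e : H3 ≃ᵐ H3 :=
    { toFun := tw
      invFun := tw
      left_inv := htw2
      right_inv := htw2
      measurable_toFun := (measurePreserving_twistPt _ _).measurable
      measurable_invFun := (measurePreserving_twistPt _ _).measurable }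
  rw [← (measurePreserving_twistPt (algebraMap K L) (X.T.e 0)).integral_comp
    (f := tw) e.measurableEmbedding]
  have : Unique (InfinitePlace K) := ⟨⟨X.v⟩, fun w => X.uniq w⟩
  have hfu := ((measurePreserving_funUnique H3.vol (InfinitePlace K)).symm
      (MeasurableEquiv.funUnique (InfinitePlace K) H3)).integral_comp
    (MeasurableEquiv.funUnique (InfinitePlace K) H3).symm.measurableEmbedding
    (fun z : InfPts K => θ z * (k.comp (k.comp k)).k ((δ • z) X.v) (z X.v))
  refine Eq.trans ?_ (hfu.trans (by congr!))
  refine integral_congr_ae (ae_of_all _ fun a => ?_)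
  have hz : ∀ w, (MeasurableEquiv.funUnique (InfinitePlace K) H3).symm a w = a := fun w => rfl
  simp only [Θ₀, hact, infPts_smul_apply, hz]
  rw [flip_twist ((hk.comp (hk.comp hk))) (algebraMap K L) (X.T.e 0)]
  congr 2
  funext w
  exact htw2 a

/-- **Pushing forward**: against a weight from the base along finite weights which sum the finite
kernel above to the one below, the integral of a twisted term is that of the composite kernel at
its norm. -/
theorem integral_push (γ : G2 L) (δ : G2 K) (hN : X.T.nrm γ = incl δ) (k : InfKer) (hk : k.IsFlip)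
    (D : KerData X.UL) (hD : ∀ w, D.inf w = k)
    (A : FinCoset X.UL → FinCoset X.UK → ℂ) (Kf : FinCoset X.UK → ℂ)
    (hA : ∀ z, HasSum (fun x => D.kfin (X.finTwist γ x) x * A x z) (Kf z))
    (θ : Space X.UK → ℂ)
    (hint : Integrable (fun q : Space X.UL × FinCoset X.UK =>
      X.σ.term D.toPtKer γ q.1 * (A q.1.2 q.2 * θ (X.proj q.1.1, q.2)))
      ((Space.vol X.UL).prod Measure.count)) :
    ∫ y, ∑' z, X.σ.term D.toPtKer γ y * (A y.2 z * θ (X.proj y.1, z)) ∂Space.vol X.UL =
      ∑' z : FinCoset X.UK, Kf z * ∫ p : InfPts K, θ (p, z) *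
        (k.comp (k.comp k)).k ((δ • p) X.v) (p X.v)
        ∂(Measure.pi fun _ : InfinitePlace K => H3.vol) := by
  classical
  set T : Space X.UL × FinCoset X.UK → ℂ := fun q =>
    X.σ.term D.toPtKer γ q.1 * (A q.1.2 q.2 * θ (X.proj q.1.1, q.2))
  set μ := Measure.pi fun _ : InfinitePlace L => H3.vol
  set ν := Measure.pi fun _ : InfinitePlace K => H3.vol
  have hterm : ∀ p x, X.σ.term D.toPtKer γ (p, x) =
      (∏ w, k.k ((γ • (LevelHom.infMap (X.τ : L →+* L) p)) w) (p w)) *
        D.kfin (X.finTwist γ x) x := by
    intro p x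
    show D.kinf _ _ * D.kfin _ _ = _
    simp only [KerData.kinf, hD]
    rfl
  -- move the finite variables outside
  have h2 : ∀ z, Integrable (fun y => T (y, z)) (Space.vol X.UL) := fun z => integrable_slice hint z
  have h1 : ∫ y, ∑' z, T (y, z) ∂Space.vol X.UL = ∑' z, ∫ y, T (y, z) ∂Space.vol X.UL := by
    have e1 : ∫ y, ∑' z, T (y, z) ∂Space.vol X.UL =
        ∫ y, ∫ z, T (y, z) ∂Measure.count ∂Space.vol X.UL := by
      refine integral_congr_ae ?_
      filter_upwards [hint.prod_right_ae] with y hy
      rw [integral_countable hy]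
      simp
    rw [e1, integral_integral_swap hint, integral_countable hint.integral_prod_right]
    simp
  have h3 : ∀ z, ∫ y, T (y, z) ∂Space.vol X.UL = ∑' x, ∫ p, T ((p, x), z) ∂μ := by
    intro z
    rw [Space.vol, integral_prod_symm _ (h2 z), integral_countable (h2 z).integral_prod_right]
    simp [μ]
  have h4 : ∀ z x, ∫ p, T ((p, x), z) ∂μ = D.kfin (X.finTwist γ x) x * A x z *
      ∫ p : InfPts K, θ (p, z) * (k.comp (k.comp k)).k ((δ • p) X.v) (p X.v) ∂ν := by
    intro z x
    have e : ∀ p, T ((p, x), z) = D.kfin (X.finTwist γ x) x * A x z * (θ (X.proj p, z) *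
        ∏ w, k.k ((γ • (LevelHom.infMap (X.τ : L →+* L) p)) w) (p w)) := fun p => by
      simp only [T, hterm]
      ring
    simp only [e]
    rw [integral_const_mul]
    by_cases h0 : D.kfin (X.finTwist γ x) x * A x z = 0
    · simp [h0]
    rw [X.integral_inf γ δ hN k hk (fun p => θ (p, z))]
    have h5 : Integrable (fun p => T ((p, x), z)) μ := integrable_slice (h2 z) x
    simp only [e] at h5
    exact (integrable_const_mul_iff (IsUnit.mk0 _ h0) _).mp h5
  show ∫ y, ∑' z, T (y, z) ∂Space.vol X.UL = _
  rw [h1]
  simp only [h3, h4, tsum_mul_right, (hA _).tsum_eq]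

end TwistCtx

end FermatAgent.LT
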