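import Mathlib

/-!
# Sums over restricted products along a map of index sets

`W` lies over `V` with finite fibres.  A product over `V` of local weights, which outside a finite
set is the graph of an injective lift, is summed coordinatewise.
-/

set_option autoImplicit false

noncomputable section

open Filter

namespace FermatAgent.LT.ResSum

variable {W V : Type*} (C : W → Type*) (D : V → Type*) (cb : ∀ w, C w) (db : ∀ v, D v) (b : W → V)

/-- A restricted product. -/
abbrev RP {I : Type*} (X : I → Type*) (base : ∀ i, X i) : Type _ :=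
  {x : ∀ i, X i // ∀ᶠ i in cofinite, x i = base i}

/-- The coordinates over `v`. -/
abbrev Fib (v : V) : Type _ := ∀ w : {w : W // b w = v}, C w.1

/-- The part of a family over `v`. -/
def res (x : ∀ w, C w) (v : V) : Fib C b v := fun w => x w.1

variable {C D cb db b}

/-- Restricted families determine the family. -/
lemma eq_of_res_eq {x y : ∀ w, C w} (h : ∀ v, res C b x v = res C b y v) : x = y :=
  funext fun w => congrFun (h (b w)) ⟨w, rfl⟩

variable (C D b) in
/-- Local data. -/
structure Data where
  /-- the finite set of places with arbitrary data -/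
  S : Finset V
  /-- local weights -/
  F : ∀ v, Fib C b v → D v → ℂ
  /-- local totals -/
  κ : ∀ v, D v → ℂ
  /-- the lift outside `S` -/
  lift : ∀ v, D v → Fib C b v
  /-- the condition outside `S` -/
  ok : ∀ v, D v → Prop
  finite : ∀ v ∈ S, ∀ z, {x | F v x z ≠ 0}.Finite
  sum_eq : ∀ v ∈ S, ∀ z, ∑' x, F v x z = κ v z

open Classical in
/-- The global weight. -/
def Data.G (T : Data C D b) (x : ∀ w, C w) (z : ∀ v, D v) : ℂ :=
  if ∀ v ∉ T.S, T.ok v (z v) ∧ res C b x v = T.lift v (z v) then
    ∏ v ∈ T.S, T.F v (res C b x v) (z v) else 0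

open Classical in
/-- The global total. -/
def Data.K (T : Data C D b) (z : ∀ v, D v) : ℂ :=
  if ∀ v ∉ T.S, T.ok v (z v) then ∏ v ∈ T.S, T.κ v (z v) else 0

variable (hb : ∀ v, Set.Finite {w | b w = v})

open Classical in
include hb in
/-- The coordinatewise summation. -/
theorem Data.hasSum_G (T : Data C D b) (z : RP D db)
    (hlift : ∀ v ∉ T.S, z.1 v = db v → ∀ w, T.lift v (z.1 v) w = cb w.1) :
    HasSum (fun x : RP C cb => T.G x.1 z.1) (T.K z.1) := by
  unfold Data.K
  split_ifs with hok
  swap
  · convert hasSum_zero with x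
    unfold Data.G
    rw [if_neg fun h => hok fun v hv => (h v hv).1]
  -- the candidate family from finitely many choices
  let mk0 : (∀ v ∈ T.S, Fib C b v) → ∀ w, C w := fun p w =>
    if h : b w ∈ T.S then p (b w) h ⟨w, rfl⟩ else T.lift (b w) (z.1 (b w)) ⟨w, rfl⟩
  have hres : ∀ p v (h : v ∈ T.S), res C b (mk0 p) v = p v h := by
    intro p v h
    funext w
    obtain ⟨w, rfl⟩ := w
    simp [res, mk0, h]
  have hres' : ∀ p v, v ∉ T.S → res C b (mk0 p) v = T.lift v (z.1 v) := by
    intro p v h
    funext w
    obtain ⟨w, rfl⟩ := w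
    simp [res, mk0, h]
  have hev : ∀ p, ∀ᶠ w in cofinite, mk0 p w = cb w := by
    intro p
    have hfin : {w | b w ∈ T.S ∨ z.1 (b w) ≠ db (b w)}.Finite := by
      have h1 : {v | v ∈ T.S ∨ z.1 v ≠ db v}.Finite :=
        T.S.finite_toSet.union (eventually_cofinite.mp z.2)
      exact (h1.preimage' fun v _ => hb v)
    refine hfin.subset fun w hw => ?_
    by_contra h
    simp only [Set.mem_ofPred_eq, not_or, not_not] at h
    exact hw ((dif_neg h.1).trans (hlift _ h.1 h.2 ⟨w, rfl⟩))
  let mk : (∀ v ∈ T.S, Fib C b v) → RP C cb := fun p => ⟨mk0 p, hev p⟩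
  have hinj : Function.Injective mk := fun p q h => by
    funext v hv
    rw [← hres p v hv, ← hres q v hv]
    exact congrArg (fun x : RP C cb => res C b x.1 v) h
  let s : Finset (∀ v ∈ T.S, Fib C b v) :=
    T.S.pi fun v => if h : v ∈ T.S then (T.finite v h (z.1 v)).toFinset else ∅
  have hsum : ∏ v ∈ T.S, T.κ v (z.1 v) = ∑ p ∈ s, T.G (mk p).1 z.1 := by
    have e : ∀ v ∈ T.S, T.κ v (z.1 v) = ∑ x ∈ (if h : v ∈ T.S then
        (T.finite v h (z.1 v)).toFinset else ∅), T.F v x (z.1 v) := by
      intro v hv
      rw [← T.sum_eq v hv, dif_pos hv]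
      exact tsum_eq_sum fun x hx => by simpa using hx
    rw [Finset.prod_congr rfl e, Finset.prod_sum]
    refine Finset.sum_congr rfl fun p _ => ?_
    rw [Data.G, if_pos fun v hv => ⟨hok v hv, hres' p v hv⟩, ← Finset.prod_attach T.S
      fun v => T.F v (res C b (mk p).1 v) (z.1 v)]
    exact Finset.prod_congr rfl fun v _ => by rw [hres p v.1 v.2]
  rw [hsum]
  refine (hinj.hasSum_iff fun x hx => ?_).mp (hasSum_sum_of_ne_finset_zero fun p hp => ?_)
  · by_contra h
    refine hx ⟨fun v _ => res C b x.1 v, Subtype.ext (eq_of_res_eq (b := b) fun v => ?_)⟩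
    unfold Data.G at h
    split_ifs at h with h1
    · by_cases hv : v ∈ T.S
      · exact hres (fun v _ => res C b x.1 v) v hv
      · exact (hres' (fun v _ => res C b x.1 v) v hv).trans (h1 v hv).2.symm
    · exact absurd rfl h
  · by_contra h
    refine hp (Finset.mem_pi.mpr fun v hv => ?_)
    unfold Data.G at h
    simp only [Function.comp_apply] at h
    split_ifs at h with h1
    · rw [dif_pos hv]
      have := Finset.prod_ne_zero_iff.mp h v hv
      rw [show res C b (mk p).1 v = p v hv from hres p v hv] at this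
      simpa using this
    · exact absurd rfl h

end FermatAgent.LT.ResSum
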