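import Mathlib
import Fermat.Agent.LT.Descent.Push
import Fermat.Agent.LT.Descent.ResSum

/-!
# Pairs of product kernels over a field and its cubic extension

Given the map of places, a pair of product kernels has one kernel at infinity and local kernels at
the places of both fields; the components above are grouped by the places of the base, with the
twisted map on the families of cosets over each.
-/

set_option autoImplicit false

noncomputable section

open Matrix IsDedekindDomain NumberField Filter MeasureTheory
open scoped MatrixGroups ENNReal ComplexConjugate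

namespace FermatAgent.LT

/-- The trivial local components may be forgotten. -/
lemma KerData.kfin_eq_of_subset {L : Type*} [Field L] [NumberField L] {U : Level L} (D : KerData U)
    {S : Finset (HeightOneSpectrum (𝓞 L))} (hS : D.S ⊆ S) (c d : FinCoset U)
    [Decidable (∀ w ∉ S, c.1 w = d.1 w)] :
    D.kfin c d = if ∀ w ∉ S, c.1 w = d.1 w then ∏ w ∈ S, (D.fin w).k (c.1 w) (d.1 w) else 0 := by
  classical
  unfold KerData.kfin
  by_cases h : ∀ w ∉ D.S, c.1 w = d.1 w
  · rw [if_pos h, if_pos fun w hw => h w fun hh => hw (hS hh)]
    refine Finset.prod_subset hS fun w _ hw => ?_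
    rw [D.fin_eq_one w hw, LocKer.one_k, if_pos (h w hw)]
  · rw [if_neg h]
    split_ifs with h'
    · push Not at h
      obtain ⟨w, hw, hne⟩ := h
      have hwS : w ∈ S := by_contra fun hh => hne (h' w hh)
      refine (Finset.prod_eq_zero hwS ?_).symm
      rw [D.fin_eq_one w hw, LocKer.one_k, if_neg hne]
    · rfl

/-- The finite part sees only the finite components. -/
lemma KerData.kfin_congr {L : Type*} [Field L] [NumberField L] {U : Level L} {D E : KerData U}
    (h : ∀ v, D.fin v = E.fin v) (c d : FinCoset U) : D.kfin c d = E.kfin c d := by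
  classical
  rw [D.kfin_eq_of_subset (Finset.subset_union_left (s₂ := E.S)),
    E.kfin_eq_of_subset (Finset.subset_union_right (s₁ := D.S))]
  simp only [h]

namespace TwistCtx

variable {K L : Type*} [Field K] [NumberField K] [Field L] [NumberField L] [Algebra K L]

/-- Places of the extension over places of the base, compatibly with the automorphism. -/
structure Over (X : TwistCtx K L) where
  /-- the place below -/
  b : HeightOneSpectrum (𝓞 L) → HeightOneSpectrum (𝓞 K)
  finite_fib : ∀ v, {w | b w = v}.Finite
  b_tau : ∀ w, b ((placeMap X.τ).symm w) = b w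

variable {X : TwistCtx K L} (B : X.Over)

instance fintypeFib (v : HeightOneSpectrum (𝓞 K)) : Fintype {w // B.b w = v} :=
  (B.finite_fib v).fintype

/-- Families of cosets over a place of the base. -/
abbrev Fam (v : HeightOneSpectrum (𝓞 K)) : Type _ :=
  ResSum.Fib (fun w => G2 L ⧸ X.UL.loc w) B.b v

/-- The twisted map on the cosets over a place. -/
def ft (γ : G2 L) (v : HeightOneSpectrum (𝓞 K)) (x : Fam B v) : Fam B v := fun w =>
  γ • (LevelHom.ofAut X.stable).locMap w.1 (x ⟨(placeMap X.τ).symm w.1, (B.b_tau w.1).trans w.2⟩)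

/-- The components of the twisted coset. -/
lemma res_finTwist (γ : G2 L) (v : HeightOneSpectrum (𝓞 K)) (x : FinCoset X.UL) :
    ResSum.res (fun w => G2 L ⧸ X.UL.loc w) B.b (X.finTwist γ x).1 v =
      ft B γ v (ResSum.res (fun w => G2 L ⧸ X.UL.loc w) B.b x.1 v) := rfl

/-- The action on the cosets over a place through the base field. -/
def actFam (h : G2 K) {v : HeightOneSpectrum (𝓞 K)} (x : Fam B v) : Fam B v :=
  fun w => incl (K := K) (L := L) h • x w

/-- Product kernels above and below. -/
structure KerPair where
  /-- the component at infinity -/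
  k : InfKer
  flip : k.IsFlip
  /-- the exceptional places of the base -/
  T : Finset (HeightOneSpectrum (𝓞 K))
  /-- the components above -/
  kw : ∀ w, LocKer X.UL w
  /-- the components below -/
  kv : ∀ v, LocKer X.UK v
  kw_one : ∀ w, B.b w ∉ T → kw w = 1
  kv_one : ∀ v ∉ T, kv v = 1

namespace KerPair

variable {B} (P : KerPair B)

open Classical in
/-- The places above `T`. -/
def above (T : Finset (HeightOneSpectrum (𝓞 K))) : Finset (HeightOneSpectrum (𝓞 L)) :=
  T.biUnion fun v => (B.finite_fib v).toFinset

/-- Membership above the finite set. -/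
lemma mem_above {T : Finset (HeightOneSpectrum (𝓞 K))} {w : HeightOneSpectrum (𝓞 L)} :
    w ∈ above (B := B) T ↔ B.b w ∈ T := by
  classical
  simp [above, eq_comm]

/-- The kernel above. -/
def up : KerData X.UL where
  inf _ := P.k
  fin := P.kw
  S := above (B := B) P.T
  fin_eq_one w hw := P.kw_one w fun h => hw (mem_above.mpr h)

/-- The kernel below. -/
def down : KerData X.UK where
  inf _ := P.k.comp (P.k.comp P.k)
  fin := P.kv
  S := P.T
  fin_eq_one := P.kv_one

/-- The product of the components over a place. -/
def loc (v : HeightOneSpectrum (𝓞 K)) (a c : Fam B v) : ℂ :=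
  ∏ w : {w // B.b w = v}, (P.kw w.1).k (a w) (c w)

open Classical in
/-- The finite kernel above as a product. -/
lemma up_kfin {T : Finset (HeightOneSpectrum (𝓞 K))} (hT : P.T ⊆ T) (c d : FinCoset X.UL) :
    P.up.kfin c d =
      if ∀ v ∉ T, ResSum.res (fun w => G2 L ⧸ X.UL.loc w) B.b c.1 v =
          ResSum.res (fun w => G2 L ⧸ X.UL.loc w) B.b d.1 v
      then ∏ v ∈ T, P.loc v (ResSum.res (fun w => G2 L ⧸ X.UL.loc w) B.b c.1 v)
        (ResSum.res (fun w => G2 L ⧸ X.UL.loc w) B.b d.1 v) else 0 := by
  rw [P.up.kfin_eq_of_subset (S := above (B := B) T) fun w hw =>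
    mem_above.mpr (hT (mem_above.mp hw))]
  refine if_congr ?_ ?_ rfl
  · constructor
    · intro h v hv
      funext w
      exact h w.1 fun hh => hv (w.2 ▸ mem_above.mp hh)
    · intro h w hw
      exact congrFun (h (B.b w) fun hh => hw (mem_above.mpr hh)) ⟨w, rfl⟩
  · show ∏ w ∈ above (B := B) T, (P.kw w).k (c.1 w) (d.1 w) = _
    rw [← Finset.prod_fiberwise_of_maps_to (g := B.b) (t := T) fun w hw => mem_above.mp hw]
    refine Finset.prod_congr rfl fun v hv => ?_
    rw [KerPair.loc, Finset.prod_subtype ((above (B := B) T).filter fun w => B.b w = v)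
      (p := fun w => B.b w = v) fun w => ?_]
    · rfl
    · simp only [Finset.mem_filter, mem_above, and_iff_right_iff_imp]
      exact fun h => h ▸ hv

/-- The finite kernel below as a product. -/
lemma down_kfin {T : Finset (HeightOneSpectrum (𝓞 K))} (hT : P.T ⊆ T) (c d : FinCoset X.UK)
    [Decidable (∀ v ∉ T, c.1 v = d.1 v)] :
    P.down.kfin c d = if ∀ v ∉ T, c.1 v = d.1 v then ∏ v ∈ T, (P.kv v).k (c.1 v) (d.1 v) else 0 :=
  P.down.kfin_eq_of_subset hT c d

open Classical in
/-- The kernel below at infinity lives at the only place. -/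
lemma down_kinf (c d : InfPts K) :
    P.down.kinf c d = (P.k.comp (P.k.comp P.k)).k (c X.v) (d X.v) := by
  show ∏ w : InfinitePlace K, (P.k.comp (P.k.comp P.k)).k (c w) (d w) = _
  exact Finset.prod_eq_single X.v (fun w _ hw => absurd (X.uniq w) hw)
    fun h => absurd (Finset.mem_univ _) h

end KerPair

end TwistCtx

end FermatAgent.LT
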