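import Mathlib
import Fermat.Agent.LT.Descent.ClassesBasic

/-!
# Twisted classes and classes over the base

Every twisted norm is conjugate to an element over the base, and a twisted class whose norm is
conjugate to a matrix over the base contains a representative of it.  Elements over the base
conjugate over the extension are conjugate over the base.
-/

set_option autoImplicit false

noncomputable section

open Matrix
open scoped MatrixGroups

namespace FermatAgent.LT

variable {K L : Type*} [Field K] [Field L] [Algebra K L] {τ : L ≃+* L}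

/-- Lifts of non-central classes are not scalar. -/
lemma upGL_not_isScal {δ : GL (Fin 2) K} (hδ : (ProjGenLinGroup.mk δ : G2 K) ≠ 1) :
    ¬Quad.IsScal (upGL (L := L) δ).val :=
  not_isScal_map _ fun h => hδ (Quad.mk_eq_one_iff.mpr h)

/-- The centraliser of a nonscalar matrix is commutative. -/
lemma commute_of_commute_up {δ : GL (Fin 2) K} (hδ : (ProjGenLinGroup.mk δ : G2 K) ≠ 1)
    {a b : GL (Fin 2) L} (ha : Commute a (upGL δ)) (hb : Commute b (upGL δ)) : Commute a b :=
  Commute.units_val_iff.mp (Quad.commute_of_commute (upGL_not_isScal hδ)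
    (Commute.units_val_iff.mpr ha)
    (Commute.units_val_iff.mpr hb))

/-- Scalars commute with matrices. -/
lemma commute_sc (u : Lˣ) (g : GL (Fin 2) L) : Commute (sc u) g := sc_comm u g

namespace IsTwist

variable (h : IsTwist K τ)

include h

lemma commute_gmap {δ : GL (Fin 2) K} {a : GL (Fin 2) L} (ha : Commute a (upGL δ)) :
    Commute (Cyc3.gmap τ a) (upGL δ) := by
  have := ha.map (Cyc3.gmap τ)
  rwa [h.gmap_up] at this

/-- The norm is multiplicative on the centraliser. -/
lemma nrmGL_mul {δ : GL (Fin 2) K} (hδ : (ProjGenLinGroup.mk δ : G2 K) ≠ 1) {a b : GL (Fin 2) L}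
    (ha : Commute a (upGL δ)) (hb : Commute b (upGL δ)) :
    nrmGL τ (a * b) = nrmGL τ a * nrmGL τ b := by
  have c1 : Commute b (Cyc3.gmap τ a) := commute_of_commute_up hδ hb (h.commute_gmap ha)
  have c2 : Commute (b * Cyc3.gmap τ b) (Cyc3.gmap τ (Cyc3.gmap τ a)) :=
    commute_of_commute_up hδ (hb.mul_left (h.commute_gmap hb))
      (h.commute_gmap (h.commute_gmap ha))
  simp only [nrmGL, map_mul]
  rw [c1.mul_mul_mul_comm, c2.mul_mul_mul_comm]

/-- An element with scalar norm in a nonscalar situation is a scalar times a norm one element. -/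
lemma exists_nrm_one {η : GL (Fin 2) L} {m : Kˣ}
    (hη : nrmGL τ η = sc (Units.map (algebraMap K L : K →* L) m)) :
    ∃ s : Lˣ, nrmGL τ (η * sc s⁻¹) = 1 := by
  have hdet : η.val.det * τ η.val.det * τ (τ η.val.det) = (algebraMap K L m) ^ 2 := by
    rw [← det_nrmGL, hη, det_sc]; rfl
  have hm0 : algebraMap K L (m : K) ≠ 0 := by simp
  have hs := Cyc3.exists_norm_eq (Matrix.GeneralLinearGroup.det_ne_zero η) (h.fix m) hm0 hdet
  refine ⟨Units.mk0 _ (div_ne_zero hm0 (Matrix.GeneralLinearGroup.det_ne_zero η)), ?_⟩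
  rw [nrmGL_mul_sc, hη, nrmGL_sc, ← map_mul]
  rw [← map_one (GeneralLinearGroup.scalar (Fin 2) : Lˣ →* _)]
  refine congrArg sc (Units.ext ?_)
  simp only [Units.val_mul, Units.val_one, Units.coe_map, MonoidHom.coe_coe,
    Units.val_inv_eq_inv_val,
    Units.val_mk0, map_inv₀]
  rw [← mul_inv, ← mul_inv, hs, mul_inv_cancel₀ hm0]

/-- An element of norm one is twisted conjugate to the identity (Hilbert 90). -/
theorem exists_tconj_of_tnrm_eq_one {c : G2 L} (hc : tnrm τ c = 1) :
    ∃ g, tconj τ g 1 = c := by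
  obtain ⟨C, rfl⟩ := ProjGenLinGroup.mk_surjective c
  rw [tnrm_mk] at hc
  obtain ⟨μ, hμ⟩ := isScal_of_mk_eq_one hc
  have e := h.gmap_nrmGL C
  rw [hμ, gmap_sc, mul_assoc, sc_comm, inv_mul_cancel_left] at e
  have hμK : τ (μ : L) = μ := by
    have := congrArg (fun g : GL (Fin 2) L => g.val 0 0) e
    simpa [sc, GeneralLinearGroup.coe_scalar] using this
  obtain ⟨m, rfl⟩ := h.exists_unit hμK
  obtain ⟨s, hs⟩ := h.exists_nrm_one hμ
  obtain ⟨B, hB⟩ := h.exists_gl_eq hs
  refine ⟨ProjGenLinGroup.mk B, ?_⟩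
  have hC : C * sc s⁻¹ = B * (Cyc3.gmap τ B)⁻¹ := eq_mul_inv_of_mul_eq hB.symm
  show ProjGenLinGroup.mk B * 1 * (g2Map (τ : L →+* L) (ProjGenLinGroup.mk B))⁻¹ = _
  rw [mul_one, ProjGenLinGroup.map_mk, ← map_inv, ← map_mul, ← hC, map_mul,
    ProjGenLinGroup.mk_scalar, mul_one]

/-- Every twisted norm is conjugate over `L` to an element over the base. -/
theorem exists_descend (c : G2 L) :
    ∃ d : G2 K, IsConj (tnrm τ c) (g2Map (algebraMap K L) d) := by
  obtain ⟨C, rfl⟩ := ProjGenLinGroup.mk_surjective c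
  rw [tnrm_mk]
  set N := nrmGL τ C
  by_cases hN : Quad.IsScal N.val
  · exact ⟨1, by rw [map_one, Quad.mk_eq_one_iff.mpr hN]⟩
  have e := h.gmap_nrmGL C
  have hdet : τ N.val.det = N.val.det := by
    rw [← RingHom.coe_coe τ, ← det_map (τ : L →+* L) N]
    show (Cyc3.gmap τ N).val.det = _
    rw [e, Units.val_mul, Units.val_mul, Matrix.det_units_conj']
  have htr : τ N.val.trace = N.val.trace := by
    rw [← RingHom.coe_coe τ, ← trace_map (τ : L →+* L) N]
    show (Cyc3.gmap τ N).val.trace = _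
    rw [e, Units.val_mul, Units.val_mul, Matrix.trace_units_conj']
  obtain ⟨d, hd⟩ := h.surj _ hdet
  obtain ⟨t, ht⟩ := h.surj _ htr
  let δ : GL (Fin 2) K := GeneralLinearGroup.mkOfDetNeZero (Quad.comp t d) (by
    intro h0
    apply Matrix.GeneralLinearGroup.det_ne_zero N
    rw [← hd, show d = (Quad.comp t d).det by simp [Quad.comp, Matrix.det_fin_two], h0, map_zero])
  have hδv : (upGL (L := L) δ).val = Quad.comp N.val.trace N.val.det := by
    ext i j
    fin_cases i <;> fin_cases j <;>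
      simp [δ, GeneralLinearGroup.mkOfDetNeZero, Quad.comp, ← hd, ← ht]
  obtain ⟨P, hP⟩ := Quad.exists_comp hN
  refine ⟨ProjGenLinGroup.mk δ, ?_⟩
  rw [ProjGenLinGroup.map_mk]
  refine MonoidHom.map_isConj _ (isConj_iff.mpr ⟨P⁻¹, ?_⟩)
  rw [inv_inv, mul_assoc, inv_mul_eq_iff_eq_mul]
  apply Units.ext
  rw [Units.val_mul, Units.val_mul, hP, hδv]

/-- Scalars relating a matrix over the base to a conjugate of one over the base come from it. -/
lemma scalar_fixed {a b : GL (Fin 2) K} {g : GL (Fin 2) L} {μ : Lˣ}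
    (e : g * upGL a * g⁻¹ = upGL b * sc μ) : τ (μ : L) = μ := by
  refine h.eq_of_sq_eq ?_
  have e1 := congrArg (fun x : GL (Fin 2) L => x.val.det) e
  simp only [Units.val_mul, Matrix.det_units_conj] at e1
  simp only [Matrix.det_mul, det_sc, det_map] at e1
  have hb : algebraMap K L b.val.det ≠ 0 := by simpa using Matrix.GeneralLinearGroup.det_ne_zero b
  have e2 := congrArg τ e1
  simp only [map_mul, map_pow, h.fix] at e2
  exact mul_left_cancel₀ hb (e2.symm.trans e1)

/-- Elements over the base conjugate over `L` are conjugate over the base. -/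
theorem isConj_of_isConj_incl {d d' : G2 K}
    (hd : IsConj (g2Map (algebraMap K L) d) (g2Map (algebraMap K L) d')) : IsConj d d' := by
  rcases eq_or_ne d 1 with rfl | hd1
  · rw [map_one, isConj_one_right, ← map_one (g2Map (algebraMap K L))] at hd
    rw [g2Map_injective _ hd]
  obtain ⟨δ, rfl⟩ := ProjGenLinGroup.mk_surjective d
  obtain ⟨δ', rfl⟩ := ProjGenLinGroup.mk_surjective d'
  obtain ⟨g, hg⟩ := isConj_iff.mp hd
  obtain ⟨G, rfl⟩ := ProjGenLinGroup.mk_surjective g
  simp only [ProjGenLinGroup.map_mk, ← map_inv, ← map_mul] at hg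
  obtain ⟨μ, hμ⟩ := Matrix.ProjGenLinGroup.mk_eq_mk_iff.mp hg.symm
  obtain ⟨k, rfl⟩ := h.exists_unit (h.scalar_fixed hμ.symm)
  have hμ' : G * upGL δ * G⁻¹ = upGL (δ' * sc k) := by
    rw [← hμ]
    show upGL δ' * sc _ = GeneralLinearGroup.map _ (δ' * sc k)
    rw [map_mul, map_sc]
  have hns : ¬Quad.IsScal δ.val := fun hh => hd1 (Quad.mk_eq_one_iff.mpr hh)
  have hns' : ¬Quad.IsScal (δ' * sc k).val := by
    intro hh
    obtain ⟨u, hu⟩ := exists_sc_of_isScal hh
    rw [hu] at hμ'
    have hh' : upGL (L := L) δ = upGL (sc u) := by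
      rw [mul_inv_eq_iff_eq_mul] at hμ'
      simp only [upGL, map_sc] at hμ' ⊢
      rw [sc_comm] at hμ'
      exact mul_left_cancel hμ'
    exact hns ((map_injective _ hh') ▸ isScal_sc u)
  have e := congrArg (fun x : GL (Fin 2) L => (x.val.det, x.val.trace)) hμ'
  simp only [Units.val_mul, Matrix.det_units_conj, Matrix.trace_units_conj, Prod.mk.injEq,
    det_map, trace_map] at e
  obtain ⟨P, hP⟩ := Quad.exists_similar hns hns' ((algebraMap K L).injective e.2)
    ((algebraMap K L).injective e.1)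
  have e' : δ * P = P * (δ' * sc k) := Units.ext hP
  refine isConj_iff.mpr ⟨ProjGenLinGroup.mk P⁻¹, ?_⟩
  rw [← map_mul, ← map_inv, ← map_mul, inv_inv, mul_assoc, e', inv_mul_cancel_left, map_mul,
    ProjGenLinGroup.mk_scalar, mul_one]

/-- A twisted class whose norm is conjugate over `L` to a matrix `δ` over the base contains a
representative of `δ`. -/
theorem exists_isRep {c : G2 L} {δ : GL (Fin 2) K}
    (hc : IsConj (tnrm τ c) (g2Map (algebraMap K L) (ProjGenLinGroup.mk δ))) :
    ∃ γ g, IsRep τ δ γ ∧ tconj τ g c = ProjGenLinGroup.mk γ := by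
  obtain ⟨g, hg⟩ := isConj_iff.mp hc
  rw [← h.tnrm_tconj] at hg
  obtain ⟨C, hC⟩ := ProjGenLinGroup.mk_surjective (tconj τ g c)
  rw [← hC, tnrm_mk, ProjGenLinGroup.map_mk] at hg
  obtain ⟨μ, hμ⟩ := Matrix.ProjGenLinGroup.mk_eq_mk_iff.mp hg.symm
  have e := h.gmap_nrmGL C
  rw [← hμ, map_mul, gmap_sc, h.gmap_up] at e
  have hμK : τ (μ : L) = μ := by
    refine h.eq_of_sq_eq ?_
    have e1 := congrArg (fun x : GL (Fin 2) L => x.val.det) e
    simp only [Units.val_mul, Matrix.det_units_conj'] at e1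
    simp only [Matrix.det_mul, det_sc] at e1
    exact mul_left_cancel₀ (Matrix.GeneralLinearGroup.det_ne_zero _) e1
  obtain ⟨m, rfl⟩ := h.exists_unit hμK
  rw [h.map_unit, ← mul_assoc C⁻¹, mul_assoc (C⁻¹ * upGL δ), sc_comm, ← mul_assoc] at e
  refine ⟨C, g, ⟨?_, m, hμ.symm⟩, hC.symm⟩
  have e' := mul_right_cancel e
  rw [mul_assoc, eq_inv_mul_iff_mul_eq] at e'
  exact e'

end IsTwist

end FermatAgent.LT
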