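import Mathlib
import Fermat.Agent.LT.Descent.Classes

/-!
# The norm is injective on twisted classes

By Hilbert's theorem 90 in the commutative centraliser of a nonscalar matrix, two representatives
of one matrix are twisted conjugate; so two elements are twisted conjugate exactly when their
twisted norms are conjugate.
-/

set_option autoImplicit false

noncomputable section

open Matrix
open scoped MatrixGroups

namespace FermatAgent.LT

variable {K L : Type*} [Field K] [Field L] [Algebra K L] {τ : L ≃+* L}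

namespace IsTwist

variable (h : IsTwist K τ)

include h

/-- Hilbert 90 in a centraliser: an element of norm one commuting with a nonscalar `δ` is
`t σ(t)⁻¹` with `t` commuting with `δ`. -/
theorem exists_eq_mul_gmap {δ : GL (Fin 2) K} (hδ : (ProjGenLinGroup.mk δ : G2 K) ≠ 1)
    {η : GL (Fin 2) L} (hη : Commute η (upGL δ)) (h1 : nrmGL τ η = 1) :
    ∃ t : GL (Fin 2) L, Commute t (upGL δ) ∧ η * Cyc3.gmap τ t = t := by
  set M := (upGL (L := L) δ).val
  have hM : ¬Quad.IsScal M := upGL_not_isScal hδ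
  have ha : τ (-M.det) = -M.det := by
    simp only [M, det_map, map_neg, h.fix]
  have hb : τ M.trace = M.trace := by
    simp only [M, trace_map, h.fix]
  set f := Quad.toMat M (Quad.mul_self_eq M)
  have hinj : Function.Injective f := Quad.toMat_injective hM _
  have hmap : ∀ z, f (Cyc3.qmap τ ha hb z) = (f z).map τ := h.toMat_qmap ha hb _
  obtain ⟨x, y, hxy⟩ :=
    CFT.Selmer.exists_eq_add_of_commute hM (Commute.units_val_iff.mpr hη).symm.eq
  set z : QuadraticAlgebra L (-M.det) M.trace := ⟨x, y⟩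
  have hz : f z = η.val := hxy.symm
  have hz1 : z * Cyc3.qmap τ ha hb z * Cyc3.qmap τ ha hb (Cyc3.qmap τ ha hb z) = 1 := by
    apply hinj
    rw [map_mul, map_mul, map_one, hmap, hmap, hmap, hz]
    exact congrArg Units.val h1
  obtain ⟨t, ht, het⟩ := h.exists_eq_mul_qmap ha hb hz1
  have hdt : (f t).det ≠ 0 := by rwa [Quad.toMat_apply, Quad.det_toMat M rfl rfl]
  refine ⟨GeneralLinearGroup.mkOfDetNeZero (f t) hdt, ?_, Units.ext ?_⟩
  · refine Commute.units_val_iff.mp ?_
    show Commute (f t) M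
    exact Quad.commute_lin M _ _
  · have e := congrArg f het
    rw [map_mul, hz, hmap] at e
    exact e

/-- Two representatives of a nonscalar matrix are twisted conjugate by an element of its
centraliser. -/
theorem exists_tconj_of_isRep {δ : GL (Fin 2) K} (hδ : (ProjGenLinGroup.mk δ : G2 K) ≠ 1)
    {γ γ' : GL (Fin 2) L} (hγ : IsRep τ δ γ) (hγ' : IsRep τ δ γ') :
    ∃ t : GL (Fin 2) L, Commute t (upGL δ) ∧
      tconj τ (ProjGenLinGroup.mk t) (ProjGenLinGroup.mk γ) = ProjGenLinGroup.mk γ' := by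
  obtain ⟨u, hu⟩ := hγ.nrm
  obtain ⟨u', hu'⟩ := hγ'.nrm
  have hc : Commute (γ' * γ⁻¹) (upGL δ) := hγ'.comm.mul_left hγ.comm.inv_left
  have hn : nrmGL τ (γ' * γ⁻¹) = sc (Units.map (algebraMap K L : K →* L) (u' * u⁻¹)) := by
    have e := h.nrmGL_mul hδ hc hγ.comm
    rw [inv_mul_cancel_right] at e
    rw [eq_mul_inv_of_mul_eq e.symm, hu', hu, _root_.mul_inv_rev, ← mul_assoc,
      mul_assoc (upGL δ) (sc _) (sc _)⁻¹, ← map_inv, ← map_inv, ← map_mul, ← map_mul, ← sc_comm,
      mul_inv_cancel_right]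
  obtain ⟨s, hs⟩ := h.exists_nrm_one hn
  obtain ⟨t, htc, ht⟩ := h.exists_eq_mul_gmap hδ (hc.mul_left ((commute_sc s⁻¹ _))) hs
  refine ⟨t, htc, ?_⟩
  show ProjGenLinGroup.mk t * ProjGenLinGroup.mk γ *
      (g2Map (τ : L →+* L) (ProjGenLinGroup.mk t))⁻¹ = _
  rw [ProjGenLinGroup.map_mk, ← map_inv, ← map_mul, ← map_mul,
    Matrix.ProjGenLinGroup.mk_eq_mk_iff]
  refine ⟨s, ?_⟩
  have c1 : Commute t γ := commute_of_commute_up hδ htc hγ.comm
  rw [c1.eq, mul_assoc γ t, ← eq_mul_inv_of_mul_eq ht, ← mul_assoc γ, mul_assoc,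
    ← map_mul, inv_mul_cancel, map_one, mul_one]
  exact (commute_of_commute_up hδ hγ.comm hc).eq.trans (inv_mul_cancel_right _ _)

/-- **Injectivity of the norm**: two elements are twisted conjugate exactly when their twisted
norms are conjugate. -/
theorem exists_tconj_iff {c c' : G2 L} :
    (∃ g, tconj τ g c = c') ↔ IsConj (tnrm τ c) (tnrm τ c') := by
  refine ⟨?_, fun hcc => ?_⟩
  · rintro ⟨g, rfl⟩
    exact isConj_iff.mpr ⟨g, (h.tnrm_tconj g c).symm⟩
  obtain ⟨d, hd⟩ := h.exists_descend c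
  have hd' : IsConj (tnrm τ c') (g2Map (algebraMap K L) d) := hcc.symm.trans hd
  rcases eq_or_ne d 1 with rfl | hd1
  · rw [map_one, isConj_one_left] at hd hd'
    obtain ⟨g, hg⟩ := h.exists_tconj_of_tnrm_eq_one hd
    obtain ⟨g', hg'⟩ := h.exists_tconj_of_tnrm_eq_one hd'
    exact ⟨g' * g⁻¹, by rw [tconj_mul, tconj_inv hg, hg']⟩
  obtain ⟨δ, rfl⟩ := ProjGenLinGroup.mk_surjective d
  obtain ⟨γ, g, hγ, hg⟩ := h.exists_isRep hd
  obtain ⟨γ', g', hγ', hg'⟩ := h.exists_isRep hd'
  obtain ⟨t, -, ht⟩ := h.exists_tconj_of_isRep hd1 hγ hγ'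
  exact ⟨g'⁻¹ * ProjGenLinGroup.mk t * g,
    by rw [tconj_mul, hg, tconj_mul, ht, tconj_inv hg']⟩

end IsTwist

end FermatAgent.LT
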