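import Mathlib
import Fermat.Agent.LT.Descent.ClassesInj

/-!
# Twisted centralisers of representatives

The twisted centraliser of a representative is the image of the centraliser of its matrix over the
base, except for trace zero, where both contain the image of the torus with index two.
-/

set_option autoImplicit false

noncomputable section

open Matrix
open scoped MatrixGroups

namespace FermatAgent.LT

section Torus

variable {F : Type*} [Field F]

/-- The classes of the invertible elements of the centraliser of a matrix. -/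
def torus (δ : GL (Fin 2) F) : Subgroup (G2 F) :=
  (Subgroup.centralizer ({δ} : Set (GL (Fin 2) F))).map ProjGenLinGroup.mk

/-- Membership in the torus. -/
lemma mk_mem_torus_iff {δ G : GL (Fin 2) F} :
    ProjGenLinGroup.mk G ∈ torus δ ↔ Commute G δ := by
  refine ⟨?_, fun h => ⟨G, Subgroup.mem_centralizer_singleton_iff.mpr h.eq, rfl⟩⟩
  rintro ⟨G', hG', e⟩
  obtain ⟨u, rfl⟩ := Matrix.ProjGenLinGroup.mk_eq_mk_iff.mp e
  exact Commute.mul_left (Subgroup.mem_centralizer_singleton_iff.mp hG') (sc_comm u δ)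

lemma conj_eq_or {δ G : GL (Fin 2) F} {u : Fˣ} (e : G * δ * G⁻¹ = δ * sc u) :
    (u : F) = 1 ∨ ((u : F) = -1 ∧ δ.val.trace = -δ.val.trace) := by
  have e1 := congrArg (fun x : GL (Fin 2) F => x.val.det) e
  have e2 := congrArg (fun x : GL (Fin 2) F => x.val.trace) e
  simp only [Units.val_mul, Matrix.det_units_conj] at e1
  simp only [Matrix.det_mul, det_sc] at e1
  simp only [Units.val_mul, Matrix.trace_units_conj, sc_val, mul_smul_comm, mul_one,
    Matrix.trace_smul, smul_eq_mul] at e2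
  have h1 : (u : F) ^ 2 = 1 := mul_left_cancel₀ (Matrix.GeneralLinearGroup.det_ne_zero δ)
    (by rw [← e1, mul_one])
  rcases sq_eq_one_iff.mp h1 with h | h
  · exact Or.inl h
  · exact Or.inr ⟨h, by rw [h, neg_one_mul] at e2; exact e2⟩

lemma mem_centralizer_mk_iff {δ G : GL (Fin 2) F} :
    ProjGenLinGroup.mk G ∈ Subgroup.centralizer ({ProjGenLinGroup.mk δ} : Set (G2 F)) ↔
      ∃ u : Fˣ, G * δ * G⁻¹ = δ * sc u := by
  rw [Subgroup.mem_centralizer_singleton_iff, ← mul_inv_eq_iff_eq_mul, ← map_inv, ← map_mul,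
    ← map_mul, eq_comm, Matrix.ProjGenLinGroup.mk_eq_mk_iff]
  simp [eq_comm]

/-- The torus centralises. -/
lemma torus_le_centralizer (δ : GL (Fin 2) F) :
    torus δ ≤ Subgroup.centralizer ({ProjGenLinGroup.mk δ} : Set (G2 F)) := by
  rintro _ ⟨G, hG, rfl⟩
  refine mem_centralizer_mk_iff.mpr ⟨1, ?_⟩
  rw [sc_one, mul_one, mul_inv_eq_iff_eq_mul]
  exact Subgroup.mem_centralizer_singleton_iff.mp hG

/-- Away from trace zero the centraliser is the torus. -/
theorem centralizer_mk_eq (h2 : (2 : F) ≠ 0) {δ : GL (Fin 2) F} (ht : δ.val.trace ≠ 0) :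
    Subgroup.centralizer ({ProjGenLinGroup.mk δ} : Set (G2 F)) = torus δ := by
  refine le_antisymm (fun g hg => ?_) (torus_le_centralizer δ)
  obtain ⟨G, rfl⟩ := ProjGenLinGroup.mk_surjective g
  obtain ⟨u, hu⟩ := mem_centralizer_mk_iff.mp hg
  rcases conj_eq_or hu with h | ⟨-, h⟩
  · rw [show u = 1 from Units.ext h, sc_one, mul_one, mul_inv_eq_iff_eq_mul] at hu
    exact mk_mem_torus_iff.mpr hu
  · exact absurd
      ((mul_eq_zero.mp (show (2 : F) * δ.val.trace = 0 by linear_combination h)).resolve_left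
      h2) ht

/-- A subgroup cut out by a sign has index two. -/
lemma relIndex_eq_two_of_sign {G : Type*} [Group G] {H Z : Subgroup G} {a : G} (haZ : a ∈ Z)
    (haH : a ∉ H) (hmul : ∀ b ∈ Z, b ∉ H → b * a ∈ H) : H.relIndex Z = 2 := by
  refine Subgroup.relIndex_eq_two_iff.mpr ⟨a, haZ, fun b hb => ?_⟩
  by_cases h : b ∈ H
  · exact Or.inr ⟨h, fun hba => haH ((Subgroup.mul_mem_cancel_left H h).mp hba)⟩
  · exact Or.inl ⟨hmul b hb h, h⟩

/-- For trace zero the torus has index two in the centraliser. -/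
theorem relIndex_torus (h2 : (2 : F) ≠ 0) {δ : GL (Fin 2) F}
    (hδ : (ProjGenLinGroup.mk δ : G2 F) ≠ 1) (ht : δ.val.trace = 0) :
    (torus δ).relIndex (Subgroup.centralizer ({ProjGenLinGroup.mk δ} : Set (G2 F))) = 2 := by
  obtain ⟨J, hJ⟩ := Quad.exists_anticommute (fun h => hδ (Quad.mk_eq_one_iff.mpr h)) ht
  have hJ' : J * δ * J⁻¹ = δ * sc (-1) := by
    rw [mul_inv_eq_iff_eq_mul]
    apply Units.ext
    rw [Units.val_mul, hJ, Units.val_mul, Units.val_mul, sc_val, Units.val_neg, Units.val_one,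
      neg_one_smul, mul_neg, mul_one, neg_mul]
  have hneg : ∀ G, ProjGenLinGroup.mk G ∈
      Subgroup.centralizer ({ProjGenLinGroup.mk δ} : Set (G2 F)) →
      ProjGenLinGroup.mk G ∉ torus δ → G * δ * G⁻¹ = δ * sc (-1) := by
    intro G hG hnot
    obtain ⟨u, hu⟩ := mem_centralizer_mk_iff.mp hG
    rcases conj_eq_or hu with h | ⟨h, -⟩
    · rw [show u = 1 from Units.ext h, sc_one, mul_one, mul_inv_eq_iff_eq_mul] at hu
      exact absurd (mk_mem_torus_iff.mpr hu) hnot
    · rw [show u = -1 from Units.ext (by simp [h])] at hu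
      exact hu
  refine relIndex_eq_two_of_sign (a := ProjGenLinGroup.mk J) (mem_centralizer_mk_iff.mpr ⟨_, hJ'⟩)
    (fun h => ?_) fun b hb hnot => ?_
  · have e : δ * sc (-1 : Fˣ) = δ := by
      rw [← hJ', mul_inv_eq_iff_eq_mul]
      exact (mk_mem_torus_iff.mp h).eq
    have e1 :=
      congrArg (fun x : GL (Fin 2) F => x.val 0 0) (mul_left_cancel (e.trans (mul_one δ).symm))
    simp [sc, GeneralLinearGroup.coe_scalar] at e1
    exact h2 (by linear_combination -e1)
  · obtain ⟨B, rfl⟩ := ProjGenLinGroup.mk_surjective b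
    rw [← map_mul]
    refine mk_mem_torus_iff.mpr (mul_inv_eq_iff_eq_mul.mp ?_)
    rw [_root_.mul_inv_rev, show B * J * δ * (J⁻¹ * B⁻¹) = B * (J * δ * J⁻¹) * B⁻¹ by group, hJ',
      show B * (δ * sc (-1 : Fˣ)) * B⁻¹ = B * δ * B⁻¹ * (B * sc (-1) * B⁻¹) by group,
      ← sc_comm, mul_inv_cancel_right, hneg B hb hnot, mul_assoc, sc_mul, neg_one_mul, neg_neg,
      sc_one, mul_one]

end Torus

variable {K L : Type*} [Field K] [Field L] [Algebra K L] {τ : L ≃+* L}

namespace IsTwist

variable (h : IsTwist K τ)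

include h

/-- The twisted centraliser of the identity is `PGL₂(K)`. -/
theorem tcent_one : tcent τ (1 : G2 L) = (g2Map (algebraMap K L)).range := by
  refine le_antisymm (fun g hg => ?_) ?_
  · obtain ⟨G, rfl⟩ := ProjGenLinGroup.mk_surjective g
    rw [mem_tcent, tconj, mul_one, mul_inv_eq_one, ProjGenLinGroup.map_mk] at hg
    obtain ⟨μ, hμ⟩ := Matrix.ProjGenLinGroup.mk_eq_mk_iff.mp hg
    have e1 := congrArg (Cyc3.gmap τ) hμ
    have e2 := congrArg (Cyc3.gmap τ) e1
    simp only [map_mul, gmap_sc, h.gmap_cube] at e1 e2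
    have hn : (μ : L) * τ μ * τ (τ (μ : L)) = 1 := by
      have e : G * sc (μ * Units.map (τ : L →* L) μ *
          Units.map (τ : L →* L) (Units.map (τ : L →* L) μ)) = G * 1 := by
        rw [← sc_mul, ← sc_mul, ← mul_assoc, ← mul_assoc, mul_one]
        conv_rhs => rw [← e2, ← e1]
        rw [← hμ]
      have := congrArg (fun x : GL (Fin 2) L => x.val 0 0) (mul_left_cancel e)
      simpa [sc, GeneralLinearGroup.coe_scalar] using this
    obtain ⟨s, hs0, hs⟩ := h.exists_eq_mul_map hn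
    set S := Units.mk0 s hs0
    have hS : μ * Units.map (τ : L →* L) S = S := Units.ext hs
    have hfix : Cyc3.gmap τ (G * sc S) = G * sc S := by
      rw [map_mul, gmap_sc, ← hμ, mul_assoc, ← map_mul, hS]
    have hent : ∀ i j, ∃ k : K, algebraMap K L k = (G * sc S).val i j := fun i j =>
      h.surj _ (congrArg (fun x : GL (Fin 2) L => x.val i j) hfix)
    choose k hk using hent
    have hkm : (Matrix.of k).map (algebraMap K L) = (G * sc S).val := by
      ext i j
      exact hk i j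
    refine ⟨ProjGenLinGroup.mk (GeneralLinearGroup.mkOfDetNeZero (Matrix.of k) fun h0 => ?_), ?_⟩
    · apply Matrix.GeneralLinearGroup.det_ne_zero (G * sc S)
      rw [← hkm, ← RingHom.mapMatrix_apply, ← RingHom.map_det, h0, map_zero]
    · rw [ProjGenLinGroup.map_mk, ← mul_one (ProjGenLinGroup.mk G), ← ProjGenLinGroup.mk_scalar S,
        ← map_mul]
      exact congrArg _ (Units.ext hkm)
  · rintro _ ⟨d, rfl⟩
    rw [mem_tcent, tconj, mul_one, h.g2Map_incl, mul_inv_cancel]

/-- Fixed classes come from the base. -/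
lemma exists_incl_of_fixed {g : G2 L} (hg : g2Map (τ : L →+* L) g = g) :
    ∃ d : G2 K, g2Map (algebraMap K L) d = g := by
  have hg1 : g ∈ tcent τ (1 : G2 L) := by
    rw [mem_tcent, tconj, hg, mul_one, mul_inv_cancel]
  rwa [h.tcent_one] at hg1

variable {δ : GL (Fin 2) K} (hδ : (ProjGenLinGroup.mk δ : G2 K) ≠ 1) {γ : GL (Fin 2) L}
  (hγ : IsRep τ δ γ)

include hδ hγ

omit hδ in
/-- A twisted centralising element acts on the matrix by a sign. -/
lemma conj_up_eq {G : GL (Fin 2) L}
    (hG : ProjGenLinGroup.mk G ∈ tcent τ (ProjGenLinGroup.mk γ)) :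
    ∃ ν : Lˣ, G * upGL δ * G⁻¹ = upGL δ * sc ν := by
  rw [mem_tcent] at hG
  have e := h.tnrm_tconj (ProjGenLinGroup.mk G) (ProjGenLinGroup.mk γ)
  rw [hG, hγ.tnrm_eq, ProjGenLinGroup.map_mk, ← map_inv, ← map_mul, ← map_mul,
    Matrix.ProjGenLinGroup.mk_eq_mk_iff] at e
  obtain ⟨ν, hν⟩ := e
  exact ⟨ν, hν.symm⟩

/-- Twisted centralising elements commuting with the matrix come from the torus. -/
lemma mem_map_torus {G : GL (Fin 2) L} (hG : ProjGenLinGroup.mk G ∈ tcent τ (ProjGenLinGroup.mk γ))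
    (hc : Commute G (upGL δ)) :
    ProjGenLinGroup.mk G ∈ (torus δ).map (g2Map (algebraMap K L)) := by
  have cγ : Commute G γ := commute_of_commute_up hδ hc hγ.comm
  rw [mem_tcent, tconj, ← map_mul, cγ.eq, map_mul, mul_assoc, mul_eq_left, mul_inv_eq_one] at hG
  have h1 : ProjGenLinGroup.mk G ∈ tcent τ (1 : G2 L) := by
    rw [mem_tcent, tconj, mul_one, mul_inv_eq_one]
    exact hG
  rw [h.tcent_one] at h1
  obtain ⟨d, hd⟩ := h1
  refine ⟨d, ?_, hd⟩
  obtain ⟨D, rfl⟩ := ProjGenLinGroup.mk_surjective d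
  refine mk_mem_torus_iff.mpr ?_
  have hu := mk_mem_torus_iff.mpr hc
  rw [← hd, ProjGenLinGroup.map_mk, mk_mem_torus_iff] at hu
  refine map_injective (algebraMap K L) ?_
  rw [map_mul, map_mul]
  exact hu.eq

/-- The torus maps into the twisted centraliser. -/
lemma map_torus_le_tcent : (torus δ).map (g2Map (algebraMap K L)) ≤
    tcent τ (ProjGenLinGroup.mk γ) := by
  rintro _ ⟨_, ⟨D, hD, rfl⟩, rfl⟩
  have hc : Commute (upGL (L := L) D) (upGL δ) :=
    (show Commute D δ from Subgroup.mem_centralizer_singleton_iff.mp hD).map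
      (GeneralLinearGroup.map (algebraMap K L))
  rw [mem_tcent, tconj, h.g2Map_incl, ProjGenLinGroup.map_mk, ← map_mul,
    (commute_of_commute_up hδ hc hγ.comm).eq, map_mul, mul_inv_cancel_right]

/-- For `δ` of nonzero trace the twisted centraliser of a representative is the torus of `δ` over
the base. -/
theorem tcent_eq (h2 : (2 : K) ≠ 0) (ht : δ.val.trace ≠ 0) :
    tcent τ (ProjGenLinGroup.mk γ) = (torus δ).map (g2Map (algebraMap K L)) := by
  refine le_antisymm (fun g hg => ?_) (h.map_torus_le_tcent hδ hγ)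
  obtain ⟨G, rfl⟩ := ProjGenLinGroup.mk_surjective g
  obtain ⟨ν, hν⟩ := h.conj_up_eq hγ hg
  rcases conj_eq_or hν with h1 | ⟨-, h1⟩
  · rw [show ν = 1 from Units.ext h1, sc_one, mul_one, mul_inv_eq_iff_eq_mul] at hν
    exact h.mem_map_torus hδ hγ hg hν
  · rw [trace_map] at h1
    refine absurd ((mul_eq_zero.mp (show (2 : L) * algebraMap K L δ.val.trace = 0 by
      linear_combination h1)).resolve_left (two_ne_zero_L h2)) ?_
    simpa using ht

/-- For `δ` of trace zero the torus of `δ` over the base has index two in the twisted centraliser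
of a representative. -/
theorem relIndex_tcent (h2 : (2 : K) ≠ 0) (ht : δ.val.trace = 0) :
    ((torus δ).map (g2Map (algebraMap K L))).relIndex (tcent τ (ProjGenLinGroup.mk γ)) = 2 := by
  obtain ⟨J, hJ⟩ := Quad.exists_anticommute (fun e => hδ (Quad.mk_eq_one_iff.mpr e)) ht
  have hJ' : upGL (L := L) J * upGL δ * (upGL J)⁻¹ = upGL δ * sc (-1) := by
    rw [← map_inv, ← map_mul, ← map_mul, show J * δ * J⁻¹ = δ * sc (-1 : Kˣ) by
      rw [mul_inv_eq_iff_eq_mul]
      apply Units.ext
      rw [Units.val_mul, hJ, Units.val_mul, Units.val_mul, sc_val, Units.val_neg, Units.val_one,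
        neg_one_smul, mul_neg, mul_one, neg_mul],
      map_mul, map_sc]
    congr 2
    exact Units.ext (by simp)
  -- the conjugate representative
  set j := upGL (L := L) J
  have hrep : IsRep τ δ (j * γ * j⁻¹) := by
    obtain ⟨u, hu⟩ := hγ.nrm
    refine ⟨?_, -u, ?_⟩
    · have e := hγ.comm.map (MulAut.conj j : GL (Fin 2) L ≃* GL (Fin 2) L)
      rw [MulAut.conj_apply, MulAut.conj_apply, hJ'] at e
      have e2 := e.mul_right (commute_sc (-1 : Lˣ) (j * γ * j⁻¹)).symm
      have e1 : upGL (L := L) δ * sc (-1) * sc (-1) = upGL δ := by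
        rw [mul_assoc, sc_mul, neg_one_mul, neg_neg, sc_one, mul_one]
      exact e1 ▸ e2
    · have hτj : Cyc3.gmap τ j = j := h.gmap_up J
      have e : nrmGL τ (j * γ * j⁻¹) = j * nrmGL τ γ * j⁻¹ := by
        simp only [nrmGL, map_mul, map_inv, hτj]
        group
      rw [e, hu, show j * (upGL δ * sc (Units.map (algebraMap K L : K →* L) u)) * j⁻¹ =
        j * upGL δ * j⁻¹ * (j * sc (Units.map (algebraMap K L : K →* L) u) * j⁻¹) by group, hJ',
        ← sc_comm (Units.map (algebraMap K L : K →* L) u), mul_inv_cancel_right, mul_assoc, sc_mul]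
      congr 2
      exact Units.ext (by simp)
  obtain ⟨t, htc, ht'⟩ := h.exists_tconj_of_isRep hδ hγ hrep
  have ha : ProjGenLinGroup.mk (t⁻¹ * j) ∈ tcent τ (ProjGenLinGroup.mk γ) := by
    rw [mem_tcent, map_mul, map_inv, tconj_mul]
    refine tconj_inv (ht'.trans ?_)
    rw [tconj, show ProjGenLinGroup.mk j = g2Map (algebraMap K L) (ProjGenLinGroup.mk J) from rfl,
      h.g2Map_incl, show g2Map (algebraMap K L) (ProjGenLinGroup.mk J) =
      ProjGenLinGroup.mk j from rfl,
      map_mul, map_mul, map_inv]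
  have hne : (-1 : Lˣ) ≠ 1 := fun e => two_ne_zero_L h2 (by
    have := congrArg Units.val e
    simp only [Units.val_neg, Units.val_one] at this
    linear_combination -this)
  have hconj : (t⁻¹ * j) * upGL δ * (t⁻¹ * j)⁻¹ = upGL δ * sc (-1) := by
    rw [show (t⁻¹ * j) * upGL δ * (t⁻¹ * j)⁻¹ = t⁻¹ * (j * upGL δ * j⁻¹) * t by group, hJ',
      ← mul_assoc, htc.inv_left.eq, mul_assoc, mul_assoc, sc_comm, inv_mul_cancel_left]
  refine relIndex_eq_two_of_sign ha (fun hmem => hne ?_) fun b hb hnot => ?_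
  · obtain ⟨_, ⟨D, hD, rfl⟩, hD2⟩ := hmem
    have hc : Commute (upGL (L := L) D) (upGL δ) :=
      (show Commute D δ from Subgroup.mem_centralizer_singleton_iff.mp hD).map
        (GeneralLinearGroup.map (algebraMap K L))
    have hm := (mk_mem_torus_iff.mpr hc)
    rw [ProjGenLinGroup.map_mk] at hD2
    rw [hD2, mk_mem_torus_iff] at hm
    rw [mul_inv_eq_iff_eq_mul.mpr hm.eq, left_eq_mul] at hconj
    have e00 := congrArg (fun x : GL (Fin 2) L => x.val 0 0) hconj
    refine Units.ext ?_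
    simpa [sc, GeneralLinearGroup.coe_scalar] using e00
  · obtain ⟨B, rfl⟩ := ProjGenLinGroup.mk_surjective b
    rw [← map_mul]
    refine h.mem_map_torus hδ hγ (by rw [map_mul]; exact mul_mem hb ha) ?_
    obtain ⟨ν, hν⟩ := h.conj_up_eq hγ hb
    rcases conj_eq_or hν with h1 | ⟨h1, -⟩
    · rw [show ν = 1 from Units.ext h1, sc_one, mul_one, mul_inv_eq_iff_eq_mul] at hν
      exact absurd (h.mem_map_torus hδ hγ hb hν) hnot
    refine mul_inv_eq_iff_eq_mul.mp ?_
    rw [_root_.mul_inv_rev, show B * (t⁻¹ * j) * upGL δ * ((t⁻¹ * j)⁻¹ * B⁻¹) =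
        B * ((t⁻¹ * j) * upGL δ * (t⁻¹ * j)⁻¹) * B⁻¹ by group, hconj,
      show B * (upGL δ * sc (-1 : Lˣ)) * B⁻¹ = B * upGL δ * B⁻¹ * (B * sc (-1) * B⁻¹) by group,
      ← sc_comm, mul_inv_cancel_right, hν, show ν = -1 from Units.ext (by simp [h1]),
      mul_assoc, sc_mul, neg_one_mul, neg_neg, sc_one, mul_one]

end IsTwist

end FermatAgent.LT
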