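import Mathlib
import Fermat.Agent.LT.Descent.ClassesBasic

/-!
# Normalised matrices and the residual cube condition

A nonscalar matrix fixes a coset at a place exactly when a multiple of it has integral trace and
unit determinant.  The residual cube condition is a congruence on these two invariants; at any
fixed coset it says that the residual class is the cube of a class commuting with it.
-/

set_option autoImplicit false

noncomputable section

open Matrix IsDedekindDomain NumberField WithZero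
open scoped MatrixGroups

namespace FermatAgent.LT

variable {K : Type*} [Field K] [NumberField K]

/-- Integral trace and unit determinant. -/
def Normalised (v : HeightOneSpectrum (𝓞 K)) (δ : GL (Fin 2) K) : Prop :=
  v.valuation K δ.val.det = 1 ∧ v.valuation K δ.val.trace ≤ 1

/-- Some element of `R[X]/(X² - tX + d)` has cube a unit multiple of `X` modulo the place. -/
def CubeAt (v : HeightOneSpectrum (𝓞 K)) (t d : K) : Prop :=
  ∃ x y : K, v.valuation K x ≤ 1 ∧ v.valuation K y ≤ 1 ∧
    v.valuation K (x ^ 3 - 3 * x * y ^ 2 * d - y ^ 3 * t * d) < 1 ∧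
    v.valuation K (3 * x ^ 2 * y + 3 * x * y ^ 2 * t + y ^ 3 * (t ^ 2 - d)) = 1

/-- The residual cube condition. -/
def CubeOK (v : HeightOneSpectrum (𝓞 K)) (δ : GL (Fin 2) K) : Prop :=
  ∃ s : Kˣ, Normalised v (δ * sc s) ∧
    CubeAt v (δ * sc s).val.trace (δ * sc s).val.det

variable {v : HeightOneSpectrum (𝓞 K)}

lemma CubeAt.scale {t d : K} (h : CubeAt v t d) {a : K} (ha : v.valuation K a = 1) :
    CubeAt v (a * t) (a ^ 2 * d) := by
  obtain ⟨x, y, hx, hy, h1, h2⟩ := h
  have ha0 : a ≠ 0 := fun e => by rw [e, map_zero] at ha; exact zero_ne_one ha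
  refine ⟨x, y / a, hx, by rwa [map_div₀, ha, div_one], ?_, ?_⟩
  · rwa [show x ^ 3 - 3 * x * (y / a) ^ 2 * (a ^ 2 * d) - (y / a) ^ 3 * (a * t) * (a ^ 2 * d) =
      x ^ 3 - 3 * x * y ^ 2 * d - y ^ 3 * t * d by field_simp]
  · rw [show 3 * x ^ 2 * (y / a) + 3 * x * (y / a) ^ 2 * (a * t) +
      (y / a) ^ 3 * ((a * t) ^ 2 - a ^ 2 * d) =
      (3 * x ^ 2 * y + 3 * x * y ^ 2 * t + y ^ 3 * (t ^ 2 - d)) / a by field_simp,
      map_div₀, h2, ha, div_one]

omit [NumberField K] in
/-- The trace of a scalar multiple. -/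
lemma trace_mul_sc (δ : GL (Fin 2) K) (s : Kˣ) :
    (δ * sc s).val.trace = (s : K) * δ.val.trace := by
  rw [Units.val_mul, sc_val, mul_smul_comm, mul_one, Matrix.trace_smul, smul_eq_mul]

omit [NumberField K] in
/-- The determinant of a scalar multiple. -/
lemma det_mul_sc (δ : GL (Fin 2) K) (s : Kˣ) :
    (δ * sc s).val.det = (s : K) ^ 2 * δ.val.det := by
  rw [Units.val_mul, Matrix.det_mul, det_sc, mul_comm]

/-- The condition at any normalisation. -/
lemma cubeOK_iff {δ : GL (Fin 2) K} {s : Kˣ} (hs : Normalised v (δ * sc s)) :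
    CubeOK v δ ↔ CubeAt v (δ * sc s).val.trace (δ * sc s).val.det := by
  refine ⟨?_, fun h => ⟨s, hs, h⟩⟩
  rintro ⟨r, hr, h⟩
  have ha : v.valuation K ((s : K) / r) = 1 := by
    have h1 := hs.1
    have h2 := hr.1
    rw [det_mul_sc, map_mul, map_pow] at h1 h2
    have h3 := mul_right_cancel₀ (right_ne_zero_of_mul_eq_one h1) (h1.trans h2.symm)
    rw [map_div₀, (pow_left_inj₀ zero_le zero_le two_ne_zero).mp h3,
      div_self ((Valuation.ne_zero_iff _).mpr r.ne_zero)]
  have := h.scale ha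
  rw [trace_mul_sc, det_mul_sc] at this ⊢
  convert this using 1 <;> field_simp

/-- The cube condition for a normalised matrix. -/
lemma cubeOK_iff_self {δ : GL (Fin 2) K} (hs : Normalised v δ) :
    CubeOK v δ ↔ CubeAt v δ.val.trace δ.val.det := by
  have e : δ * sc 1 = δ := by rw [sc_one, mul_one]
  rw [cubeOK_iff (s := 1) (by rwa [e]), e]

lemma Normalised.of_conj {δ g : GL (Fin 2) K} :
    Normalised v (g⁻¹ * δ * g) ↔ Normalised v δ := by
  simp only [Normalised, Units.val_mul, Matrix.det_units_conj', Matrix.trace_units_conj']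

/-- Units of the local group are normalised. -/
lemma normalised_of_mem {k : GL (Fin 2) K} (hk : k ∈ locGL v) : Normalised v k :=
  ⟨hk.2, by
    rw [Matrix.trace_fin_two]
    exact ((v.valuation K).map_add _ _).trans (max_le (hk.1 0 0) (hk.1 1 1))⟩

/-- The cube condition is invariant under conjugation and scaling. -/
lemma cubeOK_conj (δ g : GL (Fin 2) K) (s : Kˣ) :
    CubeOK v (g⁻¹ * δ * g * sc s) ↔ CubeOK v δ := by
  have e : ∀ r : Kˣ, g⁻¹ * δ * g * sc s * sc r = g⁻¹ * (δ * sc (s * r)) * g := fun r => by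
    rw [mul_assoc (g⁻¹ * δ * g), sc_mul, mul_assoc (g⁻¹ * δ), ← sc_comm, ← mul_assoc, mul_assoc g⁻¹]
  have key : ∀ r : Kˣ, (Normalised v (g⁻¹ * δ * g * sc s * sc r) ∧
      CubeAt v (g⁻¹ * δ * g * sc s * sc r).val.trace (g⁻¹ * δ * g * sc s * sc r).val.det) ↔
      (Normalised v (δ * sc (s * r)) ∧
        CubeAt v (δ * sc (s * r)).val.trace (δ * sc (s * r)).val.det) := fun r => by
    rw [e, Normalised.of_conj]
    generalize δ * sc (s * r) = D
    rw [Units.val_mul, Units.val_mul, Matrix.det_units_conj', Matrix.trace_units_conj']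
  refine ⟨fun ⟨r, hr⟩ => ⟨s * r, (key r).mp hr⟩, fun ⟨r, hr⟩ => ⟨s⁻¹ * r, (key _).mpr ?_⟩⟩
  rwa [mul_inv_cancel_left]

/-- A matrix fixes a coset exactly when a multiple is normalised. -/
theorem fixes_iff {δ : GL (Fin 2) K} (hδ : (ProjGenLinGroup.mk δ : G2 K) ≠ 1) :
    (∃ x : G2 K ⧸ locK v, (ProjGenLinGroup.mk δ : G2 K) • x = x) ↔
      ∃ s : Kˣ, Normalised v (δ * sc s) := by
  refine ⟨?_, ?_⟩
  · rintro ⟨x, hx⟩
    induction x using QuotientGroup.induction_on with | H g =>
    obtain ⟨g, rfl⟩ := ProjGenLinGroup.mk_surjective g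
    rw [MulAction.Quotient.smul_mk, smul_eq_mul, eq_comm, QuotientGroup.eq, ← map_mul, ← map_inv,
      ← map_mul] at hx
    obtain ⟨k, hk, e⟩ := hx
    obtain ⟨u, hu⟩ := Matrix.ProjGenLinGroup.mk_eq_mk_iff.mp e.symm
    refine ⟨u, Normalised.of_conj.mp (?_ : Normalised v (g⁻¹ * (δ * sc u) * g))⟩
    rw [show g⁻¹ * (δ * sc u) * g = g⁻¹ * δ * (sc u * g) by simp [mul_assoc], sc_comm, ← mul_assoc,
      mul_assoc g⁻¹ δ g, hu]
    exact normalised_of_mem hk
  · rintro ⟨s, hs⟩
    have hns : ¬Quad.IsScal (δ * sc s).val := fun h => hδ (by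
      have e := Quad.mk_eq_one_iff.mpr h
      rwa [map_mul, ProjGenLinGroup.mk_scalar, mul_one] at e)
    obtain ⟨P, hP⟩ := Quad.exists_comp hns
    let C : GL (Fin 2) K := P⁻¹ * (δ * sc s) * P
    have hC : C.val = Quad.comp (δ * sc s).val.trace (δ * sc s).val.det := by
      show (P⁻¹).val * (δ * sc s).val * P.val = _
      rw [mul_assoc, hP, ← mul_assoc, Units.inv_mul, one_mul]
    have hCK : C ∈ locGL v := by
      refine ⟨fun i j => ?_, ?_⟩
      · obtain ⟨h1, h2⟩ := hs
        rw [hC]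
        generalize (δ * sc s).val.trace = t at h2
        generalize (δ * sc s).val.det = d at h1
        fin_cases i <;> fin_cases j <;> simp [Quad.comp, h1, h2]
      · rw [hC, show ∀ t d : K, (Quad.comp t d).det = d by
          intro t d; simp [Quad.comp, Matrix.det_fin_two]]
        exact hs.1
    refine ⟨QuotientGroup.mk (ProjGenLinGroup.mk P), ?_⟩
    rw [MulAction.Quotient.smul_mk, smul_eq_mul, eq_comm, QuotientGroup.eq]
    refine ⟨C, hCK, ?_⟩
    simp only [C, map_mul, map_inv, ProjGenLinGroup.mk_scalar, mul_one]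
    group

/-- The condition only depends on the residues of the invariants. -/
lemma CubeAt.congr {t d t' d' : K} (h : CubeAt v t d) (ht : v.valuation K t ≤ 1)
    (hd : v.valuation K d ≤ 1) (ht' : v.valuation K (t' - t) < 1)
    (hd' : v.valuation K (d' - d) < 1) : CubeAt v t' d' := by
  obtain ⟨x, y, hx, hy, h1, h2⟩ := h
  have hm : ∀ {a b : K}, v.valuation K a ≤ 1 → v.valuation K b ≤ 1 → v.valuation K (a * b) ≤ 1 :=
    fun ha hb => by rw [map_mul]; exact mul_le_one' ha hb
  have hml : ∀ {a b : K}, v.valuation K a ≤ 1 → v.valuation K b < 1 → v.valuation K (a * b) < 1 :=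
    fun ha hb => by rw [map_mul]; exact Right.mul_lt_one_of_le_of_lt ha hb
  have ha : ∀ {a b : K}, v.valuation K a ≤ 1 → v.valuation K b ≤ 1 → v.valuation K (a + b) ≤ 1 :=
    fun ha hb => ((v.valuation K).map_add _ _).trans (max_le ha hb)
  have h3 : v.valuation K (3 : K) ≤ 1 := by
    rw [show (3 : K) = algebraMap (𝓞 K) K 3 from (map_ofNat _ 3).symm]
    exact HeightOneSpectrum.valuation_le_one v _
  have hy2 : v.valuation K (y ^ 2) ≤ 1 := by rw [map_pow]; exact pow_le_one₀ zero_le hy
  have hy3 : v.valuation K (y ^ 3) ≤ 1 := by rw [map_pow]; exact pow_le_one₀ zero_le hy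
  have hn : ∀ {a : K}, v.valuation K a ≤ 1 → v.valuation K (-a) ≤ 1 :=
    fun ha => by rwa [Valuation.map_neg]
  have ht1 : v.valuation K t' ≤ 1 := by
    rw [show t' = t + (t' - t) by ring]; exact ha ht ht'.le
  refine ⟨x, y, hx, hy, ?_, ?_⟩
  · rw [show x ^ 3 - 3 * x * y ^ 2 * d' - y ^ 3 * t' * d' =
      (x ^ 3 - 3 * x * y ^ 2 * d - y ^ 3 * t * d) +
        (-(y ^ 3 * d) * (t' - t) + (-(3 * x * y ^ 2) + -(y ^ 3 * t')) * (d' - d)) by ring]
    exact (v.valuation K).map_add_lt h1 ((v.valuation K).map_add_lt (hml (hn (hm hy3 hd)) ht')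
      (hml (ha (hn (hm (hm h3 hx) hy2)) (hn (hm hy3 ht1))) hd'))
  · have e : 3 * x ^ 2 * y + 3 * x * y ^ 2 * t' + y ^ 3 * (t' ^ 2 - d') -
        (3 * x ^ 2 * y + 3 * x * y ^ 2 * t + y ^ 3 * (t ^ 2 - d)) =
        (3 * x * y ^ 2 + y ^ 3 * (t' + t)) * (t' - t) + -(y ^ 3) * (d' - d) := by ring
    have := (v.valuation K).map_add_eq_of_lt_left (x := 3 * x ^ 2 * y + 3 * x * y ^ 2 * t +
      y ^ 3 * (t ^ 2 - d)) (y := (3 * x * y ^ 2 + y ^ 3 * (t' + t)) * (t' - t) +
        -(y ^ 3) * (d' - d))
      (by rw [h2]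
          exact (v.valuation K).map_add_lt (hml (ha (hm (hm h3 hx) hy2) (hm hy3 (ha ht1 ht))) ht')
            (hml (hn hy3) hd'))
    rw [← e, add_sub_cancel, h2] at this
    exact this

section Residual

/-- All entries small. -/
def SmallMat (v : HeightOneSpectrum (𝓞 K)) (M : Matrix (Fin 2) (Fin 2) K) : Prop :=
  ∀ i j, v.valuation K (M i j) < 1

/-- All entries integral. -/
def IntMat (v : HeightOneSpectrum (𝓞 K)) (M : Matrix (Fin 2) (Fin 2) K) : Prop :=
  ∀ i j, v.valuation K (M i j) ≤ 1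

/-- Integral matrices multiply. -/
lemma IntMat.mul {A B : Matrix (Fin 2) (Fin 2) K} (hA : IntMat v A) (hB : IntMat v B) :
    IntMat v (A * B) := fun i j => by
  simp only [Matrix.mul_apply, Fin.sum_univ_two]
  refine ((v.valuation K).map_add _ _).trans (max_le ?_ ?_) <;>
    rw [map_mul] <;> exact mul_le_one' (hA _ _) (hB _ _)

/-- A small times an integral matrix is small. -/
lemma SmallMat.mul_right {A B : Matrix (Fin 2) (Fin 2) K} (hA : SmallMat v A) (hB : IntMat v B) :
    SmallMat v (A * B) := fun i j => by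
  simp only [Matrix.mul_apply, Fin.sum_univ_two]
  refine (v.valuation K).map_add_lt ?_ ?_ <;>
    rw [map_mul] <;> exact mul_lt_one_of_lt_of_le (hA _ _) (hB _ _)

/-- An integral times a small matrix is small. -/
lemma SmallMat.mul_left {A B : Matrix (Fin 2) (Fin 2) K} (hA : IntMat v A) (hB : SmallMat v B) :
    SmallMat v (A * B) := fun i j => by
  simp only [Matrix.mul_apply, Fin.sum_univ_two]
  refine (v.valuation K).map_add_lt ?_ ?_ <;>
    rw [map_mul] <;> exact Right.mul_lt_one_of_le_of_lt (hA _ _) (hB _ _)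

/-- Sums of small matrices are small. -/
lemma SmallMat.add {A B : Matrix (Fin 2) (Fin 2) K} (hA : SmallMat v A) (hB : SmallMat v B) :
    SmallMat v (A + B) := fun i j => (v.valuation K).map_add_lt (hA i j) (hB i j)

/-- Negatives of small matrices are small. -/
lemma SmallMat.neg {A : Matrix (Fin 2) (Fin 2) K} (hA : SmallMat v A) : SmallMat v (-A) :=
  fun i j => by rw [Matrix.neg_apply, Valuation.map_neg]; exact hA i j

lemma SmallMat.cube_sub {A B : Matrix (Fin 2) (Fin 2) K} (hA : IntMat v A) (hB : IntMat v B)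
    (h : SmallMat v (A - B)) : SmallMat v (A ^ 3 - B ^ 3) := by
  rw [show A ^ 3 - B ^ 3 = (A - B) * (A * A) + B * ((A - B) * A) + B * B * (A - B) by
    simp only [pow_succ, pow_zero, one_mul]; noncomm_ring]
  exact ((h.mul_right (hA.mul hA)).add (SmallMat.mul_left hB (h.mul_right hA))).add
    (SmallMat.mul_left (hB.mul hB) h)

omit [NumberField K] in
/-- The cube of a combination of one and a matrix. -/
lemma lin_cube (D : Matrix (Fin 2) (Fin 2) K) (x y : K) :
    (x • (1 : Matrix (Fin 2) (Fin 2) K) + y • D) ^ 3 =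
      (x ^ 3 - 3 * x * y ^ 2 * D.det - y ^ 3 * D.trace * D.det) • 1 +
      (3 * x ^ 2 * y + 3 * x * y ^ 2 * D.trace + y ^ 3 * (D.trace ^ 2 - D.det)) • D := by
  ext i j
  fin_cases i <;> fin_cases j <;>
    simp [pow_succ, Matrix.det_fin_two, Matrix.trace_fin_two, Matrix.mul_apply,
      Fin.sum_univ_two] <;>
    ring

/-- Congruent integral matrices have congruent determinants. -/
lemma val_det_sub_lt {A B : Matrix (Fin 2) (Fin 2) K} (hA : IntMat v A) (hB : IntMat v B)
    (h : SmallMat v (A - B)) : v.valuation K (A.det - B.det) < 1 := by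
  rw [Matrix.det_fin_two, Matrix.det_fin_two,
    show A 0 0 * A 1 1 - A 0 1 * A 1 0 - (B 0 0 * B 1 1 - B 0 1 * B 1 0) =
      ((A - B) 0 0 * A 1 1 + B 0 0 * (A - B) 1 1) - ((A - B) 0 1 * A 1 0 + B 0 1 * (A - B) 1 0) by
      simp only [Matrix.sub_apply]; ring]
  refine ((v.valuation K).map_sub _ _).trans_lt (max_lt ((v.valuation K).map_add_lt ?_ ?_)
    ((v.valuation K).map_add_lt ?_ ?_)) <;> rw [map_mul]
  exacts [mul_lt_one_of_lt_of_le (h _ _) (hA _ _), Right.mul_lt_one_of_le_of_lt (hB _ _) (h _ _),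
    mul_lt_one_of_lt_of_le (h _ _) (hA _ _), Right.mul_lt_one_of_le_of_lt (hB _ _) (h _ _)]

/-- Elements congruent to units are units. -/
lemma val_eq_one_of_sub_lt {a b : K} (hb : v.valuation K b = 1) (h : v.valuation K (a - b) < 1) :
    v.valuation K a = 1 := by
  have := (v.valuation K).map_add_eq_of_lt_left (x := b) (y := a - b) (by rwa [hb])
  rwa [add_sub_cancel, hb] at this

/-- A double residual root always satisfies the condition. -/
lemma cubeAt_of_double (h3 : v.valuation K 3 = 1) {t d s : K} (hs : v.valuation K s = 1)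
    (ht : v.valuation K (t - 2 * s) < 1) (hd : v.valuation K (d - s ^ 2) < 1) : CubeAt v t d := by
  have hint : ∀ n : ℕ, v.valuation K (n : K) ≤ 1 := fun n => by
    rw [show (n : K) = algebraMap (𝓞 K) K (n : 𝓞 K) from (map_natCast _ n).symm]
    exact HeightOneSpectrum.valuation_le_one v _
  have hn : ∀ (n : ℕ) {a : K}, v.valuation K a ≤ 1 → v.valuation K ((n : K) * a) ≤ 1 :=
      fun n a ha => by
    rw [map_mul]
    exact mul_le_one' (hint n) ha
  have hte : v.valuation K t ≤ 1 := by
    rw [show t = (t - 2 * s) + ((2 : ℕ) : K) * s by push_cast; ring]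
    exact ((v.valuation K).map_add _ _).trans (max_le ht.le (hn 2 hs.le))
  have hmul : ∀ {a b : K}, v.valuation K a ≤ 1 → v.valuation K b < 1 →
      v.valuation K (a * b) < 1 := fun ha hb => by
    rw [map_mul]
    exact Right.mul_lt_one_of_le_of_lt ha hb
  refine ⟨2 * s, 1, by simpa using hn 2 hs.le, by simp, ?_, ?_⟩
  · rw [show (2 * s) ^ 3 - 3 * (2 * s) * 1 ^ 2 * d - 1 ^ 3 * t * d =
      -(((6 : ℕ) : K) * s + t) * (d - s ^ 2) + (-(s ^ 2)) * (t - 2 * s) by push_cast; ring]
    refine (v.valuation K).map_add_lt (hmul ?_ hd) (hmul ?_ ht)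
    · rw [Valuation.map_neg]
      exact ((v.valuation K).map_add _ _).trans (max_le (hn 6 hs.le) hte)
    · rw [Valuation.map_neg, map_pow, hs, one_pow]
  · refine val_eq_one_of_sub_lt (b := 3 ^ 3 * s ^ 2) ?_ ?_
    · rw [map_mul, map_pow, map_pow, h3, hs, one_pow, one_pow, one_mul]
    rw [show 3 * (2 * s) ^ 2 * 1 + 3 * (2 * s) * 1 ^ 2 * t + 1 ^ 3 * (t ^ 2 - d) - 3 ^ 3 * s ^ 2 =
      (((8 : ℕ) : K) * s + t) * (t - 2 * s) + (-1) * (d - s ^ 2) by push_cast; ring]
    refine (v.valuation K).map_add_lt (hmul ?_ ht) (hmul (by simp) hd)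
    exact ((v.valuation K).map_add _ _).trans (max_le (hn 8 hs.le) hte)

/-- A matrix commuting residually with one having a unit corner is residually linear in it, and
the coefficients are residually unique. -/
private lemma exists_lin_of_corner {A D : Matrix (Fin 2) (Fin 2) K} (hA : IntMat v A)
    (hD : IntMat v D) (hc : SmallMat v (A * D - D * A)) (h01 : v.valuation K (D 0 1) = 1) :
    ∃ x y : K, v.valuation K x ≤ 1 ∧ v.valuation K y ≤ 1 ∧ SmallMat v (A - (x • 1 + y • D)) ∧
      ∀ P Q : K, SmallMat v (P • 1 + Q • D) → v.valuation K P < 1 ∧ v.valuation K Q < 1 := by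
  have cancel : ∀ {b : K}, v.valuation K (D 0 1 * b) < 1 → v.valuation K b < 1 := fun {b} hb => by
    rwa [map_mul, h01, one_mul] at hb
  have c00 := hc 0 0
  have c01 := hc 0 1
  simp only [Matrix.sub_apply, Matrix.mul_apply, Fin.sum_univ_two] at c00 c01
  have h0 : D 0 1 ≠ 0 := fun e => by rw [e, map_zero] at h01; exact zero_ne_one h01
  set y := A 0 1 / D 0 1 with hydef
  have hy : v.valuation K y ≤ 1 := by rw [hydef, map_div₀, h01, div_one]; exact hA _ _
  refine ⟨A 0 0 - y * D 0 0, y, ((v.valuation K).map_sub _ _).trans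
    (max_le (hA _ _) (by rw [map_mul]; exact mul_le_one' hy (hD _ _))), hy,
    fun a b => ?_, fun P Q hPQ => ?_⟩
  · fin_cases a <;> fin_cases b <;>
      simp only [Fin.zero_eta, Fin.mk_one, Matrix.sub_apply, Matrix.add_apply,
        Matrix.smul_apply, Matrix.one_apply_eq, Matrix.one_apply_ne (zero_ne_one : (0 : Fin 2) ≠ 1),
        Matrix.one_apply_ne (one_ne_zero : (1 : Fin 2) ≠ 0), smul_eq_mul, mul_one, mul_zero,
        zero_add]
    · simp
    · rw [show A 0 1 - y * D 0 1 = 0 by rw [hydef]; field_simp; ring, map_zero]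
      exact zero_lt_one
    · refine cancel ?_
      rw [show D 0 1 * (A 1 0 - y * D 1 0) =
        -(A 0 0 * D 0 0 + A 0 1 * D 1 0 - (D 0 0 * A 0 0 + D 0 1 * A 1 0)) by
          rw [hydef]; field_simp; ring, Valuation.map_neg]
      exact c00
    · refine cancel ?_
      rw [show D 0 1 * (A 1 1 - (A 0 0 - y * D 0 0 + y * D 1 1)) =
        -(A 0 0 * D 0 1 + A 0 1 * D 1 1 - (D 0 0 * A 0 1 + D 0 1 * A 1 1)) by
          rw [hydef]; field_simp; ring, Valuation.map_neg]
      exact c01
  · have p00 := hPQ 0 0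
    have p01 := hPQ 0 1
    simp at p00 p01
    have hQ : v.valuation K Q < 1 := by rwa [h01, mul_one] at p01
    refine ⟨?_, hQ⟩
    rw [show P = (P + Q * D 0 0) - Q * D 0 0 by ring]
    exact ((v.valuation K).map_sub _ _).trans_lt
      (max_lt p00 (by rw [map_mul]; exact mul_lt_one_of_lt_of_le hQ (hD _ _)))

/-- A matrix commuting residually with a residually nonscalar one is residually linear in it. -/
private lemma exists_lin_of_commute {A D : Matrix (Fin 2) (Fin 2) K} (hA : IntMat v A)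
    (hD : IntMat v D) (hc : SmallMat v (A * D - D * A))
    (hsc : ¬(v.valuation K (D 0 1) < 1 ∧ v.valuation K (D 1 0) < 1 ∧
      v.valuation K (D 0 0 - D 1 1) < 1)) :
    ∃ x y : K, v.valuation K x ≤ 1 ∧ v.valuation K y ≤ 1 ∧ SmallMat v (A - (x • 1 + y • D)) ∧
      ∀ P Q : K, SmallMat v (P • 1 + Q • D) → v.valuation K P < 1 ∧ v.valuation K Q < 1 := by
  rcases lt_or_eq_of_le (hD 0 1) with h01 | h01
  · rcases lt_or_eq_of_le (hD 1 0) with h10 | h10
    · -- a shear makes the corner a unit
      set S : Matrix (Fin 2) (Fin 2) K := !![1, 1; 0, 1] with hSd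
      set T : Matrix (Fin 2) (Fin 2) K := !![1, -1; 0, 1] with hTd
      have hS : IntMat v S := fun i j => by fin_cases i <;> fin_cases j <;> simp [hSd]
      have hT : IntMat v T := fun i j => by fin_cases i <;> fin_cases j <;> simp [hTd]
      have hST : S * T = 1 := by simp [hSd, hTd, Matrix.one_fin_two]
      have hTS : T * S = 1 := by simp [hSd, hTd, Matrix.one_fin_two]
      have hc' : SmallMat v (S * A * T * (S * D * T) - S * D * T * (S * A * T)) := by
        rw [show S * A * T * (S * D * T) = S * (A * (T * S) * D) * T by simp only [mul_assoc],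
          show S * D * T * (S * A * T) = S * (D * (T * S) * A) * T by simp only [mul_assoc],
          hTS, mul_one, mul_one, ← sub_mul, ← mul_sub]
        exact (hc.mul_left hS).mul_right hT
      have h01' : v.valuation K ((S * D * T) 0 1) = 1 := by
        rw [show (S * D * T) 0 1 = -(D 0 0 - D 1 1) + (D 0 1 - D 1 0) by
          simp [hSd, hTd, Matrix.mul_apply, Matrix.vecMul, dotProduct, Fin.sum_univ_two]; ring]
        have hd : v.valuation K (-(D 0 0 - D 1 1)) = 1 := by
          rw [Valuation.map_neg]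
          exact le_antisymm (((v.valuation K).map_sub _ _).trans (max_le (hD _ _) (hD _ _)))
            (not_lt.mp fun h => hsc ⟨h01, h10, h⟩)
        rw [Valuation.map_add_eq_of_lt_left _ (hd.symm ▸
          ((v.valuation K).map_sub _ _).trans_lt (max_lt h01 h10)), hd]
      obtain ⟨x, y, hx, hy, hE, hind⟩ := exists_lin_of_corner ((hS.mul hA).mul hT)
        ((hS.mul hD).mul hT) hc' h01'
      have lin : ∀ P Q : K, S * (P • 1 + Q • D) * T = P • 1 + Q • (S * D * T) := fun P Q => by
        simp [mul_add, add_mul, hST]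
      refine ⟨x, y, hx, hy, ?_, fun P Q hPQ => hind P Q (lin P Q ▸ (hPQ.mul_left hS).mul_right hT)⟩
      rw [← lin, ← sub_mul, ← mul_sub] at hE
      have := (hE.mul_left hT).mul_right hS
      rwa [← mul_assoc, ← mul_assoc, hTS, one_mul, mul_assoc, hTS, mul_one] at this
    · -- transpose
      obtain ⟨x, y, hx, hy, hE, hind⟩ := exists_lin_of_corner (A := Aᵀ) (D := Dᵀ)
        (fun i j => hA j i) (fun i j => hD j i) (fun i j => by
          rw [← Matrix.transpose_mul, ← Matrix.transpose_mul, ← neg_sub, Matrix.neg_apply,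
            Valuation.map_neg]
          exact hc j i) h10
      refine ⟨x, y, hx, hy, fun i j => ?_, fun P Q hPQ => hind P Q fun i j => ?_⟩
      · simpa [Matrix.one_apply, eq_comm] using hE j i
      · simpa [Matrix.one_apply, eq_comm] using hPQ j i
  · exact exists_lin_of_corner hA hD hc h01

/-- A residually scalar matrix satisfies the condition. -/
private lemma cubeAt_of_scalar (h3 : v.valuation K 3 = 1) {D : Matrix (Fin 2) (Fin 2) K}
    (hDi : IntMat v D) (hdet : v.valuation K D.det = 1) (h1 : v.valuation K (D 0 1) < 1)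
    (h2 : v.valuation K (D 1 0) < 1) (h3' : v.valuation K (D 0 0 - D 1 1) < 1) :
    CubeAt v D.trace D.det := by
  have hs0 : v.valuation K (D 0 0) = 1 := by
    have h := hdet
    rw [Matrix.det_fin_two] at h
    have h4 : v.valuation K (D 0 0 * D 1 1) = 1 := by
      refine val_eq_one_of_sub_lt h ?_
      rw [show D 0 0 * D 1 1 - (D 0 0 * D 1 1 - D 0 1 * D 1 0) =
        D 0 1 * D 1 0 by ring, map_mul]
      exact mul_lt_one_of_lt_of_le h1 (hDi _ _)
    rw [map_mul] at h4
    exact le_antisymm (hDi _ _) (h4.ge.trans (mul_le_of_le_one_right zero_le (hDi _ _)))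
  refine cubeAt_of_double h3 hs0 ?_ ?_
  · rwa [Matrix.trace_fin_two, show D 0 0 + D 1 1 - 2 * D 0 0 =
      -(D 0 0 - D 1 1) by ring, Valuation.map_neg]
  · rw [Matrix.det_fin_two, show D 0 0 * D 1 1 - D 0 1 * D 1 0 - D 0 0 ^ 2 =
      D 0 0 * -(D 0 0 - D 1 1) + (-D 0 1) * D 1 0 by ring]
    refine (v.valuation K).map_add_lt ?_ ?_ <;> rw [map_mul]
    · exact Right.mul_lt_one_of_le_of_lt (hDi _ _) (by rwa [Valuation.map_neg])
    · exact Right.mul_lt_one_of_le_of_lt (by rw [Valuation.map_neg]; exact hDi _ _) h2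

/-- The condition gives a residual cube root commuting with the matrix. -/
private lemma exists_residual_root {D : GL (Fin 2) K} (hD : D ∈ locGL v)
    (h : CubeAt v D.val.trace D.val.det) :
    ∃ j ∈ locGL v, SmallMat v (j.val * D.val - D.val * j.val) ∧
      ∃ s : K, SmallMat v (j.val ^ 3 - s • D.val) := by
  obtain ⟨x, y, hx, hy, hP, hQ⟩ := h
  have hDi : IntMat v D.val := hD.1
  set M := x • (1 : Matrix (Fin 2) (Fin 2) K) + y • D.val
  have hM : IntMat v M := fun i j => by
    simp only [M, Matrix.add_apply, Matrix.smul_apply, smul_eq_mul]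
    refine ((v.valuation K).map_add _ _).trans (max_le ?_ ?_) <;> rw [map_mul]
    · exact mul_le_one' hx (by rw [Matrix.one_apply]; split_ifs <;> simp)
    · exact mul_le_one' hy (hDi i j)
  have e := lin_cube D.val x y
  set Q := 3 * x ^ 2 * y + 3 * x * y ^ 2 * D.val.trace + y ^ 3 * (D.val.trace ^ 2 - D.val.det)
  have hsm : SmallMat v (M ^ 3 - Q • D.val) := fun i j => by
    rw [e, add_sub_cancel_right, Matrix.smul_apply, smul_eq_mul, map_mul]
    exact mul_lt_one_of_lt_of_le hP (by rw [Matrix.one_apply]; split_ifs <;> simp)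
  have hQD : IntMat v (Q • D.val) := fun i j => by
    rw [Matrix.smul_apply, smul_eq_mul, map_mul, hQ, one_mul]
    exact hDi i j
  have hdet : v.valuation K M.det = 1 := by
    have h1 := val_eq_one_of_sub_lt (b := (Q • D.val).det) (by
      rw [Matrix.det_smul, Fintype.card_fin, map_mul, map_pow, hQ, one_pow, one_mul]
      exact hD.2) (val_det_sub_lt (by
        simp only [pow_succ, pow_zero, one_mul]; exact (hM.mul hM).mul hM) hQD hsm)
    rwa [Matrix.det_pow, map_pow, pow_eq_one_iff_of_nonneg zero_le three_ne_zero] at h1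
  refine ⟨GeneralLinearGroup.mkOfDetNeZero M fun h0 => ?_, ⟨hM, hdet⟩, ?_, Q, hsm⟩
  · rw [h0, map_zero] at hdet
    exact zero_ne_one hdet
  · intro i j
    show v.valuation K ((M * D.val - D.val * M) i j) < 1
    rw [(Quad.commute_lin D.val x y).eq, sub_self, Matrix.zero_apply, map_zero]
    exact zero_lt_one

/-- The condition at an integral matrix of unit determinant. -/
theorem cubeOK_iff_residual (h3 : v.valuation K 3 = 1) {D : GL (Fin 2) K} (hD : D ∈ locGL v) :
    CubeOK v D ↔ ∃ j ∈ locGL v, SmallMat v (j.val * D.val - D.val * j.val) ∧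
      ∃ s : K, SmallMat v (j.val ^ 3 - s • D.val) := by
  rw [cubeOK_iff_self (normalised_of_mem hD)]
  refine ⟨exists_residual_root hD, fun ⟨j, hj, hc, s, hs⟩ => ?_⟩
  have hDi : IntMat v D.val := hD.1
  have hj' : IntMat v j.val := hj.1
  by_cases hsc : v.valuation K (D.val 0 1) < 1 ∧ v.valuation K (D.val 1 0) < 1 ∧
      v.valuation K (D.val 0 0 - D.val 1 1) < 1
  · exact cubeAt_of_scalar h3 hDi hD.2 hsc.1 hsc.2.1 hsc.2.2
  -- otherwise the root is residually linear in the matrix
  obtain ⟨x, y, hx, hy, hE, hind⟩ := exists_lin_of_commute hj' hDi hc hsc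
  set M := x • (1 : Matrix (Fin 2) (Fin 2) K) + y • D.val
  have hM : IntMat v M := fun a b => by
    rw [show M a b = j.val a b - (j.val - M) a b by simp]
    exact ((v.valuation K).map_sub _ _).trans (max_le (hj' _ _) (hE _ _).le)
  have h1 : SmallMat v (M ^ 3 - s • D.val) := by
    rw [show M ^ 3 - s • D.val = -(j.val ^ 3 - M ^ 3) + (j.val ^ 3 - s • D.val) by abel]
    exact (SmallMat.cube_sub hj' hM hE).neg.add hs
  rw [lin_cube] at h1
  set P := x ^ 3 - 3 * x * y ^ 2 * D.val.det - y ^ 3 * D.val.trace * D.val.det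
  set Q := 3 * x ^ 2 * y + 3 * x * y ^ 2 * D.val.trace + y ^ 3 * (D.val.trace ^ 2 - D.val.det)
  obtain ⟨hP, hQ⟩ := hind P (Q - s) (by
    have e : P • (1 : Matrix (Fin 2) (Fin 2) K) + (Q - s) • D.val =
        P • 1 + Q • D.val - s • D.val := by
      rw [sub_smul Q s D.val, add_sub_assoc]
    rw [e]
    exact h1)
  -- the scalar is a unit
  have hj3 : IntMat v (j.val ^ 3) := by
    simp only [pow_succ, pow_zero, one_mul]; exact (hj'.mul hj').mul hj'
  have hsD : IntMat v (s • D.val) := fun a b => by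
    rw [show (s • D.val) a b = (j.val ^ 3) a b - (j.val ^ 3 - s • D.val) a b by simp]
    exact ((v.valuation K).map_sub _ _).trans (max_le (hj3 _ _) (hs _ _).le)
  have hdj : v.valuation K (j.val ^ 3).det = 1 := by rw [Matrix.det_pow, map_pow, hj.2, one_pow]
  have hs1 := val_eq_one_of_sub_lt hdj (a := (s • D.val).det) (by
    rw [Valuation.map_sub_swap]; exact val_det_sub_lt hj3 hsD hs)
  rw [Matrix.det_smul, Fintype.card_fin, map_mul, map_pow, hD.2, mul_one,
    pow_eq_one_iff_of_nonneg zero_le two_ne_zero] at hs1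
  exact ⟨x, y, hx, hy, hP, val_eq_one_of_sub_lt hs1 hQ⟩

end Residual

end FermatAgent.LT
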