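import Mathlib
import Fermat.Agent.LT.Base.Classes
import Fermat.Agent.LT.Descent.ClassesBasic

/-!
# A place of the base with one place above

`v` is a place of the base prime to three and `w` a place above it fixed by the generator.  The
exponent is one or three; in the first case the generator moves residues, in the second it fixes
them.
-/

set_option autoImplicit false

noncomputable section

open Matrix IsDedekindDomain NumberField WithZero
open scoped MatrixGroups

namespace FermatAgent.LT

variable {K L : Type*} [Field K] [NumberField K] [Field L] [NumberField L] [Algebra K L]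

/-- A place prime to three with only one place above. -/
structure NonSplit {K L : Type*} [Field K] [NumberField K] [Field L] [NumberField L] [Algebra K L]
    (τ : L ≃+* L) (v : HeightOneSpectrum (𝓞 K)) (w : HeightOneSpectrum (𝓞 L)) : Prop where
  twist : IsTwist K τ
  val_tau : ∀ x, w.valuation L (τ x) = w.valuation L x
  pair : PlacePair (algebraMap K L) v w
  three : v.valuation K 3 = 1

variable {τ : L ≃+* L} {v : HeightOneSpectrum (𝓞 K)} {w : HeightOneSpectrum (𝓞 L)}

/-- A fixed place above a place prime to three. -/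
theorem NonSplit.of_fixed (h : IsTwist K τ) [w.asIdeal.LiesOver v.asIdeal]
    (hw : placeMap τ w = w) (h3 : v.valuation K 3 = 1) : NonSplit τ v w := by
  refine ⟨h, fun x => ?_, placePair_of_liesOver v w, h3⟩
  obtain ⟨e, he, hx⟩ := placePair_placeMap τ w
  have key := hx
  rw [hw] at key
  have h1 : e = 1 := by
    obtain ⟨π, hπ⟩ := w.valuation_exists_uniformizer L
    have e1 := key π
    have e2 := key (τ π)
    have e3 := key (τ (τ π))
    simp only [RingHom.coe_coe, h.cube] at e1 e2 e3
    rw [e2, e1, hπ, ← pow_mul, ← pow_mul, ← WithZero.exp_nsmul, exp_inj] at e3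
    have h3' : (e * e * e : ℕ) = 1 := by
      rw [nsmul_eq_mul, mul_neg, mul_one, neg_inj, eq_comm] at e3
      rw [mul_assoc]
      exact_mod_cast e3
    exact Nat.eq_one_of_mul_eq_one_left h3'
  rw [← RingHom.coe_coe τ, key x, h1, pow_one]

namespace NonSplit

variable (h : NonSplit τ v w)

include h

/-- The exponent is one. -/
def Inert (_h : NonSplit τ v w) : Prop :=
  ∀ x : K, w.valuation L (algebraMap K L x) = v.valuation K x

/-- The exponent is three. -/
def Ramified (_h : NonSplit τ v w) : Prop :=
  ∀ x : K, w.valuation L (algebraMap K L x) = v.valuation K x ^ 3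

/-- Three is a unit above. -/
lemma three_L : w.valuation L 3 = 1 := by
  rw [← map_ofNat (algebraMap K L), h.pair.eq_one_iff]
  exact h.three

/-- Three is nonzero above. -/
lemma three_ne : (3 : L) ≠ 0 := fun e => by
  have := h.three_L
  rw [e, map_zero] at this
  exact zero_ne_one this

/-- Elements nearly fixed are near the base. -/
lemma exists_sub_le {y : L} {r : WithZero (Multiplicative ℤ)} (hy : w.valuation L (τ y - y) ≤ r) :
    ∃ k : K, w.valuation L (y - algebraMap K L k) ≤ r := by
  obtain ⟨k, hk⟩ := h.twist.surj ((y + τ y + τ (τ y)) / 3) (by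
    simp only [map_div₀, map_add, map_ofNat, h.twist.cube]; ring)
  refine ⟨k, ?_⟩
  have h3 := h.three_ne
  rw [hk, show y - (y + τ y + τ (τ y)) / 3 = ((y - τ y) + ((y - τ y) + τ (y - τ y))) / 3 by
    rw [map_sub]; field_simp; ring, map_div₀, h.three_L, div_one]
  have h1 : w.valuation L (y - τ y) ≤ r := by rwa [Valuation.map_sub_swap]
  exact ((w.valuation L).map_add _ _).trans (max_le h1
    (((w.valuation L).map_add _ _).trans (max_le h1 (by rwa [h.val_tau]))))

/-- Nearly fixed elements are near the base. -/
lemma exists_sub_lt {y : L} (hy : w.valuation L (τ y - y) < 1) :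
    ∃ k : K, w.valuation L (y - algebraMap K L k) < 1 := by
  obtain ⟨k, hk⟩ := h.exists_sub_le le_rfl (y := y)
  exact ⟨k, hk.trans_lt hy⟩

/-- Approximations of integral elements are integral. -/
lemma le_one_of_sub_lt {y : L} (hy : w.valuation L y ≤ 1) {k : K}
    (hk : w.valuation L (y - algebraMap K L k) < 1) : v.valuation K k ≤ 1 := by
  rw [← h.pair.le_one_iff, show algebraMap K L k = y - (y - algebraMap K L k) by ring]
  exact ((w.valuation L).map_sub _ _).trans (max_le hy hk.le)

/-- The exponent is one or three. -/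
theorem inert_or_ramified : h.Inert ∨ h.Ramified := by
  obtain ⟨e, he, hx⟩ := h.pair
  obtain ⟨π, hπ⟩ := w.valuation_exists_uniformizer L
  obtain ⟨k, hk⟩ := h.twist.surj (π * τ π * τ (τ π)) (by
    simp only [map_mul, h.twist.cube]; ring)
  have e1 := hx k
  have hk0 : v.valuation K k ≠ 0 := by
    intro h0
    rw [h0, zero_pow he, hk, map_mul, map_mul, h.val_tau, h.val_tau, h.val_tau, hπ] at e1
    simp at e1
  rw [hk, map_mul, map_mul, h.val_tau, h.val_tau, h.val_tau, hπ, ← exp_log hk0,
    ← WithZero.exp_add, ← WithZero.exp_add, ← WithZero.exp_nsmul, exp_inj, nsmul_eq_mul] at e1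
  have hd : e ∣ 3 := by
    have h2 : (e : ℤ) ∣ 3 := ⟨-log (v.valuation K k), by linarith⟩
    exact_mod_cast h2
  rcases (Nat.dvd_prime Nat.prime_three).mp hd with rfl | rfl
  · exact Or.inl fun x => (hx x).trans (pow_one _)
  · exact Or.inr hx

/-- With exponent three the generator fixes residues. -/
theorem Ramified.tau_sub_lt (hr : h.Ramified) {x : L} (hx : w.valuation L x ≤ 1) :
    w.valuation L (τ x - x) < 1 := by
  by_contra hlt
  have h1 : w.valuation L (τ x - x) = 1 := le_antisymm
    (((w.valuation L).map_sub _ _).trans (max_le (by rwa [h.val_tau]) hx)) (not_lt.mp hlt)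
  have h2 : w.valuation L (x - τ (τ x)) = 1 := by
    rw [← h.val_tau, map_sub, h.twist.cube, h1]
  obtain ⟨π, hπ⟩ := w.valuation_exists_uniformizer L
  have hπ0 : π ≠ 0 := fun e => by
    rw [e, map_zero] at hπ
    exact exp_ne_zero hπ.symm
  set u := τ π / π
  have hu : u * τ u * τ (τ u) = 1 := by
    have a1 : τ π ≠ 0 := by simpa using hπ0
    have a2 : τ (τ π) ≠ 0 := by simpa using hπ0
    simp only [u, map_div₀, h.twist.cube]
    field_simp
  have huv : w.valuation L u = 1 := by
    simp only [u, map_div₀, h.val_tau]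
    exact div_self ((Valuation.ne_zero_iff _).mpr hπ0)
  let O : L → L := fun a => a + u * τ a + u * τ u * τ (τ a)
  have hO : ∀ a, u * τ (O a) = O a := fun a => by
    simp only [O, map_add, map_mul, h.twist.cube]
    linear_combination (a : L) * hu
  have hOle : ∀ a, w.valuation L a ≤ 1 → w.valuation L (O a) ≤ 1 := fun a ha => by
    refine ((w.valuation L).map_add _ _).trans (max_le
      (((w.valuation L).map_add _ _).trans (max_le ha ?_)) ?_) <;>
      simp only [map_mul, h.val_tau, huv, one_mul, ha]
  -- none of the resolvents is a unit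
  have hsmall : ∀ a, w.valuation L a ≤ 1 → w.valuation L (O a) < 1 := fun a ha => by
    by_contra hge
    have h3 : w.valuation L (O a) = 1 := le_antisymm (hOle a ha) (not_lt.mp hge)
    obtain ⟨k, hk⟩ := h.twist.surj (π * O a) (by
      rw [map_mul]
      have hτu : τ π = u * π := by simp only [u]; field_simp
      rw [hτu, mul_assoc, mul_left_comm, hO, mul_comm])
    have e1 := hr k
    rw [hk, map_mul, h3, hπ, mul_one] at e1
    have hk0 : v.valuation K k ≠ 0 := fun h0 => by
      rw [h0, zero_pow three_ne_zero] at e1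
      exact exp_ne_zero e1
    rw [← exp_log hk0, ← WithZero.exp_nsmul, exp_inj, nsmul_eq_mul] at e1
    omega
  have hτx : w.valuation L (τ x) ≤ 1 := by rwa [h.val_tau]
  have hττx : w.valuation L (τ (τ x)) ≤ 1 := by rwa [h.val_tau]
  have hid : τ x * τ (τ x) * O 1 - (τ x + τ (τ x)) * O x + O (x * x) =
      (x - τ x) * (x - τ (τ x)) := by
    simp only [O, map_one, map_mul]
    ring
  have hlt' : w.valuation L ((x - τ x) * (x - τ (τ x))) < 1 := by
    rw [← hid]
    refine (w.valuation L).map_add_lt (((w.valuation L).map_sub _ _).trans_lt (max_lt ?_ ?_))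
      (hsmall _ (by rw [map_mul]; exact mul_le_one' hx hx)) <;> rw [map_mul]
    · exact Right.mul_lt_one_of_le_of_lt (by rw [map_mul]; exact mul_le_one' hτx hττx)
        (hsmall _ (by rw [map_one]))
    · exact Right.mul_lt_one_of_le_of_lt (((w.valuation L).map_add _ _).trans (max_le hτx hττx))
        (hsmall _ hx)
  rw [map_mul, Valuation.map_sub_swap, h1, h2, one_mul] at hlt'
  exact lt_irrefl _ hlt'

/-- With exponent one the generator moves some residue. -/
theorem Inert.exists_tau_sub (hi : h.Inert) :
    ∃ x, w.valuation L x ≤ 1 ∧ w.valuation L (τ x - x) = 1 := by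
  by_contra hne
  push Not at hne
  obtain ⟨p, hp0, hp⟩ := exists_valuation_eq v (-1)
  have hlt : ∀ x, w.valuation L x ≤ 1 → w.valuation L (τ x - x) < 1 := fun x hx =>
    lt_of_le_of_ne (((w.valuation L).map_sub _ _).trans (max_le (by rwa [h.val_tau]) hx)) (hne x hx)
  have key : ∀ n : ℕ, ∀ x, w.valuation L x ≤ 1 → w.valuation L (τ x - x) ≤ exp (-(n : ℤ)) := by
    intro n
    induction n with
    | zero => intro x hx; simpa using (hlt x hx).le
    | succ n ih =>
      intro x hx
      obtain ⟨k, hk⟩ := h.exists_sub_lt (hlt x hx)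
      have hpw : w.valuation L (algebraMap K L p) = exp (-1 : ℤ) := (hi p).trans hp
      set y := (x - algebraMap K L k) / algebraMap K L p
      have hy : w.valuation L y ≤ 1 := by
        simp only [y, map_div₀, hpw]
        rw [div_le_one₀ (zero_lt_iff.mpr exp_ne_zero)]
        rcases eq_or_ne (w.valuation L (x - algebraMap K L k)) 0 with h0 | h0
        · rw [h0]; exact zero_le
        · rw [← exp_log h0, exp_le_exp]
          rw [← exp_log h0, ← WithZero.exp_zero, exp_lt_exp] at hk
          omega
      have e : τ x - x = algebraMap K L p * (τ y - y) := by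
        have hpL : algebraMap K L p ≠ 0 := by simpa using hp0
        simp only [y, map_div₀, map_sub, h.twist.fix]
        field_simp
        ring
      rw [e, map_mul, hpw]
      refine (mul_le_mul_right (ih y hy) _).trans_eq ?_
      rw [← WithZero.exp_add]
      congr 1
      push_cast
      ring
  obtain ⟨z, hz⟩ := h.twist.exists_ne
  obtain ⟨d, hd0, hd⟩ : ∃ d : K, d ≠ 0 ∧ w.valuation L (algebraMap K L d * z) ≤ 1 := by
    rcases eq_or_ne (w.valuation L z) 0 with h0 | h0
    · exact ⟨1, one_ne_zero, by simp [h0]⟩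
    obtain ⟨d, hd0, hd⟩ := exists_valuation_eq v (-log (w.valuation L z))
    refine ⟨d, hd0, ?_⟩
    conv_lhs => rw [map_mul, hi, hd, ← exp_log h0, ← WithZero.exp_add, log_exp]
    simp
  set y := algebraMap K L d * z
  have hy0 : w.valuation L (τ y - y) ≠ 0 := by
    rw [Valuation.ne_zero_iff]
    simp only [y, map_mul, h.twist.fix, ← mul_sub]
    exact mul_ne_zero (by simpa using hd0) (sub_ne_zero.mpr hz)
  have h1 := key ((-log (w.valuation L (τ y - y))).toNat + 1) y hd
  have h4 := exp_log hy0
  generalize log (w.valuation L (τ y - y)) = N at h1 h4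
  rw [← h4, exp_le_exp] at h1
  push_cast at h1
  omega

/-- The local group is stable. -/
lemma gmap_mem_locGL {g : GL (Fin 2) L} : Cyc3.gmap τ g ∈ locGL w ↔ g ∈ locGL w := by
  show (_ ∧ _) ↔ (_ ∧ _)
  refine and_congr (forall_congr' fun i => forall_congr' fun j => by simp [h.val_tau]) ?_
  show w.valuation L (GeneralLinearGroup.map (τ : L →+* L) g).val.det = 1 ↔ _
  rw [det_map, RingHom.coe_coe, h.val_tau]

lemma g2Map_mem_locK {g : G2 L} (hg : g ∈ locK w) : g2Map (τ : L →+* L) g ∈ locK w := by
  obtain ⟨g, hg, rfl⟩ := hg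
  exact ⟨_, h.gmap_mem_locGL.mpr hg, rfl⟩

/-- The generator on cosets. -/
def sgCos : G2 L ⧸ locK w → G2 L ⧸ locK w :=
  Quotient.map' (g2Map (τ : L →+* L)) fun a b hab => by
    rw [QuotientGroup.leftRel_apply] at hab ⊢
    rw [← map_inv, ← map_mul]
    exact h.g2Map_mem_locK hab

/-- The generator on a coset. -/
@[simp] lemma sgCos_mk (g : G2 L) :
    h.sgCos (QuotientGroup.mk g) = QuotientGroup.mk (g2Map (τ : L →+* L) g) := rfl

lemma incl_mem_locK {g : G2 K} (hg : g ∈ locK v) : g2Map (algebraMap K L) g ∈ locK w := by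
  obtain ⟨g, hg, rfl⟩ := hg
  exact ⟨_, (h.pair.map_mem_locGL_iff g).mpr hg, rfl⟩

/-- The map of cosets from the base. -/
def upCos : G2 K ⧸ locK v → G2 L ⧸ locK w :=
  Quotient.map' (g2Map (algebraMap K L)) fun a b hab => by
    rw [QuotientGroup.leftRel_apply] at hab ⊢
    rw [← map_inv, ← map_mul]
    exact h.incl_mem_locK hab

/-- The inclusion of a coset. -/
@[simp] lemma upCos_mk (g : G2 K) :
    h.upCos (QuotientGroup.mk g) = QuotientGroup.mk (g2Map (algebraMap K L) g) := rfl

end NonSplit

end FermatAgent.LT
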