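import Mathlib
import Fermat.Agent.LT.Descent.NonSplitBase

/-!
# Cosets fixed by the generator at a place with one place above

With exponent one these are exactly the images of the cosets of the base; with exponent three
they are the disjoint union of these and the images of the cosets of the Iwahori subgroup of the
base pushed half way by a uniformiser above.
-/

set_option autoImplicit false

noncomputable section

open Matrix IsDedekindDomain NumberField WithZero
open scoped MatrixGroups

namespace FermatAgent.LT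

section Borel

variable {L : Type*} [Field L] [NumberField L] {w : HeightOneSpectrum (𝓞 L)}

/-- An upper triangular representative. -/
def borel (x y : L) (hx : x ≠ 0) : GL (Fin 2) L :=
  GeneralLinearGroup.mkOfDetNeZero !![x, y; 0, 1] (by simpa [Matrix.det_fin_two] using hx)

omit [NumberField L] in
@[simp] lemma borel_val (x y : L) (hx : x ≠ 0) : (borel x y hx).val = !![x, y; 0, 1] := rfl

/-- The diagonal matrix of one and a nonzero scalar. -/
def halfStep (p : L) (hp : p ≠ 0) : GL (Fin 2) L :=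
  GeneralLinearGroup.mkOfDetNeZero !![1, 0; 0, p] (by simpa [Matrix.det_fin_two] using hp)

omit [NumberField L] in
@[simp] lemma halfStep_val (p : L) (hp : p ≠ 0) : (halfStep p hp).val = !![1, 0; 0, p] := rfl

/-- Membership of a class in the maximal compact group. -/
lemma mk_mem_locK_iff {g : GL (Fin 2) L} :
    ProjGenLinGroup.mk g ∈ locK w ↔ ∃ u : Lˣ, g * sc u ∈ locGL w := by
  refine ⟨?_, fun ⟨u, hu⟩ => ⟨_, hu, by rw [map_mul, ProjGenLinGroup.mk_scalar, mul_one]⟩⟩
  rintro ⟨k, hk, e⟩
  obtain ⟨u, hu⟩ := Matrix.ProjGenLinGroup.mk_eq_mk_iff.mp e.symm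
  exact ⟨u, by rw [hu]; exact hk⟩

/-- An integral matrix of unit determinant has a unit diagonal or a unit antidiagonal. -/
lemma unit_pairs {k : GL (Fin 2) L} (hk : k ∈ locGL w) :
    (w.valuation L (k.val 0 0) = 1 ∧ w.valuation L (k.val 1 1) = 1) ∨
      (w.valuation L (k.val 0 1) = 1 ∧ w.valuation L (k.val 1 0) = 1) := by
  by_contra hne
  obtain ⟨h1, h2⟩ := not_or.mp hne
  have key : ∀ a b, w.valuation L a ≤ 1 → w.valuation L b ≤ 1 →
      ¬(w.valuation L a = 1 ∧ w.valuation L b = 1) → w.valuation L (a * b) < 1 := by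
    intro a b ha hb hab
    rw [map_mul]
    rcases ha.lt_or_eq with ha | ha
    · exact mul_lt_one_of_lt_of_le ha hb
    · exact Right.mul_lt_one_of_le_of_lt ha.le (hb.lt_of_ne fun e => hab ⟨ha, e⟩)
  have h := hk.2
  rw [Matrix.det_fin_two] at h
  exact (((w.valuation L).map_sub _ _).trans_lt
    (max_lt (key _ _ (hk.1 _ _) (hk.1 _ _) h1) (key _ _ (hk.1 _ _) (hk.1 _ _) h2))).ne h

/-- Upper triangular representatives of the same coset. -/
lemma borel_coset_eq {x y x' y' : L} (hx : x ≠ 0) (hx' : x' ≠ 0)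
    (h1 : w.valuation L x = w.valuation L x') (h2 : w.valuation L (y' - y) ≤ w.valuation L x) :
    (QuotientGroup.mk (ProjGenLinGroup.mk (borel x y hx)) : G2 L ⧸ locK w) =
      QuotientGroup.mk (ProjGenLinGroup.mk (borel x' y' hx')) := by
  rw [QuotientGroup.eq, ← map_inv, ← map_mul]
  have hv : w.valuation L x ≠ 0 := (Valuation.ne_zero_iff _).mpr hx
  refine Subgroup.mem_map_of_mem _ ?_
  have e : ((borel x y hx)⁻¹ * borel x' y' hx').val = !![x' / x, (y' - y) / x; 0, 1] := by
    rw [Units.val_mul, Matrix.coe_units_inv, borel_val, borel_val, Matrix.inv_def,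
      Matrix.adjugate_fin_two]
    ext i j
    fin_cases i <;> fin_cases j <;>
      simp [Matrix.det_fin_two, Matrix.mul_apply, Fin.sum_univ_two] <;> field_simp
    ring
  have hd : w.valuation L (x' / x) = 1 := by rw [map_div₀, ← h1, div_self hv]
  refine ⟨fun i j => ?_, ?_⟩
  · rw [e]
    fin_cases i <;> fin_cases j <;> simp [-map_div₀, hd]
    rw [map_div₀, div_le_one₀ (zero_lt_iff.mpr hv)]
    exact h2
  · rw [e]
    simp [Matrix.det_fin_two, -map_div₀, hd]

/-- Every coset has an upper triangular representative. -/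
lemma exists_borel (c : G2 L ⧸ locK w) :
    ∃ x y, ∃ hx : x ≠ 0, c = QuotientGroup.mk (ProjGenLinGroup.mk (borel x y hx)) := by
  obtain ⟨g, rfl⟩ := QuotientGroup.mk_surjective c
  obtain ⟨g, rfl⟩ := ProjGenLinGroup.mk_surjective g
  obtain ⟨b, hb, k, hk, rfl⟩ := exists_iwasawa w g
  have hdet := Matrix.GeneralLinearGroup.det_ne_zero b
  rw [Matrix.det_fin_two, hb, mul_zero, sub_zero, mul_ne_zero_iff] at hdet
  refine ⟨b.val 0 0 / b.val 1 1, b.val 0 1 / b.val 1 1, div_ne_zero hdet.1 hdet.2, ?_⟩
  rw [QuotientGroup.eq, ← map_inv, ← map_mul, mk_mem_locK_iff]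
  refine ⟨Units.mk0 _ hdet.2, ?_⟩
  have e : (b * k)⁻¹ * borel (b.val 0 0 / b.val 1 1) (b.val 0 1 / b.val 1 1)
      (div_ne_zero hdet.1 hdet.2) * sc (Units.mk0 _ hdet.2) = k⁻¹ := by
    rw [_root_.mul_inv_rev, mul_assoc, mul_assoc, mul_eq_left, inv_mul_eq_one]
    apply Units.ext
    rw [Units.val_mul, sc_val, mul_smul_comm, mul_one, borel_val, Units.val_mk0]
    ext i j
    fin_cases i <;> fin_cases j <;> simp [hb] <;> field_simp <;>
      exact (mul_div_cancel_right₀ _ hdet.2).symm
  rw [e]
  exact inv_mem hk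

end Borel

section Pair

variable {K L : Type*} [Field K] [NumberField K] [Field L] [NumberField L] {φ : K →+* L}
  {v : HeightOneSpectrum (𝓞 K)} {w : HeightOneSpectrum (𝓞 L)}

/-- An integral class comes from an integral class. -/
lemma PlacePair.g2Map_mem_locK_iff (h : PlacePair φ v w) (g : G2 K) :
    g2Map φ g ∈ locK w ↔ g ∈ locK v := by
  obtain ⟨g, rfl⟩ := ProjGenLinGroup.mk_surjective g
  refine ⟨fun hg => ?_, ?_⟩
  swap
  · rintro ⟨k, hk, e⟩
    exact ⟨_, (h.map_mem_locGL_iff k).mpr hk, by rw [← e, ProjGenLinGroup.map_mk]⟩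
  rw [ProjGenLinGroup.map_mk, mk_mem_locK_iff] at hg
  obtain ⟨u, hu⟩ := hg
  -- the scalar may be taken in the base
  obtain ⟨i, j, h1⟩ : ∃ i j, w.valuation L u * w.valuation L (φ (g.val i j)) = 1 := by
    rcases unit_pairs hu with ⟨h1, -⟩ | ⟨h1, -⟩ <;>
    · rw [Units.val_mul, sc_val, mul_smul_comm, mul_one, Matrix.smul_apply, smul_eq_mul,
        GeneralLinearGroup.map_apply, map_mul] at h1
      exact ⟨_, _, h1⟩
  have hne := right_ne_zero_of_mul_eq_one h1
  have hs0 : (g.val i j)⁻¹ ≠ 0 := inv_ne_zero fun e => hne (by rw [e, map_zero, map_zero])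
  have hs : w.valuation L (φ (g.val i j)⁻¹) = w.valuation L u := by
    rw [map_inv₀, map_inv₀]
    exact (eq_inv_of_mul_eq_one_left h1).symm
  refine mk_mem_locK_iff.mpr ⟨Units.mk0 _ hs0, (h.map_mem_locGL_iff _).mp ?_⟩
  rw [map_mul, map_sc]
  refine ⟨fun i j => ?_, ?_⟩
  · have := hu.1 i j
    rw [Units.val_mul, sc_val, mul_smul_comm, mul_one, Matrix.smul_apply, smul_eq_mul, map_mul]
      at this ⊢
    rwa [← hs] at this
  · have := hu.2
    rw [Units.val_mul, Matrix.det_mul, det_sc, map_mul, map_pow] at this ⊢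
    rwa [← hs] at this

end Pair

variable {K L : Type*} [Field K] [NumberField K] [Field L] [NumberField L] [Algebra K L]
  {τ : L ≃+* L} {v : HeightOneSpectrum (𝓞 K)} {w : HeightOneSpectrum (𝓞 L)}

namespace NonSplit

variable (h : NonSplit τ v w)

include h

/-- Included cosets are fixed. -/
lemma sgCos_upCos (d : G2 K ⧸ locK v) : h.sgCos (h.upCos d) = h.upCos d := by
  induction d using QuotientGroup.induction_on with | H g =>
  rw [upCos_mk, sgCos_mk, h.twist.g2Map_incl]

/-- The inclusion of cosets is injective. -/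
lemma upCos_injective : Function.Injective h.upCos := by
  intro a b hab
  induction a using QuotientGroup.induction_on with | H a =>
  induction b using QuotientGroup.induction_on with | H b =>
  rw [upCos_mk, upCos_mk, QuotientGroup.eq, ← map_inv, ← map_mul] at hab
  exact QuotientGroup.eq.mpr ((h.pair.g2Map_mem_locK_iff _).mp hab)

lemma exists_near_of_fixed {x y : L} (hx : x ≠ 0)
    (hc : h.sgCos (QuotientGroup.mk (ProjGenLinGroup.mk (borel x y hx))) =
      QuotientGroup.mk (ProjGenLinGroup.mk (borel x y hx))) :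
    ∃ k : K, w.valuation L (algebraMap K L k - y) ≤ w.valuation L x := by
  rw [sgCos_mk, ProjGenLinGroup.map_mk, eq_comm, QuotientGroup.eq, ← map_inv, ← map_mul,
    mk_mem_locK_iff] at hc
  obtain ⟨u, hu⟩ := hc
  have hv : w.valuation L x ≠ 0 := (Valuation.ne_zero_iff _).mpr hx
  have e : ((borel x y hx)⁻¹ * GeneralLinearGroup.map (τ : L →+* L) (borel x y hx)).val =
      !![τ x / x, (τ y - y) / x; 0, 1] := by
    rw [Units.val_mul, Matrix.coe_units_inv, borel_val, Matrix.inv_def, Matrix.adjugate_fin_two]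
    ext i j
    fin_cases i <;> fin_cases j <;>
      simp [Matrix.det_fin_two, Matrix.mul_apply, Fin.sum_univ_two] <;> field_simp
    ring
  have hd : w.valuation L (τ x / x) = 1 := by rw [map_div₀, h.val_tau, div_self hv]
  have hdet := hu.2
  rw [Units.val_mul, e, Matrix.det_mul, det_sc, map_mul, map_pow,
    show (!![τ x / x, (τ y - y) / x; 0, 1] : Matrix (Fin 2) (Fin 2) L).det = τ x / x by
      simp [Matrix.det_fin_two], hd, one_mul, pow_eq_one_iff_of_nonneg zero_le two_ne_zero] at hdet
  have h01 := hu.1 0 1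
  rw [Units.val_mul, e, sc_val, mul_smul_comm, mul_one, Matrix.smul_apply, smul_eq_mul, map_mul,
    hdet, one_mul] at h01
  simp only [Matrix.of_apply, Matrix.cons_val', Matrix.cons_val_zero, Matrix.cons_val_one,
    Matrix.cons_val_fin_one, Matrix.empty_val', map_div₀] at h01
  rw [div_le_one₀ (zero_lt_iff.mpr hv)] at h01
  obtain ⟨k, hk⟩ := h.exists_sub_le h01
  exact ⟨k, by rwa [Valuation.map_sub_swap]⟩

lemma upCos_borel (x y : K) (hx : x ≠ 0) :
    h.upCos (QuotientGroup.mk (ProjGenLinGroup.mk (borel x y hx))) =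
      QuotientGroup.mk (ProjGenLinGroup.mk (borel (algebraMap K L x) (algebraMap K L y)
        (by simpa using hx))) := by
  rw [upCos_mk, ProjGenLinGroup.map_mk]
  congr 2
  apply Units.ext
  ext i j
  fin_cases i <;> fin_cases j <;> simp

/-- With exponent one the fixed cosets come from the base. -/
theorem fixed_iff_inert (hi : h.Inert) {c : G2 L ⧸ locK w} :
    h.sgCos c = c ↔ ∃ d, h.upCos d = c := by
  refine ⟨fun hc => ?_, fun ⟨d, hd⟩ => hd ▸ h.sgCos_upCos d⟩
  obtain ⟨x, y, hx, rfl⟩ := exists_borel c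
  obtain ⟨k, hk⟩ := h.exists_near_of_fixed hx hc
  obtain ⟨x₀, hx₀, hv⟩ := exists_valuation_eq v (log (w.valuation L x))
  rw [exp_log ((Valuation.ne_zero_iff _).mpr hx)] at hv
  refine ⟨QuotientGroup.mk (ProjGenLinGroup.mk (borel x₀ k hx₀)), ?_⟩
  rw [h.upCos_borel, eq_comm]
  exact borel_coset_eq hx _ (by rw [hi, hv]) hk

variable (hr : h.Ramified) {p : L} (hp : w.valuation L p = exp (-1 : ℤ))

include hr

lemma exists_exp {x : K} (hx : x ≠ 0) :
    ∃ n : ℤ, w.valuation L (algebraMap K L x) = exp (3 * n) :=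
  ⟨log (v.valuation K x), by
    conv_lhs => rw [hr, ← exp_log ((Valuation.ne_zero_iff (v.valuation K)).mpr hx),
      ← WithZero.exp_nsmul]
    simp⟩

lemma le_of_lt_one {x : K} (hx : v.valuation K x < 1) :
    w.valuation L (algebraMap K L x) ≤ exp (-1 : ℤ) := by
  rcases eq_or_ne x 0 with rfl | hx0
  · simp
  obtain ⟨n, hn⟩ := h.exists_exp hr hx0
  rw [← h.pair.lt_one_iff, hn, ← WithZero.exp_zero, exp_lt_exp] at hx
  rw [hn, exp_le_exp]
  omega

include hp

omit hr [Field K] [NumberField K] [Algebra K L] h in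
lemma p_ne_zero : p ≠ 0 := fun e => by
  rw [e, map_zero] at hp
  exact exp_ne_zero hp.symm

/-- The half step element. -/
def half : G2 L := ProjGenLinGroup.mk (halfStep p (p_ne_zero hp))

omit hr [NumberField K] h in
lemma half_conj_val (g : GL (Fin 2) K) :
    ((halfStep p (p_ne_zero hp))⁻¹ * upGL g * halfStep p (p_ne_zero hp)).val =
      !![algebraMap K L (g.val 0 0), algebraMap K L (g.val 0 1) * p;
        algebraMap K L (g.val 1 0) / p, algebraMap K L (g.val 1 1)] := by
  have hp0 := p_ne_zero hp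
  rw [Units.val_mul, Units.val_mul, Matrix.coe_units_inv, halfStep_val, Matrix.inv_def,
    Matrix.adjugate_fin_two]
  ext i j
  fin_cases i <;> fin_cases j <;>
    simp [Matrix.det_fin_two, Matrix.vecMul, dotProduct, Matrix.mul_apply, Fin.sum_univ_two] <;>
      field_simp; simp

/-- The cosets half way. -/
def offCos : G2 K ⧸ locTame v 0 → G2 L ⧸ locK w :=
  Quotient.lift (fun g => QuotientGroup.mk (g2Map (algebraMap K L) g * half hp)) fun a b hab => by
    rw [QuotientGroup.eq]
    obtain ⟨k, hk, hk'⟩ := QuotientGroup.leftRel_apply.mp hab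
    rw [_root_.mul_inv_rev, mul_assoc, ← mul_assoc _ _ (half hp), ← map_inv (g2Map _),
      ← map_mul (g2Map _), ← hk', ProjGenLinGroup.map_mk, half, ← map_inv, ← map_mul, ← map_mul,
      ← mul_assoc]
    refine Subgroup.mem_map_of_mem _ ⟨fun i j => ?_, ?_⟩
    · rw [half_conj_val hp]
      fin_cases i <;> fin_cases j
      · simpa [h.pair.le_one_iff] using hk.1.1 0 0
      · simp only [Fin.zero_eta, Fin.mk_one, Matrix.of_apply, Matrix.cons_val',
          Matrix.cons_val_zero,
          Matrix.cons_val_one, Matrix.empty_val', Matrix.cons_val_fin_one, map_mul, hp]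
        exact mul_le_one' ((h.pair.le_one_iff _).mpr (hk.1.1 0 1))
          (by rw [← WithZero.exp_zero, exp_le_exp]; omega)
      · simp only [Fin.zero_eta, Fin.mk_one, Matrix.of_apply, Matrix.cons_val',
          Matrix.cons_val_zero,
          Matrix.cons_val_one, Matrix.empty_val', Matrix.cons_val_fin_one, map_div₀, hp]
        rw [div_le_one₀ (zero_lt_iff.mpr exp_ne_zero)]
        exact h.le_of_lt_one hr hk.2.1
      · simpa [h.pair.le_one_iff] using hk.1.1 1 1
    · rw [Units.val_mul, Units.val_mul, Matrix.det_units_conj', det_map, h.pair.eq_one_iff]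
      exact hk.1.2

/-- The off-centre inclusion of a coset. -/
@[simp] lemma offCos_mk (g : G2 K) :
    h.offCos hr hp (QuotientGroup.mk g) =
      QuotientGroup.mk (g2Map (algebraMap K L) g * half hp) := rfl

/-- Off-centre cosets are fixed. -/
lemma sgCos_offCos (d : G2 K ⧸ locTame v 0) : h.sgCos (h.offCos hr hp d) = h.offCos hr hp d := by
  induction d using QuotientGroup.induction_on with | H g =>
  rw [offCos_mk, sgCos_mk, map_mul, h.twist.g2Map_incl, eq_comm, QuotientGroup.eq,
    _root_.mul_inv_rev, mul_assoc, inv_mul_cancel_left, half, ProjGenLinGroup.map_mk, ← map_inv,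
    ← map_mul]
  have hp0 := p_ne_zero hp
  have hd : w.valuation L (τ p / p) = 1 := by
    rw [map_div₀, h.val_tau, div_self ((Valuation.ne_zero_iff _).mpr hp0)]
  have e : ((halfStep p hp0)⁻¹ * GeneralLinearGroup.map (τ : L →+* L) (halfStep p hp0)).val =
      !![1, 0; 0, τ p / p] := by
    rw [Units.val_mul, Matrix.coe_units_inv, halfStep_val, Matrix.inv_def, Matrix.adjugate_fin_two]
    ext i j
    fin_cases i <;> fin_cases j <;>
      simp [Matrix.det_fin_two, Matrix.mul_apply, Fin.sum_univ_two] <;> field_simp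
  refine Subgroup.mem_map_of_mem _ ⟨fun i j => ?_, ?_⟩
  · rw [e]
    fin_cases i <;> fin_cases j <;> simp [-map_div₀, hd]
  · rw [e]
    simp [Matrix.det_fin_two, -map_div₀, hd]

/-- The off-centre inclusion is injective. -/
lemma offCos_injective : Function.Injective (h.offCos hr hp) := by
  intro a b hab
  induction a using QuotientGroup.induction_on with | H a =>
  induction b using QuotientGroup.induction_on with | H b =>
  rw [offCos_mk, offCos_mk, QuotientGroup.eq, _root_.mul_inv_rev, mul_assoc,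
    ← mul_assoc _ _ (half hp), ← map_inv (g2Map _), ← map_mul (g2Map _)] at hab
  rw [QuotientGroup.eq]
  obtain ⟨g, hg⟩ := ProjGenLinGroup.mk_surjective (a⁻¹ * b)
  rw [← hg] at hab ⊢
  rw [ProjGenLinGroup.map_mk, half, ← map_inv, ← map_mul, ← map_mul, ← mul_assoc,
    mk_mem_locK_iff] at hab
  obtain ⟨u, hu⟩ := hab
  have hp0 := p_ne_zero hp
  have hent : ∀ i j, w.valuation L (((halfStep p hp0)⁻¹ * upGL g * halfStep p hp0 * sc u).val i j) =
      w.valuation L u * w.valuation L
      ((!![algebraMap K L (g.val 0 0), algebraMap K L (g.val 0 1) * p;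
        algebraMap K L (g.val 1 0) / p, algebraMap K L (g.val 1 1)] : Matrix _ _ L) i j) :=
    fun i j => by
    rw [Units.val_mul, half_conj_val hp, sc_val, mul_smul_comm, mul_one, Matrix.smul_apply,
      smul_eq_mul, map_mul]
  rcases unit_pairs hu with ⟨h1, h2⟩ | ⟨h1, h2⟩ <;> rw [hent] at h1 h2 <;>
    simp only [Matrix.of_apply, Matrix.cons_val', Matrix.cons_val_zero, Matrix.cons_val_one,
      Matrix.empty_val', Matrix.cons_val_fin_one, map_mul, map_div₀, hp] at h1 h2
  · have g0 : g.val 0 0 ≠ 0 := fun e => by simp [e] at h1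
    have hinv : w.valuation L u = w.valuation L (algebraMap K L (g.val 0 0)⁻¹) := by
      rw [map_inv₀, map_inv₀]
      exact eq_inv_of_mul_eq_one_left h1
    set s := Units.mk0 _ (inv_ne_zero g0)
    refine ⟨g * sc s, ⟨⟨fun i j => ?_, ?_⟩, ?_, ?_⟩,
      by rw [map_mul, ProjGenLinGroup.mk_scalar, mul_one]⟩
    · rw [← h.pair.le_one_iff, Units.val_mul, sc_val, mul_smul_comm, mul_one, Matrix.smul_apply,
        smul_eq_mul, map_mul, map_mul, Units.val_mk0, ← hinv]
      have hij := hu.1 i j
      rw [hent] at hij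
      fin_cases i <;> fin_cases j <;>
        simp only [Fin.zero_eta, Fin.mk_one, Matrix.of_apply, Matrix.cons_val',
          Matrix.cons_val_zero,
          Matrix.cons_val_one, Matrix.empty_val', Matrix.cons_val_fin_one, map_mul,
          map_div₀, hp] at hij ⊢
      · exact hij
      · rcases eq_or_ne (g.val 0 1) 0 with e | e
        · simp [e]
        obtain ⟨n, hn⟩ := h.exists_exp hr e
        obtain ⟨m, hm⟩ := h.exists_exp hr (inv_ne_zero g0)
        rw [hinv, hn, hm, ← WithZero.exp_add, ← WithZero.exp_add, ← WithZero.exp_zero,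
          exp_le_exp] at hij
        rw [hinv, hn, hm, ← WithZero.exp_add, ← WithZero.exp_zero, exp_le_exp]
        omega
      · refine le_trans ?_ hij
        refine mul_le_mul_right ?_ _
        rw [le_div_iff₀ (zero_lt_iff.mpr exp_ne_zero)]
        exact mul_le_of_le_one_right zero_le (by rw [← WithZero.exp_zero, exp_le_exp]; omega)
      · exact hij
    · rw [← h.pair.eq_one_iff]
      have hdet := hu.2
      rw [Units.val_mul, Units.val_mul, Units.val_mul, Matrix.det_mul, Matrix.det_units_conj',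
        det_map, det_sc, map_mul, map_pow] at hdet
      rw [Units.val_mul, Matrix.det_mul, det_sc, map_mul, map_mul, map_pow, map_pow,
        Units.val_mk0, ← hinv]
      exact hdet
    · rw [← h.pair.lt_one_iff, Units.val_mul, sc_val, mul_smul_comm, mul_one, Matrix.smul_apply,
        smul_eq_mul, map_mul, map_mul, Units.val_mk0, ← hinv]
      have hij := hu.1 1 0
      rw [hent] at hij
      simp only [Matrix.of_apply, Matrix.cons_val', Matrix.cons_val_zero, Matrix.cons_val_one,
        Matrix.empty_val', Matrix.cons_val_fin_one, map_div₀, hp, ← mul_div_assoc] at hij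
      rw [div_le_one₀ (zero_lt_iff.mpr exp_ne_zero)] at hij
      exact hij.trans_lt (by rw [← WithZero.exp_zero, exp_lt_exp]; omega)
    · simp
  · have g1 : g.val 0 1 ≠ 0 := fun e => by simp [e] at h1
    have g2 : g.val 1 0 ≠ 0 := fun e => by simp [e] at h2
    obtain ⟨n, hn⟩ := h.exists_exp hr g1
    obtain ⟨m, hm⟩ := h.exists_exp hr g2
    rw [hn] at h1
    rw [hm, div_eq_mul_inv, ← WithZero.exp_neg] at h2
    have e := mul_left_cancel₀ (left_ne_zero_of_mul_eq_one h1) (h1.trans h2.symm)
    rw [← WithZero.exp_add, ← WithZero.exp_add, exp_inj] at e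
    omega

/-- Included and off-centre cosets differ. -/
lemma upCos_ne_offCos (a : G2 K ⧸ locK v) (b : G2 K ⧸ locTame v 0) :
    h.upCos a ≠ h.offCos hr hp b := by
  intro hab
  induction a using QuotientGroup.induction_on with | H a =>
  induction b using QuotientGroup.induction_on with | H b =>
  rw [upCos_mk, offCos_mk, QuotientGroup.eq, ← mul_assoc, ← map_inv, ← map_mul] at hab
  obtain ⟨g, hg⟩ := ProjGenLinGroup.mk_surjective (a⁻¹ * b)
  rw [← hg, ProjGenLinGroup.map_mk, half, ← map_mul, mk_mem_locK_iff] at hab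
  obtain ⟨u, hu⟩ := hab
  have hent : ∀ i j, w.valuation L ((upGL g * halfStep p (p_ne_zero hp) * sc u).val i j) =
      w.valuation L u * w.valuation L
      ((!![algebraMap K L (g.val 0 0), algebraMap K L (g.val 0 1) * p;
        algebraMap K L (g.val 1 0), algebraMap K L (g.val 1 1) * p] : Matrix _ _ L) i j) :=
    fun i j => by
    rw [Units.val_mul, Units.val_mul, halfStep_val, sc_val, mul_smul_comm, mul_one,
      Matrix.smul_apply, smul_eq_mul, map_mul]
    congr 2
    fin_cases i <;> fin_cases j <;> simp [Matrix.mul_apply, Fin.sum_univ_two]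
  rcases unit_pairs hu with ⟨h1, h2⟩ | ⟨h1, h2⟩ <;> rw [hent] at h1 h2 <;>
    simp only [Matrix.of_apply, Matrix.cons_val', Matrix.cons_val_zero, Matrix.cons_val_one,
      Matrix.empty_val', Matrix.cons_val_fin_one, map_mul, hp] at h1 h2
  · have g1 : g.val 0 0 ≠ 0 := fun e => by simp [e] at h1
    have g2 : g.val 1 1 ≠ 0 := fun e => by simp [e] at h2
    obtain ⟨n, hn⟩ := h.exists_exp hr g1
    obtain ⟨m, hm⟩ := h.exists_exp hr g2
    rw [hn] at h1
    rw [hm] at h2
    have e := mul_left_cancel₀ (left_ne_zero_of_mul_eq_one h1) (h1.trans h2.symm)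
    rw [← WithZero.exp_add, exp_inj] at e
    omega
  · have g1 : g.val 0 1 ≠ 0 := fun e => by simp [e] at h1
    have g2 : g.val 1 0 ≠ 0 := fun e => by simp [e] at h2
    obtain ⟨n, hn⟩ := h.exists_exp hr g1
    obtain ⟨m, hm⟩ := h.exists_exp hr g2
    rw [hn] at h1
    rw [hm] at h2
    have e := mul_left_cancel₀ (left_ne_zero_of_mul_eq_one h1) (h1.trans h2.symm)
    rw [← WithZero.exp_add, exp_inj] at e
    omega

/-- With exponent three the fixed cosets. -/
theorem fixed_iff_ramified {c : G2 L ⧸ locK w} :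
    h.sgCos c = c ↔ (∃ d, h.upCos d = c) ∨ ∃ d, h.offCos hr hp d = c := by
  refine ⟨fun hc => ?_, ?_⟩
  swap
  · rintro (⟨d, rfl⟩ | ⟨d, rfl⟩)
    exacts [h.sgCos_upCos d, h.sgCos_offCos hr hp d]
  obtain ⟨x, y, hx, rfl⟩ := exists_borel c
  obtain ⟨k, hk⟩ := h.exists_near_of_fixed hx hc
  have hp0 := p_ne_zero hp
  set n := log (w.valuation L x)
  have hn : w.valuation L x = exp n := (exp_log ((Valuation.ne_zero_iff _).mpr hx)).symm
  have hcases : n % 3 = 0 ∨ n % 3 = 1 ∨ n % 3 = 2 := by omega
  obtain ⟨x₀, hx₀, hx₀v⟩ := exists_valuation_eq v ((n + 1) / 3)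
  have hw : w.valuation L (algebraMap K L x₀) = exp (3 * ((n + 1) / 3)) := by
    rw [hr, hx₀v, ← WithZero.exp_nsmul]
    simp
  have hxL : algebraMap K L x₀ ≠ 0 := by simpa using hx₀
  rcases hcases with hm | hm | hm
  · left
    refine ⟨QuotientGroup.mk (ProjGenLinGroup.mk (borel x₀ k hx₀)), ?_⟩
    rw [h.upCos_borel, eq_comm]
    refine borel_coset_eq hx _ ?_ hk
    rw [hn, hw]
    congr 1
    omega
  · right
    refine ⟨QuotientGroup.mk (ProjGenLinGroup.mk (borel x₀ k hx₀)), ?_⟩
    have e : g2Map (algebraMap K L) (ProjGenLinGroup.mk (borel x₀ k hx₀)) * half hp =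
        ProjGenLinGroup.mk
        (borel (algebraMap K L x₀ / p) (algebraMap K L k) (div_ne_zero hxL hp0)) := by
      rw [ProjGenLinGroup.map_mk, half, ← map_mul, Matrix.ProjGenLinGroup.mk_eq_mk_iff]
      refine ⟨Units.mk0 p⁻¹ (inv_ne_zero hp0), Units.ext ?_⟩
      rw [Units.val_mul, Units.val_mul, sc_val, mul_smul_comm, mul_one, borel_val, halfStep_val]
      ext i j
      fin_cases i <;> fin_cases j <;>
        simp [Matrix.mul_apply, Fin.sum_univ_two] <;> field_simp
    rw [offCos_mk, e, eq_comm]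
    refine borel_coset_eq hx _ ?_ hk
    rw [hn, map_div₀, hw, hp, ← WithZero.exp_sub]
    congr 1
    omega
  · right
    refine ⟨QuotientGroup.mk (ProjGenLinGroup.mk (GeneralLinearGroup.mkOfDetNeZero !![k, x₀; 1, 0]
      (by simpa [Matrix.det_fin_two] using hx₀))), ?_⟩
    rw [offCos_mk, ProjGenLinGroup.map_mk, half, ← map_mul]
    have hW :
        (GeneralLinearGroup.mkOfDetNeZero !![(0 : L), 1; 1, 0] (by simp [Matrix.det_fin_two])) ∈
        locGL w := ⟨fun i j => by
          fin_cases i <;> fin_cases j <;> simp [GeneralLinearGroup.mkOfDetNeZero],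
        by simp [GeneralLinearGroup.mkOfDetNeZero, Matrix.det_fin_two]⟩
    refine Eq.trans (?_ : _ = QuotientGroup.mk (ProjGenLinGroup.mk
      (borel (algebraMap K L x₀ * p) (algebraMap K L k) (mul_ne_zero hxL hp0)))) ?_
    · rw [QuotientGroup.eq, ← map_inv, ← map_mul]
      refine ⟨_, hW, ?_⟩
      congr 1
      rw [eq_inv_mul_iff_mul_eq]
      apply Units.ext
      rw [Units.val_mul, Units.val_mul, borel_val, halfStep_val]
      ext i j
      fin_cases i <;> fin_cases j <;>
        simp [GeneralLinearGroup.mkOfDetNeZero, Matrix.mul_apply, Fin.sum_univ_two]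
    rw [eq_comm]
    refine borel_coset_eq hx _ ?_ hk
    rw [hn, map_mul, hw, hp, ← WithZero.exp_add]
    congr 1
    omega

end NonSplit

end FermatAgent.LT
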