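import Mathlib
import Fermat.Agent.LT.Descent.NonSplitCube
import Fermat.Agent.LT.Descent.NonSplitFix

/-!
# Local conditions for the existence of a representative

A Kummer element is locally a cube where its extension splits and locally a unit times a cube at
exponent one; the ratio of the eigenvalues of a matrix which fixes a coset is a unit, and a
residual cube when the matrix satisfies the cube condition.
-/

set_option autoImplicit false

noncomputable section

open Matrix IsDedekindDomain NumberField WithZero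
open scoped MatrixGroups

namespace FermatAgent.LT

variable {K L : Type*} [Field K] [NumberField K] [Field L] [NumberField L] [Algebra K L]

omit [Algebra K L] in
/-- Comparisons transfer along compatible places. -/
lemma PlacePair.lt_iff {φ : K →+* L} {v : HeightOneSpectrum (𝓞 K)} {w : HeightOneSpectrum (𝓞 L)}
    (h : PlacePair φ v w) (x y : K) :
    w.valuation L (φ x) < w.valuation L (φ y) ↔ v.valuation K x < v.valuation K y := by
  obtain ⟨e, he, hx⟩ := h
  rw [hx, hx, pow_lt_pow_iff_left₀ zero_le zero_le he]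

variable {τ : L ≃+* L}

/-- At a place of the base with a moved place above, the Kummer element is a cube up to more than
`9`. -/
theorem exists_cube_near_of_moved (h : IsTwist K τ) {z : K} (hz3 : z ^ 3 = 1) {θ : L} (hθ : θ ≠ 0)
    (hτθ : τ θ = algebraMap K L z * θ) {a : K} (ha : algebraMap K L a = θ ^ 3)
    {v : HeightOneSpectrum (𝓞 K)} {w : HeightOneSpectrum (𝓞 L)} [w.asIdeal.LiesOver v.asIdeal]
    (hw : placeMap τ w ≠ w) : ∃ b : K, v.valuation K (b ^ 3 / a - 1) < v.valuation K 9 := by
  classical
  set w' := (placeMap τ).symm w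
  set w'' := (placeMap τ).symm w'
  have hw' : w' ≠ w := fun e => hw ((placeMap τ).symm_apply_eq.mp e).symm
  have hval : ∀ (u : HeightOneSpectrum (𝓞 L)) x,
      u.valuation L (τ x) = ((placeMap τ).symm u).valuation L x := fun u x => by
    conv_lhs => rw [← (placeMap τ).apply_symm_apply u]
    exact valuation_placeMap τ _ x
  have hw'' : w'' ≠ w := by
    intro e
    refine hw' (HeightOneSpectrum.ext (Ideal.ext fun r => ?_))
    rw [← HeightOneSpectrum.valuation_lt_one_iff_mem (K := L),
      ← HeightOneSpectrum.valuation_lt_one_iff_mem (K := L), ← hval w]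
    have e3 : ∀ x, w.valuation L (τ (τ x)) = w.valuation L x := fun x => by
      rw [hval, hval]; exact congrArg (fun u : HeightOneSpectrum (𝓞 L) => u.valuation L x) e
    conv_lhs => rw [← e3 (τ (algebraMap (𝓞 L) L r)), h.cube]
  have h9 : (algebraMap K L) 9 ≠ 0 := by
    rw [map_ofNat]; norm_num
  set ε : WithZero (Multiplicative ℤ) :=
    min (w.valuation L (algebraMap K L 9)) 1 * exp (-1 : ℤ)
  have h9v : w.valuation L (algebraMap K L 9) ≠ 0 := (Valuation.ne_zero_iff _).mpr h9
  have hεlt : ε < w.valuation L (algebraMap K L 9) ∧ ε < 1 := by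
    have h1 : exp (-1 : ℤ) < (1 : WithZero (Multiplicative ℤ)) := by
      rw [← WithZero.exp_zero, exp_lt_exp]; omega
    exact ⟨(mul_le_mul_left (min_le_left _ _) _).trans_lt
      (mul_lt_of_lt_one_right (zero_lt_iff.mpr h9v) h1),
      (mul_le_mul_left (min_le_right _ _) _).trans_lt (by rwa [one_mul])⟩
  have hε0 : ε ≠ 0 := mul_ne_zero (by
    rcases min_choice (w.valuation L (algebraMap K L 9)) 1 with e | e <;> rw [e]
    exacts [h9v, one_ne_zero]) exp_ne_zero
  obtain ⟨y, hy, -⟩ := exists_strong_approx {w, w', w''} (fun u => if u = w then 1 else 0)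
    (fun _ => ε) fun _ => hε0
  have y0 := hy w (by simp)
  have y1 := hy w' (by simp)
  have y2 := hy w'' (by simp)
  simp only [if_pos, if_neg hw', if_neg hw'', sub_zero] at y0 y1 y2
  set S := y + algebraMap K L z * τ y + algebraMap K L z ^ 2 * τ (τ y)
  have hzL : algebraMap K L z ^ 3 = 1 := by rw [← map_pow, hz3, map_one]
  obtain ⟨b, hb⟩ := h.surj (θ * S) (by
    simp only [S, map_mul, map_add, map_pow, hτθ, h.fix, h.cube]
    linear_combination θ * y * hzL)
  refine ⟨b, ?_⟩
  have hzv : w.valuation L (algebraMap K L z) = 1 := by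
    refine (pow_eq_one_iff_of_nonneg zero_le three_ne_zero).mp ?_
    rw [← map_pow, hzL, map_one]
  have hS : w.valuation L (S - 1) ≤ ε := by
    rw [show S - 1 = (y - 1) + algebraMap K L z * τ y + algebraMap K L z ^ 2 * τ (τ y) by ring]
    refine ((w.valuation L).map_add _ _).trans
      (max_le (((w.valuation L).map_add _ _).trans (max_le y0 ?_)) ?_)
    · rw [map_mul, hzv, one_mul, hval]; exact y1
    · rw [map_mul, map_pow, hzv, one_pow, one_mul, hval, hval]; exact y2
  have hS1 : w.valuation L S ≤ 1 := by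
    rw [show S = (S - 1) + 1 by ring]
    exact ((w.valuation L).map_add _ _).trans (max_le (hS.trans hεlt.2.le) (by rw [map_one]))
  rw [← (placePair_of_liesOver (L := L) v w).lt_iff, map_sub, map_div₀, map_pow, hb, ha, map_one,
    mul_pow, mul_div_cancel_left₀ _ (pow_ne_zero 3 hθ)]
  refine lt_of_le_of_lt ?_ hεlt.1
  rw [show S ^ 3 - 1 = (S - 1) * (S * S + S + 1) by ring, map_mul]
  refine (mul_le_of_le_one_right zero_le ?_).trans hS
  exact ((w.valuation L).map_add _ _).trans (max_le (((w.valuation L).map_add _ _).trans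
    (max_le (by rw [map_mul]; exact mul_le_one' hS1 hS1) hS1)) (by rw [map_one]))

/-- At a place with one place above of exponent one the Kummer element is a unit times a cube. -/
theorem exists_cube_mul_unit {v : HeightOneSpectrum (𝓞 K)} {w : HeightOneSpectrum (𝓞 L)}
    (h : NonSplit τ v w) (hi : h.Inert) {θ : L} (hθ : θ ≠ 0) {a : K}
    (ha : algebraMap K L a = θ ^ 3) : ∃ b : K, v.valuation K (b ^ 3 / a) = 1 := by
  obtain ⟨b, -, hb⟩ := exists_valuation_eq v (log (w.valuation L θ))
  rw [exp_log ((Valuation.ne_zero_iff _).mpr hθ)] at hb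
  refine ⟨b, ?_⟩
  rw [← hi, map_div₀, map_pow, ha, map_div₀, map_pow, map_pow, hi, hb, div_self]
  exact pow_ne_zero 3 ((Valuation.ne_zero_iff _).mpr hθ)

/-- If a multiple of `δ` has integral trace and unit determinant at `v`, the ratio of its
eigenvalues is a unit at a place `P` over `v`, and close to a cube if `δ` satisfies the residual
cube condition and `v` is prime to three. -/
theorem local_conditions {E : Type*} [Field E] [NumberField E] [Algebra K E]
    {δ : GL (Fin 2) K} {g₁ g₂ : E} (hsum : g₁ + g₂ = algebraMap K E δ.val.trace)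
    (hprod : g₁ * g₂ = algebraMap K E δ.val.det) {v : HeightOneSpectrum (𝓞 K)}
    {P : HeightOneSpectrum (𝓞 E)} [P.asIdeal.LiesOver v.asIdeal] {s : Kˣ}
    (hs : Normalised v (δ * sc s)) :
    P.valuation E (g₂ / g₁) = 1 ∧
      (v.valuation K 3 = 1 → CubeOK v δ →
        ∃ c : E, P.valuation E (c ^ 3 / (g₂ / g₁) - 1) < P.valuation E 9) := by
  have hP := placePair_of_liesOver (L := E) v P
  set σ := algebraMap K E (s : K)
  set h₁ := σ * g₁
  set h₂ := σ * g₂
  set t := algebraMap K E (δ * sc s).val.trace
  set d := algebraMap K E (δ * sc s).val.det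
  have hσ : σ ≠ 0 := by simp [σ]
  have htd : h₁ + h₂ = t ∧ h₁ * h₂ = d := by
    constructor
    · simp only [h₁, h₂, t, σ, trace_mul_sc, map_mul]
      linear_combination algebraMap K E (s : K) * hsum
    · simp only [h₁, h₂, d, σ, det_mul_sc, map_mul, map_pow]
      linear_combination algebraMap K E (s : K) ^ 2 * hprod
  have htv : P.valuation E t ≤ 1 := (hP.le_one_iff _).mpr hs.2
  have hdv : P.valuation E d = 1 := (hP.eq_one_iff _).mpr hs.1
  have hint : ∀ g : E, g * g = t * g - d → P.valuation E g ≤ 1 := by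
    intro g hg
    by_contra hlt
    rw [not_le] at hlt
    refine lt_irrefl (P.valuation E (g * g)) ?_
    conv_lhs => rw [hg]
    refine ((P.valuation E).map_sub _ _).trans_lt (max_lt ?_ ?_) <;> rw [map_mul]
    · rw [map_mul]
      exact lt_of_le_of_lt (mul_le_of_le_one_left zero_le htv)
        (lt_mul_of_one_lt_left (zero_lt_one.trans hlt) hlt)
    · rw [hdv]
      exact hlt.trans (lt_mul_of_one_lt_left (zero_lt_one.trans hlt) hlt)
  have i1 := hint h₁ (by linear_combination h₁ * htd.1 - htd.2)
  have i2 := hint h₂ (by linear_combination h₂ * htd.1 - htd.2)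
  have hm : P.valuation E h₁ * P.valuation E h₂ = 1 := by rw [← map_mul, htd.2, hdv]
  have u1 : P.valuation E h₁ = 1 :=
    le_antisymm i1 (hm.ge.trans (mul_le_of_le_one_right zero_le i2))
  have u2 : P.valuation E h₂ = 1 := by rwa [u1, one_mul] at hm
  have hratio : g₂ / g₁ = h₂ / h₁ := (mul_div_mul_left _ _ hσ).symm
  refine ⟨by rw [hratio, map_div₀, u1, u2, div_one], fun h3 hcube => ?_⟩
  obtain ⟨x, y, hx, hy, hA, hB⟩ := (cubeOK_iff hs).mp hcube
  set t₀ := (δ * sc s).val.trace
  set d₀ := (δ * sc s).val.det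
  set A := algebraMap K E (x ^ 3 - 3 * x * y ^ 2 * d₀ - y ^ 3 * t₀ * d₀) with hAdef
  set B := algebraMap K E (3 * x ^ 2 * y + 3 * x * y ^ 2 * t₀ + y ^ 3 * (t₀ ^ 2 - d₀)) with hBdef
  have hAv : P.valuation E A < 1 := (hP.lt_one_iff _).mpr hA
  have hBv : P.valuation E B = 1 := (hP.eq_one_iff _).mpr hB
  set X := algebraMap K E x
  set Y := algebraMap K E y
  have hcube' : ∀ g : E, g * g = t * g - d → (X + Y * g) ^ 3 = A + B * g := fun g hg => by
    simp only [hAdef, hBdef, map_sub, map_add, map_mul, map_pow, map_ofNat]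
    linear_combination (3 * X * Y ^ 2 + Y ^ 3 * g + Y ^ 3 * t) * hg
  have hunit : ∀ g : E, P.valuation E g = 1 → P.valuation E (A + B * g) = 1 := fun g hg => by
    rw [Valuation.map_add_eq_of_lt_right _ (by rwa [map_mul, hBv, hg, one_mul]), map_mul, hBv, hg,
      one_mul]
  refine ⟨(X + Y * h₂) / (X + Y * h₁), ?_⟩
  have e9 : P.valuation E 9 = 1 := by
    rw [show (9 : E) = algebraMap K E (3 * 3) by rw [map_mul, map_ofNat]; norm_num,
      hP.eq_one_iff, map_mul, h3, mul_one]
  rw [e9, hratio, div_pow, hcube' h₂ (by linear_combination h₂ * htd.1 - htd.2),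
    hcube' h₁ (by linear_combination h₁ * htd.1 - htd.2)]
  have n1 : A + B * h₁ ≠ 0 :=
    fun e => by have := hunit h₁ u1; rw [e, map_zero] at this; exact zero_ne_one this
  have n2 : h₁ ≠ 0 := fun e => by rw [e, map_zero] at u1; exact zero_ne_one u1
  have n3 : h₂ ≠ 0 := fun e => by rw [e, map_zero] at u2; exact zero_ne_one u2
  rw [show (A + B * h₂) / (A + B * h₁) / (h₂ / h₁) - 1 =
    A * (h₁ - h₂) / ((A + B * h₁) * h₂) by field_simp; ring, map_div₀, map_mul, map_mul,
    hunit h₁ u1, u2, mul_one, div_one]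
  exact mul_lt_one_of_lt_of_le hAv (((P.valuation E).map_sub _ _).trans (max_le u1.le u2.le))

end FermatAgent.LT
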