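import Mathlib
import Fermat.Agent.LT.Descent.ClassesExistLocal

/-!
# The places above a place of the base and approximation from the base

The generator permutes transitively the places above a place of the base; where it moves them the
base field is dense and so is its matrix group modulo a level.
-/

set_option autoImplicit false

noncomputable section

open Matrix IsDedekindDomain NumberField WithZero
open scoped MatrixGroups

namespace FermatAgent.LT

variable {K L : Type*} [Field K] [NumberField K] [Field L] [NumberField L]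

section Pair

variable {φ : K →+* L} {v : HeightOneSpectrum (𝓞 K)} {w : HeightOneSpectrum (𝓞 L)}

/-- Unit scalars lie in the congruence subgroup. -/
lemma sc_mem_locCongr {u : Lˣ} (hu : w.valuation L (u : L) = 1) : sc u ∈ locCongr w := by
  refine ⟨⟨fun i j => ?_, ?_⟩, ?_, ?_, ?_⟩
  · fin_cases i <;> fin_cases j <;> simp [hu]
  · rw [det_sc, map_pow, hu, one_pow]
  all_goals simp

/-- Two integral representatives of a class differ by a unit. -/
lemma val_scalar_eq_one {g : GL (Fin 2) L} (hg : g ∈ locGL w) {u : Lˣ} (hu : g * sc u ∈ locGL w) :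
    w.valuation L (u : L) = 1 := by
  have h := hu.2
  rwa [Units.val_mul, Matrix.det_mul, det_sc, map_mul, map_pow, hg.2, one_mul,
    pow_eq_one_iff_of_nonneg zero_le two_ne_zero] at h

/-- Congruence transfers along compatible places. -/
lemma PlacePair.g2Map_mem_locK1_iff (h : PlacePair φ v w) (g : G2 K) :
    g2Map φ g ∈ locK1 w ↔ g ∈ locK1 v := by
  refine ⟨fun hg => ?_, ?_⟩
  swap
  · rintro ⟨k, hk, rfl⟩
    exact ⟨_, (h.map_mem_locCongr_iff k).mpr hk, by rw [ProjGenLinGroup.map_mk]⟩
  obtain ⟨k, hk, rfl⟩ := (h.g2Map_mem_locK_iff g).mp (locK1_le w hg)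
  obtain ⟨c, hc, e⟩ := hg
  rw [ProjGenLinGroup.map_mk, Matrix.ProjGenLinGroup.mk_eq_mk_iff] at e
  obtain ⟨u, hu⟩ := e
  refine ⟨k, (h.map_mem_locCongr_iff k).mp ?_, rfl⟩
  change c * sc u = _ at hu
  rw [← hu]
  exact (locCongr w).mul_mem hc (sc_mem_locCongr (val_scalar_eq_one hc.1
    (by rw [hu]; exact (h.map_mem_locGL_iff k).mpr hk)))

end Pair

section Orbit

variable [Algebra K L] {τ : L ≃+* L}

lemma valuation_tau (τ : L ≃+* L) (w : HeightOneSpectrum (𝓞 L)) (x : L) :
    w.valuation L (τ x) = ((placeMap τ).symm w).valuation L x := by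
  conv_lhs => rw [← (placeMap τ).apply_symm_apply w]
  exact valuation_placeMap τ _ x

/-- The generator permutes places with period three. -/
lemma Cyc3.placeMap_cube (h : Cyc3 τ) (w : HeightOneSpectrum (𝓞 L)) :
    placeMap τ (placeMap τ (placeMap τ w)) = w := by
  have e : ∀ x : L, (placeMap τ (placeMap τ (placeMap τ w))).valuation L x = w.valuation L x :=
    fun x => by
      conv_lhs => rw [← h.cube x]
      rw [valuation_placeMap, valuation_placeMap, valuation_placeMap]
  refine HeightOneSpectrum.ext (Ideal.ext fun r => ?_)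
  rw [← HeightOneSpectrum.valuation_lt_one_iff_mem (K := L),
    ← HeightOneSpectrum.valuation_lt_one_iff_mem (K := L), e]

/-- The inverse generator on places. -/
lemma Cyc3.placeMap_symm (h : Cyc3 τ) (w : HeightOneSpectrum (𝓞 L)) :
    (placeMap τ).symm w = placeMap τ (placeMap τ w) :=
  (placeMap τ).symm_apply_eq.mpr (h.placeMap_cube w).symm

/-- A moved place has three conjugates. -/
lemma Cyc3.placeMap_sq_ne (h : Cyc3 τ) {w : HeightOneSpectrum (𝓞 L)} (hw : placeMap τ w ≠ w) :
    placeMap τ (placeMap τ w) ≠ w := fun e =>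
  hw ((congrArg (placeMap τ) e).symm.trans (h.placeMap_cube w))

/-- The places above a place form one orbit. -/
theorem IsTwist.orbit (h : IsTwist K τ) {v : HeightOneSpectrum (𝓞 K)}
    {w w' : HeightOneSpectrum (𝓞 L)} (hw : PlacePair (algebraMap K L) v w)
    (hw' : PlacePair (algebraMap K L) v w') :
    w' = w ∨ w' = placeMap τ w ∨ w' = placeMap τ (placeMap τ w) := by
  classical
  by_contra hne
  simp only [not_or] at hne
  obtain ⟨n0, n1, n2⟩ := hne
  let β : HeightOneSpectrum (𝓞 L) → L := fun u => if u = w' then 0 else 1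
  obtain ⟨y, hy, hy'⟩ := exists_strong_approx {w', w, placeMap τ w, placeMap τ (placeMap τ w)} β
    (fun _ => exp (-1 : ℤ)) fun _ => exp_ne_zero
  have hlt : exp (-1 : ℤ) < (1 : WithZero (Multiplicative ℤ)) := by
    rw [← WithZero.exp_zero, exp_lt_exp]; omega
  have hyint : ∀ u : HeightOneSpectrum (𝓞 L), u.valuation L y ≤ 1 := fun u => by
    by_cases hu : u ∈ ({w', w, placeMap τ w, placeMap τ (placeMap τ w)} : Finset _)
    · have := hy u hu
      rw [show y = (y - β u) + β u by ring]
      refine ((u.valuation L).map_add _ _).trans (max_le (this.trans hlt.le) ?_)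
      simp only [β]; split_ifs <;> simp
    · exact hy' u hu
  have hone :
      ∀ u ∈ ({w, placeMap τ w, placeMap τ (placeMap τ w)} : Finset (HeightOneSpectrum (𝓞 L))),
      u.valuation L y = 1 := fun u hu => by
    have hu' : (u : HeightOneSpectrum (𝓞 L)) ≠ w' := by
      simp only [Finset.mem_insert, Finset.mem_singleton] at hu
      rcases hu with rfl | rfl | rfl <;> exact Ne.symm ‹_›
    refine val_eq_one_of_sub_lt (b := 1) (map_one _) (lt_of_le_of_lt ?_ hlt)
    have := hy u (Finset.mem_insert_of_mem hu)
    simpa [β, hu'] using this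
  obtain ⟨N, hN⟩ := h.surj (y * τ y * τ (τ y)) (by
    simp only [map_mul, h.cube]; ring)
  have h1 : w'.valuation L (algebraMap K L N) < 1 := by
    rw [hN, map_mul, map_mul, valuation_tau τ w', valuation_tau τ w', valuation_tau τ _ y]
    refine mul_lt_one_of_lt_of_le (mul_lt_one_of_lt_of_le ?_ (hyint _)) (hyint _)
    have := hy w' (Finset.mem_insert_self _ _)
    exact lt_of_le_of_lt (by simpa [β] using this) hlt
  have h2 : w.valuation L (algebraMap K L N) = 1 := by
    rw [hN, map_mul, map_mul, valuation_tau τ w, valuation_tau τ w, valuation_tau τ _ y,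
      hone w (by simp), hone _ (by simp [h.placeMap_symm]), hone _ (by
        simp [h.placeMap_symm, h.placeMap_cube]), one_mul, one_mul]
  rw [hw'.lt_one_iff, ← hw.lt_one_iff, h2] at h1
  exact lt_irrefl _ h1

omit [NumberField K] in
/-- At a place moved by the generator the base field is dense. -/
theorem IsTwist.exists_near (h : IsTwist K τ) {w : HeightOneSpectrum (𝓞 L)} (hw : placeMap τ w ≠ w)
    (x : L) {r : WithZero (Multiplicative ℤ)} (hr : r ≠ 0) :
    ∃ k : K, w.valuation L (algebraMap K L k - x) ≤ r := by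
  classical
  obtain ⟨y, hy, -⟩ := exists_strong_approx {w, placeMap τ w, placeMap τ (placeMap τ w)}
    (fun u => if u = w then x else 0) (fun _ => r) fun _ => hr
  obtain ⟨k, hk⟩ := h.surj (y + τ y + τ (τ y)) (by simp only [map_add, h.cube]; ring)
  refine ⟨k, ?_⟩
  have h2 : placeMap τ (placeMap τ w) ≠ w := h.placeMap_sq_ne hw
  rw [hk, show y + τ y + τ (τ y) - x = (y - x) + τ y + τ (τ y) by ring]
  refine ((w.valuation L).map_add _ _).trans (max_le (((w.valuation L).map_add _ _).trans
    (max_le (by simpa using hy w (by simp)) ?_)) ?_)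
  · rw [valuation_tau, h.placeMap_symm]
    simpa [h2] using hy (placeMap τ (placeMap τ w)) (by simp)
  · rw [valuation_tau, valuation_tau, h.placeMap_symm, h.placeMap_symm, h.placeMap_cube]
    simpa [hw] using hy (placeMap τ w) (by simp)

end Orbit

/-- Families over three indices from coordinates are in bijection with triples of coordinates. -/
lemma bijective_of_three {ι P : Type*} {Q : ι → Type*} {e : ∀ i, P → Q i}
    (he : ∀ i, Function.Bijective (e i)) {F : P × P × P → ∀ i, Q i} {i j k : ι}
    (hcov : ∀ l, l = i ∨ l = j ∨ l = k) (hi : ∀ p, F p i = e i p.1) (hj : ∀ p, F p j = e j p.2.1)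
    (hk : ∀ p, F p k = e k p.2.2) : Function.Bijective F := by
  refine ⟨fun p q h => Prod.ext ((he i).1 (by rw [← hi, h, hi]))
    (Prod.ext ((he j).1 (by rw [← hj, h, hj])) ((he k).1 (by rw [← hk, h, hk]))), fun x => ?_⟩
  choose z hz using fun l => (he l).2 (x l)
  refine ⟨(z i, z j, z k), funext fun l => ?_⟩
  rcases hcov l with rfl | rfl | rfl <;> simp [hi, hj, hk, hz]

/-- Coordinates carried around a cycle by bijections composing to `d`, each of which fixes the
fixed points of `d`, are constant. -/
lemma const_of_cycle {ι P : Type*} {prev next : ι → ι} (hpn : ∀ u, prev (next u) = u)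
    (hp : ∀ u, prev (prev (prev u)) = u) {u₀ : ι}
    (hcov : ∀ u, u = u₀ ∨ u = next u₀ ∨ u = next (next u₀))
    (c : ι → P ≃ P) {d : P → P} (hcyc : ∀ u x, c u (c (prev u) (c (prev (prev u)) x)) = d x)
    (hgood : ∀ u x, d x = x → c u x = x) {z : ι → P} (hz : ∀ u, c u (z (prev u)) = z u) :
    d (z u₀) = z u₀ ∧ ∀ u, z u = z u₀ := by
  have hfix : ∀ u, d (z u) = z u := fun u => by
    have h := hcyc u (z (prev (prev (prev u))))
    rw [hz, hz, hz, hp] at h
    exact h.symm
  have hn : ∀ u, z (next u) = z u := fun u => by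
    have h := (c (next u)).injective ((hz (next u)).trans (hgood _ _ (hfix (next u))).symm)
    rw [hpn] at h
    exact h.symm
  exact ⟨hfix u₀, fun u => by rcases hcov u with rfl | rfl | rfl <;> simp [hn]⟩

end FermatAgent.LT
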