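import Mathlib
import Fermat.Agent.LT.Base.Classes
import Fermat.Agent.LT.Descent.ClassesCyc
import Fermat.Agent.LT.Descent.NonSplitBase

/-!
# Residual norms at an inert place

Over a finite field with an automorphism of order three every fixed unit of a quadratic algebra is
a norm; at an inert place this gives an integral element with norm residually equal to the
generator of the algebra.
-/

set_option autoImplicit false

noncomputable section

open IsDedekindDomain NumberField WithZero

namespace FermatAgent.LT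

section Hom

variable {R S : Type*} [CommRing R] [CommRing S] {a b : R} {a' b' : S}

/-- A map of quadratic algebras from a map of coefficients. -/
def qhom (f : R →+* S) (ha : f a = a') (hb : f b = b') :
    QuadraticAlgebra R a b →+* QuadraticAlgebra S a' b' where
  toFun z := ⟨f z.re, f z.im⟩
  map_one' := by ext <;> simp [QuadraticAlgebra.re_one, QuadraticAlgebra.im_one]
  map_mul' z w := by ext <;> simp [ha, hb]
  map_zero' := by ext <;> simp
  map_add' z w := by ext <;> simp

variable (f : R →+* S) (ha : f a = a') (hb : f b = b')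

@[simp] lemma qhom_re (z : QuadraticAlgebra R a b) : (qhom f ha hb z).re = f z.re := rfl

@[simp] lemma qhom_im (z : QuadraticAlgebra R a b) : (qhom f ha hb z).im = f z.im := rfl

end Hom

namespace Cyc3

variable {k : Type*} [Field k] [Finite k] {τ : k ≃+* k} {a b : k}

/-- Fixed units are norms over a finite field. -/
theorem exists_qnorm_eq (h : Cyc3 τ) (ha : τ a = a) (hb : τ b = b)
    {u : QuadraticAlgebra k a b} (hu : u.norm ≠ 0) (hfix : qmap τ ha hb u = u) :
    ∃ g, g * qmap τ ha hb g * qmap τ ha hb (qmap τ ha hb g) = u := by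
  classical
  let R := QuadraticAlgebra k a b
  have : Finite R := Finite.of_equiv _ (QuadraticAlgebra.equivProd a b).symm
  let s : R →* R := (qmap τ ha hb : R →+* R)
  let σ : Rˣ →* Rˣ := Units.map s
  let f : Rˣ →* Rˣ := MonoidHom.id _ / σ
  let N : Rˣ →* Rˣ := MonoidHom.id _ * σ * σ.comp σ
  have hσ3 : ∀ x, σ (σ (σ x)) = x := fun x => Units.ext (h.qmap_cube ha hb _)
  have hNf : N.ker ≤ f.range := by
    intro g hg
    have hg' : (g : R) * qmap τ ha hb g * qmap τ ha hb (qmap τ ha hb (g : R)) = 1 :=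
      congrArg Units.val (show g * σ g * σ (σ g) = 1 from hg)
    obtain ⟨t, ht, het⟩ := h.exists_eq_mul_qmap ha hb hg'
    obtain ⟨t', ht'⟩ := QuadraticAlgebra.isUnit_iff_norm_isUnit.mpr (IsUnit.mk0 _ ht)
    refine ⟨t', ?_⟩
    show t' / σ t' = g
    rw [div_eq_iff_eq_mul]
    apply Units.ext
    show (t' : R) = g * qmap τ ha hb (t' : R)
    rw [ht', het]
  have hfN : f.range ≤ N.ker := by
    rintro _ ⟨x, rfl⟩
    show x / σ x * σ (x / σ x) * σ (σ (x / σ x)) = 1
    simp only [map_div, hσ3]
    rw [div_mul_div_cancel, div_mul_div_cancel, div_self']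
  have hNfix : N.range ≤ f.ker := by
    rintro _ ⟨x, rfl⟩
    show x * σ x * σ (σ x) / σ (x * σ x * σ (σ x)) = 1
    simp only [map_mul, hσ3]
    rw [div_eq_one]
    rw [mul_comm _ x, ← mul_assoc]
  have hcard : Nat.card N.range = Nat.card f.ker := by
    have e1 := N.ker.card_mul_index
    have e2 := f.ker.card_mul_index
    rw [Subgroup.index_ker] at e1 e2
    rw [le_antisymm hNf hfN] at e1
    rw [← e2, mul_comm (Nat.card f.ker)] at e1
    exact Nat.eq_of_mul_eq_mul_left Nat.card_pos e1
  have heq := Subgroup.eq_of_le_of_card_ge hNfix hcard.ge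
  obtain ⟨u', hu'⟩ := QuadraticAlgebra.isUnit_iff_norm_isUnit.mpr (IsUnit.mk0 _ hu)
  have hmem : u' ∈ f.ker := by
    show u' / σ u' = 1
    rw [div_eq_one]
    apply Units.ext
    show (u' : R) = qmap τ ha hb (u' : R)
    rw [hu', hfix]
  rw [← heq] at hmem
  obtain ⟨g, hg⟩ := hmem
  exact ⟨g, (congrArg Units.val (show g * σ g * σ (σ g) = u' from hg)).trans hu'⟩

end Cyc3

variable {L : Type*} [Field L] [NumberField L]

/-- The residue field at a place is finite. -/
instance finite_residueField_locRing (w : HeightOneSpectrum (𝓞 L)) :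
    Finite (IsLocalRing.ResidueField (locRing w)) := by
  classical
  have : Finite (𝓞 L ⧸ w.asIdeal) := Ideal.finiteQuotientOfFreeOfNeBot _ w.ne_bot
  let j : 𝓞 L →+* locRing w := (algebraMap (𝓞 L) L).codRestrict (locRing w).toSubring
    fun x => HeightOneSpectrum.valuation_le_one w x
  let ρ : 𝓞 L →+* IsLocalRing.ResidueField (locRing w) := (IsLocalRing.residue _).comp j
  have hker : ∀ x ∈ w.asIdeal, ρ x = 0 := fun x hx =>
    (IsLocalRing.residue_eq_zero_iff _).mpr ((w.valuation L).mem_maximalIdeal_iff.mpr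
      ((HeightOneSpectrum.valuation_lt_one_iff_mem w x).mpr hx))
  refine Finite.of_surjective (Ideal.Quotient.lift w.asIdeal ρ hker) fun c => ?_
  obtain ⟨⟨z, hz⟩, rfl⟩ := IsLocalRing.residue_surjective c
  have hz' : w.valuation L z ≤ 1 := hz
  obtain ⟨y, hy, hy'⟩ := exists_strong_approx {w} (fun _ => z) (fun _ => exp (-1 : ℤ))
    fun _ => exp_ne_zero
  have hyw := hy w (Finset.mem_singleton_self w)
  have hint : ∀ v : HeightOneSpectrum (𝓞 L), v.valuation L y ≤ 1 := fun v => by
    by_cases hv : v ∈ ({w} : Finset _)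
    · rw [Finset.mem_singleton.mp hv, show y = (y - z) + z by ring]
      exact ((w.valuation L).map_add _ _).trans (max_le (hyw.trans (by
        rw [← WithZero.exp_zero, exp_le_exp]; omega)) hz')
    · exact hy' v hv
  obtain ⟨r, rfl⟩ : ∃ r, algebraMap (𝓞 L) L r = y := by
    exact HeightOneSpectrum.mem_integers_of_valuation_le_one L y hint
  refine ⟨Ideal.Quotient.mk _ r, ?_⟩
  rw [Ideal.Quotient.lift_mk]
  show IsLocalRing.residue _ (j r) = IsLocalRing.residue _ ⟨z, hz⟩
  rw [← sub_eq_zero, ← map_sub, IsLocalRing.residue_eq_zero_iff]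
  refine (w.valuation L).mem_maximalIdeal_iff.mpr (hyw.trans_lt ?_)
  rw [← WithZero.exp_zero, exp_lt_exp]
  omega

variable {K : Type*} [Field K] [NumberField K] [Algebra K L] {τ : L ≃+* L}
  {v : HeightOneSpectrum (𝓞 K)} {w : HeightOneSpectrum (𝓞 L)}

namespace NonSplit

variable (h : NonSplit τ v w)

include h

/-- The generator on the local ring. -/
def locAut : locRing w ≃+* locRing w where
  toFun x := ⟨τ x.1, show w.valuation L (τ x.1) ≤ 1 by rw [h.val_tau]; exact x.2⟩
  invFun x := ⟨τ (τ x.1), show w.valuation L (τ (τ x.1)) ≤ 1 by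
    rw [h.val_tau, h.val_tau]; exact x.2⟩
  left_inv x := Subtype.ext (h.twist.cube _)
  right_inv x := Subtype.ext (h.twist.cube _)
  map_mul' x y := Subtype.ext (map_mul τ _ _)
  map_add' x y := Subtype.ext (map_add τ _ _)

@[simp] lemma coe_locAut (x : locRing w) : (h.locAut x : L) = τ x := rfl

/-- The generator on residues. -/
def resAut : IsLocalRing.ResidueField (locRing w) ≃+* IsLocalRing.ResidueField (locRing w) :=
  IsLocalRing.ResidueField.mapEquiv h.locAut

lemma resAut_residue (x : locRing w) :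
    h.resAut (IsLocalRing.residue _ x) = IsLocalRing.residue _ (h.locAut x) := rfl

lemma cyc3_resAut (hi : h.Inert) : Cyc3 h.resAut := by
  refine ⟨fun c => ?_, ?_⟩
  · obtain ⟨x, rfl⟩ := IsLocalRing.residue_surjective c
    rw [resAut_residue, resAut_residue, resAut_residue]
    exact congrArg _ (Subtype.ext (h.twist.cube _))
  · obtain ⟨x, hx, hne⟩ := Inert.exists_tau_sub h hi
    refine ⟨IsLocalRing.residue _ ⟨x, hx⟩, fun e => ?_⟩
    rw [resAut_residue, ← sub_eq_zero, ← map_sub, IsLocalRing.residue_eq_zero_iff] at e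
    exact ((w.valuation L).mem_maximalIdeal_iff.mp e).ne hne

/-- Residual norms at an inert place. -/
theorem exists_norm_residual (hi : h.Inert) {a b : L} (ha : τ a = a) (hb : τ b = b)
    (ha1 : w.valuation L a = 1) (hb1 : w.valuation L b ≤ 1) :
    ∃ z : QuadraticAlgebra L a b, w.valuation L z.re ≤ 1 ∧ w.valuation L z.im ≤ 1 ∧
      w.valuation L z.norm = 1 ∧
      w.valuation L (z * Cyc3.qmap τ ha hb z * Cyc3.qmap τ ha hb (Cyc3.qmap τ ha hb z)).re < 1 ∧
      w.valuation L
        ((z * Cyc3.qmap τ ha hb z * Cyc3.qmap τ ha hb (Cyc3.qmap τ ha hb z)).im - 1) < 1 := by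
  let A : locRing w := ⟨a, ha1.le⟩
  let B : locRing w := ⟨b, hb1⟩
  let ρ := IsLocalRing.residue (locRing w)
  have hA : h.resAut (ρ A) = ρ A := congrArg ρ (Subtype.ext ha)
  have hB : h.resAut (ρ B) = ρ B := congrArg ρ (Subtype.ext hb)
  have hA0 : ρ A ≠ 0 := fun e =>
    ((w.valuation L).mem_maximalIdeal_iff.mp ((IsLocalRing.residue_eq_zero_iff _).mp e)).ne ha1
  let om : QuadraticAlgebra (IsLocalRing.ResidueField (locRing w)) (ρ A) (ρ B) := ⟨0, 1⟩
  have hom : om.norm ≠ 0 := by simpa [om, QuadraticAlgebra.norm_def] using hA0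
  obtain ⟨g, hg⟩ := (h.cyc3_resAut hi).exists_qnorm_eq hA hB hom (by ext <;> simp [om])
  obtain ⟨x, hx⟩ := IsLocalRing.residue_surjective g.re
  obtain ⟨y, hy⟩ := IsLocalRing.residue_surjective g.im
  let z₀ : QuadraticAlgebra (locRing w) A B := ⟨x, y⟩
  let P : QuadraticAlgebra (locRing w) A B →+* QuadraticAlgebra _ (ρ A) (ρ B) := qhom ρ rfl rfl
  let I : QuadraticAlgebra (locRing w) A B →+* QuadraticAlgebra L a b :=
    qhom (locRing w).subtype rfl rfl
  let S := qhom (h.locAut : locRing w →+* locRing w) (Subtype.ext ha : h.locAut A = A)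
    (Subtype.ext hb : h.locAut B = B)
  have hP : P z₀ = g := by ext <;> simp [P, z₀, ρ, hx, hy]
  have hPS : ∀ z, P (S z) = Cyc3.qmap h.resAut hA hB (P z) := fun z => by ext <;> rfl
  have hIS : ∀ z, I (S z) = Cyc3.qmap τ ha hb (I z) := fun z => by ext <;> rfl
  set N := z₀ * S z₀ * S (S z₀)
  have hN : P N = om := by rw [map_mul, map_mul, hPS, hPS, hPS, hP, hg]
  have hI : I N =
      I z₀ * Cyc3.qmap τ ha hb (I z₀) * Cyc3.qmap τ ha hb (Cyc3.qmap τ ha hb (I z₀)) := by
    rw [map_mul, map_mul, hIS, hIS, hIS]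
  have hre : w.valuation L (I N).re < 1 := by
    have e : ρ N.re = 0 := congrArg QuadraticAlgebra.re hN
    exact (w.valuation L).mem_maximalIdeal_iff.mp ((IsLocalRing.residue_eq_zero_iff _).mp e)
  have him : w.valuation L ((I N).im - 1) < 1 := by
    have e : ρ (N.im - 1) = 0 := by
      rw [map_sub, map_one, sub_eq_zero]
      exact congrArg QuadraticAlgebra.im hN
    exact (w.valuation L).mem_maximalIdeal_iff.mp ((IsLocalRing.residue_eq_zero_iff _).mp e)
  refine ⟨I z₀, x.2, y.2, ?_, by rwa [← hI], by rwa [← hI]⟩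
  have hn : ρ z₀.norm ≠ 0 := by
    have e : ρ z₀.norm = (P z₀).norm := by simp [P, QuadraticAlgebra.norm_def]
    rw [e, hP]
    intro h0
    apply hom
    rw [← hg, map_mul, map_mul, h0, zero_mul, zero_mul]
  have hnI : (I z₀).norm = (z₀.norm : L) := by simp [I, A, B, QuadraticAlgebra.norm_def]
  rw [hnI]
  refine le_antisymm z₀.norm.2 (not_lt.mp fun hlt => hn ?_)
  rw [IsLocalRing.residue_eq_zero_iff]
  exact (w.valuation L).mem_maximalIdeal_iff.mpr hlt

end NonSplit

end FermatAgent.LT
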