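import Mathlib
import Fermat.Agent.LT.Descent.NonSplitCube
import Fermat.Agent.LT.Descent.NonSplitResidue

/-!
# Approximate norms and resolvents at a place with one place above

A quadratic algebra with unit constant term and integral linear term, satisfying the residual cube
condition at exponent three, has units with norm arbitrarily near a unit multiple of its generator;
a resolvent then turns any element with norm a multiple of the generator into such a unit up to
twisted conjugation.
-/

set_option autoImplicit false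

noncomputable section

open IsDedekindDomain NumberField WithZero

namespace FermatAgent.LT

variable {L : Type*} [Field L] [NumberField L] {a b : L} {w : HeightOneSpectrum (𝓞 L)}

/-- The larger valuation of the two coordinates. -/
def qsize (w : HeightOneSpectrum (𝓞 L)) (z : QuadraticAlgebra L a b) :
    WithZero (Multiplicative ℤ) :=
  max (w.valuation L z.re) (w.valuation L z.im)

lemma qsize_le_iff {z : QuadraticAlgebra L a b} {r : WithZero (Multiplicative ℤ)} :
    qsize w z ≤ r ↔ w.valuation L z.re ≤ r ∧ w.valuation L z.im ≤ r := max_le_iff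

lemma qsize_lt_iff {z : QuadraticAlgebra L a b} {r : WithZero (Multiplicative ℤ)} :
    qsize w z < r ↔ w.valuation L z.re < r ∧ w.valuation L z.im < r := max_lt_iff

lemma qsize_add (z z' : QuadraticAlgebra L a b) :
    qsize w (z + z') ≤ max (qsize w z) (qsize w z') :=
  max_le (((w.valuation L).map_add _ _).trans (max_le_max (le_max_left _ _) (le_max_left _ _)))
    (((w.valuation L).map_add _ _).trans (max_le_max (le_max_right _ _) (le_max_right _ _)))

lemma qsize_smul (c : L) (z : QuadraticAlgebra L a b) :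
    qsize w (c • z) = w.valuation L c * qsize w z := by
  simp [qsize, mul_max]

lemma qsize_neg (z : QuadraticAlgebra L a b) : qsize w (-z) = qsize w z := by
  simp [qsize, Valuation.map_neg]

lemma qsize_one : qsize w (1 : QuadraticAlgebra L a b) = 1 := by
  simp [qsize, QuadraticAlgebra.re_one, QuadraticAlgebra.im_one]

section Integral

variable (ha1 : w.valuation L a ≤ 1) (hb1 : w.valuation L b ≤ 1)

include ha1 hb1

lemma qsize_mul (z z' : QuadraticAlgebra L a b) : qsize w (z * z') ≤ qsize w z * qsize w z' := by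
  have h : ∀ {x y : L}, w.valuation L x ≤ qsize w z → w.valuation L y ≤ qsize w z' →
      w.valuation L (x * y) ≤ qsize w z * qsize w z' := fun hx hy => by
    rw [map_mul]; exact mul_le_mul' hx hy
  have hc : ∀ {c x : L}, w.valuation L c ≤ 1 → ∀ {r}, w.valuation L x ≤ r →
      w.valuation L (c * x) ≤ r := fun hc r hx => by
    rw [map_mul]; exact (mul_le_of_le_one_left zero_le hc).trans hx
  refine qsize_le_iff.mpr ⟨?_, ?_⟩
  · rw [QuadraticAlgebra.re_mul, mul_assoc]
    exact ((w.valuation L).map_add _ _).trans (max_le (h (le_max_left _ _) (le_max_left _ _))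
      (hc ha1 (h (le_max_right _ _) (le_max_right _ _))))
  · rw [QuadraticAlgebra.im_mul, mul_assoc b]
    exact ((w.valuation L).map_add _ _).trans (max_le (((w.valuation L).map_add _ _).trans
      (max_le (h (le_max_left _ _) (le_max_right _ _)) (h (le_max_right _ _) (le_max_left _ _))))
      (hc hb1 (h (le_max_right _ _) (le_max_right _ _))))

omit ha1 in
lemma qsize_star (z : QuadraticAlgebra L a b) : qsize w (star z) ≤ qsize w z := by
  refine qsize_le_iff.mpr ⟨?_, ?_⟩
  · rw [QuadraticAlgebra.re_star]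
    refine ((w.valuation L).map_add _ _).trans (max_le (le_max_left _ _) ?_)
    rw [map_mul]
    exact (mul_le_of_le_one_left zero_le hb1).trans (le_max_right _ _)
  · rw [QuadraticAlgebra.im_star, Valuation.map_neg]
    exact le_max_right _ _

lemma val_norm_le (z : QuadraticAlgebra L a b) :
    w.valuation L z.norm ≤ qsize w z * qsize w z := by
  have e : z.norm = (z * star z).re := by
    rw [← QuadraticAlgebra.algebraMap_norm_eq_mul_star]; simp
  rw [e]
  exact (le_max_left _ _).trans ((qsize_mul ha1 hb1 _ _).trans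
    (mul_le_mul_right (qsize_star hb1 z) _))

lemma val_norm_one_add_sub_le {e : QuadraticAlgebra L a b} (he : qsize w e ≤ 1) :
    w.valuation L ((1 + e).norm - 1) ≤ qsize w e := by
  have e1 : (1 + e).norm - 1 = (e.re + e.re + b * e.im) + e.norm := by
    simp [QuadraticAlgebra.norm_def, QuadraticAlgebra.re_one, QuadraticAlgebra.im_one]; ring
  rw [e1]
  refine ((w.valuation L).map_add _ _).trans (max_le (((w.valuation L).map_add _ _).trans
    (max_le (((w.valuation L).map_add _ _).trans (max_le (le_max_left _ _)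
      (le_max_left _ _))) ?_)) ?_)
  · rw [map_mul]; exact (mul_le_of_le_one_left zero_le hb1).trans (le_max_right _ _)
  · exact (val_norm_le ha1 hb1 e).trans (mul_le_of_le_one_left zero_le he)

lemma val_norm_one_add {e : QuadraticAlgebra L a b} (he : qsize w e < 1) :
    w.valuation L (1 + e).norm = 1 := by
  have h := (val_norm_one_add_sub_le ha1 hb1 he.le).trans_lt he
  have h1 := (w.valuation L).map_add_eq_of_lt_left (x := 1) (y := (1 + e).norm - 1)
    (by rwa [map_one])
  rwa [add_sub_cancel, map_one] at h1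

end Integral

variable {K : Type*} [Field K] [NumberField K] [Algebra K L] {τ : L ≃+* L}
  {v : HeightOneSpectrum (𝓞 K)} (h : NonSplit τ v w) (ha : τ a = a) (hb : τ b = b)

section

omit [NumberField L]

variable (τ) in
/-- The norm in a quadratic algebra. -/
def qnrm (ha : τ a = a) (hb : τ b = b) : QuadraticAlgebra L a b →* QuadraticAlgebra L a b where
  toFun z := z * Cyc3.qmap τ ha hb z * Cyc3.qmap τ ha hb (Cyc3.qmap τ ha hb z)
  map_one' := by simp
  map_mul' x y := by simp only [map_mul]; ring

/-- The norm in the quadratic algebra. -/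
lemma qnrm_apply (z : QuadraticAlgebra L a b) :
    qnrm τ ha hb z = z * Cyc3.qmap τ ha hb z * Cyc3.qmap τ ha hb (Cyc3.qmap τ ha hb z) := rfl

lemma qmap_smul (c : L) (z : QuadraticAlgebra L a b) :
    Cyc3.qmap τ ha hb (c • z) = τ c • Cyc3.qmap τ ha hb z := by ext <;> simp

lemma qnrm_smul (c : L) (z : QuadraticAlgebra L a b) :
    qnrm τ ha hb (c • z) = (c * τ c * τ (τ c)) • qnrm τ ha hb z := by
  simp only [qnrm_apply, qmap_smul, smul_mul_smul_comm]

lemma qnrm_fixed (hc : Cyc3 τ) (z : QuadraticAlgebra L a b) :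
    Cyc3.qmap τ ha hb (qnrm τ ha hb z) = qnrm τ ha hb z := by
  simp only [qnrm_apply, map_mul, hc.qmap_cube ha hb]
  ring

end

omit [NumberField L] in
/-- An element of nonzero norm times its scaled conjugate is one. -/
private lemma mul_norm_inv_star {z : QuadraticAlgebra L a b} (hz : z.norm ≠ 0) :
    z * (z.norm⁻¹ • star z) = 1 := by
  rw [mul_smul_comm, ← QuadraticAlgebra.algebraMap_norm_eq_mul_star,
    Algebra.algebraMap_eq_smul_one, smul_smul, inv_mul_cancel₀ hz, one_smul]

omit [NumberField L] in
/-- Twisted conjugation from a resolvent with a near one factor. -/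
private lemma twist_eq {g gi z T k : QuadraticAlgebra L a b} {r : L} (hgi : g * gi = 1)
    (hk : r • (z * gi) * Cyc3.qmap τ ha hb T = T * k) (hT : T.norm ≠ 0) (hk0 : k.norm ≠ 0) :
    g * Cyc3.qmap τ ha hb (star T) =
      (r * (τ T.norm / T.norm)) • (star T * (z * (k.norm⁻¹ • star k))) := by
  set q := Cyc3.qmap τ ha hb
  have hki := mul_norm_inv_star hk0
  have hTk : IsUnit (T * k) :=
    (IsUnit.of_mul_eq_one _ (mul_norm_inv_star hT)).mul (IsUnit.of_mul_eq_one _ hki)
  refine hTk.mul_left_injective ?_
  show g * q (star T) * (T * k) = _ • (star T * (z * _)) * (T * k)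
  have e4 : ∀ y : QuadraticAlgebra L a b, y * star y = y.norm • 1 := fun y => by
    rw [← QuadraticAlgebra.algebraMap_norm_eq_mul_star, Algebra.algebraMap_eq_smul_one]
  have e5 : q T * q (star T) = τ T.norm • (1 : QuadraticAlgebra L a b) := by
    rw [← map_mul, e4, qmap_smul, map_one]
  calc g * q (star T) * (T * k) = r • ((g * gi) * z * (q T * q (star T))) := by
        rw [← hk]
        simp only [smul_mul_assoc, mul_smul_comm]
        congr 1
        ring
    _ = (r * (τ T.norm / T.norm)) • (T.norm • z) := by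
        rw [hgi, e5, one_mul, mul_smul_comm, mul_one, smul_smul, smul_smul]
        congr 1
        field_simp
    _ = _ := by
        rw [smul_mul_assoc]
        congr 1
        rw [show star T * (z * (k.norm⁻¹ • star k)) * (T * k) =
          z * ((T * star T) * (k * (k.norm⁻¹ • star k))) by ring,
          e4, hki, mul_one, mul_smul_comm, mul_one]

/-- Rescaling by its norm makes an element with near scalar norm a near one in norm. -/
private lemma exists_qnrm_rescale (ha1 : w.valuation L a ≤ 1) (hb1 : w.valuation L b ≤ 1)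
    {y e : QuadraticAlgebra L a b} {m : L} (hm : m ≠ 0) (hmf : τ m = m) (he : qsize w e < 1)
    (hN : qnrm τ ha hb y = m • (1 + e)) :
    ∃ e1, qnrm τ ha hb ((y.norm / m) • y) = 1 + e1 ∧ qsize w e1 ≤ qsize w e := by
  set en := y.norm
  set n1 := (1 + e).norm
  have hen : en * τ en * τ (τ en) = m ^ 2 * n1 := by
    have e1 := congrArg QuadraticAlgebra.norm hN
    rw [qnrm_apply, map_mul, map_mul] at e1
    simp only [Cyc3.norm_qmap] at e1
    refine e1.trans ?_
    simp [n1, QuadraticAlgebra.norm_def]
    ring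
  have hNc : (en / m) * τ (en / m) * τ (τ (en / m)) = n1 / m := by
    simp only [map_div₀, hmf]
    field_simp
    linear_combination hen
  refine ⟨(n1 - 1) • 1 + n1 • e, ?_, ?_⟩
  · rw [qnrm_smul, hN, hNc, smul_smul, div_mul_cancel₀ n1 hm]
    simp only [smul_add, sub_smul, one_smul]
    abel
  · refine (qsize_add _ _).trans (max_le ?_ ?_)
    · rw [qsize_smul, qsize_one, mul_one]
      exact val_norm_one_add_sub_le ha1 hb1 he.le
    · rw [qsize_smul, val_norm_one_add ha1 hb1 he, one_mul]

namespace NonSplit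

include h

lemma qsize_qmap (z : QuadraticAlgebra L a b) : qsize w (Cyc3.qmap τ ha hb z) = qsize w z := by
  simp [qsize, h.val_tau]

variable (ha1 : w.valuation L a = 1) (hb1 : w.valuation L b ≤ 1)

include ha1 hb1

/-- A first approximation, and the condition for it. -/
lemma exists_first {t d : K} (hat : a = -algebraMap K L d) (hbt : b = algebraMap K L t)
    (hcube : h.Ramified → CubeAt v t d) :
    ∃ (z : QuadraticAlgebra L a b) (s : K), v.valuation K s = 1 ∧ qsize w z ≤ 1 ∧
      w.valuation L z.norm = 1 ∧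
      qsize w (qnrm τ ha hb z - ⟨0, algebraMap K L s⟩) < 1 := by
  rcases h.inert_or_ramified with hi | hr
  · obtain ⟨z, h1, h2, h3, h4, h5⟩ := h.exists_norm_residual hi ha hb ha1 hb1
    refine ⟨z, 1, map_one _, max_le h1 h2, h3, qsize_lt_iff.mpr ⟨?_, ?_⟩⟩
    · simpa [qnrm_apply] using h4
    · simpa [qnrm_apply] using h5
  obtain ⟨x, y, hx, hy, hP, hQ⟩ := hcube hr
  set P := x ^ 3 - 3 * x * y ^ 2 * d - y ^ 3 * t * d
  set Q := 3 * x ^ 2 * y + 3 * x * y ^ 2 * t + y ^ 3 * (t ^ 2 - d)
  set z : QuadraticAlgebra L a b := ⟨algebraMap K L x, algebraMap K L y⟩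
  have hz : qnrm τ ha hb z = ⟨algebraMap K L P, algebraMap K L Q⟩ := by
    subst hat hbt
    ext <;>
      simp only [qnrm_apply, z, P, Q, QuadraticAlgebra.re_mul, QuadraticAlgebra.im_mul,
        Cyc3.qmap_re, Cyc3.qmap_im, h.twist.fix, map_add, map_sub, map_mul, map_pow, map_ofNat] <;>
      ring
  have hPL : w.valuation L (algebraMap K L P) < 1 := (h.pair.lt_one_iff _).mpr hP
  have hQL : w.valuation L (algebraMap K L Q) = 1 := (h.pair.eq_one_iff _).mpr hQ
  have hsz : qsize w z ≤ 1 := max_le ((h.pair.le_one_iff _).mpr hx) ((h.pair.le_one_iff _).mpr hy)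
  refine ⟨z, Q, hQ, hsz, ?_, ?_⟩
  · have e : w.valuation L (qnrm τ ha hb z).norm = 1 := by
      rw [hz, QuadraticAlgebra.norm_def]
      have h1 : w.valuation L (algebraMap K L P * algebraMap K L P +
          b * algebraMap K L P * algebraMap K L Q) < 1 := by
        refine (w.valuation L).map_add_lt ?_ ?_
        · rw [map_mul]; exact Right.mul_lt_one_of_le_of_lt hPL.le hPL
        · rw [map_mul, map_mul, hQL, mul_one]; exact Right.mul_lt_one_of_le_of_lt hb1 hPL
      have h2 : w.valuation L (-(a * algebraMap K L Q * algebraMap K L Q)) = 1 := by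
        rw [Valuation.map_neg, map_mul, map_mul, ha1, hQL, one_mul, one_mul]
      rw [sub_eq_add_neg, Valuation.map_add_eq_of_lt_right _ (by rwa [h2]), h2]
    simp only [qnrm_apply, map_mul, Cyc3.norm_qmap, h.val_tau] at e
    refine le_antisymm ((val_norm_le ha1.le hb1 z).trans (mul_le_one' hsz hsz))
      (not_lt.mp fun hlt => e.not_lt ?_)
    exact Right.mul_lt_one_of_le_of_lt (mul_le_one' hlt.le hlt.le) hlt
  · rw [hz]
    exact qsize_lt_iff.mpr ⟨by simpa using hPL, by simp⟩

/-- Units of the quadratic algebra with norm a unit multiple of its generator up to any order,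
under the residual cube condition at exponent three. -/
theorem exists_approx {t d : K} (hat : a = -algebraMap K L d) (hbt : b = algebraMap K L t)
    (hcube : h.Ramified → CubeAt v t d) (n : ℕ) :
    ∃ (z e : QuadraticAlgebra L a b) (s : K), v.valuation K s = 1 ∧ qsize w z ≤ 1 ∧
      w.valuation L z.norm = 1 ∧ Cyc3.qmap τ ha hb e = e ∧ qsize w e ≤ exp (-((n : ℤ) + 1)) ∧
      qnrm τ ha hb z = ⟨0, algebraMap K L s⟩ * (1 + e) := by
  induction n with
  | zero =>
    obtain ⟨z, s, hs, hz, hzn, hlt⟩ := h.exists_first ha hb ha1 hb1 hat hbt hcube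
    have ha0 : a ≠ 0 := fun e => by rw [e, map_zero] at ha1; exact zero_ne_one ha1
    have hsL : w.valuation L (algebraMap K L s) = 1 := (h.pair.eq_one_iff _).mpr hs
    have hs0 : algebraMap K L s ≠ 0 := fun e => by rw [e, map_zero] at hsL; exact zero_ne_one hsL
    set i : QuadraticAlgebra L a b := (algebraMap K L s)⁻¹ • ⟨-b / a, 1 / a⟩
    set e := (qnrm τ ha hb z - ⟨0, algebraMap K L s⟩) * i
    have hi : (⟨0, algebraMap K L s⟩ : QuadraticAlgebra L a b) * i = 1 := by
      ext <;> simp [i, QuadraticAlgebra.re_one, QuadraticAlgebra.im_one] <;> field_simp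
      ring
    have hisz : qsize w i ≤ 1 := by
      rw [qsize_smul, map_inv₀, hsL, inv_one, one_mul]
      refine qsize_le_iff.mpr ⟨?_, ?_⟩
      · rw [map_div₀, ha1, div_one, Valuation.map_neg]; exact hb1
      · rw [map_div₀, ha1, div_one, map_one]
    refine ⟨z, e, s, hs, hz, hzn, ?_, ?_, ?_⟩
    · simp only [e, map_mul, map_sub, qnrm_fixed ha hb h.twist.toCyc3]
      congr 1
      · congr 1
        ext <;> simp [h.twist.fix]
      · simp only [i, qmap_smul, map_inv₀, h.twist.fix]
        congr 1
        ext <;> simp [ha, hb]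
    · have h1 : qsize w e < 1 := lt_of_le_of_lt (qsize_mul ha1.le hb1 _ _)
        (mul_lt_one_of_lt_of_le hlt hisz)
      rcases eq_or_ne (qsize w e) 0 with h0 | h0
      · rw [h0]; exact zero_le
      · rw [← exp_log h0, ← WithZero.exp_zero, exp_lt_exp] at h1
        rw [← exp_log h0, exp_le_exp]
        push_cast
        omega
    · rw [mul_add, mul_one, show (⟨0, algebraMap K L s⟩ : QuadraticAlgebra L a b) * e =
        (qnrm τ ha hb z - ⟨0, algebraMap K L s⟩) * (⟨0, algebraMap K L s⟩ * i) by
          simp only [e]; ring, hi, mul_one, add_sub_cancel]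
  | succ n ih =>
    obtain ⟨z, e, s, hs, hz, hzn, hef, he, heq⟩ := ih
    set c : QuadraticAlgebra L a b := (3 : L)⁻¹ • e
    have he3 : e = (3 : ℕ) • c := by
      rw [← Nat.cast_smul_eq_nsmul L, smul_smul, Nat.cast_ofNat,
        mul_inv_cancel₀ h.three_ne, one_smul]
    have hc : qsize w c = qsize w e := by rw [qsize_smul, map_inv₀, h.three_L, inv_one, one_mul]
    have hcf : Cyc3.qmap τ ha hb c = c := by
      rw [qmap_smul, hef, map_inv₀, map_ofNat]
    have he1 : qsize w e < 1 := he.trans_lt (by rw [← WithZero.exp_zero, exp_lt_exp]; omega)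
    have hn1 : w.valuation L (1 + -c).norm = 1 :=
      val_norm_one_add ha1.le hb1 (by rwa [qsize_neg, hc])
    set R : QuadraticAlgebra L a b :=
      -((6 : ℕ) : QuadraticAlgebra L a b) + (8 : ℕ) * c - (3 : ℕ) * (c * c)
    have hR : qsize w R ≤ 1 := by
      have hn : ∀ (m : ℕ), qsize w (m : QuadraticAlgebra L a b) ≤ 1 := fun m => by
        refine qsize_le_iff.mpr ⟨?_, by simp⟩
        simp only [QuadraticAlgebra.re_natCast]
        rw [show (m : L) = algebraMap (𝓞 L) L (m : 𝓞 L) from (map_natCast _ m).symm]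
        exact HeightOneSpectrum.valuation_le_one w _
      have hmul : ∀ {x y : QuadraticAlgebra L a b}, qsize w x ≤ 1 → qsize w y ≤ 1 →
          qsize w (x * y) ≤ 1 := fun hx hy =>
        (qsize_mul ha1.le hb1 _ _).trans (mul_le_one' hx hy)
      have hc1 : qsize w c ≤ 1 := hc ▸ he1.le
      simp only [R, sub_eq_add_neg]
      refine (qsize_add _ _).trans (max_le ((qsize_add _ _).trans (max_le ?_ (hmul (hn 8) hc1))) ?_)
      · rw [qsize_neg]; exact hn 6
      · rw [qsize_neg]; exact hmul (hn 3) (hmul hc1 hc1)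
    refine ⟨z * (1 + -c), c * c * R, s, hs, ?_, by rw [map_mul, map_mul, hzn, hn1, mul_one],
      ?_, ?_, ?_⟩
    · refine (qsize_mul ha1.le hb1 _ _).trans (mul_le_one' hz ((qsize_add _ _).trans ?_))
      rw [qsize_one, qsize_neg, hc]
      exact max_le le_rfl he1.le
    · simp only [R, map_mul, map_sub, map_add, map_neg, map_natCast, hcf]
    · refine (qsize_mul ha1.le hb1 _ _).trans ((mul_le_of_le_one_right zero_le hR).trans
        ((qsize_mul ha1.le hb1 _ _).trans ?_))
      rw [hc]
      refine (mul_le_mul' he he).trans ?_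
      rw [← WithZero.exp_add, exp_le_exp]
      omega
    · rw [map_mul, heq, qnrm_apply (z := 1 + -c)]
      simp only [map_add, map_one, map_neg, hcf, he3, R]
      simp only [nsmul_eq_mul, Nat.cast_ofNat]
      ring

/-- Some resolvent of an element with norm near one has large norm. -/
private lemma exists_resolvent {ν e1 : QuadraticAlgebra L a b} (hν : qnrm τ ha hb ν = 1 + e1)
    {α c : Fin 3 → L} (h0 : ∑ j, c j * α j = 1) (h1 : ∑ j, c j * τ (α j) = 0)
    (h2 : ∑ j, c j * τ (τ (α j)) = 0) {A G C : WithZero (Multiplicative ℤ)} (hG1 : 1 ≤ G)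
    (hA : ∀ i, w.valuation L (α i) ≤ A) (hC : ∀ i, w.valuation L (c i) ≤ C)
    (hνG : qsize w ν ≤ G) :
    ∃ (x : L) (T : QuadraticAlgebra L a b), w.valuation L x ≤ A ∧
      ν * Cyc3.qmap τ ha hb T = T + x • e1 ∧ qsize w T ≤ A * (G * G) ∧
      1 ≤ C * C * w.valuation L T.norm := by
  have ha1' := ha1.le
  set q := Cyc3.qmap τ ha hb
  set ψ : QuadraticAlgebra L a b → QuadraticAlgebra L a b := fun x => ν * q x
  set T : L → QuadraticAlgebra L a b := fun x => Cyc3.orb ψ (x • 1)
  have hψT : ∀ x, ν * q (T x) = T x + x • e1 := by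
    intro x
    have e3 : ν * (q ν * (q (q ν) * q (q (q (x • 1))))) = x • (1 + e1) := by
      rw [← mul_assoc, ← mul_assoc, ← qnrm_apply ha hb, hν, h.twist.toCyc3.qmap_cube ha hb,
        mul_smul_comm, mul_one]
    simp only [T, ψ, Cyc3.orb, map_add, map_mul, mul_add]
    rw [e3, smul_add]
    abel
  have hTs : ∀ x, w.valuation L x ≤ A → qsize w (T x) ≤ A * (G * G) := by
    intro x hx
    have hx1 : qsize w (x • (1 : QuadraticAlgebra L a b)) ≤ A := by
      rwa [qsize_smul, qsize_one, mul_one]
    have hψ : ∀ y, qsize w (ψ y) ≤ G * qsize w y := fun y =>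
      (qsize_mul ha1' hb1 _ _).trans (by rw [h.qsize_qmap]; exact mul_le_mul_left hνG _)
    refine (qsize_add _ _).trans (max_le ((qsize_add _ _).trans (max_le ?_ ?_)) ?_)
    · exact hx1.trans (le_mul_of_one_le_right zero_le (one_le_mul hG1 hG1))
    · refine (hψ _).trans ((mul_le_mul_right hx1 G).trans ?_)
      rw [mul_comm]
      exact mul_le_mul_right (le_mul_of_one_le_right zero_le hG1) _
    · refine (hψ _).trans ((mul_le_mul_right ((hψ _).trans (mul_le_mul_right hx1 G)) G).trans ?_)
      rw [← mul_assoc, mul_comm]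
  obtain ⟨x, hx, hTx⟩ := Cyc3.exists_orb_large (ψ := ψ) (w.valuation L)
    (fun u v => by simp only [ψ, map_add, mul_add])
    (fun l y => by simp only [ψ, q, qmap_smul, mul_smul_comm]) Cyc3.norm_comb
    (e := (1 : QuadraticAlgebra L a b)) (map_one _) h0 h1 h2 hA hC
  exact ⟨x, T x, hx, hψT x, hTs x hx, hTx⟩

/-- An element of norm a multiple of the generator is a unit up to twisted conjugation. -/
theorem exists_unit_translate {t d : K} (hat : a = -algebraMap K L d) (hbt : b = algebraMap K L t)
    (hcube : h.Ramified → CubeAt v t d) {g : QuadraticAlgebra L a b} {u : K} (hu : u ≠ 0)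
    (hg : qnrm τ ha hb g = ⟨0, algebraMap K L u⟩) :
    ∃ (T U : QuadraticAlgebra L a b) (c : L), T.norm ≠ 0 ∧ c ≠ 0 ∧ qsize w U ≤ 1 ∧
      w.valuation L U.norm = 1 ∧ g * Cyc3.qmap τ ha hb T = c • (T * U) := by
  have ha1' := ha1.le
  have ha0 : a ≠ 0 := fun e => by rw [e, map_zero] at ha1; exact zero_ne_one ha1
  have huL : algebraMap K L u ≠ 0 := by simpa using hu
  have hgn : g.norm ≠ 0 := by
    intro h0
    have e := congrArg QuadraticAlgebra.norm hg
    rw [qnrm_apply, map_mul, map_mul, h0, zero_mul, zero_mul, QuadraticAlgebra.norm_def] at e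
    simp [ha0, huL] at e
  set gi : QuadraticAlgebra L a b := g.norm⁻¹ • star g
  have hgi : g * gi = 1 := mul_norm_inv_star hgn
  have hgin : gi.norm ≠ 0 := fun h0 => by
    have e := congrArg QuadraticAlgebra.norm hgi
    rw [map_mul, h0, mul_zero, map_one] at e
    exact zero_ne_one e
  obtain ⟨α, c, h0, h1, h2⟩ := h.twist.exists_dual
  -- the uniform bounds
  set A := max 1 (max (max (w.valuation L (α 0)) (w.valuation L (α 1))) (w.valuation L (α 2)))
  set G := max 1 (w.valuation L gi.norm * w.valuation L (algebraMap K L u) * qsize w gi)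
  set C := max 1 (max (max (w.valuation L (c 0)) (w.valuation L (c 1))) (w.valuation L (c 2)))
  have hA : ∀ i, w.valuation L (α i) ≤ A := fun i => by
    fin_cases i <;> simp [A]
  have hC : ∀ i, w.valuation L (c i) ≤ C := fun i => by
    fin_cases i <;> simp [C]
  set M := C * C * (A * A * (G * G))
  have hM : M ≠ 0 := by
    have h : ∀ x : WithZero (Multiplicative ℤ), max 1 x ≠ 0 := fun x =>
      (zero_lt_one.trans_le (le_max_left _ _)).ne'
    exact mul_ne_zero (mul_ne_zero (h _) (h _)) (mul_ne_zero (mul_ne_zero (h _) (h _))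
      (mul_ne_zero (h _) (h _)))
  obtain ⟨z, e, s, hs, hz, hzn, hef, he, heq⟩ := h.exists_approx ha hb ha1 hb1 hat hbt hcube
    (log M).toNat
  have heM : qsize w e * M < 1 := by
    refine lt_of_le_of_lt (mul_le_mul_left he M) ?_
    rw [← exp_log hM, ← WithZero.exp_add, ← WithZero.exp_zero, exp_lt_exp, log_exp]
    omega
  have he1 : qsize w e < 1 := he.trans_lt (by rw [← WithZero.exp_zero, exp_lt_exp]; omega)
  have hsL : w.valuation L (algebraMap K L s) = 1 := (h.pair.eq_one_iff _).mpr hs
  have hsL0 : algebraMap K L s ≠ 0 := fun e => by rw [e, map_zero] at hsL; exact zero_ne_one hsL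
  set m := algebraMap K L s / algebraMap K L u
  have hm : m ≠ 0 := div_ne_zero hsL0 huL
  have hN : qnrm τ ha hb (z * gi) = m • (1 + e) := by
    have e1 : qnrm τ ha hb g * qnrm τ ha hb gi = 1 := by rw [← map_mul, hgi, map_one]
    have e2 : (⟨0, algebraMap K L s⟩ : QuadraticAlgebra L a b) = m • ⟨0, algebraMap K L u⟩ := by
      ext <;> simp [m]; field_simp
    rw [map_mul, heq, e2, smul_mul_assoc, smul_mul_assoc, mul_right_comm, ← hg, e1, one_mul]
  obtain ⟨e1, hν, he1s⟩ :=
    exists_qnrm_rescale ha hb ha1.le hb1 hm (by simp [m, h.twist.fix]) he1 hN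
  set r := (z * gi).norm / m
  have hνG : qsize w (r • (z * gi)) ≤ G := by
    rw [qsize_smul, map_div₀]
    simp only [map_mul]
    rw [hzn, one_mul, map_div₀, hsL, one_div, div_inv_eq_mul]
    refine le_trans ?_ (le_max_right _ _)
    exact mul_le_mul_right ((qsize_mul ha1' hb1 _ _).trans (mul_le_of_le_one_left zero_le hz)) _
  obtain ⟨x, T, hx, hψT, hTs, hTx⟩ :=
    h.exists_resolvent ha hb ha1 hb1 hν h0 h1 h2 (le_max_left _ _) hA hC hνG
  have hTn : T.norm ≠ 0 := fun e => by
    rw [e, map_zero, mul_zero] at hTx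
    exact (not_le.mpr zero_lt_one) hTx
  -- the near one factor
  set Ti : QuadraticAlgebra L a b := T.norm⁻¹ • star T
  set k := 1 + x • (e1 * Ti)
  have hk : r • (z * gi) * Cyc3.qmap τ ha hb T = T * k := by
    rw [hψT, mul_add, mul_one, mul_smul_comm, mul_left_comm, mul_norm_inv_star hTn, mul_one]
  have hksz : qsize w (x • (e1 * Ti)) < 1 := by
    refine lt_of_le_of_lt ?_ heM
    rw [qsize_smul]
    have hv0 : w.valuation L T.norm ≠ 0 := (Valuation.ne_zero_iff _).mpr hTn
    have hTi' : qsize w Ti ≤ C * C * (A * (G * G)) := by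
      rw [qsize_smul, map_inv₀]
      refine mul_le_mul' ?_ ((qsize_star hb1 _).trans hTs)
      rw [inv_le_iff_one_le_mul₀ (zero_lt_iff.mpr hv0)]
      exact hTx
    refine (mul_le_mul' hx ((qsize_mul ha1' hb1 _ _).trans (mul_le_mul' he1s hTi'))).trans_eq ?_
    simp only [M]
    ac_rfl
  have hkn : w.valuation L k.norm = 1 := val_norm_one_add ha1' hb1 hksz
  have hkn0 : k.norm ≠ 0 := fun e => by rw [e, map_zero] at hkn; exact zero_ne_one hkn
  have hk1 : qsize w k ≤ 1 := (qsize_add _ _).trans (max_le qsize_one.le hksz.le)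
  have hen0 : (z * gi).norm ≠ 0 := by
    rw [map_mul]
    refine mul_ne_zero (fun e => ?_) hgin
    rw [e, map_zero] at hzn
    exact zero_ne_one hzn
  refine ⟨star T, z * (k.norm⁻¹ • star k), r * (τ T.norm / T.norm),
    by rwa [QuadraticAlgebra.norm_star],
    mul_ne_zero (div_ne_zero hen0 hm) (div_ne_zero (by simpa using hTn) hTn), ?_, ?_,
    twist_eq ha hb hgi hk hTn hkn0⟩
  · refine (qsize_mul ha1' hb1 _ _).trans (mul_le_one' hz ?_)
    rw [qsize_smul, map_inv₀, hkn, inv_one, one_mul]
    exact (qsize_star hb1 _).trans hk1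
  · have e6 := congrArg (fun y : QuadraticAlgebra L a b => w.valuation L y.norm)
      (mul_norm_inv_star hkn0)
    simp only [map_mul, hkn, one_mul, map_one] at e6
    rw [map_mul, map_mul, hzn, one_mul, e6]

end NonSplit

end FermatAgent.LT
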