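import Mathlib
import Fermat.Agent.LT.Descent.ClassesInj
import Fermat.Agent.LT.Descent.NonSplitFix
import Fermat.Agent.LT.Descent.NonSplitUnit

/-!
# Twisted fixed cosets at a place with one place above

The cosets fixed by a representative composed with the generator are a translate of the cosets
fixed by both the generator and the matrix of the representative; they can be non-empty only if
the matrix fixes a coset of the base and, with exponent three, is residually a cube.
-/

set_option autoImplicit false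

noncomputable section

open Matrix IsDedekindDomain NumberField WithZero
open scoped MatrixGroups Pointwise

namespace FermatAgent.LT

variable {K L : Type*} [Field K] [NumberField K] [Field L] [NumberField L] [Algebra K L]
  {τ : L ≃+* L} {v : HeightOneSpectrum (𝓞 K)} {w : HeightOneSpectrum (𝓞 L)}

omit [NumberField K] [NumberField L] in
lemma upGL_mul_sc (δ : GL (Fin 2) K) (s : Kˣ) :
    upGL (L := L) (δ * sc s) = upGL δ * sc (Units.map (algebraMap K L : K →* L) s) := by
  rw [show upGL (L := L) (δ * sc s) = upGL δ * upGL (sc s) from map_mul _ _ _,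
    show upGL (L := L) (sc s) = sc _ from map_sc _ s]

/-- Units of the order of a normalised matrix fix the cosets the matrix fixes. -/
lemma PlacePair.smul_eq_of_unit (hp : PlacePair (algebraMap K L) v w) {D : GL (Fin 2) K}
    (hD : Normalised v D) {U : GL (Fin 2) L} {p q : L}
    (hU : U.val = p • (1 : Matrix (Fin 2) (Fin 2) L) + q • (upGL D).val)
    (hp1 : w.valuation L p ≤ 1) (hq : w.valuation L q ≤ 1) (hdet : w.valuation L U.val.det = 1)
    {x : G2 L ⧸ locK w} (hx : g2Map (algebraMap K L) (ProjGenLinGroup.mk D) • x = x) :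
    ProjGenLinGroup.mk U • x = x := by
  induction x using QuotientGroup.induction_on with | H c =>
  obtain ⟨C, rfl⟩ := ProjGenLinGroup.mk_surjective c
  rw [ProjGenLinGroup.map_mk, MulAction.Quotient.smul_mk, smul_eq_mul, eq_comm, QuotientGroup.eq,
    ← map_inv, ← map_mul, ← map_mul, mk_mem_locK_iff] at hx
  obtain ⟨u, hu⟩ := hx
  rw [MulAction.Quotient.smul_mk, smul_eq_mul, eq_comm, QuotientGroup.eq, ← map_inv, ← map_mul,
    ← map_mul]
  refine Subgroup.mem_map_of_mem _ ?_
  have hu1 : w.valuation L (u : L) = 1 := by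
    have hdd := hu.2
    rw [← mul_assoc C⁻¹, Units.val_mul, Matrix.det_mul, det_sc, Units.val_mul, Units.val_mul,
      Matrix.det_units_conj', det_map, map_mul, map_pow, (hp.eq_one_iff _).mpr hD.1, one_mul,
      pow_eq_one_iff_of_nonneg zero_le two_ne_zero] at hdd
    exact hdd
  have hint : ∀ i j, w.valuation L ((C⁻¹ * (upGL D * C)).val i j) ≤ 1 := fun i j => by
    have := hu.1 i j
    rwa [Units.val_mul, sc_val, mul_smul_comm, mul_one, Matrix.smul_apply,
      smul_eq_mul, map_mul, hu1,
      one_mul] at this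
  refine ⟨fun i j => ?_, ?_⟩
  · rw [Units.val_mul, Units.val_mul, hU, add_mul, smul_mul_assoc, one_mul, smul_mul_assoc, mul_add,
      mul_smul_comm, mul_smul_comm, ← Units.val_mul, inv_mul_cancel, Units.val_one, ← Units.val_mul,
      ← Units.val_mul, Matrix.add_apply, Matrix.smul_apply, Matrix.smul_apply, smul_eq_mul,
      smul_eq_mul]
    refine ((w.valuation L).map_add _ _).trans (max_le ?_ ?_) <;> rw [map_mul]
    · exact mul_le_one' hp1 (by rw [Matrix.one_apply]; split_ifs <;> simp)
    · exact mul_le_one' hq (hint i j)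
  · rw [← mul_assoc, Units.val_mul, Units.val_mul, Matrix.det_units_conj']
    exact hdet

namespace NonSplit

variable (h : NonSplit τ v w)

/-- Cosets fixed by an element composed with the generator. -/
def twFix (c : G2 L) : Set (G2 L ⧸ locK w) := {x | c • h.sgCos x = x}

/-- Cosets fixed by the generator and by a matrix over the base. -/
def baseFix (δ : GL (Fin 2) K) : Set (G2 L ⧸ locK w) :=
  {x | h.sgCos x = x ∧ g2Map (algebraMap K L) (ProjGenLinGroup.mk δ) • x = x}

include h

lemma sgCos_smul (g : G2 L) (x : G2 L ⧸ locK w) :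
    h.sgCos (g • x) = g2Map (τ : L →+* L) g • h.sgCos x := by
  induction x using QuotientGroup.induction_on with | H x =>
  simp [MulAction.Quotient.smul_mk, smul_eq_mul]

lemma sgCos_cube (x : G2 L ⧸ locK w) : h.sgCos (h.sgCos (h.sgCos x)) = x := by
  induction x using QuotientGroup.induction_on with | H x =>
  rw [sgCos_mk, sgCos_mk, sgCos_mk, h.twist.g2Map_cube]

/-- Twisted fixed cosets are fixed by the norm. -/
lemma tnrm_smul_of_mem {c : G2 L} {x : G2 L ⧸ locK w} (hx : x ∈ h.twFix c) :
    tnrm τ c • x = x := by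
  have e1 : c • h.sgCos x = x := hx
  have e2 := congrArg h.sgCos e1
  have e3 := congrArg h.sgCos e2
  simp only [h.sgCos_smul, h.sgCos_cube] at e2 e3
  simp only [tnrm, mul_smul]
  rw [e3, e2, e1]

/-- Twisted conjugation translates the fixed cosets. -/
lemma twFix_tconj (t c : G2 L) : h.twFix (tconj τ t c) = (fun x => t • x) '' h.twFix c := by
  ext x
  refine ⟨fun hx => ⟨t⁻¹ • x, ?_, smul_inv_smul t x⟩, ?_⟩
  · have e : tconj τ t c • h.sgCos x = x := hx
    show c • h.sgCos (t⁻¹ • x) = t⁻¹ • x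
    conv_rhs => rw [← e]
    rw [h.sgCos_smul, map_inv, tconj, mul_smul, mul_smul, inv_smul_smul]
  · rintro ⟨y, hy, rfl⟩
    show tconj τ t c • h.sgCos (t • y) = t • y
    rw [h.sgCos_smul, ← mul_smul, tconj, inv_mul_cancel_right, mul_smul,
      show c • h.sgCos y = y from hy]

/-- The inclusion is equivariant. -/
lemma upCos_smul (g : G2 K) (d : G2 K ⧸ locK v) :
    h.upCos (g • d) = g2Map (algebraMap K L) g • h.upCos d := by
  induction d using QuotientGroup.induction_on with | H d =>
  simp [MulAction.Quotient.smul_mk, smul_eq_mul]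

/-- When an included coset is a fixed one. -/
lemma upCos_mem_baseFix_iff (δ : GL (Fin 2) K) (d : G2 K ⧸ locK v) :
    h.upCos d ∈ h.baseFix δ ↔ (ProjGenLinGroup.mk δ : G2 K) • d = d := by
  refine ⟨fun hd => h.upCos_injective ?_, fun hd => ⟨h.sgCos_upCos d, ?_⟩⟩
  · rw [h.upCos_smul]; exact hd.2
  · rw [← h.upCos_smul, hd]

/-- When an off-centre coset is a fixed one. -/
lemma offCos_mem_baseFix_iff (hr : h.Ramified) {p : L} (hp : w.valuation L p = exp (-1 : ℤ))
    (δ : GL (Fin 2) K) (d : G2 K ⧸ locTame v 0) :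
    h.offCos hr hp d ∈ h.baseFix δ ↔ (ProjGenLinGroup.mk δ : G2 K) • d = d := by
  have e : h.offCos hr hp ((ProjGenLinGroup.mk δ : G2 K) • d) =
      g2Map (algebraMap K L) (ProjGenLinGroup.mk δ) • h.offCos hr hp d := by
    induction d using QuotientGroup.induction_on with | H d =>
    simp only [MulAction.Quotient.smul_mk, smul_eq_mul, offCos_mk, map_mul, mul_assoc]
  refine ⟨fun hd => h.offCos_injective hr hp ?_, fun hd => ⟨h.sgCos_offCos hr hp d, ?_⟩⟩
  · rw [e]; exact hd.2
  · rw [← e, hd]

/-- A fixed coset gives a normalisation. -/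
lemma exists_normalised {δ : GL (Fin 2) K} {x : G2 L ⧸ locK w}
    (hx : g2Map (algebraMap K L) (ProjGenLinGroup.mk δ) • x = x) :
    ∃ s : Kˣ, Normalised v (δ * sc s) := by
  induction x using QuotientGroup.induction_on with | H c =>
  obtain ⟨C, rfl⟩ := ProjGenLinGroup.mk_surjective c
  rw [ProjGenLinGroup.map_mk, MulAction.Quotient.smul_mk, smul_eq_mul, eq_comm, QuotientGroup.eq,
    ← map_inv, ← map_mul, ← map_mul, mk_mem_locK_iff] at hx
  obtain ⟨u, hu⟩ := hx
  have hdet := hu.2
  have htr : w.valuation L ((u : L) * algebraMap K L δ.val.trace) ≤ 1 := by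
    have e : (C⁻¹ * (upGL δ * C) * sc u).val.trace = (u : L) * algebraMap K L δ.val.trace := by
      rw [← mul_assoc C⁻¹, Units.val_mul, sc_val, mul_smul_comm, mul_one, Matrix.trace_smul,
        Units.val_mul, Units.val_mul, Matrix.trace_units_conj', trace_map, smul_eq_mul]
    rw [← e, Matrix.trace_fin_two]
    exact ((w.valuation L).map_add _ _).trans (max_le (hu.1 0 0) (hu.1 1 1))
  rw [← mul_assoc C⁻¹, Units.val_mul, Matrix.det_mul, det_sc, Units.val_mul, Units.val_mul,
    Matrix.det_units_conj', det_map, map_mul, map_pow] at hdet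
  have hd0 : v.valuation K δ.val.det ≠ 0 := (Valuation.ne_zero_iff _).mpr
    (Matrix.GeneralLinearGroup.det_ne_zero δ)
  -- the logarithm of the determinant is even
  obtain ⟨n, hn⟩ : ∃ n : ℤ, log (v.valuation K δ.val.det) = 2 * n := by
    have hu0 : w.valuation L (u : L) ≠ 0 := (Valuation.ne_zero_iff _).mpr u.ne_zero
    rcases h.inert_or_ramified with hi | hr
    · rw [hi, ← exp_log hd0, ← exp_log hu0, ← WithZero.exp_nsmul, ← WithZero.exp_add,
        ← WithZero.exp_zero, exp_inj, nsmul_eq_mul] at hdet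
      exact ⟨-log (w.valuation L (u : L)), by push_cast at hdet; linarith⟩
    · rw [hr, ← exp_log hd0, ← exp_log hu0, ← WithZero.exp_nsmul, ← WithZero.exp_nsmul,
        ← WithZero.exp_add, ← WithZero.exp_zero, exp_inj, nsmul_eq_mul, nsmul_eq_mul] at hdet
      exact ⟨log (v.valuation K δ.val.det) / 2, by push_cast at hdet; omega⟩
  obtain ⟨s, hs0, hs⟩ := exists_valuation_eq v (-n)
  have hsv : v.valuation K (s ^ 2 * δ.val.det) = 1 := by
    rw [map_mul, map_pow, hs, ← exp_log hd0, hn, ← WithZero.exp_nsmul, ← WithZero.exp_add]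
    simp
  have hsu : w.valuation L (algebraMap K L s) = w.valuation L (u : L) := by
    have e := (h.pair.eq_one_iff _).mpr hsv
    rw [map_mul, map_pow, map_mul, map_pow, mul_comm] at e
    exact (pow_left_inj₀ zero_le zero_le two_ne_zero).mp
      (mul_left_cancel₀ (left_ne_zero_of_mul_eq_one e) (e.trans hdet.symm))
  refine ⟨Units.mk0 s hs0, ?_, ?_⟩
  · rw [det_mul_sc]; exact hsv
  · rw [trace_mul_sc, ← h.pair.le_one_iff, map_mul, map_mul, Units.val_mk0, hsu, ← map_mul]
    exact htr

/-- If a representative composed with the generator fixes a coset, its matrix fixes a coset of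
the base. -/
theorem fixes_of_twFix_nonempty {δ : GL (Fin 2) K} (hδ : (ProjGenLinGroup.mk δ : G2 K) ≠ 1)
    {γ : GL (Fin 2) L} (hγ : IsRep τ δ γ) (hne : (h.twFix (ProjGenLinGroup.mk γ)).Nonempty) :
    ∃ d : G2 K ⧸ locK v, (ProjGenLinGroup.mk δ : G2 K) • d = d := by
  obtain ⟨x, hx⟩ := hne
  have e := h.tnrm_smul_of_mem hx
  rw [hγ.tnrm_eq] at e
  exact (fixes_iff hδ).mpr (h.exists_normalised e)

/-- With exponent three a twisted fixed coset forces the cube condition. -/
theorem cubeOK_of_twFix_nonempty (hr : h.Ramified) {δ : GL (Fin 2) K}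
    {γ : GL (Fin 2) L} (hγ : IsRep τ δ γ)
    (hne : (h.twFix (ProjGenLinGroup.mk γ)).Nonempty) : CubeOK v δ := by
  obtain ⟨x, hx⟩ := hne
  induction x using QuotientGroup.induction_on with | H c =>
  obtain ⟨C, rfl⟩ := ProjGenLinGroup.mk_surjective c
  have hx' : ProjGenLinGroup.mk γ • h.sgCos (QuotientGroup.mk (ProjGenLinGroup.mk C)) =
      QuotientGroup.mk (ProjGenLinGroup.mk C) := hx
  rw [sgCos_mk, ProjGenLinGroup.map_mk, MulAction.Quotient.smul_mk, smul_eq_mul, eq_comm,
    QuotientGroup.eq, ← map_inv, ← map_mul, ← map_mul, mk_mem_locK_iff] at hx'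
  obtain ⟨u, hu⟩ := hx'
  set k := C⁻¹ * (γ * GeneralLinearGroup.map (τ : L →+* L) C) * sc u
  obtain ⟨r, hr'⟩ := hγ.nrm
  -- the norm of `k` is a conjugate of a multiple of the matrix
  obtain ⟨μ, hμ⟩ : ∃ μ : Lˣ, nrmGL τ k = C⁻¹ * upGL δ * C * sc μ := by
    refine ⟨Units.map (algebraMap K L : K →* L) r * (u * Units.map (τ : L →* L) u *
      Units.map (τ : L →* L) (Units.map (τ : L →* L) u)), ?_⟩
    have e1 : nrmGL τ (C⁻¹ * (γ * GeneralLinearGroup.map (τ : L →+* L) C)) =
        C⁻¹ * nrmGL τ γ * C := by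
      simp only [nrmGL, Cyc3.gmap, map_mul, map_inv]
      rw [h.twist.gmap_cube C]
      group
    rw [nrmGL_mul_sc, e1, hr', nrmGL_sc,
      ← sc_mul (Units.map (algebraMap K L : K →* L) r), ← mul_assoc (C⁻¹ * upGL δ * C),
      ← mul_assoc C⁻¹,
      mul_assoc _ (sc _) C, sc_comm, ← mul_assoc]
  have hD : nrmGL τ k ∈ locGL w :=
    (locGL w).mul_mem ((locGL w).mul_mem hu (h.gmap_mem_locGL.mpr hu))
      (h.gmap_mem_locGL.mpr (h.gmap_mem_locGL.mpr hu))
  have hμK : τ (μ : L) = μ := by
    refine h.twist.eq_of_sq_eq ?_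
    have e1 := congrArg (fun g : GL (Fin 2) L => g.val.det) hμ
    simp only [det_nrmGL, Units.val_mul, Matrix.det_mul, det_sc] at e1
    rw [mul_comm (C⁻¹).val.det, mul_assoc _ (C⁻¹).val.det, ← Matrix.det_mul, ← Units.val_mul,
      inv_mul_cancel, Units.val_one, Matrix.det_one, mul_one, det_map] at e1
    have e2 := congrArg τ e1
    simp only [map_mul, map_pow, h.twist.fix, h.twist.cube] at e2
    refine mul_left_cancel₀ (show algebraMap K L δ.val.det ≠ 0 by
      simpa using Matrix.GeneralLinearGroup.det_ne_zero δ) ?_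
    rw [← e2, ← e1]
    ring
  obtain ⟨s, rfl⟩ := h.twist.exists_unit hμK
  have hconj : nrmGL τ k = C⁻¹ * upGL (δ * sc s) * C := by
    rw [hμ, upGL_mul_sc, mul_assoc _ C, ← sc_comm, ← mul_assoc, mul_assoc C⁻¹]
  set E := nrmGL τ k
  have htE : algebraMap K L (δ * sc s).val.trace = E.val.trace := by
    rw [hconj]
    rw [Units.val_mul (C⁻¹ * _) C, Units.val_mul C⁻¹, Matrix.trace_units_conj', trace_map]
  have hdE : algebraMap K L (δ * sc s).val.det = E.val.det := by
    rw [hconj]
    rw [Units.val_mul (C⁻¹ * _) C, Units.val_mul C⁻¹, Matrix.det_units_conj', det_map]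
  have hnorm : Normalised v (δ * sc s) := by
    refine ⟨(h.pair.eq_one_iff _).mp (hdE ▸ hD.2), (h.pair.le_one_iff _).mp ?_⟩
    rw [htE, Matrix.trace_fin_two]
    exact ((w.valuation L).map_add _ _).trans (max_le (hD.1 0 0) (hD.1 1 1))
  -- residual entries in the base
  have hsub : ∀ i j, ∃ m : K, v.valuation K m ≤ 1 ∧
      w.valuation L (k.val i j - algebraMap K L m) < 1 := fun i j => by
    obtain ⟨m, hm⟩ := h.exists_sub_lt (Ramified.tau_sub_lt h hr (hu.1 i j))
    exact ⟨m, h.le_one_of_sub_lt (hu.1 i j) hm, hm⟩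
  choose m hm1 hm2 using hsub
  set J : Matrix (Fin 2) (Fin 2) K := Matrix.of m
  set JL : Matrix (Fin 2) (Fin 2) L := J.map (algebraMap K L)
  have hJ : IntMat v J := hm1
  have hJL : IntMat w JL := fun i j => (h.pair.le_one_iff _).mpr (hm1 i j)
  have hk1 : SmallMat w (k.val - JL) := fun i j => by simpa [JL, J] using hm2 i j
  have hk2 : SmallMat w ((Cyc3.gmap τ k).val - JL) := fun i j => by
    rw [show ((Cyc3.gmap τ k).val - JL) i j =
      (τ (k.val i j) - k.val i j) + (k.val - JL) i j by simp]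
    exact (w.valuation L).map_add_lt (Ramified.tau_sub_lt h hr (hu.1 i j)) (hk1 i j)
  have hk3 : SmallMat w ((Cyc3.gmap τ (Cyc3.gmap τ k)).val - JL) := fun i j => by
    rw [show ((Cyc3.gmap τ (Cyc3.gmap τ k)).val - JL) i j =
      (τ (τ (k.val i j)) - τ (k.val i j)) + ((Cyc3.gmap τ k).val - JL) i j by simp]
    refine (w.valuation L).map_add_lt ?_ (hk2 i j)
    exact Ramified.tau_sub_lt h hr (by rw [h.val_tau]; exact hu.1 i j)
  have hE : SmallMat w (E.val - JL ^ 3) := by
    rw [show E.val - JL ^ 3 = (k.val - JL) * (Cyc3.gmap τ k).val *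
      (Cyc3.gmap τ (Cyc3.gmap τ k)).val +
      JL * ((Cyc3.gmap τ k).val - JL) * (Cyc3.gmap τ (Cyc3.gmap τ k)).val +
      JL * JL * ((Cyc3.gmap τ (Cyc3.gmap τ k)).val - JL) by
        simp only [E, nrmGL, Units.val_mul, pow_succ, pow_zero, one_mul]; noncomm_ring]
    have i2 : IntMat w (Cyc3.gmap τ k).val := (h.gmap_mem_locGL.mpr hu).1
    have i3 : IntMat w (Cyc3.gmap τ (Cyc3.gmap τ k)).val :=
      (h.gmap_mem_locGL.mpr (h.gmap_mem_locGL.mpr hu)).1
    exact (((hk1.mul_right i2).mul_right i3).add (((SmallMat.mul_left hJL hk2)).mul_right i3)).add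
      (SmallMat.mul_left (hJL.mul hJL) hk3)
  have hJdet : v.valuation K J.det = 1 := by
    rw [← h.pair.eq_one_iff, RingHom.map_det, RingHom.mapMatrix_apply]
    exact val_eq_one_of_sub_lt hu.2 (by
      rw [Valuation.map_sub_swap]; exact val_det_sub_lt hu.1 hJL hk1)
  let j : GL (Fin 2) K := GeneralLinearGroup.mkOfDetNeZero J fun e => by
    rw [e, map_zero] at hJdet; exact zero_ne_one hJdet
  have hj : j ∈ locGL v := ⟨hJ, hJdet⟩
  have hj3 : j * j * j ∈ locGL v := (locGL v).mul_mem ((locGL v).mul_mem hj hj) hj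
  have hc : CubeOK v (j * j * j) := by
    refine (cubeOK_iff_residual h.three hj3).mpr ⟨j, hj, fun a b => ?_, 1, fun a b => ?_⟩
    · simp only [Units.val_mul, mul_assoc, sub_self, Matrix.zero_apply, map_zero]
      exact zero_lt_one
    · simp only [Units.val_mul, pow_succ, pow_zero, one_mul, one_smul, sub_self, Matrix.zero_apply,
        map_zero]
      exact zero_lt_one
  have hj3v : (j * j * j).val.map (algebraMap K L) = JL ^ 3 := by
    simp only [Units.val_mul, Matrix.map_mul, pow_succ, pow_zero, one_mul]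
    rfl
  rw [cubeOK_iff_self (normalised_of_mem hj3)] at hc
  refine ⟨s, hnorm, hc.congr (normalised_of_mem hj3).2 (normalised_of_mem hj3).1.le ?_ ?_⟩
  · rw [← h.pair.lt_one_iff, map_sub, htE, show algebraMap K L (j * j * j).val.trace =
        ((j * j * j).val.map (algebraMap K L)).trace from (trace_map (algebraMap K L) _).symm,
      hj3v, ← Matrix.trace_sub, Matrix.trace_fin_two]
    exact (w.valuation L).map_add_lt (hE 0 0) (hE 1 1)
  · rw [← h.pair.lt_one_iff, map_sub, hdE, RingHom.map_det, RingHom.mapMatrix_apply, hj3v]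
    exact val_det_sub_lt hD.1 (by
      simp only [pow_succ, pow_zero, one_mul]; exact (hJL.mul hJL).mul hJL) hE

/-- The cosets fixed by a representative composed with the generator are the translates, by one
element of the centraliser, of the cosets fixed by the generator and by its matrix. -/
theorem exists_translate {δ : GL (Fin 2) K} (hδ : (ProjGenLinGroup.mk δ : G2 K) ≠ 1)
    {γ : GL (Fin 2) L} (hγ : IsRep τ δ γ)
    (hfix : ∃ d : G2 K ⧸ locK v, (ProjGenLinGroup.mk δ : G2 K) • d = d)
    (hcube : h.Ramified → CubeOK v δ) :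
    ∃ t : GL (Fin 2) L, Commute t (upGL δ) ∧
      h.twFix (ProjGenLinGroup.mk γ) =
        (fun x => (ProjGenLinGroup.mk t : G2 L) • x) '' h.baseFix δ := by
  obtain ⟨s, hs⟩ := (fixes_iff hδ).mp hfix
  set D := δ * sc s
  have hmkD : (ProjGenLinGroup.mk D : G2 K) = ProjGenLinGroup.mk δ := by
    rw [map_mul, ProjGenLinGroup.mk_scalar, mul_one]
  have hD1 : (ProjGenLinGroup.mk D : G2 K) ≠ 1 := by rw [hmkD]; exact hδ
  set M := (upGL (L := L) D).val
  have hM : ¬Quad.IsScal M := upGL_not_isScal hD1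
  have ha : τ (-M.det) = -M.det := by simp only [M, det_map, map_neg, h.twist.fix]
  have hb : τ M.trace = M.trace := by simp only [M, trace_map, h.twist.fix]
  have hat : -M.det = -algebraMap K L D.val.det := by simp only [M, det_map]
  have hbt : M.trace = algebraMap K L D.val.trace := by simp only [M, trace_map]
  have ha1 : w.valuation L (-M.det) = 1 := by
    rw [Valuation.map_neg]; simp only [M, det_map]; exact (h.pair.eq_one_iff _).mpr hs.1
  have hb1 : w.valuation L M.trace ≤ 1 := by
    simp only [M, trace_map]; exact (h.pair.le_one_iff _).mpr hs.2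
  set f := Quad.toMat M (Quad.mul_self_eq M)
  have hinj : Function.Injective f := Quad.toMat_injective hM _
  have hmap : ∀ z, f (Cyc3.qmap τ ha hb z) = (f z).map τ := h.twist.toMat_qmap ha hb _
  -- the representative in the algebra
  have hcD : Commute γ (upGL D) := by
    rw [show upGL (L := L) D = _ from upGL_mul_sc δ s]
    refine hγ.comm.mul_right ?_
    exact (commute_sc _ γ).symm
  obtain ⟨p, q, hpq⟩ :=
    CFT.Selmer.exists_eq_add_of_commute hM (Commute.units_val_iff.mpr hcD).symm.eq
  set g : QuadraticAlgebra L (-M.det) M.trace := ⟨p, q⟩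
  have hg : f g = γ.val := hpq.symm
  obtain ⟨r, hr⟩ := hγ.nrm
  set u : K := r / s
  have hu : u ≠ 0 := div_ne_zero r.ne_zero s.ne_zero
  have hgn : qnrm τ ha hb g = ⟨0, algebraMap K L u⟩ := by
    apply hinj
    rw [qnrm_apply, map_mul, map_mul, hmap, hmap, hmap, hg]
    refine (congrArg Units.val hr).trans ?_
    rw [Quad.toMat_apply]
    simp only [M, D, upGL_mul_sc, zero_smul, zero_add, Units.val_mul, sc_val, mul_smul_comm,
      mul_one, smul_smul, Units.coe_map, MonoidHom.coe_coe, u, map_div₀]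
    congr 1
    field_simp
  obtain ⟨T, U, c, hT, hc, hUsz, hUn, heq⟩ := h.exists_unit_translate ha hb ha1 hb1 hat hbt
    (fun hr' => (cubeOK_iff hs).mp (hcube hr')) hu hgn
  have hdet : ∀ z, (f z).det = z.norm := fun z => by
    rw [Quad.toMat_apply, Quad.det_toMat M rfl rfl]
  have hUn0 : U.norm ≠ 0 := fun e => by rw [e, map_zero] at hUn; exact zero_ne_one hUn
  set TG := GeneralLinearGroup.mkOfDetNeZero (f T) (by rwa [hdet])
  set UG := GeneralLinearGroup.mkOfDetNeZero (f U) (by rwa [hdet])
  have e : γ * Cyc3.gmap τ TG = TG * UG * sc (Units.mk0 c hc) := by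
    apply Units.ext
    have e1 := congrArg f heq
    rw [map_smul, map_mul, map_mul, hg, hmap] at e1
    rw [Units.val_mul, Units.val_mul, Units.val_mul, sc_val, mul_smul_comm, mul_one, Units.val_mk0]
    exact e1
  have hconj : tconj τ (ProjGenLinGroup.mk TG) (ProjGenLinGroup.mk UG) = ProjGenLinGroup.mk γ := by
    rw [tconj, ProjGenLinGroup.map_mk, mul_inv_eq_iff_eq_mul, ← map_mul, ← map_mul,
      e, map_mul _ (TG * UG),
      ProjGenLinGroup.mk_scalar, mul_one]
  refine ⟨TG, ?_, ?_⟩
  · have hc : Commute TG (upGL D) := Commute.units_val_iff.mp (Quad.commute_lin M T.re T.im)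
    rw [show δ = D * sc s⁻¹ by rw [mul_assoc, sc_mul, mul_inv_cancel, sc_one, mul_one], upGL_mul_sc]
    refine hc.mul_right ?_
    exact (commute_sc _ TG).symm
  rw [← hconj, h.twFix_tconj]
  congr 1
  have hfixU : ∀ x : G2 L ⧸ locK w, g2Map (algebraMap K L) (ProjGenLinGroup.mk δ) • x = x →
      ProjGenLinGroup.mk UG • x = x := fun x hx => by
    refine h.pair.smul_eq_of_unit hs (U := UG) (p := U.re) (q := U.im) rfl
      ((le_max_left _ _).trans hUsz) ((le_max_right _ _).trans hUsz) ?_ (by rwa [hmkD])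
    show w.valuation L (f U).det = 1
    rw [hdet]; exact hUn
  have hnU : tnrm τ (ProjGenLinGroup.mk UG) = g2Map (algebraMap K L) (ProjGenLinGroup.mk δ) := by
    have e1 := h.twist.tnrm_tconj (ProjGenLinGroup.mk TG) (ProjGenLinGroup.mk UG)
    rw [hconj, hγ.tnrm_eq, eq_comm, mul_inv_eq_iff_eq_mul] at e1
    have hc : Commute TG (upGL D) := Commute.units_val_iff.mp (Quad.commute_lin M T.re T.im)
    have hc' : Commute (ProjGenLinGroup.mk TG) (g2Map (algebraMap K L) (ProjGenLinGroup.mk δ)) := by
      rw [← hmkD, ProjGenLinGroup.map_mk]; exact hc.map ProjGenLinGroup.mk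
    rw [← hc'.eq] at e1
    exact mul_left_cancel e1
  ext x
  refine ⟨fun hx => ?_, fun ⟨hx1, hx2⟩ => ?_⟩
  · have hd := h.tnrm_smul_of_mem hx
    rw [hnU] at hd
    refine ⟨?_, hd⟩
    exact MulAction.injective (ProjGenLinGroup.mk UG : G2 L)
      ((show ProjGenLinGroup.mk UG • h.sgCos x = x from hx).trans (hfixU x hd).symm)
  · show ProjGenLinGroup.mk UG • h.sgCos x = x
    rw [hx1]
    exact hfixU x hx2

end NonSplit

end FermatAgent.LT
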