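import Mathlib
import Fermat.Agent.LT.Descent.NonSplitTwist
import Fermat.Agent.LT.Base.FiniteIndex
import Fermat.Agent.LT.Descent.GlueingPlaces

/-!
# Retraction of fixed cosets to the base

A coset fixed by the generator at a place with one place above determines a coset of the base;
the commonly fixed cosets over a given one are counted by fixed residual lines.
-/

set_option autoImplicit false

noncomputable section

open Matrix IsDedekindDomain NumberField WithZero
open scoped MatrixGroups Pointwise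

namespace FermatAgent.LT

section Quot

variable {G : Type*} [Group G] {S T : Subgroup G}

/-- The projection is equivariant. -/
lemma projLE_smul (hST : S ≤ T) (g : G) (c : G ⧸ S) :
    Subgroup.quotientMapOfLE hST (g • c) = g • Subgroup.quotientMapOfLE hST c := by
  induction c using QuotientGroup.induction_on with | H a =>
  rfl

/-- The projection between equal levels is injective. -/
lemma projLE_injective (hST : S ≤ T) (hTS : T ≤ S) :
    Function.Injective (Subgroup.quotientMapOfLE hST) := by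
  intro a b
  induction a using QuotientGroup.induction_on with | H a =>
  induction b using QuotientGroup.induction_on with | H b =>
  exact fun e => QuotientGroup.eq.mpr (hTS (QuotientGroup.eq.mp e))

/-- The fibres of a projection of cosets. -/
lemma projLE_fibre (hST : S ≤ T) (hi : S.relIndex T ≠ 0) (d : G ⧸ T) :
    {c : G ⧸ S | Subgroup.quotientMapOfLE hST c = d}.Finite ∧
      {c : G ⧸ S | Subgroup.quotientMapOfLE hST c = d}.ncard = S.relIndex T := by
  induction d using QuotientGroup.induction_on with | H g =>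
  have : (S.subgroupOf T).FiniteIndex := ⟨hi⟩
  rw [show {c : G ⧸ S | Subgroup.quotientMapOfLE hST c = QuotientGroup.mk g} =
    Set.range (fibMap hST g) from Set.ext (proj_eq_iff hST g)]
  exact ⟨Set.finite_range _, (Set.ncard_range_of_injective (fibMap_injective hST g)).trans rfl⟩

end Quot

section Iwahori

variable {F : Type*} [Field F] [NumberField F] (v : HeightOneSpectrum (𝓞 F))

/-- The congruence subgroup lies in the tame level. -/
lemma locK1_le_locTame_zero : locK1 v ≤ locTame v 0 :=
  Subgroup.map_mono fun g hg => ⟨hg.1, hg.2.2.1, by simp⟩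

/-- The tame level has finite index. -/
lemma relIndex_locTame_zero_ne_zero : (locTame v 0).relIndex (locK v) ≠ 0 := fun h =>
  relIndex_locK1_ne_zero v (by
    have h1 := Subgroup.relIndex_dvd_of_le_left (L := locK v) (locK1_le_locTame_zero v)
    rw [h] at h1
    exact zero_dvd_iff.mp h1)

variable {v}

/-- The residual cube condition in classes. -/
theorem cubeOK_iff_class (h3 : v.valuation F 3 = 1) {D : GL (Fin 2) F} (hD : D ∈ locGL v) :
    CubeOK v D ↔ ∃ j ∈ locK v, (j ^ 3)⁻¹ * ProjGenLinGroup.mk D ∈ locK1 v := by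
  rw [cubeOK_iff_residual h3 hD]
  refine ⟨?_, ?_⟩
  · rintro ⟨J, hJ, -, s, hs⟩
    refine ⟨_, Subgroup.mem_map_of_mem _ hJ, ?_⟩
    set X := (J ^ 3)⁻¹ * D
    have hJ3 : J ^ 3 ∈ locGL v := pow_mem hJ 3
    have hX : X ∈ locGL v := mul_mem (inv_mem hJ3) hD
    have hsm : SmallMat v (s • X.val - 1) := by
      have e : s • X.val - 1 = ((J ^ 3)⁻¹).val * -(J.val ^ 3 - s • D.val) := by
        rw [neg_sub, mul_sub, mul_smul_comm, ← Units.val_mul, ← Units.val_pow_eq_pow_val,
          ← Units.val_mul, inv_mul_cancel, Units.val_one]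
      rw [e]
      exact SmallMat.mul_left (inv_mem hJ3).1 hs.neg
    have hone : IntMat v (1 : Matrix (Fin 2) (Fin 2) F) := fun a b => by
      rw [Matrix.one_apply]; split_ifs <;> simp
    have hsX : IntMat v (s • X.val) := fun a b => by
      rw [show (s • X.val) a b = (s • X.val - 1) a b + (1 : Matrix (Fin 2) (Fin 2) F) a b by simp]
      exact ((v.valuation F).map_add _ _).trans (max_le (hsm a b).le (hone a b))
    have hs1 : v.valuation F s = 1 := by
      have h := val_eq_one_of_sub_lt (b := (1 : Matrix (Fin 2) (Fin 2) F).det) (by simp)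
        (val_det_sub_lt hsX hone hsm)
      rwa [Matrix.det_smul, Fintype.card_fin, map_mul, map_pow, hX.2, mul_one,
        pow_eq_one_iff_of_nonneg zero_le two_ne_zero] at h
    rw [← map_pow, ← map_inv, ← map_mul]
    refine Subgroup.mem_map_of_mem _ (show X ∈ locCongr v from ?_)
    clear_value X
    refine ⟨hX, ?_, ?_, ?_⟩
    · simpa [hs1] using hsm 0 1
    · simpa [hs1] using hsm 1 0
    · have e : s * (X.val 0 0 - X.val 1 1) = (s • X.val - 1) 0 0 - (s • X.val - 1) 1 1 := by
        simp; ring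
      refine lt_of_eq_of_lt (show v.valuation F (X.val 0 0 - X.val 1 1) =
        v.valuation F (s * (X.val 0 0 - X.val 1 1)) by rw [map_mul, hs1, one_mul]) ?_
      rw [e]
      exact ((v.valuation F).map_sub _ _).trans_lt (max_lt (hsm 0 0) (hsm 1 1))
  · rintro ⟨_, ⟨J, hJ, rfl⟩, hc⟩
    rw [← map_pow, ← map_inv, ← map_mul] at hc
    obtain ⟨c, hcc, e⟩ := hc
    obtain ⟨u, hu⟩ := Matrix.ProjGenLinGroup.mk_eq_mk_iff.mp e
    set X := (J ^ 3)⁻¹ * D
    have hJ3 : J ^ 3 ∈ locGL v := pow_mem hJ 3
    have hXg : X ∈ locGL v := mul_mem (inv_mem hJ3) hD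
    have hX : X ∈ locCongr v := by
      change c * sc u = X at hu
      rw [← hu]
      exact (locCongr v).mul_mem hcc
        (sc_mem_locCongr (val_scalar_eq_one hcc.1 (by rw [hu]; exact hXg)))
    set a := X.val 0 0
    have ha : v.valuation F a = 1 := by
      have hmain : v.valuation F (a * X.val 1 1) = 1 := by
        refine val_eq_one_of_sub_lt hXg.2 ?_
        rw [Matrix.det_fin_two, sub_sub_cancel, map_mul]
        exact mul_lt_one_of_lt_of_le hX.2.1 (hXg.1 _ _)
      rw [map_mul] at hmain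
      exact le_antisymm (hXg.1 _ _) (hmain.ge.trans (mul_le_of_le_one_right zero_le (hXg.1 _ _)))
    have hsm : SmallMat v (X.val - a • (1 : Matrix (Fin 2) (Fin 2) F)) := fun i j => by
      fin_cases i <;> fin_cases j
      · simp [a]
      · simpa using hX.2.1
      · simpa using hX.2.2.1
      · simpa [a, Valuation.map_sub_swap] using hX.2.2.2
    have eD : D.val = (J ^ 3).val * X.val := by
      rw [← Units.val_mul, mul_inv_cancel_left]
    refine ⟨J, hJ, ?_, a⁻¹, ?_⟩
    · have e2 : J.val * D.val - D.val * J.val = (J ^ 3).val *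
          (J.val * (X.val - a • 1) + -((X.val - a • 1) * J.val)) := by
        rw [eD]
        simp only [Units.val_pow_eq_pow_val, mul_sub, sub_mul, mul_add, mul_neg, mul_smul_comm,
          smul_mul_assoc, one_mul, mul_one, ← mul_assoc, ← pow_succ, ← pow_succ']
        abel
      rw [e2]
      exact SmallMat.mul_left hJ3.1 ((SmallMat.mul_left hJ.1 hsm).add (hsm.mul_right hJ.1).neg)
    · have ha0 : a ≠ 0 := fun e => by rw [e, map_zero] at ha; exact zero_ne_one ha
      have e2 : J.val ^ 3 - a⁻¹ • D.val = ((J ^ 3).val * ((-a⁻¹) • (X.val - a • 1))) := by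
        rw [eD, Units.val_pow_eq_pow_val, smul_sub, smul_smul, neg_mul, inv_mul_cancel₀ ha0,
          mul_sub, mul_smul_comm, mul_smul_comm, mul_one, neg_smul, neg_smul, one_smul]
        abel
      rw [e2]
      refine SmallMat.mul_left hJ3.1 fun i j => ?_
      rw [Matrix.smul_apply, smul_eq_mul, map_mul, Valuation.map_neg, map_inv₀,
        ha, inv_one, one_mul]
      exact hsm i j

/-- The identity satisfies the cube condition. -/
lemma cubeOK_one (h3 : v.valuation F 3 = 1) : CubeOK v (1 : GL (Fin 2) F) :=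
  (cubeOK_iff_class h3 (locGL v).one_mem).mpr ⟨1, one_mem _, by simp⟩

end Iwahori

variable {K L : Type*} [Field K] [NumberField K] [Field L] [NumberField L] [Algebra K L]
  {τ : L ≃+* L} {v : HeightOneSpectrum (𝓞 K)} {w : HeightOneSpectrum (𝓞 L)}

/-- A uniformiser. -/
def unifAt (w : HeightOneSpectrum (𝓞 L)) : L := (w.valuation_exists_uniformizer L).choose

lemma val_unifAt (w : HeightOneSpectrum (𝓞 L)) : w.valuation L (unifAt w) = exp (-1 : ℤ) :=
  (w.valuation_exists_uniformizer L).choose_spec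

namespace NonSplit

variable (h : NonSplit τ v w)

/-- The fixed cosets retracting to a coset of the base. -/
def retSet (d : G2 K ⧸ locK v) : Set (G2 L ⧸ locK w) :=
  {x | x = h.upCos d ∨ ∃ (hr : h.Ramified) (e : G2 K ⧸ locTame v 0),
    Subgroup.quotientMapOfLE (locTame_le v 0) e = d ∧ x = h.offCos hr (val_unifAt w) e}

include h

lemma not_inert_of_ramified (hr : h.Ramified) : ¬h.Inert := fun hi => by
  obtain ⟨p, -, hp⟩ := exists_valuation_eq v (-1)
  have := (hi p).symm.trans (hr p)
  rw [hp, ← WithZero.exp_nsmul, exp_inj] at this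
  simp at this

lemma offCos_smul (hr : h.Ramified) {p : L} (hp : w.valuation L p = exp (-1 : ℤ)) (g : G2 K)
    (e : G2 K ⧸ locTame v 0) :
    h.offCos hr hp (g • e) = g2Map (algebraMap K L) g • h.offCos hr hp e := by
  induction e using QuotientGroup.induction_on with | H a =>
  rw [MulAction.Quotient.smul_mk, smul_eq_mul, offCos_mk, offCos_mk, MulAction.Quotient.smul_mk,
    smul_eq_mul, map_mul, mul_assoc]

/-- A coset retracts to at most one point. -/
lemma retSet_unique {d d' : G2 K ⧸ locK v} {x : G2 L ⧸ locK w} (hx : x ∈ h.retSet d)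
    (hx' : x ∈ h.retSet d') : d = d' := by
  rcases hx with rfl | ⟨hr, e, rfl, rfl⟩ <;> rcases hx' with e' | ⟨hr', e', rfl, he⟩
  · exact h.upCos_injective e'
  · exact absurd he (h.upCos_ne_offCos hr' _ _ _)
  · exact absurd e'.symm (h.upCos_ne_offCos hr _ _ _)
  · rw [h.offCos_injective hr _ he]

/-- Fixed cosets retract. -/
lemma exists_mem_retSet {x : G2 L ⧸ locK w} (hx : h.sgCos x = x) : ∃ d, x ∈ h.retSet d := by
  rcases h.inert_or_ramified with hi | hr
  · obtain ⟨d, rfl⟩ := (h.fixed_iff_inert hi).mp hx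
    exact ⟨d, Or.inl rfl⟩
  · rcases (h.fixed_iff_ramified hr (val_unifAt w)).mp hx with ⟨d, rfl⟩ | ⟨e, rfl⟩
    exacts [⟨d, Or.inl rfl⟩, ⟨_, Or.inr ⟨hr, e, rfl, rfl⟩⟩]

/-- Retraction is equivariant. -/
lemma smul_mem_retSet_iff (g : G2 K) {d : G2 K ⧸ locK v} {x : G2 L ⧸ locK w} :
    g2Map (algebraMap K L) g • x ∈ h.retSet (g • d) ↔ x ∈ h.retSet d := by
  have key : ∀ (g : G2 K) d x, x ∈ h.retSet d →
      g2Map (algebraMap K L) g • x ∈ h.retSet (g • d) := by
    rintro g d x (rfl | ⟨hr, e, rfl, rfl⟩)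
    · exact Or.inl (h.upCos_smul g d).symm
    · exact Or.inr ⟨hr, g • e, projLE_smul _ g e, (h.offCos_smul hr _ g e).symm⟩
  refine ⟨fun hx => ?_, key g d x⟩
  have := key g⁻¹ _ _ hx
  rwa [map_inv, inv_smul_smul, inv_smul_smul] at this

/-- Retraction fibres are finite. -/
lemma finite_retSet (d : G2 K ⧸ locK v) : (h.retSet d).Finite := by
  by_cases hr : h.Ramified
  · refine ((Set.finite_singleton (h.upCos d)).union
      (((projLE_fibre (locTame_le v 0) (relIndex_locTame_zero_ne_zero v) d).1).image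
        (h.offCos hr (val_unifAt w)))).subset ?_
    rintro x (rfl | ⟨_, e, he, rfl⟩)
    exacts [Or.inl rfl, Or.inr ⟨e, he, rfl⟩]
  · refine (Set.finite_singleton (h.upCos d)).subset ?_
    rintro x (rfl | ⟨hr', -⟩)
    exacts [rfl, absurd hr' hr]

/-- Retraction fibres over moved points contain no fixed coset. -/
lemma retSet_inter_eq_empty (δ : GL (Fin 2) K) {d : G2 K ⧸ locK v}
    (hd : (ProjGenLinGroup.mk δ : G2 K) • d ≠ d) : h.retSet d ∩ h.baseFix δ = ∅ := by
  rw [Set.eq_empty_iff_forall_notMem]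
  rintro x ⟨hx, hfix⟩
  rcases hx with rfl | ⟨hr, e, rfl, rfl⟩
  · exact hd ((h.upCos_mem_baseFix_iff δ d).mp hfix)
  · rw [← projLE_smul, (h.offCos_mem_baseFix_iff hr _ δ e).mp hfix] at hd
    exact hd rfl

/-- In the inert case a fixed point has one fixed coset over it. -/
lemma ncard_retSet_inert (hi : h.Inert) (δ : GL (Fin 2) K) {d : G2 K ⧸ locK v}
    (hd : (ProjGenLinGroup.mk δ : G2 K) • d = d) : (h.retSet d ∩ h.baseFix δ).ncard = 1 := by
  rw [Set.ncard_eq_one]
  refine ⟨h.upCos d, Set.eq_singleton_iff_unique_mem.mpr ⟨⟨Or.inl rfl,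
    (h.upCos_mem_baseFix_iff δ d).mpr hd⟩, ?_⟩⟩
  rintro x ⟨rfl | ⟨hr, -⟩, -⟩
  exacts [rfl, absurd hi (h.not_inert_of_ramified hr)]

/-- In the ramified case the fixed cosets over a fixed point. -/
lemma ncard_retSet_ramified (hr : h.Ramified) (δ : GL (Fin 2) K) {d : G2 K ⧸ locK v}
    (hd : (ProjGenLinGroup.mk δ : G2 K) • d = d) :
    (h.retSet d ∩ h.baseFix δ).ncard = 1 + {e : G2 K ⧸ locTame v 0 |
      Subgroup.quotientMapOfLE (locTame_le v 0) e = d ∧
        (ProjGenLinGroup.mk δ : G2 K) • e = e}.ncard := by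
  set E := {e : G2 K ⧸ locTame v 0 |
    Subgroup.quotientMapOfLE (locTame_le v 0) e = d ∧ (ProjGenLinGroup.mk δ : G2 K) • e = e}
  have e : h.retSet d ∩ h.baseFix δ = insert (h.upCos d) (h.offCos hr (val_unifAt w) '' E) := by
    ext x
    constructor
    · rintro ⟨rfl | ⟨_, e, he, rfl⟩, hx⟩
      exacts [Set.mem_insert _ _, Set.mem_insert_of_mem _
        ⟨e, ⟨he, (h.offCos_mem_baseFix_iff hr _ δ e).mp hx⟩, rfl⟩]
    · rintro (rfl | ⟨e, ⟨he, he'⟩, rfl⟩)
      exacts [⟨Or.inl rfl, (h.upCos_mem_baseFix_iff δ d).mpr hd⟩,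
        ⟨Or.inr ⟨hr, e, he, rfl⟩, (h.offCos_mem_baseFix_iff hr _ δ e).mpr he'⟩]
  have hfin : (h.offCos hr (val_unifAt w) '' E).Finite :=
    (((projLE_fibre (locTame_le v 0) (relIndex_locTame_zero_ne_zero v) d).1).subset
      fun _ he => he.1).image _
  rw [e, Set.ncard_insert_of_notMem ?_ hfin,
    Set.ncard_image_of_injective _ (h.offCos_injective hr _), add_comm]
  rintro ⟨e, -, he⟩
  exact h.upCos_ne_offCos hr _ _ _ he.symm

end NonSplit

/-- At almost all places a representative fixes the maximal cosets fixed by its matrix. -/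
theorem eventually_smul_eq_of_rep {K L : Type*} [Field K] [NumberField K] [Field L] [NumberField L]
    [Algebra K L] (b : HeightOneSpectrum (𝓞 L) → HeightOneSpectrum (𝓞 K))
    (hb : ∀ w, PlacePair (algebraMap K L) (b w) w) {τ : L ≃+* L} {δ : GL (Fin 2) K}
    {γ : GL (Fin 2) L} (hδ : (ProjGenLinGroup.mk δ : G2 K) ≠ 1) (hγ : IsRep τ δ γ) :
    ∀ᶠ v in Filter.cofinite, ∀ w, b w = v → ∀ c : G2 L ⧸ locK w,
      g2Map (algebraMap K L) (ProjGenLinGroup.mk δ) • c = c → ProjGenLinGroup.mk γ • c = c := by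
  obtain ⟨p, q, hpq⟩ := CFT.Selmer.exists_eq_add_of_commute (upGL_not_isScal hδ)
    (Commute.units_val_iff.mpr hγ.comm).symm.eq
  set Bad := {w : HeightOneSpectrum (𝓞 L) | ¬(w.valuation L p ≤ 1 ∧ w.valuation L q ≤ 1 ∧
    w.valuation L γ.val.det = 1 ∧ upGL δ ∈ locGL w)}
  have hBad : Bad.Finite := Filter.eventually_cofinite.mp
    ((eventually_valuation_le_one p).and ((eventually_valuation_le_one q).and
      ((eventually_valuation_eq_one (Matrix.GeneralLinearGroup.det_ne_zero γ)).and
        (eventually_mem_locGL (upGL δ)))))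
  refine Filter.eventually_cofinite.mpr ((hBad.image b).subset fun v hv => ?_)
  by_contra hne
  refine hv fun w hw c hc => ?_
  obtain ⟨hp1, hq1, hd1, hδ1⟩ : w.valuation L p ≤ 1 ∧ w.valuation L q ≤ 1 ∧
      w.valuation L γ.val.det = 1 ∧ upGL δ ∈ locGL w := by
    by_contra hcon
    exact hne ⟨w, hcon, hw⟩
  subst hw
  exact (hb w).smul_eq_of_unit (normalised_of_mem (((hb w).map_mem_locGL_iff δ).mp hδ1))
    hpq hp1 hq1 hd1 hc

end FermatAgent.LT
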