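import Mathlib
import Fermat.Agent.LT.Descent.Unfold

/-!
# Unfolding against weights summing to a constant almost everywhere

The weight only needs to sum to a constant along the twisted centraliser at almost every point
where the term does not vanish; absolute values are unfolded first.
-/

set_option autoImplicit false

noncomputable section

open Matrix IsDedekindDomain NumberField Filter MeasureTheory
open scoped MatrixGroups ENNReal

namespace FermatAgent.LT

variable {L : Type*} [Field L] [NumberField L] {U : Level L}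

namespace Semilin

variable (σ : Semilin U) (k : PtKer U)

/-- A weight for the twisted centraliser of `γ`, summing to `m`. -/
structure Wt (γ : G2 L) where
  /-- the weight -/
  Θ : Space U → ℝ
  meas : Measurable Θ
  nonneg : ∀ y, 0 ≤ Θ y
  /-- the total -/
  m : ℕ
  m_pos : 0 < m
  sum_eq : ∀ᵐ y ∂Space.vol U, σ.term k γ y ≠ 0 →
    HasSum (fun h : σ.centralizer γ => Θ ((h : G2 L) • y)) m

variable {σ k} {γ : G2 L} (W : σ.Wt k γ)

include W in
/-- Grouping along the twisted class, for every function of the term. -/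
lemma Wt.ae_hasSum (Φ : ℂ → ℂ) (hΦ : Φ 0 = 0) :
    ∀ᵐ x ∂Space.vol U, HasSum (fun g : G2 L => Φ (σ.term k γ (g • x)) * W.Θ (g • x))
      (W.m * ∑' c : G2 L, (σ.cls γ).indicator (fun c => Φ (σ.term k c x)) c) := by
  classical
  have hae : ∀ᵐ x ∂Space.vol U, ∀ g : G2 L, σ.term k γ (g • x) ≠ 0 →
      HasSum (fun h : σ.centralizer γ => W.Θ ((h : G2 L) • g • x)) W.m :=
    ae_all_iff.mpr fun g =>
      (measurePreserving_smul g (Space.vol U)).quasiMeasurePreserving.ae W.sum_eq
  filter_upwards [hae] with x hx
  set S := (σ.finite_term k x).toFinset.filter fun c => c ∈ σ.cls γ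
  have hsum : (∑' c : G2 L, (σ.cls γ).indicator (fun c => Φ (σ.term k c x)) c) =
      ∑ c ∈ S, Φ (σ.term k c x) := by
    rw [tsum_eq_sum (s := S) fun c hc => ?_]
    · exact Finset.sum_congr rfl fun c hc => Set.indicator_of_mem (Finset.mem_filter.mp hc).2 _
    · by_cases hC : c ∈ σ.cls γ
      · rw [Set.indicator_of_mem hC]
        by_contra h
        refine hc (Finset.mem_filter.mpr ⟨?_, hC⟩)
        simp only [Set.Finite.mem_toFinset, Set.mem_ofPred_eq]
        exact fun h0 => h (by rw [h0, hΦ])
      · exact Set.indicator_of_notMem hC _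
  rw [hsum, Finset.mul_sum]
  have key : ∀ g : G2 L, Φ (σ.term k γ (g • x)) * W.Θ (g • x) =
      ∑ c ∈ S, if σ.conj g⁻¹ γ = c then Φ (σ.term k c x) * W.Θ (g • x) else 0 := by
    intro g
    rw [Finset.sum_ite_eq, term_smul]
    split_ifs with h
    · rfl
    · rw [mul_eq_zero]
      left
      by_contra h'
      refine h (Finset.mem_filter.mpr ⟨?_, ⟨g⁻¹, rfl⟩⟩)
      simp only [Set.Finite.mem_toFinset, Set.mem_ofPred_eq]
      exact fun h0 => h' (by rw [h0, hΦ])
  simp only [key]
  refine hasSum_sum fun c hc => ?_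
  obtain ⟨g₁, hg₁⟩ : c ∈ σ.cls γ := (Finset.mem_filter.mp hc).2
  have hg₁' : σ.conj g₁ γ = c := hg₁
  let i : σ.centralizer γ → G2 L := fun h => (h : G2 L) * g₁⁻¹
  have hi : Function.Injective i := fun a b h => Subtype.ext (mul_right_cancel h)
  refine (hi.hasSum_iff fun g hg => if_neg fun h => hg ?_).mp ?_
  · refine ⟨⟨g * g₁, ?_⟩, mul_inv_cancel_right g g₁⟩
    show σ.conj (g * g₁) γ = γ
    rw [conj_mul, hg₁', ← h, ← conj_mul, mul_inv_cancel, conj_one]
  · have hne : σ.term k γ (g₁⁻¹ • x) ≠ 0 := by
      rw [term_smul, inv_inv, hg₁']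
      simpa using (Finset.mem_filter.mp hc).1
    have h1 := ((Complex.hasSum_ofReal.mpr (hx g₁⁻¹ hne)).mul_left (Φ (σ.term k c x)))
    rw [Complex.ofReal_natCast, mul_comm (Φ _) (W.m : ℂ)] at h1
    refine h1.congr_fun fun h => ?_
    show (if σ.conj ((h : G2 L) * g₁⁻¹)⁻¹ γ = c then
      Φ (σ.term k c x) * (W.Θ (((h : G2 L) * g₁⁻¹) • x) : ℂ) else 0) = _
    rw [if_pos, mul_smul]
    rw [_root_.mul_inv_rev, inv_inv, conj_mul,
      show σ.conj ((h : G2 L))⁻¹ γ = γ from inv_mem h.2, hg₁']

/-- The absolute sum along a twisted class. -/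
def absCls (σ : Semilin U) (k : PtKer U) (C : Set (G2 L)) (x : Space U) : ℝ≥0∞ :=
  ∑' c : G2 L, C.indicator (fun c => ‖σ.term k c x‖ₑ) c

include W in
/-- Unfolding: the index times the absolute sum over a twisted class on a fundamental domain is
the weighted integral of the absolute term over the space. -/
theorem Wt.lintegral_cls {χ : Space U → ℝ} (hχm : Measurable χ)
    (hχ : ∀ (g : G2 L) x, χ (g • x) = χ x)
    {s : Set (Space U)} (hs : IsFundamentalDomain (G2 L) s (Space.vol U)) :
    (W.m : ℝ≥0∞) * ∫⁻ x in s, absCls σ k (σ.cls γ) x * ENNReal.ofReal (χ x) ∂Space.vol U =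
      ∫⁻ y, ‖σ.term k γ y‖ₑ * ENNReal.ofReal (W.Θ y) * ENNReal.ofReal (χ y) ∂Space.vol U := by
  classical
  rw [hs.lintegral_eq_tsum'', ← lintegral_tsum,
    ← lintegral_const_mul' _ _ (ENNReal.natCast_ne_top _)]
  · refine lintegral_congr_ae ?_
    filter_upwards [ae_restrict_of_ae (W.ae_hasSum (fun z => (‖z‖ : ℂ)) (by simp))] with x hx
    simp only [hχ, ENNReal.tsum_mul_right]
    rw [← mul_assoc]
    congr 1
    have hfin : Summable fun c : G2 L => (σ.cls γ).indicator (fun c => ‖σ.term k c x‖) c :=
      summable_of_hasFiniteSupport ((σ.finite_term k x).subset fun c hc => by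
        simp only [Function.mem_support] at hc
        intro h
        exact hc (by by_cases hC : c ∈ σ.cls γ <;> simp [hC, h]))
    have hr : HasSum (fun g : G2 L => ‖σ.term k γ (g • x)‖ * W.Θ (g • x))
        (W.m * ∑' c : G2 L, (σ.cls γ).indicator (fun c => ‖σ.term k c x‖) c) := by
      rw [← Complex.hasSum_ofReal]
      convert hx using 1
      · funext g; push_cast; rfl
      · push_cast
        congr 2
        funext c
        by_cases hC : c ∈ σ.cls γ <;> simp [hC]
    have hnn : ∀ c : G2 L, 0 ≤ (σ.cls γ).indicator (fun c => ‖σ.term k c x‖) c :=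
      fun c => Set.indicator_nonneg (fun _ _ => norm_nonneg _) c
    calc (W.m : ℝ≥0∞) * absCls σ k (σ.cls γ) x
        = ENNReal.ofReal (W.m * ∑' c : G2 L, (σ.cls γ).indicator (fun c => ‖σ.term k c x‖) c) := by
          rw [ENNReal.ofReal_mul (Nat.cast_nonneg _), ENNReal.ofReal_natCast,
            ENNReal.ofReal_tsum_of_nonneg hnn hfin]
          congr 1
          refine tsum_congr fun c => ?_
          by_cases hC : c ∈ σ.cls γ <;> simp [hC]
      _ = ∑' g : G2 L, ENNReal.ofReal (‖σ.term k γ (g • x)‖ * W.Θ (g • x)) := by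
          rw [← hr.tsum_eq, ENNReal.ofReal_tsum_of_nonneg
            (fun g => mul_nonneg (norm_nonneg _) (W.nonneg _)) hr.summable]
      _ = _ := tsum_congr fun g => by rw [ENNReal.ofReal_mul (norm_nonneg _), ofReal_norm]
  · exact fun g => (((((σ.measurable_term k γ).enorm).mul W.meas.ennreal_ofReal).mul
      hχm.ennreal_ofReal).comp (measurable_const_smul g)).aemeasurable.restrict

include W in
/-- An absolutely convergent class gives an integrable weighted term. -/
theorem Wt.integrable_term {s : Set (Space U)} (hs : IsFundamentalDomain (G2 L) s (Space.vol U))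
    (hfin : ∫⁻ x in s, absCls σ k (σ.cls γ) x ∂Space.vol U ≠ ⊤) :
    Integrable (fun y => σ.term k γ y * (W.Θ y : ℂ)) (Space.vol U) := by
  refine ⟨((σ.measurable_term k γ).mul
    (Complex.measurable_ofReal.comp W.meas)).aestronglyMeasurable, ?_⟩
  have h0 := W.lintegral_cls (χ := fun _ => 1) measurable_const (fun _ _ => rfl) hs
  simp only [ENNReal.ofReal_one, mul_one] at h0
  rw [HasFiniteIntegral, lintegral_congr fun y => show ‖σ.term k γ y * (W.Θ y : ℂ)‖ₑ =
    ‖σ.term k γ y‖ₑ * ENNReal.ofReal (W.Θ y) by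
      rw [enorm_mul, ← ofReal_norm (W.Θ y : ℂ), Complex.norm_real, Real.norm_eq_abs,
        abs_of_nonneg (W.nonneg y)], ← h0]
  exact ENNReal.mul_lt_top (ENNReal.natCast_ne_top _).lt_top hfin.lt_top

include W in
/-- Unfolding: the index times the integral of the sum over a twisted class on a fundamental
domain is the weighted integral of its term over the space, if that converges absolutely. -/
theorem Wt.integral_cls {χ : Space U → ℝ} (hχm : Measurable χ)
    (hχ : ∀ (g : G2 L) x, χ (g • x) = χ x)
    (hint : Integrable (fun y => σ.term k γ y * W.Θ y * χ y) (Space.vol U))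
    {s : Set (Space U)} (hs : IsFundamentalDomain (G2 L) s (Space.vol U)) :
    (W.m : ℂ) * ∫ x in s, σ.sumOn k (σ.cls γ) x * χ x ∂Space.vol U =
      ∫ y, σ.term k γ y * W.Θ y * χ y ∂Space.vol U := by
  rw [hs.integral_eq_tsum'' _ hint,
    ← integral_tsum (f := fun (g : G2 L) y => σ.term k γ (g • y) * W.Θ (g • y) * χ (g • y)),
    ← integral_const_mul]
  · refine integral_congr_ae ?_
    filter_upwards [ae_restrict_of_ae (W.ae_hasSum id rfl)] with x hx
    simp only [hχ]
    simp only [id_eq] at hx
    rw [tsum_mul_right, hx.tsum_eq, mul_assoc]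
    rfl
  · exact fun g => ((((σ.measurable_term k γ).mul (Complex.measurable_ofReal.comp W.meas)).mul
      (Complex.measurable_ofReal.comp hχm)).comp
      (measurable_const_smul g)).aestronglyMeasurable.restrict
  · rw [← hs.lintegral_eq_tsum'' fun y => ‖σ.term k γ y * W.Θ y * χ y‖ₑ]
    exact hint.2.ne

end Semilin

namespace Space

open scoped Pointwise in
/-- The indicator of a fundamental domain sums to one along the group almost everywhere. -/
theorem ae_hasSum_indicator (Γ : Subgroup (G2 L)) {s : Set (Space U)}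
    (hs : IsFundamentalDomain Γ s (Space.vol U)) :
    ∀ᵐ y ∂Space.vol U, HasSum (fun h : Γ => s.indicator (fun _ => (1 : ℝ)) ((h : G2 L) • y)) 1 := by
  have hd : ∀ᵐ y ∂Space.vol U, ∀ a b : Γ, a ≠ b →
      ¬(((a : G2 L) • y) ∈ s ∧ ((b : G2 L) • y) ∈ s) := by
    refine ae_all_iff.mpr fun a => ae_all_iff.mpr fun b => ?_
    by_cases hab : a = b
    · exact Eventually.of_forall fun _ h => absurd hab h
    have h1 : Space.vol U ((a⁻¹ • s : Set (Space U)) ∩ (b⁻¹ • s : Set (Space U))) = 0 :=
      hs.aedisjoint (fun h => hab (inv_injective h))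
    filter_upwards [measure_eq_zero_iff_ae_notMem.mp h1] with y hy _ hh
    exact hy ⟨Set.mem_smul_set_iff_inv_smul_mem.mpr (by rw [inv_inv]; exact hh.1),
      Set.mem_smul_set_iff_inv_smul_mem.mpr (by rw [inv_inv]; exact hh.2)⟩
  classical
  filter_upwards [hd, hs.ae_covers] with y hy ⟨h₀, hh₀⟩
  have h := hasSum_ite_eq h₀ (1 : ℝ)
  refine h.congr_fun fun a => ?_
  by_cases ha : a = h₀
  · rw [if_pos ha, ha]
    exact Set.indicator_of_mem hh₀ _
  · rw [if_neg ha]
    exact Set.indicator_of_notMem (fun hm => hy a h₀ ha ⟨hm, hh₀⟩) _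

end Space

/-- A weight for a subgroup of finite index sums to the index over the whole group. -/
theorem hasSum_of_subgroup {G : Type*} [Group G] (H : Subgroup G) [H.FiniteIndex] (f : G → ℝ)
    (hf : ∀ r : G, HasSum (fun h : H => f ((h : G) * r)) 1) :
    HasSum f (H.index : ℕ) := by
  classical
  have : Fintype (G ⧸ H) := Subgroup.fintypeQuotientOfFiniteIndex
  have : Fintype (Quotient (QuotientGroup.rightRel H)) :=
    Fintype.ofEquiv (G ⧸ H) (QuotientGroup.quotientRightRelEquivQuotientLeftRel H).symm
  have hc : Fintype.card (Quotient (QuotientGroup.rightRel H)) = H.index := by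
    rw [Subgroup.index, ← Nat.card_eq_fintype_card]
    exact Nat.card_congr (QuotientGroup.quotientRightRelEquivQuotientLeftRel H)
  let piece : Quotient (QuotientGroup.rightRel H) → G → ℝ := fun q g =>
    if Quotient.mk'' g = q then f g else 0
  have hp : ∀ q, HasSum (piece q) 1 := by
    intro q
    induction q using Quotient.inductionOn' with | h r =>
    let i : H → G := fun h => (h : G) * r
    have hi : Function.Injective i := fun a b e => Subtype.ext (mul_right_cancel e)
    refine (hi.hasSum_iff fun g hg => if_neg fun e => hg ?_).mp ((hf r).congr_fun fun h => ?_)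
    · rw [Quotient.eq'', QuotientGroup.rightRel_apply] at e
      exact ⟨⟨g * r⁻¹, by simpa using H.inv_mem e⟩, by simp [i]⟩
    · show piece _ ((h : G) * r) = f ((h : G) * r)
      refine if_pos ?_
      rw [Quotient.eq'', QuotientGroup.rightRel_apply]
      simp
  have h := hasSum_sum (s := Finset.univ) fun q _ => hp q
  rw [Finset.sum_const, Finset.card_univ, hc, nsmul_one] at h
  exact h.congr_fun fun g => by simp [piece]

end FermatAgent.LT
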