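import Mathlib
import Fermat.Agent.LT.Descent.Unfold2

/-!
# Decomposition of absolutely convergent sums into classes

A stable set of group elements is a union of twisted classes; if the absolute sum over it is
integrable, the integral of the sum is the sum of the integrals over the classes.
-/

set_option autoImplicit false

noncomputable section

open Matrix IsDedekindDomain NumberField Filter MeasureTheory
open scoped MatrixGroups ENNReal

namespace FermatAgent.LT.Semilin

variable {L : Type*} [Field L] [NumberField L] {U : Level L} (σ : Semilin U) (k : PtKer U)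

/-- An element lies in its class. -/
lemma mem_cls_self (c : G2 L) : c ∈ σ.cls c := ⟨1, σ.conj_one c⟩

/-- Classes of related elements agree. -/
lemma cls_eq_of_mem {c d : G2 L} (h : c ∈ σ.cls d) : σ.cls c = σ.cls d := by
  obtain ⟨g, rfl⟩ := h
  ext e
  refine ⟨fun ⟨g', hg'⟩ => ⟨g' * g, (σ.conj_mul g' g d).trans hg'⟩, fun ⟨g', hg'⟩ => ⟨g' * g⁻¹, ?_⟩⟩
  show σ.conj (g' * g⁻¹) (σ.conj g d) = e
  rw [← conj_mul, inv_mul_cancel_right]
  exact hg'

/-- The classes inside a stable set. -/
abbrev classesIn (C : Set (G2 L)) : Set (Set (G2 L)) := σ.cls '' C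

instance countable_classesIn (C : Set (G2 L)) : Countable (σ.classesIn C) :=
  ((Set.to_countable C).image σ.cls).to_subtype

lemma classes_indicator {C : Set (G2 L)} (hC : σ.Stable C) (c : G2 L) {M : Type*} [AddCommMonoid M]
    [TopologicalSpace M] (f : G2 L → M) :
    HasSum (fun q : σ.classesIn C => (q : Set (G2 L)).indicator f c) (C.indicator f c) := by
  classical
  by_cases hc : c ∈ C
  · let q₀ : σ.classesIn C := ⟨σ.cls c, c, hc, rfl⟩
    rw [Set.indicator_of_mem hc]
    refine (hasSum_ite_eq q₀ (f c)).congr_fun fun q => ?_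
    split_ifs with h
    · rw [h]; exact Set.indicator_of_mem (σ.mem_cls_self c) _
    · refine Set.indicator_of_notMem (fun hq => h (Subtype.ext ?_)) _
      obtain ⟨q, d, hd, rfl⟩ := q
      exact (σ.cls_eq_of_mem hq).symm
  · rw [Set.indicator_of_notMem hc]
    refine hasSum_zero.congr_fun fun q => Set.indicator_of_notMem (fun hq => hc ?_) _
    obtain ⟨q, d, hd, rfl⟩ := q
    obtain ⟨g, rfl⟩ := hq
    exact hC g d hd

lemma absCls_decomp {C : Set (G2 L)} (hC : σ.Stable C) (x : Space U) :
    absCls σ k C x = ∑' q : σ.classesIn C, absCls σ k q x := by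
  unfold absCls
  rw [ENNReal.tsum_comm]
  exact tsum_congr fun c => (σ.classes_indicator hC c fun c => ‖σ.term k c x‖ₑ).tsum_eq.symm

/-- The absolute class sum bounds the sum. -/
lemma enorm_sumOn_le (C : Set (G2 L)) (x : Space U) : ‖σ.sumOn k C x‖ₑ ≤ absCls σ k C x := by
  classical
  refine (enorm_tsum_le_tsum_enorm).trans (le_of_eq (tsum_congr fun c => ?_))
  by_cases hc : c ∈ C <;> simp [hc]

/-- An absolutely integrable sum over a stable set is the sum of the integrals over its classes. -/
theorem integral_sumOn_decomp {C : Set (G2 L)} (hC : σ.Stable C) {ν : Measure (Space U)}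
    (hfin : ∫⁻ x, absCls σ k C x ∂ν ≠ ⊤) :
    HasSum (fun q : σ.classesIn C => ∫ x, σ.sumOn k q x ∂ν) (∫ x, σ.sumOn k C x ∂ν) := by
  classical
  have hle : ∀ q : σ.classesIn C, ∀ x, absCls σ k q x ≤ absCls σ k C x := fun q x => by
    rw [σ.absCls_decomp k hC]
    exact ENNReal.le_tsum q
  have hint : ∀ q : σ.classesIn C, Integrable (fun x => σ.sumOn k q x) ν := fun q =>
    ⟨(σ.measurable_sumOn k _).aestronglyMeasurable, lt_of_le_of_lt (lintegral_mono fun x =>
      (σ.enorm_sumOn_le k _ x).trans (hle q x)) hfin.lt_top⟩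
  have hsum : Summable fun q : σ.classesIn C => ∫ x, ‖σ.sumOn k q x‖ ∂ν := by
    have h1 : ∑' q : σ.classesIn C, ∫⁻ x, ‖σ.sumOn k q x‖ₑ ∂ν ≠ ⊤ := by
      rw [← lintegral_tsum fun q : σ.classesIn C => (σ.measurable_sumOn k _).enorm.aemeasurable]
      refine ne_top_of_le_ne_top hfin (lintegral_mono fun x => ?_)
      rw [σ.absCls_decomp k hC]
      exact ENNReal.tsum_le_tsum fun q => σ.enorm_sumOn_le k _ x
    refine (ENNReal.summable_toReal h1).congr fun q => ?_
    rw [integral_norm_eq_lintegral_enorm (σ.measurable_sumOn k _).aestronglyMeasurable]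
  have hpt : ∀ᵐ x ∂ν, ∑' q : σ.classesIn C, σ.sumOn k q x = σ.sumOn k C x := by
    refine ae_of_all _ fun x => ?_
    set S := (σ.finite_term k x).toFinset
    have e : ∀ D : Set (G2 L), σ.sumOn k D x = ∑ c ∈ S, D.indicator (fun c => σ.term k c x) c := by
      intro D
      refine tsum_eq_sum fun c hc => ?_
      have : σ.term k c x = 0 := by simpa [S] using hc
      by_cases hD : c ∈ D <;> simp [hD, this]
    simp only [e]
    exact (hasSum_sum fun c _ => σ.classes_indicator hC c fun c => σ.term k c x).tsum_eq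
  have h := MeasureTheory.hasSum_integral_of_summable_integral_norm hint hsum
  rwa [integral_congr_ae hpt] at h

end FermatAgent.LT.Semilin
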