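import Mathlib
import Fermat.Agent.LT.Descent.KerPair
import Fermat.Agent.LT.Descent.Unfold2

/-!
# Gluing local weights between a twisted class above and its norm below

At every place of the base field a local weight relates the cosets above to those below; outside a
finite set it is the graph of an injective lift.  The global weight carries a weight of the base
space to the space of the extension.
-/

set_option autoImplicit false

noncomputable section

open Matrix IsDedekindDomain NumberField Filter MeasureTheory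
open scoped MatrixGroups ENNReal ComplexConjugate

namespace FermatAgent.LT.TwistCtx

variable {K L : Type*} [Field K] [NumberField K] [Field L] [NumberField L] [Algebra K L]
  {X : TwistCtx K L} {B : X.Over}

/-- Cosets of the base at a place. -/
abbrev Pt (X : TwistCtx K L) (v : HeightOneSpectrum (𝓞 K)) : Type _ := G2 K ⧸ X.UK.loc v

/-- Gluing data of a twisted class `γ` with norm `δ` for a subgroup `H` of the centraliser:
weights relating the cosets above and below at finitely many places, carrying the local kernels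
above to those below, and injective lifts at the other places. -/
structure Glue (P : KerPair B) (γ : G2 L) (δ : G2 K) (H : Subgroup (G2 K)) where
  norm_eq : X.T.nrm γ = incl δ
  mem_twisted : ∀ h ∈ H, X.σ.conj (incl h) γ = γ
  mem_plain : ∀ h ∈ H, h * δ * h⁻¹ = δ
  /-- the exceptional places -/
  T : Finset (HeightOneSpectrum (𝓞 K))
  subset : P.T ⊆ T
  /-- the weights at exceptional places -/
  A : ∀ v, Fam B v → Pt X v → ℝ
  nonneg : ∀ v ∈ T, ∀ x z, 0 ≤ A v x z
  finite_x : ∀ v ∈ T, ∀ z, {x | P.loc v (ft B γ v x) x * A v x z ≠ 0}.Finite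
  sum_x : ∀ v ∈ T, ∀ z, ∑' x, P.loc v (ft B γ v x) x * A v x z = (P.kv v).k (δ • z) z
  sum_z : ∀ v ∈ T, ∀ x, P.loc v (ft B γ v x) x ≠ 0 → HasSum (A v x) 1
  finite_z : ∀ v ∈ T, ∀ x, {z | A v x z ≠ 0}.Finite
  equiv : ∀ v ∈ T, ∀ h ∈ H, ∀ x z, A v (actFam B h x) (h • z) = A v x z
  /-- the lift at the other places -/
  lift : ∀ v, Pt X v → Fam B v
  lift_fix : ∀ v ∉ T, ∀ z, δ • z = z → ft B γ v (lift v z) = lift v z
  lift_surj : ∀ v ∉ T, ∀ x, ft B γ v x = x → ∃ z, δ • z = z ∧ lift v z = x
  lift_inj : ∀ v ∉ T, Function.Injective (lift v)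
  lift_smul : ∀ v ∉ T, ∀ h ∈ H, ∀ z, lift v (h • z) = actFam B h (lift v z)
  lift_base : ∀ v ∉ T, lift v (QuotientGroup.mk 1) = fun _ => QuotientGroup.mk 1

namespace Glue

variable {P : KerPair B} {γ : G2 L} {δ : G2 K} {H : Subgroup (G2 K)} (G : Glue P γ δ H)

/-- The coordinates of a finite point above a place. -/
abbrev resF (x : FinCoset X.UL) (v : HeightOneSpectrum (𝓞 K)) : Fam B v :=
  ResSum.res (fun w => G2 L ⧸ X.UL.loc w) B.b x.1 v

open Classical in
/-- The global weight. -/
def W (x : FinCoset X.UL) (z : FinCoset X.UK) : ℝ :=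
  if ∀ v ∉ G.T, δ • z.1 v = z.1 v ∧ resF x v = G.lift v (z.1 v) then
    ∏ v ∈ G.T, G.A v (resF x v) (z.1 v) else 0

/-- The glued weights are nonnegative. -/
lemma W_nonneg (x : FinCoset X.UL) (z : FinCoset X.UK) : 0 ≤ G.W x z := by
  unfold W
  split_ifs
  · exact Finset.prod_nonneg fun v hv => G.nonneg v hv _ _
  · rfl

include G in
/-- The stabiliser commutes with the fixed point condition. -/
lemma smul_fix {h : G2 K} (hh : h ∈ H) {v : HeightOneSpectrum (𝓞 K)} (z : Pt X v) :
    δ • h • z = h • z ↔ δ • z = z := by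
  rw [← mul_smul, ← mul_inv_eq_iff_eq_mul.mp (G.mem_plain h hh), mul_smul, smul_left_cancel_iff]

lemma resF_smul (h : G2 K) (x : FinCoset X.UL) (v : HeightOneSpectrum (𝓞 K)) :
    resF (B := B) (incl (K := K) (L := L) h • x) v = actFam B h (resF x v) := rfl

/-- The glued weights are invariant. -/
lemma W_smul {h : G2 K} (hh : h ∈ H) (x : FinCoset X.UL) (z : FinCoset X.UK) :
    G.W (incl (K := K) (L := L) h • x) (h • z) = G.W x z := by
  classical
  unfold W
  refine if_congr (forall_congr' fun v => forall_congr' fun hv => ?_)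
    (Finset.prod_congr rfl fun v hv => G.equiv v hv h hh _ _) rfl
  rw [FinCoset.smul_apply, G.smul_fix hh, resF_smul, G.lift_smul v hv h hh]
  refine and_congr_right fun _ => ⟨fun e => funext fun w => ?_, fun e => by rw [e]⟩
  exact smul_left_cancel _ (congrFun e w)

open Classical in
/-- Summation of local weights along the cosets above. -/
theorem hasSum_fam (F : ∀ v, Fam B v → Pt X v → ℂ) (κ : ∀ v, Pt X v → ℂ)
    (hF : ∀ v ∈ G.T, ∀ z, {x | F v x z ≠ 0}.Finite) (hκ : ∀ v ∈ G.T, ∀ z, ∑' x, F v x z = κ v z)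
    (z : FinCoset X.UK) :
    HasSum (fun x : FinCoset X.UL =>
        if ∀ v ∉ G.T, δ • z.1 v = z.1 v ∧ resF x v = G.lift v (z.1 v) then
          ∏ v ∈ G.T, F v (resF x v) (z.1 v) else 0)
      (if ∀ v ∉ G.T, δ • z.1 v = z.1 v then ∏ v ∈ G.T, κ v (z.1 v) else 0) :=
  ResSum.Data.hasSum_G (cb := fun w => (QuotientGroup.mk 1 : G2 L ⧸ X.UL.loc w))
    (db := fun v => (QuotientGroup.mk 1 : Pt X v)) B.finite_fib
    { S := G.T, F, κ, lift := G.lift, ok := fun _ d => δ • d = d, finite := hF, sum_eq := hκ }
    z fun v hv e w => by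
      show G.lift v (z.1 v) w = _
      rw [e, G.lift_base v hv]

open Classical in
/-- The kernel above against the global weight. -/
lemma kfin_mul_W (x : FinCoset X.UL) (z : FinCoset X.UK) :
    P.up.kfin (X.finTwist γ x) x * (G.W x z : ℂ) =
      if ∀ v ∉ G.T, δ • z.1 v = z.1 v ∧ resF x v = G.lift v (z.1 v) then
        ∏ v ∈ G.T, P.loc v (ft B γ v (resF x v)) (resF x v) * (G.A v (resF x v) (z.1 v) : ℂ)
      else 0 := by
  unfold W
  split_ifs with hc
  · rw [P.up_kfin G.subset, if_pos fun v hv => by
      rw [res_finTwist]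
      show ft B γ v (resF x v) = resF x v
      rw [(hc v hv).2, G.lift_fix v hv _ (hc v hv).1], Complex.ofReal_prod,
      ← Finset.prod_mul_distrib]
    rfl
  · simp

include G in
/-- Summed along the cosets above, the weighted finite kernel of the twisted class is the finite
kernel below at its norm. -/
theorem hasSum_x (z : FinCoset X.UK) :
    HasSum (fun x : FinCoset X.UL => P.up.kfin (X.finTwist γ x) x * (G.W x z : ℂ))
      (P.down.kfin (δ • z) z) := by
  classical
  rw [P.down_kfin G.subset]
  exact (G.hasSum_fam _ _ G.finite_x G.sum_x z).congr_fun fun x => G.kfin_mul_W x z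

/-- The inverse of the lift, at a place equal to the given one. -/
def low {v : HeightOneSpectrum (𝓞 K)} (x : Fam B v) :
    (u : {u : HeightOneSpectrum (𝓞 K) // id u = v}) → Pt X u.1
  | ⟨_, rfl⟩ => haveI : Nonempty (Pt X v) := ⟨QuotientGroup.mk 1⟩; Function.invFun (G.lift v) x

lemma low_lift {v : HeightOneSpectrum (𝓞 K)} (hv : v ∉ G.T) (z : Pt X v) :
    G.low (G.lift v z) ⟨v, rfl⟩ = z := by
  have : Nonempty (Pt X v) := ⟨QuotientGroup.mk 1⟩
  exact Function.leftInverse_invFun (G.lift_inj v hv) z

open Classical in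
/-- The local data for summing along the cosets below. -/
def dataZ : ResSum.Data (fun v => Pt X v) (fun v => Fam B v)
    (id : HeightOneSpectrum (𝓞 K) → HeightOneSpectrum (𝓞 K)) where
  S := G.T
  F v z x := if P.loc v (ft B γ v x) x ≠ 0 then (G.A v x (z ⟨v, rfl⟩) : ℂ) else 0
  κ v x := if P.loc v (ft B γ v x) x ≠ 0 then 1 else 0
  lift v x := G.low x
  ok v x := ft B γ v x = x
  finite v hv x := by
    refine Set.Finite.of_finite_image (f := fun z => z ⟨v, rfl⟩) ((G.finite_z v hv x).subset ?_) ?_
    · rintro _ ⟨z, hz, rfl⟩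
      simp only [Set.mem_ofPred_eq] at hz ⊢
      split_ifs at hz with h
      · simpa using hz
      · exact absurd rfl hz
    · intro a _ b _ e
      funext ⟨u, hu⟩
      cases hu
      exact e
  sum_eq v hv x := by
    split_ifs with h
    · let e : (∀ u : {u : HeightOneSpectrum (𝓞 K) // id u = v}, Pt X u.1) ≃ Pt X v :=
        { toFun := fun z => z ⟨v, rfl⟩
          invFun := fun z u => match u with | ⟨_, rfl⟩ => z
          left_inv := fun z => by
            funext ⟨u, hu⟩
            cases hu
            rfl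
          right_inv := fun z => rfl }
      rw [← e.symm.tsum_eq]
      have hs := Complex.hasSum_ofReal.mpr (G.sum_z v hv x h)
      rw [Complex.ofReal_one] at hs
      exact hs.tsum_eq
    · simp

open Classical in
include G in
/-- Where the kernel above does not vanish the global weights sum to one along the cosets below. -/
theorem hasSum_z (x : FinCoset X.UL) (hx : P.up.kfin (X.finTwist γ x) x ≠ 0) :
    HasSum (fun z : FinCoset X.UK => G.W x z) 1 := by
  rw [P.up_kfin G.subset] at hx
  split_ifs at hx with hfix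
  swap
  · exact absurd rfl hx
  have hloc := Finset.prod_ne_zero_iff.mp hx
  have hfix' : ∀ v ∉ G.T, ft B γ v (resF x v) = resF x v := fun v hv => hfix v hv
  have hb : ∀ v : HeightOneSpectrum (𝓞 K), Set.Finite {u : HeightOneSpectrum (𝓞 K) | id u = v} :=
    fun v => by simp
  let xf : ResSum.RP (fun v => Fam B v) (fun v => fun _ => QuotientGroup.mk 1) :=
    ⟨fun v => resF x v, by
      refine eventually_cofinite.mpr
        (((eventually_cofinite.mp x.2).image B.b).subset fun v hv => ?_)
      by_contra h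
      refine hv (funext fun w => ?_)
      by_contra h'
      exact h ⟨w.1, h', w.2⟩⟩
  have hbase : ∀ v ∉ G.T, resF (B := B) x v = (fun _ => QuotientGroup.mk 1) →
      ∀ u : {u : HeightOneSpectrum (𝓞 K) // id u = v},
      G.dataZ.lift v (resF x v) u = (QuotientGroup.mk 1 : Pt X u.1) := by
    intro v hv e u
    rw [e, ← G.lift_base v hv]
    obtain ⟨u, hu⟩ := u
    cases hu
    exact G.low_lift hv _
  have h := G.dataZ.hasSum_G (cb := fun v => (QuotientGroup.mk 1 : Pt X v)) hb xf hbase
  have hK : G.dataZ.K xf.1 = 1 := by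
    unfold ResSum.Data.K
    refine (if_pos fun v hv => hfix' v hv).trans ?_
    exact Finset.prod_eq_one fun v hv => if_pos (hloc v hv)
  rw [hK, ← Complex.ofReal_one] at h
  rw [← Complex.hasSum_ofReal]
  refine h.congr_fun fun z => ?_
  simp only [ResSum.Data.G, W, dataZ, xf]
  by_cases hc : ∀ v ∉ G.T, δ • z.1 v = z.1 v ∧ resF x v = G.lift v (z.1 v)
  · refine Eq.trans ?_ (if_pos fun v hv => ⟨hfix' v hv, ?_⟩).symm
    · refine Eq.trans (congrArg (fun r : ℝ => (r : ℂ)) (if_pos hc)) ?_
      rw [Complex.ofReal_prod]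
      exact Finset.prod_congr rfl fun v hv => (if_pos (hloc v hv)).symm
    · funext u
      obtain ⟨u, hu⟩ := u
      cases hu
      show z.1 u = G.low (resF x u) ⟨u, rfl⟩
      rw [(hc u hv).2]
      exact (G.low_lift (v := u) hv _).symm
  · refine Eq.trans ((congrArg (fun r : ℝ => (r : ℂ)) (if_neg hc)).trans Complex.ofReal_zero)
      (if_neg fun hh => hc fun v hv => ?_).symm
    obtain ⟨z₀, hz₀, hzl⟩ := G.lift_surj v hv (resF x v) (hfix' v hv)
    have h2 : z.1 v = z₀ := by
      refine (congrFun (hh v hv).2 ⟨v, rfl⟩).trans ?_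
      rw [← hzl]
      exact G.low_lift hv _
    exact ⟨by rw [h2]; exact hz₀, by rw [h2]; exact hzl.symm⟩

end Glue

end FermatAgent.LT.TwistCtx
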