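import Mathlib
import Fermat.Agent.LT.Descent.Glue

/-!
# The geometric terms of a glued class

A weight of the base space for a subgroup of the centraliser is lifted along the gluing data; an
absolutely convergent term of a twisted class then equals the term of its norm.
-/

set_option autoImplicit false

noncomputable section

open Matrix IsDedekindDomain NumberField Filter MeasureTheory
open scoped MatrixGroups ENNReal ComplexConjugate

namespace FermatAgent.LT.TwistCtx

variable {K L : Type*} [Field K] [NumberField K] [Field L] [NumberField L] [Algebra K L]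
  {X : TwistCtx K L} {B : X.Over}

omit [NumberField K] [NumberField L] [Algebra K L] in
/-- The map of groups induced by a field homomorphism is injective. -/
lemma g2Map_injective (φ : K →+* L) : Function.Injective (g2Map φ) := by
  refine (injective_iff_map_eq_one _).mpr fun g hg => ?_
  induction g using Matrix.ProjGenLinGroup.induction_on with | mk g =>
  rw [ProjGenLinGroup.map_mk, ← map_one ProjGenLinGroup.mk,
    Matrix.ProjGenLinGroup.mk_eq_mk_iff] at hg
  obtain ⟨u, hu⟩ := hg
  have e := congrArg Units.val hu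
  have e00 := congrFun (congrFun e 0) 0
  have e01 := congrFun (congrFun e 0) 1
  have e10 := congrFun (congrFun e 1) 0
  have e11 := congrFun (congrFun e 1) 1
  simp [GeneralLinearGroup.coe_scalar, Matrix.mul_apply, Fin.sum_univ_two] at e00 e01 e10 e11
  have h01 : g.val 0 1 = 0 := e01
  have h10 : g.val 1 0 = 0 := e10
  have h00 : g.val 0 0 ≠ 0 := fun h => (GeneralLinearGroup.det g).ne_zero (by
    show g.val.det = 0
    simp [Matrix.det_fin_two, h, h01])
  have hd : g.val 0 0 = g.val 1 1 := φ.injective (mul_right_cancel₀ u.ne_zero (e00.trans e11.symm))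
  have e' : g = GeneralLinearGroup.scalar (Fin 2) (Units.mk0 _ h00) := by
    apply Units.ext
    ext i j
    fin_cases i <;> fin_cases j <;> simp [GeneralLinearGroup.coe_scalar, h01, h10, hd]
  rw [e', ProjGenLinGroup.mk_scalar]

/-- The projection commutes with the base group. -/
lemma proj_smul (X : TwistCtx K L) (h : G2 K) (p : InfPts L) :
    X.proj (incl (K := K) (L := L) h • p) = h • X.proj p := by
  funext v'
  rw [infPts_smul_apply, X.uniq v']
  induction h using Matrix.ProjGenLinGroup.induction_on with | mk g =>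
  show twistPt (algebraMap K L) (X.T.e 0) _ = _
  rw [infPts_smul_apply]
  simp only [incl, g2Map, ProjGenLinGroup.map_mk, H3.mk_smul]
  rw [twistPt_smul, X.comap_e_zero]
  rfl

/-- The projection is measurable. -/
lemma measurable_proj (X : TwistCtx K L) : Measurable X.proj :=
  measurable_pi_lambda _ fun _ =>
    (measurePreserving_twistPt _ _).measurable.comp (measurable_pi_apply _)

/-- The projection does not charge null sets. -/
lemma qmp_proj (X : TwistCtx K L) :
    Measure.QuasiMeasurePreserving X.proj (Measure.pi fun _ : InfinitePlace L => H3.vol)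
      (Measure.pi fun _ : InfinitePlace K => H3.vol) := by
  have : Unique (InfinitePlace K) := ⟨⟨X.v⟩, fun w => X.uniq w⟩
  have h1 := ((measurePreserving_funUnique H3.vol (InfinitePlace K)).symm
    (MeasurableEquiv.funUnique (InfinitePlace K) H3)).quasiMeasurePreserving
  have h2 := (measurePreserving_twistPt (algebraMap K L) (X.T.e 0)).quasiMeasurePreserving
  have h3 := (h1.comp h2).comp (Measure.quasiMeasurePreserving_eval (fun _ => H3.vol) (X.T.e 0))
  convert h3 using 3
  · rename_i e
    rfl

/-- The identity semilinear map below. -/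
def σK (X : TwistCtx K L) : Semilin X.UK where
  sg := MonoidHom.id _
  map := id
  meas := measurable_id
  map_smul _ _ := rfl

/-- The term of a class below. -/
lemma σK_term (X : TwistCtx K L) (k : PtKer X.UK) (δ : G2 K) (y : Space X.UK) :
    X.σK.term k δ y = k.k (δ • y) y := rfl

/-- A weight on the base space summing to one along a subgroup `H`. -/
structure BaseWt (X : TwistCtx K L) (H : Subgroup (G2 K)) where
  /-- the weight -/
  θ : Space X.UK → ℝ
  meas : Measurable θ
  nonneg : ∀ y, 0 ≤ θ y
  sum_eq : ∀ᵐ y ∂Space.vol X.UK, HasSum (fun h : H => θ ((h : G2 K) • y)) 1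

open Classical in
/-- Fundamental domains give weights. -/
def BaseWt.ofDomain (X : TwistCtx K L) (H : Subgroup (G2 K)) : BaseWt X H where
  θ := (Space.exists_fundamentalDomain X.UK H).choose.indicator fun _ => 1
  meas := measurable_const.indicator (Space.exists_fundamentalDomain X.UK H).choose_spec.1
  nonneg y := Set.indicator_nonneg (fun _ _ => zero_le_one) y
  sum_eq := Space.ae_hasSum_indicator H (Space.exists_fundamentalDomain X.UK H).choose_spec.2

namespace Glue

variable {P : KerPair B} {γ : G2 L} {δ : G2 K} {H : Subgroup (G2 K)} (G : Glue P γ δ H)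

/-- The lifted weight, with values in `ℝ≥0∞`. -/
def lifte (θ : Space X.UK → ℝ) (y : Space X.UL) : ℝ≥0∞ :=
  ∑' z : FinCoset X.UK, ENNReal.ofReal (G.W y.2 z * θ (X.proj y.1, z))

/-- The lifted weight. -/
def lift' (θ : Space X.UK → ℝ) (y : Space X.UL) : ℝ := (G.lifte θ y).toReal

lemma measurable_lifte {θ : Space X.UK → ℝ} (hθ : Measurable θ) : Measurable (G.lifte θ) := by
  refine Measurable.tsum fun z => Measurable.ennreal_ofReal ?_
  exact (((measurable_of_countable fun x => G.W x z).comp measurable_snd)).mul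
    (hθ.comp ((X.measurable_proj.comp measurable_fst).prodMk measurable_const))

lemma kfin_ne_zero_of_term {y : Space X.UL} (hy : X.σ.term P.up.toPtKer γ y ≠ 0) :
    P.up.kfin (X.finTwist γ y.2) y.2 ≠ 0 := by
  have : P.up.kinf (γ • (X.σ.map y).1) y.1 * P.up.kfin (X.finTwist γ y.2) y.2 ≠ 0 := hy
  exact right_ne_zero_of_mul this

variable (θ : BaseWt X H)

omit G in
lemma ae_good : ∀ᵐ y ∂Space.vol X.UL, ∀ z : FinCoset X.UK,
    HasSum (fun h : H => θ.θ ((h : G2 K) • ((X.proj y.1, z) : Space X.UK))) 1 := by
  refine ae_all_iff.mpr fun z => ?_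
  have h1 : ∀ᵐ p ∂(Measure.pi fun _ : InfinitePlace K => H3.vol),
      HasSum (fun h : H => θ.θ ((h : G2 K) • ((p, z) : Space X.UK))) 1 := by
    have := θ.sum_eq
    rw [Space.vol, ae_iff] at this
    rw [ae_iff]
    refine measure_mono_null (t := (fun p => ((p, z) : Space X.UK)) ⁻¹'
      {y | ¬HasSum (fun h : H => θ.θ ((h : G2 K) • y)) 1}) (fun p hp => hp) ?_
    set Sbad := {y : Space X.UK | ¬HasSum (fun h : H => θ.θ ((h : G2 K) • y)) 1}
    set μ := Measure.pi fun _ : InfinitePlace K => H3.vol
    have h2 : (μ.prod Measure.count) (((fun p => ((p, z) : Space X.UK)) ⁻¹' Sbad) ×ˢ {z}) = 0 :=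
      measure_mono_null (fun q hq => by
        obtain ⟨h3, h4⟩ := hq
        rw [Set.mem_singleton_iff] at h4
        show q ∈ Sbad
        rw [show q = (q.1, z) from Prod.ext rfl h4]
        exact h3) this
    rw [Measure.prod_prod, Measure.count_singleton, mul_one] at h2
    exact h2
  exact (Measure.quasiMeasurePreserving_fst.ae (X.qmp_proj.ae h1))

include G in
lemma hasSum_lift {y : Space X.UL} (hgood : ∀ z : FinCoset X.UK,
      HasSum (fun h : H => θ.θ ((h : G2 K) • ((X.proj y.1, z) : Space X.UK))) 1)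
    (hy : X.σ.term P.up.toPtKer γ y ≠ 0) :
    HasSum (fun h : H => G.lift' θ.θ (incl (K := K) (L := L) (h : G2 K) • y)) 1 := by
  have key : ∀ h : H, G.lifte θ.θ (incl (K := K) (L := L) (h : G2 K) • y) =
      ∑' z : FinCoset X.UK, ENNReal.ofReal (G.W y.2 z) *
        ENNReal.ofReal (θ.θ ((h : G2 K) • ((X.proj y.1, z) : Space X.UK))) := by
    intro h
    unfold lifte
    rw [← (MulAction.toPerm (h : G2 K)).tsum_eq]
    refine tsum_congr fun z => ?_
    rw [← ENNReal.ofReal_mul (G.W_nonneg _ _)]
    simp only [MulAction.toPerm_apply, Prod.smul_snd, Prod.smul_fst, X.proj_smul,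
      G.W_smul h.2]
    rfl
  have htot : ∑' h : H, G.lifte θ.θ (incl (K := K) (L := L) (h : G2 K) • y) = 1 := by
    simp only [key]
    rw [ENNReal.tsum_comm]
    have h1 : ∀ z : FinCoset X.UK, ∑' h : H,
        ENNReal.ofReal (θ.θ ((h : G2 K) • ((X.proj y.1, z) : Space X.UK))) = 1 := fun z => by
      rw [← ENNReal.ofReal_tsum_of_nonneg (fun h => θ.nonneg _) (hgood z).summable,
        (hgood z).tsum_eq, ENNReal.ofReal_one]
    simp only [ENNReal.tsum_mul_left, h1, mul_one]
    have h2 := G.hasSum_z y.2 (kfin_ne_zero_of_term hy)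
    rw [← ENNReal.ofReal_tsum_of_nonneg (fun z => G.W_nonneg _ _) h2.summable, h2.tsum_eq,
      ENNReal.ofReal_one]
  have hsum := ENNReal.hasSum_toReal (f := fun h : H =>
    G.lifte θ.θ (incl (K := K) (L := L) (h : G2 K) • y)) (by rw [htot]; exact ENNReal.one_ne_top)
  have e := ENNReal.tsum_toReal_eq (f := fun h : H =>
      G.lifte θ.θ (incl (K := K) (L := L) (h : G2 K) • y)) fun h =>
    ne_top_of_le_ne_top (b := ∑' h : H, G.lifte θ.θ (incl (K := K) (L := L) (h : G2 K) • y))
      (by rw [htot]; exact ENNReal.one_ne_top) (ENNReal.le_tsum h)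
  rw [← e, htot, ENNReal.toReal_one] at hsum
  exact hsum

/-- The subgroup of the twisted centraliser carried by the base. -/
def subC (_ : Glue P γ δ H) : Subgroup (X.σ.centralizer γ) :=
  (H.map (incl (K := K) (L := L))).subgroupOf _

open Classical in
/-- The lifted weight of the twisted class. -/
def wt [G.subC.FiniteIndex] : X.σ.Wt P.up.toPtKer γ where
  Θ := G.lift' θ.θ
  meas := (G.measurable_lifte θ.meas).ennreal_toReal
  nonneg y := ENNReal.toReal_nonneg
  m := G.subC.index
  m_pos := Nat.pos_of_ne_zero Subgroup.FiniteIndex.index_ne_zero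
  sum_eq := by
    have hae : ∀ᵐ y ∂Space.vol X.UL, ∀ r : X.σ.centralizer γ, ∀ z : FinCoset X.UK,
        HasSum (fun h : H => θ.θ ((h : G2 K) • ((X.proj ((r : G2 L) • y).1, z) : Space X.UK))) 1 :=
      ae_all_iff.mpr fun r =>
        (measurePreserving_smul (r : G2 L) (Space.vol X.UL)).quasiMeasurePreserving.ae (ae_good θ)
    filter_upwards [hae] with y hy hne
    refine hasSum_of_subgroup G.subC (fun h => G.lift' θ.θ ((h : G2 L) • y)) fun r => ?_
    have hne' : X.σ.term P.up.toPtKer γ ((r : G2 L) • y) ≠ 0 := by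
      rw [Semilin.term_smul, show X.σ.conj ((r : G2 L))⁻¹ γ = γ from inv_mem r.2]
      exact hne
    let e : H → G.subC := fun h => ⟨⟨incl (h : G2 K), G.mem_twisted h h.2⟩, ⟨h, h.2, rfl⟩⟩
    have he : Function.Bijective e := by
      refine ⟨fun a b hab => Subtype.ext ((g2Map_injective (algebraMap K L)) ?_), fun c => ?_⟩
      · exact congrArg (fun x : G.subC => ((x : X.σ.centralizer γ) : G2 L)) hab
      · obtain ⟨⟨c, hc⟩, h, hh, e'⟩ := c
        exact ⟨⟨h, hh⟩, Subtype.ext (Subtype.ext e')⟩
    rw [← (Equiv.ofBijective e he).hasSum_iff]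
    refine (G.hasSum_lift θ (hy r) hne').congr_fun fun h => ?_
    show G.lift' θ.θ (((incl (K := K) (L := L) (h : G2 K)) * (r : G2 L)) • y) = _
    rw [mul_smul]

end Glue

end FermatAgent.LT.TwistCtx

namespace FermatAgent.LT.TwistCtx

variable {K L : Type*} [Field K] [NumberField K] [Field L] [NumberField L] [Algebra K L]
  {X : TwistCtx K L} {B : X.Over}

/-- The sum over the cosets below of the finite kernel at `δ` times the integral at infinity of
the composite kernel against a weight. -/
def baseSum (X : TwistCtx K L) {B : X.Over} (P : KerPair B) (δ : G2 K) (θ : Space X.UK → ℝ) : ℂ :=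
  ∑' z : FinCoset X.UK, P.down.kfin (δ • z) z * ∫ p : InfPts K, (θ (p, z) : ℂ) *
    (P.k.comp (P.k.comp P.k)).k ((δ • p) X.v) (p X.v)
      ∂(Measure.pi fun _ : InfinitePlace K => H3.vol)

/-- The integral of a weighted term below is the sum over cosets of finite part times archimedean
integral. -/
theorem integral_base (P : KerPair B) (δ : G2 K) (θ : Space X.UK → ℝ)
    (hint : Integrable (fun y => X.σK.term P.down.toPtKer δ y * θ y) (Space.vol X.UK)) :
    ∫ y, X.σK.term P.down.toPtKer δ y * θ y ∂Space.vol X.UK = X.baseSum P δ θ := by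
  unfold baseSum
  rw [Space.vol, integral_prod_symm _ hint, integral_countable hint.integral_prod_right]
  simp only [measureReal_def, Measure.count_singleton, ENNReal.toReal_one, one_smul]
  refine tsum_congr fun z => ?_
  rw [← integral_const_mul]
  refine integral_congr_ae (ae_of_all _ fun p => ?_)
  show P.down.kinf (δ • p) p * P.down.kfin (δ • z) z * (θ (p, z) : ℂ) = _
  rw [P.down_kinf]
  ring

namespace Glue

variable {P : KerPair B} {γ : G2 L} {δ : G2 K} {H : Subgroup (G2 K)} (G : Glue P γ δ H)
  (θ : BaseWt X H) [G.subC.FiniteIndex]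

open Classical in
include G θ in
/-- An absolutely convergent glued class above integrates to the base sum of its norm, divided by
the index. -/
theorem integral_class {s : Set (Space X.UL)}
    (hs : IsFundamentalDomain (G2 L) s (Space.vol X.UL))
    (hfin : ∫⁻ x in s, Semilin.absCls X.σ P.up.toPtKer (X.σ.cls γ) x ∂Space.vol X.UL ≠ ⊤) :
    (G.subC.index : ℂ) * ∫ x in s, X.σ.sumOn P.up.toPtKer (X.σ.cls γ) x ∂Space.vol X.UL =
      X.baseSum P δ θ.θ := by
  have henorm : ∀ (a : ℂ) (r : ℝ), 0 ≤ r → ‖a * (r : ℂ)‖ₑ = ‖a‖ₑ * ENNReal.ofReal r :=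
    fun a r hr => by
    rw [← ofReal_norm, norm_mul, Complex.norm_real, Real.norm_eq_abs, abs_of_nonneg hr,
      ENNReal.ofReal_mul (norm_nonneg a), ofReal_norm]
  set W := G.wt θ
  have hWm : (W.m : ℕ) = G.subC.index := rfl
  have h0 := W.lintegral_cls (χ := fun _ => 1) measurable_const (fun _ _ => rfl) hs
  simp only [ENNReal.ofReal_one, mul_one] at h0
  set T : Space X.UL × FinCoset X.UK → ℂ := fun q =>
    X.σ.term P.up.toPtKer γ q.1 * ((G.W q.1.2 q.2 : ℂ) * (θ.θ (X.proj q.1.1, q.2) : ℂ))
  have hTm : Measurable T := by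
    refine ((X.σ.measurable_term _ γ).comp measurable_fst).mul (Measurable.mul ?_ ?_)
    · exact Complex.measurable_ofReal.comp ((measurable_of_countable
        fun q : FinCoset X.UL × FinCoset X.UK =>
          G.W q.1 q.2).comp ((measurable_snd.comp measurable_fst).prodMk measurable_snd))
    · exact Complex.measurable_ofReal.comp (θ.meas.comp
        ((X.measurable_proj.comp (measurable_fst.comp measurable_fst)).prodMk measurable_snd))
  have hTe : ∀ y, ∑' z, ‖T (y, z)‖ₑ =
      ‖X.σ.term P.up.toPtKer γ y‖ₑ * G.lifte θ.θ y := by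
    intro y
    rw [lifte, ← ENNReal.tsum_mul_left]
    refine tsum_congr fun z => ?_
    simp only [T, ← Complex.ofReal_mul]
    exact henorm _ _ (mul_nonneg (G.W_nonneg _ _) (θ.nonneg _))
  have hlt : ∀ᵐ y ∂Space.vol X.UL, ‖X.σ.term P.up.toPtKer γ y‖ₑ * G.lifte θ.θ y =
      ‖X.σ.term P.up.toPtKer γ y‖ₑ * ENNReal.ofReal (W.Θ y) := by
    filter_upwards [ae_good θ] with y hy
    by_cases hne : X.σ.term P.up.toPtKer γ y = 0
    · simp [hne]
    congr 1
    show _ = ENNReal.ofReal (G.lifte θ.θ y).toReal
    refine (ENNReal.ofReal_toReal ?_).symm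
    have hfin1 : G.lifte θ.θ y ≤ ∑' z : FinCoset X.UK, ENNReal.ofReal (G.W y.2 z) := by
      refine ENNReal.tsum_le_tsum fun z => ?_
      refine ENNReal.ofReal_le_ofReal (mul_le_of_le_one_right (G.W_nonneg _ _) ?_)
      have h := (hy z)
      have := le_hasSum h (1 : H) fun h _ => θ.nonneg _
      simpa using this
    refine ne_top_of_le_ne_top ?_ hfin1
    have h2 := G.hasSum_z y.2 (kfin_ne_zero_of_term hne)
    rw [← ENNReal.ofReal_tsum_of_nonneg (fun z => G.W_nonneg _ _) h2.summable]
    exact ENNReal.ofReal_ne_top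
  have hint : Integrable T ((Space.vol X.UL).prod Measure.count) := by
    refine ⟨hTm.aestronglyMeasurable, ?_⟩
    rw [HasFiniteIntegral, lintegral_prod _ hTm.enorm.aemeasurable]
    simp only [lintegral_count, hTe]
    rw [lintegral_congr_ae hlt, ← h0]
    exact ENNReal.mul_lt_top (ENNReal.natCast_ne_top _).lt_top hfin.lt_top
  have hsum : ∀ᵐ y ∂Space.vol X.UL,
      ∑' z, T (y, z) = X.σ.term P.up.toPtKer γ y * (W.Θ y : ℂ) := by
    refine Eventually.of_forall fun y => ?_
    simp only [T, tsum_mul_left]
    congr 1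
    show _ = ((G.lifte θ.θ y).toReal : ℂ)
    rw [lifte, ENNReal.tsum_toReal_eq fun z => ENNReal.ofReal_ne_top]
    push_cast
    refine tsum_congr fun z => ?_
    rw [ENNReal.toReal_ofReal (mul_nonneg (G.W_nonneg _ _) (θ.nonneg _))]
    push_cast
    rfl
  have hi : Integrable (fun y => X.σ.term P.up.toPtKer γ y * (W.Θ y : ℂ) * ((1 : ℝ) : ℂ))
      (Space.vol X.UL) := by simpa using W.integrable_term hs hfin
  have h1 := W.integral_cls (χ := fun _ => 1) measurable_const (fun _ _ => rfl) hi hs
  simp only [Complex.ofReal_one, mul_one, hWm] at h1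
  rw [h1, ← integral_congr_ae hsum, X.integral_push γ δ G.norm_eq P.k P.flip P.up (fun _ => rfl)
    (fun x z => (G.W x z : ℂ)) (fun z => P.down.kfin (δ • z) z) G.hasSum_x
    (fun y => (θ.θ y : ℂ)) hint]
  rfl

end Glue

end FermatAgent.LT.TwistCtx
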