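import Mathlib
import Fermat.Agent.LT.Descent.Push

/-!
# Types of twisted classes and boundedness of their sums

Twisted classes are sorted by their norms: without rational eigenline, with two, with one.
-/

set_option autoImplicit false

noncomputable section

open Matrix IsDedekindDomain NumberField Filter MeasureTheory
open scoped MatrixGroups ENNReal ComplexConjugate

namespace FermatAgent.LT

section Predicates

variable {F : Type*} [Field F]

/-- A rational eigenline. -/
def HasLine (g : G2 F) : Prop :=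
  ∃ h : GL (Fin 2) F, ProjGenLinGroup.mk h = g ∧
    ∃ ξ : Fin 2 → F, ξ ≠ 0 ∧ ∃ a : F, ξ ᵥ* h.val = a • ξ

/-- Equal eigenvalues. -/
def IsUnip (g : G2 F) : Prop :=
  ∃ h : GL (Fin 2) F, ProjGenLinGroup.mk h = g ∧ h.val.trace ^ 2 = 4 * h.val.det

/-- A class has a line iff it has an eigenvector. -/
lemma hasLine_mk {h : GL (Fin 2) F} :
    HasLine (ProjGenLinGroup.mk h) ↔ ∃ ξ : Fin 2 → F, ξ ≠ 0 ∧ ∃ a : F, ξ ᵥ* h.val = a • ξ := by
  refine ⟨?_, fun h1 => ⟨h, rfl, h1⟩⟩
  rintro ⟨h', he, ξ, hξ, a, ha⟩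
  obtain ⟨u, hu⟩ := Matrix.ProjGenLinGroup.mk_eq_mk_iff.mp he
  refine ⟨ξ, hξ, a * (u : F), ?_⟩
  rw [← hu]
  simp only [Units.val_mul, GeneralLinearGroup.coe_scalar, ← Matrix.vecMul_vecMul, ha]
  ext i
  fin_cases i <;> simp [Matrix.vecMul, dotProduct, Fin.sum_univ_two] <;> ring

/-- Unipotence through trace and determinant. -/
lemma isUnip_mk {h : GL (Fin 2) F} :
    IsUnip (ProjGenLinGroup.mk h) ↔ h.val.trace ^ 2 = 4 * h.val.det := by
  refine ⟨?_, fun h1 => ⟨h, rfl, h1⟩⟩
  rintro ⟨h', he, h1⟩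
  obtain ⟨u, hu⟩ := Matrix.ProjGenLinGroup.mk_eq_mk_iff.mp he
  rw [← hu]
  simp [GeneralLinearGroup.coe_scalar, Matrix.trace_fin_two, Matrix.det_fin_two,
    Matrix.mul_apply, Fin.sum_univ_two] at h1 ⊢
  linear_combination ((u : F) ^ 2) * h1

/-- Having a line is invariant under conjugation. -/
lemma hasLine_conj (g a : G2 F) : HasLine (g * a * g⁻¹) ↔ HasLine a := by
  suffices key : ∀ g a : G2 F, HasLine a → HasLine (g * a * g⁻¹) by
    refine ⟨fun h => ?_, key g a⟩
    have := key g⁻¹ _ h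
    simpa [mul_assoc] using this
  intro g a h
  obtain ⟨h, rfl, ξ, hξ, c, hc⟩ := h
  obtain ⟨g, rfl⟩ := ProjGenLinGroup.mk_surjective g
  refine ⟨g * h * g⁻¹, by simp, ξ ᵥ* (g⁻¹).val, fun h0 => hξ ?_, c, ?_⟩
  · have := congrArg (fun x => x ᵥ* g.val) h0
    simpa [Matrix.vecMul_vecMul, ← Units.val_mul] using this
  · rw [Units.val_mul, Units.val_mul, Matrix.vecMul_vecMul, ← mul_assoc, ← mul_assoc,
      Units.inv_mul, Matrix.one_mul, ← Matrix.vecMul_vecMul, hc, Matrix.smul_vecMul]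

/-- Unipotence is invariant under conjugation. -/
lemma isUnip_conj (g a : G2 F) : IsUnip (g * a * g⁻¹) ↔ IsUnip a := by
  obtain ⟨h, rfl⟩ := ProjGenLinGroup.mk_surjective a
  obtain ⟨g, rfl⟩ := ProjGenLinGroup.mk_surjective g
  rw [← map_inv, ← map_mul, ← map_mul, isUnip_mk, isUnip_mk, Units.val_mul, Units.val_mul,
    Matrix.trace_mul_cycle, ← Units.val_mul, inv_mul_cancel, Units.val_one, Matrix.one_mul]
  simp only [Matrix.det_mul]
  have h1 : g.val.det * (g⁻¹).val.det = 1 := by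
    rw [← Matrix.det_mul, ← Units.val_mul, mul_inv_cancel, Units.val_one, Matrix.det_one]
  constructor <;> intro e
  · linear_combination e + 4 * h.val.det * h1
  · linear_combination e - 4 * h.val.det * h1

/-- Triangular classes have lines. -/
lemma hasLine_upper {h : GL (Fin 2) F} (h0 : h.val 1 0 = 0) : HasLine (ProjGenLinGroup.mk h) := by
  refine hasLine_mk.mpr ⟨![0, 1], fun e => by simpa using congrFun e 1, h.val 1 1, ?_⟩
  ext i
  fin_cases i <;> simp [Matrix.vecMul, dotProduct, Fin.sum_univ_two, h0]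

/-- Unipotent classes have lines. -/
lemma IsUnip.hasLine [CharZero F] {g : G2 F} (hg : IsUnip g) : HasLine g := by
  obtain ⟨h, rfl, h1⟩ := hg
  simp only [Matrix.trace_fin_two, Matrix.det_fin_two] at h1
  by_cases h0 : h.val 1 0 = 0
  · exact hasLine_upper h0
  refine hasLine_mk.mpr ⟨![2 * h.val 1 0, h.val 1 1 - h.val 0 0], fun e => ?_,
    (h.val 0 0 + h.val 1 1) / 2, ?_⟩
  · simpa [h0] using congrFun e 0
  ext i
  fin_cases i <;> simp [Matrix.vecMul, dotProduct, Fin.sum_univ_two] <;> field_simp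
  · ring
  · linear_combination h1

end Predicates

namespace TwistCtx

variable {K L : Type*} [Field K] [NumberField K] [Field L] [NumberField L] [Algebra K L]
  (X : TwistCtx K L)

/-- The norm intertwines conjugations. -/
lemma nrm_conj (g c : G2 L) : X.T.nrm (X.σ.conj g c) = g * X.T.nrm c * g⁻¹ := by
  set s := g2Map (X.τ : L →+* L)
  have h3 : s (s (s g)) = g := by
    induction g using Matrix.ProjGenLinGroup.induction_on with | mk g =>
    simp only [s, ProjGenLinGroup.map_mk]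
    congr 1
    apply Units.ext
    ext i j
    simp [X.T.cube]
  show g * c * (s g)⁻¹ * s (g * c * (s g)⁻¹) * s (s (g * c * (s g)⁻¹)) =
    g * (c * s c * s (s c)) * g⁻¹
  simp only [map_mul, map_inv, h3]
  group

/-- Classes whose norm is trivial. -/
def idSet : Set (G2 L) := {c | X.T.nrm c = 1}

/-- The elements whose norm has equal eigenvalues, those of norm one included. -/
def parSet : Set (G2 L) := {c | IsUnip (X.T.nrm c)}

/-- Classes whose norm has two rational eigenlines. -/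
def hypSet : Set (G2 L) := {c | HasLine (X.T.nrm c) ∧ ¬IsUnip (X.T.nrm c)}

/-- Classes whose norm has no rational eigenline. -/
def ellSet : Set (G2 L) := {c | ¬HasLine (X.T.nrm c)}

/-- The identity classes are stable. -/
lemma stable_idSet : X.σ.Stable X.idSet := fun g c (hc : X.T.nrm c = 1) => by
  show X.T.nrm _ = 1
  rw [nrm_conj, hc, mul_one, mul_inv_cancel]

/-- The parabolic classes are stable. -/
lemma stable_parSet : X.σ.Stable X.parSet := fun g c (hc : IsUnip _) => by
  show IsUnip _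
  rwa [nrm_conj, isUnip_conj]

/-- The hyperbolic classes are stable. -/
lemma stable_hypSet : X.σ.Stable X.hypSet := fun g c (hc : _ ∧ _) => by
  show _ ∧ _
  rwa [nrm_conj, isUnip_conj, hasLine_conj]

/-- The elliptic classes are stable. -/
lemma stable_ellSet : X.σ.Stable X.ellSet := fun g c (hc : ¬ _) => by
  show ¬ _
  rwa [nrm_conj, hasLine_conj]

/-- The types exhaust the group. -/
lemma union_types : X.ellSet ∪ (X.hypSet ∪ X.parSet) = Set.univ := by
  ext c
  simp only [ellSet, hypSet, parSet, Set.mem_union, Set.mem_ofPred_eq, Set.mem_univ, iff_true]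
  tauto

/-- The type of an upper triangular element depends on the diagonal only. -/
lemma nrm_upper (α : Lˣ) (β : L) :
    ∃ h : GL (Fin 2) L, ProjGenLinGroup.mk h = X.T.nrm (ProjGenLinGroup.mk (uB β * dB α))⁻¹ ∧
      h.val 1 0 = 0 ∧ h.val 1 1 = 1 ∧
      h.val 0 0 = ((α : L) * X.τ α * X.τ (X.τ α))⁻¹ := by
  let s : GL (Fin 2) L →* GL (Fin 2) L := GeneralLinearGroup.map (X.τ : L →+* L)
  refine ⟨(uB β * dB α)⁻¹ * s (uB β * dB α)⁻¹ * s (s (uB β * dB α)⁻¹), ?_, ?_⟩
  · simp only [InfCycle.nrm, g2Map, map_mul, map_inv, ProjGenLinGroup.map_mk, s]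
  have hinv : (uB β * dB α)⁻¹ = GeneralLinearGroup.mkOfDetNeZero
      !![(α : L)⁻¹, -β / (α : L); 0, 1] (by simp [Matrix.det_fin_two]) := by
    refine inv_eq_of_mul_eq_one_right (Units.ext ?_)
    ext i j
    fin_cases i <;> fin_cases j <;>
      simp [GeneralLinearGroup.mkOfDetNeZero, Matrix.mul_apply, Fin.sum_univ_two]
    field_simp
    ring
  simp only [hinv]
  refine ⟨?_, ?_, ?_⟩ <;>
    simp [s, GeneralLinearGroup.mkOfDetNeZero, Matrix.mul_apply, Fin.sum_univ_two, Matrix.vecMul,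
      dotProduct, _root_.mul_inv_rev]
  ring

lemma upper_mem_iff (α : Lˣ) (β : L) {C : Set (G2 L)}
    (hC : C = X.ellSet ∨ C = X.hypSet ∨ C = X.parSet) :
    (ProjGenLinGroup.mk (uB β * dB α) : G2 L)⁻¹ ∈ C ↔
      (ProjGenLinGroup.mk (dB α) : G2 L)⁻¹ ∈ C := by
  have hone : uB (0 : L) * dB α = dB α := by
    apply Units.ext
    ext i j
    fin_cases i <;> fin_cases j <;> simp [Matrix.mul_apply, Fin.sum_univ_two]
  obtain ⟨h, e, h10, h11, h00⟩ := X.nrm_upper α β
  obtain ⟨h', e', h10', h11', h00'⟩ := X.nrm_upper α 0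
  rw [hone] at e'
  rcases hC with rfl | rfl | rfl
  · simp only [ellSet, Set.mem_ofPred_eq, ← e, ← e', hasLine_upper h10, hasLine_upper h10']
  · simp only [hypSet, Set.mem_ofPred_eq, ← e, ← e', hasLine_upper h10, hasLine_upper h10',
      true_and, isUnip_mk, Matrix.trace_fin_two, Matrix.det_fin_two, h10, h10',
      h11, h11', h00, h00',
      mul_zero]
  · simp only [parSet, Set.mem_ofPred_eq, ← e, ← e', isUnip_mk, Matrix.trace_fin_two,
      Matrix.det_fin_two, h10, h10', h11, h11', h00, h00', mul_zero]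

variable [IsTotallyComplex L]

/-- The sums over elliptic classes are bounded, and those over the other two types too for
kernels with bounded translates. -/
theorem bounded_sumOn_of (hU : X.UL.IsCongr) (k : PtKer X.UL)
    {C : Set (G2 L)} (hC : C = X.ellSet ∨ C = X.hypSet ∨ C = X.parSet)
    (hk : C = X.ellSet ∨ k.HasTransBound) :
    ∃ B, ∀ x, ‖X.σ.sumOn k C x‖ ≤ B := by
  classical
  obtain ⟨C₀, Bz, c₀, -, hc₀, hSieg⟩ := exists_siegel hU
  obtain ⟨B, hB⟩ :=
    k.bounded_sum_of (S₀ := {γ | γ⁻¹ ∈ C}) (fun ⟨α, hα⟩ => hk.resolve_left fun hE => by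
      obtain ⟨h, e, h10, -⟩ := X.nrm_upper α 0
      rw [show uB (0 : L) * dB α = dB α by
        ext i j; fin_cases i <;> fin_cases j <;> simp [Matrix.mul_apply, Fin.sum_univ_two]] at e
      subst hE
      exact (show ¬HasLine _ from hα) (e ▸ hasLine_upper h10))
    (C₀ ∪ C₀.image (LevelHom.ofAut X.stable).finMap) Bz hc₀ fun α β => X.upper_mem_iff α β hC
  have hstab : X.σ.Stable C := by
    rcases hC with rfl | rfl | rfl
    exacts [X.stable_ellSet, X.stable_hypSet, X.stable_parSet]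
  refine ⟨B, fun x₀ => ?_⟩
  obtain ⟨g, hg⟩ := hSieg x₀
  rw [← X.σ.sumOn_smul k hstab g]
  set x := g • x₀
  have hσx : X.σ.map x ∈ siegelSet X.UL (C₀ ∪ C₀.image (LevelHom.ofAut X.stable).finMap) Bz c₀ := by
    refine ⟨fun w => ?_, Finset.mem_union_right _ (Finset.mem_image_of_mem _ hg.2)⟩
    have hw : ∀ w : InfinitePlace L, ‖((X.σ.map x).1 w).z‖ = ‖(x.1 (w.comap (X.τ : L →+* L))).z‖ ∧
        ((X.σ.map x).1 w).t = (x.1 (w.comap (X.τ : L →+* L))).t := fun w => by
      show ‖(twistPt _ w _).z‖ = _ ∧ (twistPt _ w _).t = _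
      unfold twistPt
      split_ifs <;> simp [H3.flip]
    refine ⟨(hw w).1.trans_le (hg.1 _).1, (hg.1 _).2.1.trans_eq (hw w).2.symm, fun w' => ?_⟩
    rw [(hw w).2, (hw w').2]
    exact (hg.1 _).2.2 _
  refine le_of_eq_of_le ?_ (hB _ hσx x ⟨hg.1, Finset.mem_union_left _ hg.2⟩)
  unfold Semilin.sumOn
  rw [← (Equiv.inv (G2 L)).tsum_eq]
  congr 1
  refine tsum_congr fun γ => ?_
  simp only [Set.indicator_apply, Equiv.inv_apply, Set.mem_ofPred_eq]
  split_ifs with h
  · show k.k (γ⁻¹ • X.σ.map x) x = _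
    rw [← k.inv γ, smul_inv_smul]
  · rfl

end TwistCtx

end FermatAgent.LT
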