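import Mathlib
import Fermat.Agent.LT.Descent.GlueInt
import Fermat.Agent.LT.Descent.Decomp
import Fermat.Agent.LT.Descent.Types

/-!
# Elliptic classes

Sums of absolute values over classes without rational eigenline are bounded, so the elliptic part
splits into classes, which are matched through the norm.
-/

set_option autoImplicit false

noncomputable section

open Matrix IsDedekindDomain NumberField Filter MeasureTheory
open scoped MatrixGroups ENNReal ComplexConjugate

namespace FermatAgent.LT

/-- The kernel of absolute values. -/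
def PtKer.absKer {L : Type*} [Field L] [NumberField L] {U : Level L} (k : PtKer U) : PtKer U where
  k x y := (‖k.k x y‖ : ℂ)
  meas := Complex.measurable_ofReal.comp k.meas.norm
  inv g x y := by rw [k.inv]
  C := k.C
  C_nonneg := k.C_nonneg
  bound x y := by simpa using k.bound x y
  ρ := k.ρ
  nbr := k.nbr
  supp x y h := k.supp x y fun h0 => h (by simp [h0])

lemma Semilin.absCls_eq {L : Type*} [Field L] [NumberField L] {U : Level L} (σ : Semilin U)
    (k : PtKer U) (C : Set (G2 L)) (x : Space U) :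
    Semilin.absCls σ k C x = ENNReal.ofReal ‖σ.sumOn k.absKer C x‖ := by
  classical
  set S := (σ.finite_term k x).toFinset
  have hS : ∀ c ∉ S, σ.term k c x = 0 := fun c hc => by simpa [S] using hc
  have h1 : σ.sumOn k.absKer C x =
      ((∑ c ∈ S, C.indicator (fun c => ‖σ.term k c x‖) c : ℝ) : ℂ) := by
    unfold Semilin.sumOn
    rw [tsum_eq_sum (s := S) fun c hc => ?_]
    · push_cast
      refine Finset.sum_congr rfl fun c _ => ?_
      by_cases h : c ∈ C <;> simp [h]
      rfl
    · by_cases h : c ∈ C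
      · rw [Set.indicator_of_mem h]
        show ((‖σ.term k c x‖ : ℂ)) = 0
        simp [hS c hc]
      · simp [h]
  rw [h1, Complex.norm_real, Real.norm_eq_abs, abs_of_nonneg (Finset.sum_nonneg fun c _ =>
    Set.indicator_nonneg (fun _ _ => norm_nonneg _) c), Semilin.absCls,
    tsum_eq_sum (s := S) fun c hc => by by_cases h : c ∈ C <;> simp [h, hS c hc],
    ENNReal.ofReal_sum_of_nonneg fun c _ => Set.indicator_nonneg (fun _ _ => norm_nonneg _) c]
  refine Finset.sum_congr rfl fun c _ => ?_
  by_cases h : c ∈ C <;> simp [h]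

namespace TwistCtx

variable {K L : Type*} [Field K] [NumberField K] [Field L] [NumberField L] [Algebra K L]
  {X : TwistCtx K L} {B : X.Over}

section Base

variable (P : KerPair B) {δ : G2 K} (H : Subgroup (G2 K))

/-- The subgroup inside the centraliser below. -/
def subK (X : TwistCtx K L) (δ : G2 K) (H : Subgroup (G2 K)) : Subgroup (X.σK.centralizer δ) :=
  H.subgroupOf _

variable {H}

open Classical in
/-- The weight of a class below. -/
def wtK (hH : ∀ h ∈ H, h * δ * h⁻¹ = δ) (θ : BaseWt X H) [(X.subK δ H).FiniteIndex] :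
    X.σK.Wt P.down.toPtKer δ where
  Θ := θ.θ
  meas := θ.meas
  nonneg := θ.nonneg
  m := (X.subK δ H).index
  m_pos := Nat.pos_of_ne_zero Subgroup.FiniteIndex.index_ne_zero
  sum_eq := by
    have hae : ∀ᵐ y ∂Space.vol X.UK, ∀ r : X.σK.centralizer δ,
        HasSum (fun h : H => θ.θ ((h : G2 K) • (r : G2 K) • y)) 1 :=
      ae_all_iff.mpr fun r =>
        (measurePreserving_smul (r : G2 K) (Space.vol X.UK)).quasiMeasurePreserving.ae θ.sum_eq
    filter_upwards [hae] with y hy _
    refine hasSum_of_subgroup (X.subK δ H) (fun h => θ.θ ((h : G2 K) • y)) fun r => ?_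
    let e : H → X.subK δ H := fun h => ⟨⟨(h : G2 K), by
      show (h : G2 K) * δ * ((MonoidHom.id (G2 K)) (h : G2 K))⁻¹ = δ
      exact hH h h.2⟩, h.2⟩
    have he : Function.Bijective e := by
      refine ⟨fun a b hab => Subtype.ext
        (congrArg (fun x : X.subK δ H => ((x : X.σK.centralizer δ) : G2 K)) hab), fun c => ?_⟩
      obtain ⟨⟨c, hc⟩, hh⟩ := c
      exact ⟨⟨c, hh⟩, rfl⟩
    rw [← (Equiv.ofBijective e he).hasSum_iff]
    refine (hy r).congr_fun fun h => ?_
    show θ.θ (((h : G2 K) * (r : G2 K)) • y) = _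
    rw [mul_smul]

open Classical in
/-- An absolutely convergent class below integrates to its base sum, divided by the index. -/
theorem integral_classK (hH : ∀ h ∈ H, h * δ * h⁻¹ = δ) (θ : BaseWt X H)
    [(X.subK δ H).FiniteIndex] {s : Set (Space X.UK)}
    (hs : IsFundamentalDomain (G2 K) s (Space.vol X.UK))
    (hfin : ∫⁻ x in s, Semilin.absCls X.σK P.down.toPtKer (X.σK.cls δ) x ∂Space.vol X.UK ≠ ⊤) :
    ((X.subK δ H).index : ℂ) *
        ∫ x in s, X.σK.sumOn P.down.toPtKer (X.σK.cls δ) x ∂Space.vol X.UK =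
      X.baseSum P δ θ.θ := by
  set W := wtK P hH θ
  have hWm : (W.m : ℕ) = (X.subK δ H).index := rfl
  have hi : Integrable (fun y => X.σK.term P.down.toPtKer δ y * (θ.θ y : ℂ)) (Space.vol X.UK) :=
    W.integrable_term hs hfin
  have h1 := W.integral_cls (χ := fun _ => 1) measurable_const (fun _ _ => rfl)
    (by simpa [W, wtK] using hi) hs
  simp only [Complex.ofReal_one, mul_one, hWm] at h1
  rw [h1, ← X.integral_base P δ θ.θ hi]
  rfl

end Base

section Bounded

/-- Classes below without rational eigenline. -/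
def ellK : Set (G2 K) := {δ | ¬HasLine δ}

/-- The elliptic classes are stable. -/
lemma stable_ellK (X : TwistCtx K L) : X.σK.Stable (ellK (K := K)) :=
  fun g c (hc : ¬HasLine c) => by
  show ¬HasLine (g * c * g⁻¹)
  rwa [hasLine_conj]

variable [IsTotallyComplex L]

/-- Absolute sums over elliptic classes above are bounded. -/
theorem bounded_absCls_ell (X : TwistCtx K L) (hU : X.UL.IsCongr) (k : PtKer X.UL) :
    ∃ M : ℝ≥0∞, M ≠ ⊤ ∧ ∀ x, Semilin.absCls X.σ k X.ellSet x ≤ M := by
  obtain ⟨B', hB⟩ := X.bounded_sumOn_of hU k.absKer (Or.inl rfl) (Or.inl rfl)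
  refine ⟨ENNReal.ofReal B', ENNReal.ofReal_ne_top, fun x => ?_⟩
  rw [Semilin.absCls_eq]
  exact ENNReal.ofReal_le_ofReal (hB x)

variable [IsTotallyComplex K]

omit [IsTotallyComplex L] in
/-- Absolute sums over elliptic classes below are bounded. -/
theorem bounded_absCls_ellK (X : TwistCtx K L) (hU : X.UK.IsCongr) (k : PtKer X.UK) :
    ∃ M : ℝ≥0∞, M ≠ ⊤ ∧ ∀ x, Semilin.absCls X.σK k (ellK (K := K)) x ≤ M := by
  classical
  obtain ⟨C₀, Bz, c₀, -, hc₀, hSieg⟩ := exists_siegel hU
  have hnone : ∀ (α : Kˣ) (β : K),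
      (ProjGenLinGroup.mk (uB β * dB α) : G2 K)⁻¹ ∉ (ellK (K := K)) := fun α β h => by
    refine h ?_
    rw [← map_inv]
    exact hasLine_upper (by
      rw [Matrix.coe_units_inv, Matrix.inv_def, Matrix.adjugate_fin_two]
      simp [Matrix.mul_apply, Fin.sum_univ_two])
  obtain ⟨B', hB⟩ := k.absKer.bounded_sum_of (S₀ := {γ | γ⁻¹ ∈ (ellK (K := K))})
    (fun ⟨α, hα⟩ => absurd hα (by
      have := hnone α 0
      rwa [show uB (0 : K) * dB α = dB α by
        ext i j; fin_cases i <;> fin_cases j <;>
          simp [Matrix.mul_apply, Fin.sum_univ_two]] at this))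
    C₀ Bz hc₀ fun α β => by
      refine iff_of_false (hnone α β) ?_
      have := hnone α 0
      rwa [show uB (0 : K) * dB α = dB α by
        ext i j; fin_cases i <;> fin_cases j <;> simp [Matrix.mul_apply, Fin.sum_univ_two]] at this
  refine ⟨ENNReal.ofReal B', ENNReal.ofReal_ne_top, fun x₀ => ?_⟩
  rw [Semilin.absCls_eq]
  refine ENNReal.ofReal_le_ofReal ?_
  obtain ⟨g, hg⟩ := hSieg x₀
  rw [← X.σK.sumOn_smul k.absKer X.stable_ellK g]
  refine le_of_eq_of_le ?_ (hB _ hg _ hg)
  unfold Semilin.sumOn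
  rw [← (Equiv.inv (G2 K)).tsum_eq]
  congr 1
  refine tsum_congr fun γ => ?_
  simp only [Set.indicator_apply, Equiv.inv_apply, Set.mem_ofPred_eq]
  split_ifs with h
  · show k.absKer.k (γ⁻¹ • (g • x₀)) (g • x₀) = _
    rw [← k.absKer.inv γ, smul_inv_smul]
  · rfl

end Bounded

end TwistCtx

end FermatAgent.LT
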