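import Mathlib
import Fermat.Agent.LT.Descent.Elliptic

/-!
# Matching classes above and below through the norm

When two stable sets correspond through the norm, each class above has the integral of the class
of its norm and the classes below which are no norms contribute nothing, the sums over the sets
have equal integrals; in particular for the elliptic elements.
-/

set_option autoImplicit false

noncomputable section

open Matrix IsDedekindDomain NumberField Filter MeasureTheory
open scoped MatrixGroups ENNReal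

namespace FermatAgent.LT.TwistCtx

variable {K L : Type*} [Field K] [NumberField K] [Field L] [NumberField L] [Algebra K L]
  (X : TwistCtx K L)

/-- Stable sets above and below correspond through the norm: every element above has a norm below
up to twisting, equal norms give one class, and conjugacy descends. -/
structure Corresp (C : Set (G2 L)) (D : Set (G2 K)) : Prop where
  exists_norm : ∀ c ∈ C, ∃ δ ∈ D, ∃ γ ∈ X.σ.cls c, X.T.nrm γ = incl δ
  unique : ∀ γ ∈ C, ∀ γ' ∈ C, ∀ δ : G2 K, X.T.nrm γ = incl δ → X.T.nrm γ' = incl δ → γ' ∈ X.σ.cls γ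
  descend : ∀ δ ∈ D, ∀ δ' ∈ D, (∃ g : G2 L, g * incl δ * g⁻¹ = incl δ') →
    ∃ g : G2 K, g * δ * g⁻¹ = δ'

variable {X}

/-- If corresponding sets converge absolutely, matched classes have equal integrals and classes
below which are no norms integrate to zero, then the two sums have equal integrals. -/
theorem Corresp.integral_eq {C : Set (G2 L)} {D : Set (G2 K)} (hc : X.Corresp C D)
    (hC : X.σ.Stable C) (hD : X.σK.Stable D) (kL : PtKer X.UL) (kK : PtKer X.UK)
    {νL : Measure (Space X.UL)} {νK : Measure (Space X.UK)}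
    (hfinL : ∫⁻ x, Semilin.absCls X.σ kL C x ∂νL ≠ ⊤)
    (hfinK : ∫⁻ x, Semilin.absCls X.σK kK D x ∂νK ≠ ⊤)
    (heq : ∀ δ ∈ D, ∀ γ ∈ C, X.T.nrm γ = incl δ →
      ∫ x, X.σ.sumOn kL (X.σ.cls γ) x ∂νL = ∫ x, X.σK.sumOn kK (X.σK.cls δ) x ∂νK)
    (hzero : ∀ δ ∈ D, (∀ γ ∈ C, X.T.nrm γ ≠ incl δ) →
      ∫ x, X.σK.sumOn kK (X.σK.cls δ) x ∂νK = 0) :
    ∫ x, X.σ.sumOn kL C x ∂νL = ∫ x, X.σK.sumOn kK D x ∂νK := by
  classical
  have hL := X.σ.integral_sumOn_decomp kL hC hfinL
  have hK := X.σK.integral_sumOn_decomp kK hD hfinK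
  have hrep : ∀ q : X.σ.classesIn C, ∃ c ∈ C, X.σ.cls c = q := fun q => q.2
  choose rep hrepC hrepq using hrep
  choose δ hδ γ hγ hnorm using fun q => hc.exists_norm (rep q) (hrepC q)
  have hclsγ : ∀ q, X.σ.cls (γ q) = q := fun q => by
    rw [X.σ.cls_eq_of_mem (hγ q), hrepq]
  have hγC : ∀ q, γ q ∈ C := fun q => by
    obtain ⟨g, hg⟩ := hγ q
    rw [← hg]
    exact hC g _ (hrepC q)
  let j : X.σ.classesIn C → X.σK.classesIn D := fun q => ⟨X.σK.cls (δ q), δ q, hδ q, rfl⟩
  have hj : Function.Injective j := by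
    intro q q' e
    have e' : X.σK.cls (δ q) = X.σK.cls (δ q') := congrArg Subtype.val e
    obtain ⟨g, hg⟩ : δ q' ∈ X.σK.cls (δ q) := e' ▸ X.σK.mem_cls_self _
    have hg' : g * δ q * g⁻¹ = δ q' := hg
    let G : G2 L := incl (K := K) (L := L) g
    have h1 : X.T.nrm (X.σ.conj G (γ q)) = incl (δ q') := by
      rw [X.nrm_conj, hnorm q, ← hg', map_mul, map_mul, map_inv]
    have h2 := hc.unique _ (hC G _ (hγC q)) _ (hγC q') _ h1 (hnorm q')
    refine Subtype.ext ?_
    rw [← hclsγ q, ← hclsγ q', X.σ.cls_eq_of_mem h2, X.σ.cls_eq_of_mem ⟨G, rfl⟩]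
  rw [← hL.tsum_eq, ← hK.tsum_eq, ← hj.tsum_eq (f := fun q : X.σK.classesIn D =>
    ∫ x, X.σK.sumOn kK q x ∂νK)]
  · refine tsum_congr fun q => ?_
    show _ = ∫ x, X.σK.sumOn kK (X.σK.cls (δ q)) x ∂νK
    rw [← heq (δ q) (hδ q) (γ q) (hγC q) (hnorm q), hclsγ q]
  · intro r hr
    obtain ⟨_, d, hd, rfl⟩ := r
    by_contra hout
    refine hr (hzero d hd fun γ₀ hγ₀ hn => hout ?_)
    refine ⟨⟨X.σ.cls γ₀, γ₀, hγ₀, rfl⟩, Subtype.ext ?_⟩
    set q : X.σ.classesIn C := ⟨X.σ.cls γ₀, γ₀, hγ₀, rfl⟩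
    obtain ⟨g, hg⟩ : γ q ∈ X.σ.cls γ₀ := by
      have := X.σ.mem_cls_self (γ q)
      rwa [hclsγ q] at this
    have e : g * incl d * g⁻¹ = incl (δ q) := by
      rw [← hnorm q, ← hg, X.nrm_conj, hn]
    obtain ⟨g', hg'⟩ := hc.descend d hd (δ q) (hδ q) ⟨g, e⟩
    exact X.σK.cls_eq_of_mem ⟨g', hg'⟩

/-- A twisted class admits gluing data with equal indices above and below. -/
def Glued {B : X.Over} (P : KerPair B) (γ : G2 L) (δ : G2 K) : Prop :=
  ∃ (H : Subgroup (G2 K)) (G : Glue P γ δ H), G.subC.FiniteIndex ∧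
    (X.subK δ H).index = G.subC.index

variable [IsTotallyComplex L] [IsTotallyComplex K]

/-- **The elliptic parts agree**: if the elliptic classes are glued with their norms and the
kernel below vanishes at the elliptic elements which are no norms, the elliptic sums above and
below have equal integrals. -/
theorem integral_ell {B : X.Over} (P : KerPair B) (hUL : X.UL.IsCongr) (hUK : X.UK.IsCongr)
    {sL : Set (Space X.UL)} (hsL : IsFundamentalDomain (G2 L) sL (Space.vol X.UL))
    {sK : Set (Space X.UK)} (hsK : IsFundamentalDomain (G2 K) sK (Space.vol X.UK))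
    (hc : X.Corresp X.ellSet (ellK (K := K)))
    (hglue : ∀ δ ∈ (ellK (K := K)), ∀ γ ∈ X.ellSet, X.T.nrm γ = incl δ → Glued P γ δ)
    (hvan : ∀ δ ∈ (ellK (K := K)), (∀ γ ∈ X.ellSet, X.T.nrm γ ≠ incl δ) →
      ∀ z : FinCoset X.UK, P.down.kfin (δ • z) z = 0) :
    ∫ x in sL, X.σ.sumOn P.up.toPtKer X.ellSet x ∂Space.vol X.UL =
      ∫ x in sK, X.σK.sumOn P.down.toPtKer (ellK (K := K)) x ∂Space.vol X.UK := by
  classical
  obtain ⟨ML, hMLtop, hML⟩ := X.bounded_absCls_ell hUL P.up.toPtKer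
  obtain ⟨MK, hMKtop, hMK⟩ := X.bounded_absCls_ellK hUK P.down.toPtKer
  have hvL : Space.vol X.UL sL < ⊤ := measure_fundamentalDomain_lt_top hUL hsL
  have hvK : Space.vol X.UK sK < ⊤ := measure_fundamentalDomain_lt_top hUK hsK
  have hfinL : ∫⁻ x in sL, Semilin.absCls X.σ P.up.toPtKer X.ellSet x ∂Space.vol X.UL ≠ ⊤ :=
    ne_top_of_le_ne_top (ENNReal.mul_ne_top hMLtop hvL.ne)
      ((lintegral_mono fun x => hML x).trans (by rw [setLIntegral_const]))
  have hfinK :
      ∫⁻ x in sK, Semilin.absCls X.σK P.down.toPtKer (ellK (K := K)) x ∂Space.vol X.UK ≠ ⊤ :=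
    ne_top_of_le_ne_top (ENNReal.mul_ne_top hMKtop hvK.ne)
      ((lintegral_mono fun x => hMK x).trans (by rw [setLIntegral_const]))
  refine hc.integral_eq X.stable_ellSet X.stable_ellK P.up.toPtKer P.down.toPtKer
    (νL := (Space.vol X.UL).restrict sL) (νK := (Space.vol X.UK).restrict sK) hfinL hfinK
    (fun δ hδ γ hγ hn => ?_) fun δ hδ hnone => ?_
  · obtain ⟨H, G, hfi, hidx⟩ := hglue δ hδ γ hγ hn
    have := hfi
    have : (X.subK δ H).FiniteIndex := ⟨hidx ▸ Subgroup.FiniteIndex.index_ne_zero⟩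
    let θ := BaseWt.ofDomain X H
    have h1 := G.integral_class θ hsL (ne_top_of_le_ne_top hfinL (lintegral_mono fun x => ?_))
    · have h2 := integral_classK P G.mem_plain θ hsK
        (ne_top_of_le_ne_top hfinK (lintegral_mono fun x => ?_))
      · rw [hidx, ← h1] at h2
        exact (mul_left_cancel₀ (Nat.cast_ne_zero.mpr Subgroup.FiniteIndex.index_ne_zero) h2).symm
      · refine ENNReal.tsum_le_tsum fun c => ?_
        refine Set.indicator_le_indicator_of_subset ?_ (fun _ => zero_le) c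
        rintro _ ⟨g, rfl⟩
        exact X.stable_ellK g δ hδ
    · refine ENNReal.tsum_le_tsum fun c => ?_
      refine Set.indicator_le_indicator_of_subset ?_ (fun _ => zero_le) c
      rintro _ ⟨g, rfl⟩
      exact X.stable_ellSet g γ hγ
  · refine integral_eq_zero_of_ae (ae_of_all _ fun x => ?_)
    refine (tsum_congr fun c => ?_).trans tsum_zero
    by_cases hcm : c ∈ X.σK.cls δ
    · rw [Set.indicator_of_mem hcm]
      obtain ⟨g, rfl⟩ := hcm
      have e : X.σK.term P.down.toPtKer (X.σK.conj g δ) x =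
          X.σK.term P.down.toPtKer δ (g⁻¹ • x) := by
        rw [Semilin.term_smul, inv_inv]
      rw [e, X.σK_term, KerData.toPtKer_k]
      exact mul_eq_zero_of_right _ (hvan δ hδ hnone _)
    · exact Set.indicator_of_notMem hcm _

end FermatAgent.LT.TwistCtx
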