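import Mathlib
import Fermat.Agent.LT.Descent.Match

/-!
# A criterion for absolute convergence of a glued class

The twisted product at infinity is integrable against an integrable function of the base space,
with a uniform constant; so the class converges absolutely once the finite sum below does.
-/

set_option autoImplicit false

noncomputable section

open Matrix IsDedekindDomain NumberField Filter MeasureTheory
open scoped MatrixGroups ENNReal ComplexConjugate

namespace FermatAgent.LT.TwistCtx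

variable {K L : Type*} [Field K] [NumberField K] [Field L] [NumberField L] [Algebra K L]
  {X : TwistCtx K L} {B : X.Over}

/-- The constant of the twisted product at infinity. -/
def infConst (k : InfKer) : ℝ≥0∞ :=
  ENNReal.ofReal k.C ^ 3 * H3.vol {q | H3.coshDist H3.base q ≤ k.ρ} ^ 2

/-- The archimedean constant is finite. -/
lemma infConst_ne_top (k : InfKer) : infConst k ≠ ⊤ :=
  ENNReal.mul_ne_top (ENNReal.pow_ne_top ENNReal.ofReal_ne_top)
    (ENNReal.pow_ne_top (H3.vol_ball_lt_top _ _).ne)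

lemma lintegral_row_le (k : InfKer) (A : H3 ≃ᵐ H3) (hA : MeasurePreserving A H3.vol H3.vol)
    (a : H3) :
    ∫⁻ b, ‖k.k (A b) a‖ₑ ∂H3.vol ≤
    ENNReal.ofReal k.C * H3.vol {q | H3.coshDist H3.base q ≤ k.ρ} := by
  have h1 : ∫⁻ b, ‖k.k (A b) a‖ₑ ∂H3.vol = ∫⁻ b, ‖k.k b a‖ₑ ∂H3.vol :=
    hA.lintegral_comp (k.meas.comp (measurable_id.prodMk measurable_const)).enorm
  rw [h1]
  calc ∫⁻ b, ‖k.k b a‖ₑ ∂H3.vol
      ≤ ∫⁻ b, {q | H3.coshDist a q ≤ k.ρ}.indicator (fun _ => ENNReal.ofReal k.C) b ∂H3.vol := by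
        refine lintegral_mono fun b => ?_
        by_cases h : k.k b a = 0
        · simp [h]
        rw [Set.indicator_of_mem (show b ∈ {q | H3.coshDist a q ≤ k.ρ} by
          rw [Set.mem_ofPred_eq, H3.coshDist_comm]; exact k.supp _ _ h), ← ofReal_norm]
        exact ENNReal.ofReal_le_ofReal (k.bound _ _)
    _ = _ := by rw [lintegral_indicator_const (InfKer.measurableSet_ball _ _), InfKer.vol_ball_eq]

/-- Against a function from below the twisted product at infinity integrates to at most a uniform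
constant times the integral of the function. -/
theorem lintegral_inf_le (X : TwistCtx K L) (γ : G2 L) (k : InfKer) {θ : InfPts K → ℝ≥0∞}
    (hθ : Measurable θ) :
    ∫⁻ p : InfPts L, θ (X.proj p) *
        ‖∏ w, k.k ((γ • (LevelHom.infMap (X.τ : L →+* L) p)) w) (p w)‖ₑ
        ∂(Measure.pi fun _ : InfinitePlace L => H3.vol) ≤
      infConst k * ∫⁻ z, θ z ∂(Measure.pi fun _ : InfinitePlace K => H3.vol) := by
  set Θ₀ : H3 → ℝ≥0∞ := fun a => θ fun _ => twistPt (algebraMap K L) (X.T.e 0) a
  have hΘ₀ : Measurable Θ₀ := hθ.comp (measurable_pi_lambda _ fun _ =>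
    (measurePreserving_twistPt _ _).measurable)
  set G : H3 × H3 × H3 → ℝ≥0∞ := fun y => Θ₀ y.1 * (‖k.k (X.T.step 0 γ y.2.1) y.1‖ₑ *
    (‖k.k (X.T.step 1 γ y.2.2) y.2.1‖ₑ * ENNReal.ofReal k.C))
  have hle : ∀ p, θ (X.proj p) *
      ‖∏ w, k.k ((γ • (LevelHom.infMap (X.τ : L →+* L) p)) w) (p w)‖ₑ ≤ G (X.triEquiv p) := by
    intro p
    refine mul_le_mul' le_rfl ?_
    rw [X.prod_twisted]
    simp only [enorm_mul, X.triEquiv_apply, mul_assoc]
    refine mul_le_mul' le_rfl (mul_le_mul' le_rfl ?_)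
    rw [← ofReal_norm]
    exact ENNReal.ofReal_le_ofReal (k.bound _ _)
  have hrow : ∀ (A : H3 ≃ᵐ H3) (b : H3), Measurable fun c => ‖k.k (A c) b‖ₑ := fun A b =>
    (k.meas.comp (A.measurable.prodMk measurable_const)).enorm
  have hGm : Measurable G := by
    have m1 : Measurable fun y : H3 × H3 × H3 => ‖k.k (X.T.step 0 γ y.2.1) y.1‖ₑ :=
      (k.meas.comp (((X.T.step 0 γ).measurable.comp (measurable_fst.comp measurable_snd)).prodMk
        measurable_fst)).enorm
    have m2 : Measurable fun y : H3 × H3 × H3 => ‖k.k (X.T.step 1 γ y.2.2) y.2.1‖ₑ :=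
      (k.meas.comp (((X.T.step 1 γ).measurable.comp (measurable_snd.comp measurable_snd)).prodMk
        (measurable_fst.comp measurable_snd))).enorm
    exact (hΘ₀.comp measurable_fst).mul (m1.mul (m2.mul measurable_const))
  refine (lintegral_mono hle).trans ?_
  rw [X.measurePreserving_triEquiv.lintegral_comp hGm, lintegral_prod _ hGm.aemeasurable]
  set C := ENNReal.ofReal k.C
  set V := H3.vol {q | H3.coshDist H3.base q ≤ k.ρ}
  calc ∫⁻ a, ∫⁻ bc : H3 × H3, G (a, bc) ∂H3.vol.prod H3.vol ∂H3.vol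
      ≤ ∫⁻ a, Θ₀ a * (C ^ 3 * V ^ 2) ∂H3.vol := by
        refine lintegral_mono fun a => ?_
        rw [lintegral_prod (fun bc : H3 × H3 => G (a, bc))
          (hGm.comp measurable_prodMk_left).aemeasurable]
        have e : ∀ b, ∫⁻ c, G (a, b, c) ∂H3.vol ≤
            Θ₀ a * (C * (C * V)) * ‖k.k (X.T.step 0 γ b) a‖ₑ := by
          intro b
          simp only [G]
          rw [lintegral_const_mul (f := fun c => ‖k.k (X.T.step 0 γ b) a‖ₑ *
              (‖k.k (X.T.step 1 γ c) b‖ₑ * ENNReal.ofReal k.C)) _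
              (measurable_const.mul ((hrow _ b).mul measurable_const)),
            lintegral_const_mul (f := fun c => ‖k.k (X.T.step 1 γ c) b‖ₑ * ENNReal.ofReal k.C) _
              ((hrow _ b).mul measurable_const),
            lintegral_mul_const _ (hrow _ b)]
          calc Θ₀ a * (‖k.k (X.T.step 0 γ b) a‖ₑ * ((∫⁻ c, ‖k.k (X.T.step 1 γ c) b‖ₑ ∂H3.vol) * C))
              ≤ Θ₀ a * (‖k.k (X.T.step 0 γ b) a‖ₑ * ((C * V) * C)) := by
                gcongr
                exact lintegral_row_le k _ (X.T.measurePreserving_step 1 γ) b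
            _ = _ := by ring
        refine (lintegral_mono e).trans ?_
        rw [lintegral_const_mul _ (hrow _ a)]
        calc Θ₀ a * (C * (C * V)) * ∫⁻ b, ‖k.k (X.T.step 0 γ b) a‖ₑ ∂H3.vol
            ≤ Θ₀ a * (C * (C * V)) * (C * V) := by
              gcongr
              exact lintegral_row_le k _ (X.T.measurePreserving_step 0 γ) a
          _ = _ := by ring
    _ = (C ^ 3 * V ^ 2) * ∫⁻ a, Θ₀ a ∂H3.vol := by
        rw [lintegral_mul_const _ hΘ₀, mul_comm]
    _ = _ := by
        congr 1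
        have : Unique (InfinitePlace K) := ⟨⟨X.v⟩, fun w => X.uniq w⟩
        have h1 : MeasurePreserving (fun a : H3 => (fun _ => twistPt (algebraMap K L) (X.T.e 0) a :
            InfPts K)) H3.vol (Measure.pi fun _ : InfinitePlace K => H3.vol) := by
          have h3 := ((measurePreserving_funUnique H3.vol (InfinitePlace K)).symm
            (MeasurableEquiv.funUnique (InfinitePlace K) H3)).comp
            (measurePreserving_twistPt (algebraMap K L) (X.T.e 0))
          convert h3 using 3
          · rename_i e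
            rfl
        exact h1.lintegral_comp hθ

namespace Glue

variable {P : KerPair B} {γ : G2 L} {δ : G2 K} {H : Subgroup (G2 K)} (G : Glue P γ δ H)

/-- The absolute local totals. -/
def absTot (v : HeightOneSpectrum (𝓞 K)) (z : Pt X v) : ℝ :=
  ∑' x, ‖P.loc v (ft B γ v x) x * (G.A v x z : ℂ)‖

open Classical in
/-- The absolute total. -/
def absSum (z : FinCoset X.UK) : ℝ :=
  if ∀ v ∉ G.T, δ • z.1 v = z.1 v then ∏ v ∈ G.T, G.absTot v (z.1 v) else 0

open Classical in
/-- Absolute values along the cosets above. -/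
theorem hasSum_abs (z : FinCoset X.UK) :
    HasSum (fun x : FinCoset X.UL => ‖P.up.kfin (X.finTwist γ x) x * (G.W x z : ℂ)‖)
      (G.absSum z) := by
  have h := G.hasSum_fam (fun v x z => (‖P.loc v (ft B γ v x) x * (G.A v x z : ℂ)‖ : ℂ))
    (fun v z => (G.absTot v z : ℂ))
    (fun v hv z => (G.finite_x v hv z).subset fun x hx => by simpa using hx)
    (fun v _ z => by rw [absTot, Complex.ofReal_tsum]) z
  simp only [← Complex.ofReal_prod, ← Complex.ofReal_zero, ← apply_ite Complex.ofReal] at h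
  refine (Complex.hasSum_ofReal.mp h).congr_fun fun x => ?_
  rw [G.kfin_mul_W, apply_ite norm, norm_prod, norm_zero]

open Classical in
/-- A glued class converges absolutely if the absolute totals below are summable against the
weight. -/
theorem absCls_ne_top (θ : BaseWt X H) [G.subC.FiniteIndex] {s : Set (Space X.UL)}
    (hs : IsFundamentalDomain (G2 L) s (Space.vol X.UL))
    (hb : ∑' z : FinCoset X.UK, ENNReal.ofReal (G.absSum z) *
      ∫⁻ p, ENNReal.ofReal (θ.θ (p, z)) ∂(Measure.pi fun _ : InfinitePlace K => H3.vol) ≠ ⊤) :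
    ∫⁻ x in s, Semilin.absCls X.σ P.up.toPtKer (X.σ.cls γ) x ∂Space.vol X.UL ≠ ⊤ := by
  set W₀ := G.wt θ
  set μ := Measure.pi fun _ : InfinitePlace L => H3.vol
  set ν := Measure.pi fun _ : InfinitePlace K => H3.vol
  have h0 := W₀.lintegral_cls (χ := fun _ => 1) measurable_const (fun _ _ => rfl) hs
  simp only [ENNReal.ofReal_one, mul_one] at h0
  suffices h : ∫⁻ y, ‖X.σ.term P.up.toPtKer γ y‖ₑ * G.lifte θ.θ y ∂Space.vol X.UL ≠ ⊤ by
    intro htop
    have h' : ∫⁻ y, ‖X.σ.term P.up.toPtKer γ y‖ₑ * ENNReal.ofReal (W₀.Θ y) ∂Space.vol X.UL ≠ ⊤ := by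
      refine ne_top_of_le_ne_top h (lintegral_mono fun y => mul_le_mul' le_rfl ?_)
      exact ENNReal.ofReal_toReal_le
    rw [← h0, htop] at h'
    exact h' (ENNReal.mul_top (Nat.cast_ne_zero.mpr W₀.m_pos.ne'))
  set C₀ := infConst P.k
  have hmz : ∀ z, Measurable fun p : InfPts K => ENNReal.ofReal (θ.θ (p, z)) := fun z =>
    (θ.meas.comp (measurable_id.prodMk measurable_const)).ennreal_ofReal
  refine ne_top_of_le_ne_top (ENNReal.mul_ne_top (infConst_ne_top P.k) hb) ?_
  calc ∫⁻ y, ‖X.σ.term P.up.toPtKer γ y‖ₑ * G.lifte θ.θ y ∂Space.vol X.UL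
      = ∫⁻ y, ∑' z, ‖X.σ.term P.up.toPtKer γ y‖ₑ *
          ENNReal.ofReal (G.W y.2 z * θ.θ (X.proj y.1, z)) ∂Space.vol X.UL :=
        lintegral_congr fun y => ENNReal.tsum_mul_left.symm
    _ = ∑' z, ∫⁻ y, ‖X.σ.term P.up.toPtKer γ y‖ₑ *
          ENNReal.ofReal (G.W y.2 z * θ.θ (X.proj y.1, z)) ∂Space.vol X.UL := by
        refine lintegral_tsum fun z => (((X.σ.measurable_term _ γ).enorm).mul ?_).aemeasurable
        exact (((measurable_of_countable fun x => G.W x z).comp measurable_snd).mul
          (θ.meas.comp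
            ((X.measurable_proj.comp measurable_fst).prodMk measurable_const))).ennreal_ofReal
    _ ≤ ∑' z, C₀ * (ENNReal.ofReal (G.absSum z) * ∫⁻ p, ENNReal.ofReal (θ.θ (p, z)) ∂ν) := by
        refine ENNReal.tsum_le_tsum fun z => ?_
        set F : InfPts L → ℝ≥0∞ := fun p => ENNReal.ofReal (θ.θ (X.proj p, z)) *
          ‖∏ w, P.k.k ((γ • (LevelHom.infMap (X.τ : L →+* L) p)) w) (p w)‖ₑ
        have hterm : ∀ p x, ‖X.σ.term P.up.toPtKer γ (p, x)‖ₑ *
            ENNReal.ofReal (G.W x z * θ.θ (X.proj p, z)) =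
            F p * ‖P.up.kfin (X.finTwist γ x) x * (G.W x z : ℂ)‖ₑ := by
          intro p x
          show ‖P.up.kinf _ _ * P.up.kfin _ _‖ₑ * _ = _
          rw [enorm_mul, enorm_mul, ENNReal.ofReal_mul (G.W_nonneg _ _),
            show ‖(G.W x z : ℂ)‖ₑ = ENNReal.ofReal (G.W x z) by
              rw [← ofReal_norm, Complex.norm_real, Real.norm_eq_abs,
                abs_of_nonneg (G.W_nonneg _ _)]]
          simp only [F, KerData.kinf]
          rw [show ((γ • X.σ.map (p, x)) : Space X.UL).1 =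
            γ • LevelHom.infMap (X.τ : L →+* L) p from rfl,
            show ((γ • X.σ.map (p, x)) : Space X.UL).2 = X.finTwist γ x from rfl]
          show ‖∏ w, P.k.k _ _‖ₑ * _ * _ = _
          ring
        have hmeas : AEMeasurable (fun y : Space X.UL => ‖X.σ.term P.up.toPtKer γ y‖ₑ *
            ENNReal.ofReal (G.W y.2 z * θ.θ (X.proj y.1, z))) (μ.prod Measure.count) :=
          (((X.σ.measurable_term _ γ).enorm).mul
          (((measurable_of_countable fun x => G.W x z).comp measurable_snd).mul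
            (θ.meas.comp ((X.measurable_proj.comp measurable_fst).prodMk
              measurable_const))).ennreal_ofReal).aemeasurable
        rw [Space.vol, lintegral_prod_symm _ hmeas, lintegral_count]
        simp only [hterm]
        have hsum : ∀ x : FinCoset X.UL,
            ∫⁻ p, F p * ‖P.up.kfin (X.finTwist γ x) x * (G.W x z : ℂ)‖ₑ ∂μ
            = (∫⁻ p, F p ∂μ) * ‖P.up.kfin (X.finTwist γ x) x * (G.W x z : ℂ)‖ₑ :=
          fun x => lintegral_mul_const' _ _ enorm_ne_top
        rw [tsum_congr hsum, ENNReal.tsum_mul_left]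
        have hx : ∑' x, ‖P.up.kfin (X.finTwist γ x) x * (G.W x z : ℂ)‖ₑ =
            ENNReal.ofReal (G.absSum z) := by
          have h := G.hasSum_abs z
          rw [← h.tsum_eq, ENNReal.ofReal_tsum_of_nonneg (fun x => norm_nonneg _) h.summable]
          exact tsum_congr fun x => (ofReal_norm _).symm
        rw [hx]
        calc (∫⁻ p, F p ∂μ) * ENNReal.ofReal (G.absSum z)
            ≤ (C₀ * ∫⁻ p, ENNReal.ofReal (θ.θ (p, z)) ∂ν) * ENNReal.ofReal (G.absSum z) := by
              gcongr
              exact X.lintegral_inf_le γ P.k (hmz z)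
          _ = _ := by ring
    _ = _ := ENNReal.tsum_mul_left

end Glue

end FermatAgent.LT.TwistCtx
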