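import Mathlib
import Fermat.Agent.LT2.Defs
import Fermat.Agent.LT.Base.FiniteIndex

/-!
# The setting of the cubic descent

The base has a cube root of unity and one place `v₃` with three residues over three, which splits
in the extension.  Above, the level is `locK1` over `v₃` and maximal elsewhere; below, it is
`locK1` at `v₃` and at the ramified places.
-/

set_option autoImplicit false

noncomputable section

open Matrix IsDedekindDomain NumberField Filter MeasureTheory
open scoped MatrixGroups

namespace FermatAgent.LT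

/-- The tame setting of the cubic descent: a setting of deep level whose bad places are `v₃` and
the ramified places, with the congruence levels `locK1` there. -/
structure Ctx (K L : Type*) [Field K] [NumberField K] [Field L] [NumberField L] [Algebra K L]
    extends LT2.Ctx K L where
  /-- the place over three -/
  v₃ : HeightOneSpectrum (𝓞 K)
  v₃_norm : v₃.asIdeal.absNorm = 3
  v₃_three : v₃.valuation K 3 < 1
  v₃_uniq : ∀ v, v ≠ v₃ → v.valuation K 3 = 1
  v₃_split : ∀ w, b w = v₃ → placeMap τ w ≠ w
  /-- the ramified places -/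
  Ram : Finset (HeightOneSpectrum (𝓞 K))
  mem_Ram : ∀ v, v ∈ Ram ↔ ∃ w, b w = v ∧ placeMap τ w = w ∧
    ∀ x : K, w.valuation L (algebraMap K L x) = v.valuation K x ^ 3
  mem_S : ∀ v, v ∈ S ↔ v = v₃ ∨ v ∈ Ram
  UL_v₃ : ∀ w, b w = v₃ → UL.loc w = locK1 w
  UL_ne : ∀ w, b w ≠ v₃ → UL.loc w = locK w
  UK_v₃ : UK.loc v₃ = locK1 v₃
  UK_ram : ∀ v ∈ Ram, UK.loc v = locK1 v

namespace Ctx

variable {K L : Type*} [Field K] [NumberField K] [Field L] [NumberField L] [Algebra K L]
  (C : Ctx K L)

/-- A non-split place is not the chosen place. -/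
lemma ne_v₃ {v : HeightOneSpectrum (𝓞 K)} (hv : ¬C.IsSplit v) : v ≠ C.v₃ :=
  fun e => hv (e ▸ C.v₃_split)

/-- Split places are unramified. -/
lemma not_mem_Ram {v : HeightOneSpectrum (𝓞 K)} (hv : C.IsSplit v) : v ∉ C.Ram := fun h => by
  obtain ⟨w, hw, hfix, -⟩ := (C.mem_Ram v).mp h
  exact hv w hw hfix

/-- The chosen place is unramified. -/
lemma v₃_notMem_Ram : C.v₃ ∉ C.Ram := C.not_mem_Ram C.v₃_split

/-- Bad non-split places are ramified. -/
lemma mem_Ram_of_nonsplit {v : HeightOneSpectrum (𝓞 K)} (hv : v ∈ C.S) (hs : ¬C.IsSplit v) :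
    v ∈ C.Ram :=
  ((C.mem_S v).1 hv).resolve_left (C.ne_v₃ hs)

/-- The bad places with one place above are the ramified ones. -/
lemma badSingle_eq : C.badSingle = C.Ram := by
  ext v
  rw [LT2.Ctx.mem_badSingle, C.mem_S]
  exact ⟨fun h => h.1.resolve_left (C.ne_v₃ h.2), fun h => ⟨Or.inr h, fun hs => C.not_mem_Ram hs h⟩⟩

open Classical in
/-- The class function at a ramified place: the residual cube condition times one plus the number
of fixed residual lines. -/
def ramFun (v : HeightOneSpectrum (𝓞 K)) (g : G2 K) : ℂ :=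
  if g ∈ locK v ∧ ∃ j ∈ locK v, j ^ 3 * g⁻¹ ∈ locK1 v then
    (1 + (Nat.card {e : G2 K ⧸ locTame v 0 //
        (e.out : G2 K) ∈ locK v ∧ g • e = e} : ℂ)) / (locK1 v).relIndex (locK v)
  else 0

end Ctx

end FermatAgent.LT
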