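import Mathlib
import Fermat.Agent.LT.Descent.GlueAbs

/-!
# The class of the identity

The totals of a glued class are invariant under the glued group; for the class of the identity
this group is transitive, so that the class converges absolutely.
-/

set_option autoImplicit false

noncomputable section

open Matrix IsDedekindDomain NumberField Filter MeasureTheory
open scoped MatrixGroups ENNReal ComplexConjugate

namespace FermatAgent.LT.TwistCtx

variable {K L : Type*} [Field K] [NumberField K] [Field L] [NumberField L] [Algebra K L]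
  {X : TwistCtx K L} {B : X.Over}

/-- The generator fixes included classes. -/
lemma sg_incl (X : TwistCtx K L) (h : G2 K) :
    g2Map (X.τ : L →+* L) (incl (K := K) (L := L) h) = incl h := by
  induction h using Matrix.ProjGenLinGroup.induction_on with | mk g =>
  simp only [incl, g2Map, ProjGenLinGroup.map_mk]
  congr 1
  apply Units.ext
  ext i j
  exact X.fix _

/-- The action on families is bijective. -/
lemma actFam_bijective (h : G2 K) (v : HeightOneSpectrum (𝓞 K)) :
    Function.Bijective (actFam B h (v := v)) :=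
  ⟨fun _ _ e => funext fun w => smul_left_cancel _ (congrFun e w),
    fun a => ⟨fun w => (incl (K := K) (L := L) h)⁻¹ • a w, funext fun _ => smul_inv_smul _ _⟩⟩

/-- The twisted map commutes with the twisted centraliser. -/
lemma ft_actFam {γ : G2 L} {h : G2 K} (hh : X.σ.conj (incl h) γ = γ)
    (v : HeightOneSpectrum (𝓞 K)) (x : Fam B v) :
    ft B γ v (actFam B h x) = actFam B h (ft B γ v x) := by
  funext w
  simp only [ft, actFam]
  set u : HeightOneSpectrum (𝓞 L) := (LevelHom.ofAut X.stable).below w.1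
  generalize x ⟨(placeMap X.τ).symm w.1, (B.b_tau w.1).trans w.2⟩ = c
  induction c using QuotientGroup.induction_on with | H a =>
  show γ • (QuotientGroup.mk (g2Map (X.τ : L →+* L) (incl (K := K) (L := L) h * a)) :
      G2 L ⧸ X.UL.loc w.1) =
    incl h • γ • (QuotientGroup.mk (g2Map (X.τ : L →+* L) a) : G2 L ⧸ X.UL.loc w.1)
  rw [map_mul, X.sg_incl, MulAction.Quotient.smul_mk,
    MulAction.Quotient.smul_mk, MulAction.Quotient.smul_mk, smul_eq_mul, smul_eq_mul, smul_eq_mul,
    ← mul_assoc, ← mul_assoc]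
  congr 2
  have hh' : incl h * γ * (g2Map (X.τ : L →+* L) (incl h))⁻¹ = γ := hh
  rw [X.sg_incl, mul_inv_eq_iff_eq_mul] at hh'
  exact hh'.symm

/-- Local kernels are invariant under the action. -/
lemma KerPair.loc_actFam (P : KerPair B) (h : G2 K) (v : HeightOneSpectrum (𝓞 K))
    (a c : Fam B v) : P.loc v (actFam B h a) (actFam B h c) = P.loc v a c :=
  Finset.prod_congr rfl fun w _ => (P.kw w.1).inv _ _ _

namespace Glue

variable {P : KerPair B} {γ : G2 L} {δ : G2 K} {H : Subgroup (G2 K)} (G : Glue P γ δ H)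

/-- Invariance of the absolute totals. -/
lemma absTot_smul {v : HeightOneSpectrum (𝓞 K)} (hv : v ∈ G.T) {h : G2 K}
    (hh : h ∈ H) (z : Pt X v) :
    G.absTot v (h • z) = G.absTot v z := by
  unfold absTot
  rw [← (Equiv.ofBijective _ (actFam_bijective (B := B) h v)).tsum_eq]
  refine tsum_congr fun x => ?_
  show ‖P.loc v (ft B γ v (actFam B h x)) (actFam B h x) * (G.A v (actFam B h x) (h • z) : ℂ)‖ = _
  rw [ft_actFam (G.mem_twisted h hh), P.loc_actFam, G.equiv v hv h hh]

lemma absTot_nonneg (v : HeightOneSpectrum (𝓞 K)) (z : Pt X v) : 0 ≤ G.absTot v z :=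
  tsum_nonneg fun _ => norm_nonneg _

open Classical in
/-- Bound for a transitive glued group. -/
lemma absSum_le_of_top (hH : H = ⊤) (z : FinCoset X.UK) :
    G.absSum z ≤ ∏ v ∈ G.T, G.absTot v (QuotientGroup.mk 1) := by
  unfold absSum
  split_ifs
  · refine le_of_eq (Finset.prod_congr rfl fun v hv => ?_)
    obtain ⟨g, hg⟩ := QuotientGroup.mk_surjective (z.1 v)
    rw [← hg, ← G.absTot_smul hv (h := g) (hH ▸ Subgroup.mem_top g) (QuotientGroup.mk 1)]
    simp
  · exact Finset.prod_nonneg fun v _ => G.absTot_nonneg v _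

end Glue

variable [IsTotallyComplex L] [IsTotallyComplex K]

omit [IsTotallyComplex L] in
open Classical in
/-- **The identity parts agree**: the sum above over the elements of norm one is integrable and
integrates to the diagonal of the kernel below. -/
theorem integral_id (P : KerPair B) (hUK : X.UK.IsCongr)
    {sL : Set (Space X.UL)} (hsL : IsFundamentalDomain (G2 L) sL (Space.vol X.UL))
    {sK : Set (Space X.UK)} (hsK : IsFundamentalDomain (G2 K) sK (Space.vol X.UK))
    (hsKm : MeasurableSet sK)
    (hcls : ∀ c : G2 L, X.T.nrm c = 1 → c ∈ X.σ.cls 1)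
    (hcent : ∀ g : G2 L, g2Map (X.τ : L →+* L) g = g → ∃ h : G2 K, incl h = g)
    (G : Glue P 1 1 ⊤) :
    Integrable (fun x => X.σ.sumOn P.up.toPtKer X.idSet x) ((Space.vol X.UL).restrict sL) ∧
    ∫ x in sL, X.σ.sumOn P.up.toPtKer X.idSet x ∂Space.vol X.UL =
      ∫ x in sK, P.down.toPtKer.k x x ∂Space.vol X.UK := by
  have hsetL : X.idSet = X.σ.cls 1 := by
    refine Set.Subset.antisymm (fun c hc => hcls c hc) ?_
    rintro _ ⟨g, rfl⟩
    refine X.stable_idSet g 1 ?_
    show X.T.nrm 1 = 1
    simp [InfCycle.nrm]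
  have hsetK : X.σK.cls (1 : G2 K) = {1} := by
    refine Set.eq_singleton_iff_unique_mem.mpr ⟨X.σK.mem_cls_self 1, ?_⟩
    rintro _ ⟨g, rfl⟩
    show g * 1 * g⁻¹ = 1
    simp
  have hidx : G.subC.index = 1 := by
    rw [Subgroup.index_eq_one, eq_top_iff]
    rintro ⟨g, hg⟩ -
    have hg' : g * 1 * (g2Map (X.τ : L →+* L) g)⁻¹ = 1 := hg
    rw [mul_one, mul_inv_eq_one] at hg'
    obtain ⟨h, hh⟩ := hcent g hg'.symm
    exact ⟨h, Subgroup.mem_top h, hh⟩
  have : G.subC.FiniteIndex := ⟨by rw [hidx]; exact one_ne_zero⟩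
  have hidxK : (X.subK 1 ⊤).index = 1 := by
    rw [Subgroup.index_eq_one, eq_top_iff]
    exact fun g _ => Subgroup.mem_top (g : G2 K)
  have : (X.subK 1 ⊤).FiniteIndex := ⟨by rw [hidxK]; exact one_ne_zero⟩
  let θ : BaseWt X ⊤ :=
    { θ := sK.indicator fun _ => 1
      meas := measurable_const.indicator hsKm
      nonneg := fun y => Set.indicator_nonneg (fun _ _ => zero_le_one) y
      sum_eq := by
        filter_upwards [Space.ae_hasSum_indicator (⊤ : Subgroup (G2 K)) (s := sK) (by
          have h := hsK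
          exact ⟨h.nullMeasurableSet, by
            filter_upwards [h.ae_covers] with y ⟨g, hg⟩
            exact ⟨⟨g, Subgroup.mem_top g⟩, hg⟩,
            fun a b hab => h.aedisjoint fun e => hab (Subtype.ext e)⟩)] with y hy
        exact hy }
  have hv : Space.vol X.UK sK < ⊤ := measure_fundamentalDomain_lt_top hUK hsK
  have hfinL := G.absCls_ne_top θ hsL (by
    refine ne_top_of_le_ne_top (ENNReal.mul_ne_top
      (ENNReal.ofReal_ne_top (r := ∏ v ∈ G.T, G.absTot v (QuotientGroup.mk 1))) hv.ne) ?_
    refine (ENNReal.tsum_le_tsum fun z => mul_le_mul' (ENNReal.ofReal_le_ofReal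
      (G.absSum_le_of_top rfl z)) le_rfl).trans (le_of_eq ?_)
    rw [ENNReal.tsum_mul_left]
    congr 1
    conv_rhs => rw [← lintegral_indicator_one hsKm, Space.vol,
      lintegral_prod_symm _ (measurable_one.indicator hsKm).aemeasurable, lintegral_count]
    refine tsum_congr fun z => lintegral_congr fun p => ?_
    by_cases h : (p, z) ∈ sK <;> simp [θ, h])
  refine ⟨⟨(X.σ.measurable_sumOn _ _).aestronglyMeasurable, lt_of_le_of_lt
    (lintegral_mono fun x => X.σ.enorm_sumOn_le _ _ x) (hsetL ▸ hfinL).lt_top⟩, ?_⟩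
  have h1 := G.integral_class θ hsL hfinL
  have hsum1 : ∀ x, X.σK.sumOn P.down.toPtKer (X.σK.cls 1) x = P.down.toPtKer.k x x := by
    intro x
    unfold Semilin.sumOn
    rw [hsetK, tsum_eq_single (1 : G2 K) fun c hc => Set.indicator_of_notMem (by simpa using hc) _,
      Set.indicator_of_mem (Set.mem_singleton _), X.σK_term, one_smul]
  have h2 := integral_classK P (δ := (1 : G2 K)) (H := ⊤) (fun h _ => by simp) θ hsK (by
    refine ne_top_of_le_ne_top
      (ENNReal.mul_ne_top (ENNReal.ofReal_ne_top (r := P.down.toPtKer.C)) hv.ne)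
      ((lintegral_mono fun x => ?_).trans (by rw [setLIntegral_const]))
    rw [Semilin.absCls, hsetK, tsum_eq_single (1 : G2 K) fun c hc =>
      Set.indicator_of_notMem (by simpa using hc) _, Set.indicator_of_mem (Set.mem_singleton _),
      ← ofReal_norm]
    exact ENNReal.ofReal_le_ofReal (P.down.toPtKer.bound _ _))
  rw [hidxK, Nat.cast_one, one_mul] at h2
  rw [hidx, Nat.cast_one, one_mul] at h1
  rw [hsetL, h1, ← h2]
  exact integral_congr_ae (ae_of_all _ hsum1)

end FermatAgent.LT.TwistCtx
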