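import Mathlib
import Fermat.Agent.LT2.Glue.Inert
import Fermat.Agent.LT.Descent.Spec.RamKer
import Fermat.Agent.LT.Descent.ClassesCentral

/-!
# Local gluing at a ramified place of tame level

At a place with one ramified place above, where the level above is maximal and the level below is
the residual congruence subgroup, the class function counts the commonly fixed cosets over a coset
of the base, so it glues with the trivial kernel above.
-/

set_option autoImplicit false

noncomputable section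

open Matrix IsDedekindDomain NumberField
open scoped MatrixGroups Pointwise

namespace FermatAgent.LT2.Ctx

open FermatAgent.LT
open FermatAgent.LT.TwistCtx (Fam Pt incl ft actFam)
open FermatAgent.LT.Ctx (ramFun ramKer ramKer_mk)

variable {K L : Type*} [Field K] [NumberField K] [Field L] [NumberField L] [Algebra K L]
  (C : Ctx K L) {v : HeightOneSpectrum (𝓞 K)} {u : C.Fib v} (h : NonSplit C.τ v u.1)
  (hU : C.UK.loc v = locK1 v)

include h in
/-- The class function lives on the matrices fixing the coset and satisfying the cube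
condition. -/
lemma ramKer_supp {δ : GL (Fin 2) K} {z : Pt C.X v}
    (hz : (ramKer hU).k ((ProjGenLinGroup.mk δ : G2 K) • z) z ≠ 0) :
    (ProjGenLinGroup.mk δ : G2 K) • C.bar z = C.bar z ∧ CubeOK v δ := by
  classical
  revert hz
  induction z using QuotientGroup.induction_on with | H b =>
  intro hz
  rw [MulAction.Quotient.smul_mk, smul_eq_mul, ramKer_mk, ramFun] at hz
  obtain ⟨⟨hg, j, hj, hjg⟩, -⟩ := ite_ne_right_iff.mp hz
  refine ⟨?_, ?_⟩
  · rw [C.bar_mk, MulAction.Quotient.smul_mk, smul_eq_mul, QuotientGroup.eq]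
    exact hg
  obtain ⟨B, rfl⟩ := ProjGenLinGroup.mk_surjective b
  obtain ⟨D, hD, e⟩ := inv_mem hg
  have e' : (ProjGenLinGroup.mk D : G2 K) = ProjGenLinGroup.mk (B⁻¹ * δ * B) := by
    rw [e, map_mul, map_mul, map_inv]
    group
  obtain ⟨s, hs⟩ := Matrix.ProjGenLinGroup.mk_eq_mk_iff.mp e'.symm
  rw [← cubeOK_conj δ B s, show B⁻¹ * δ * B * sc s = D from hs, cubeOK_iff_class h.three hD]
  exact ⟨j⁻¹, inv_mem hj, by rw [inv_pow, inv_inv, e]; exact hjg⟩

variable (hr : h.Ramified)

include hr in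
/-- The class function counts the commonly fixed cosets over a coset. -/
lemma ramKer_eq_count {δ : GL (Fin 2) K} (hc : CubeOK v δ) (z : Pt C.X v) :
    (ramKer hU).k ((ProjGenLinGroup.mk δ : G2 K) • z) z =
      ((C.UK.loc v).relIndex (locK v) : ℂ)⁻¹ *
        ((h.retSet (C.bar z) ∩ h.baseFix δ).ncard : ℂ) := by
  classical
  by_cases hd : (ProjGenLinGroup.mk δ : G2 K) • C.bar z = C.bar z
  swap
  · rw [h.retSet_inter_eq_empty δ hd, Set.ncard_empty, Nat.cast_zero, mul_zero]
    by_contra hne
    exact hd (C.ramKer_supp h hU hne).1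
  rw [h.ncard_retSet_ramified hr δ hd]
  revert hd
  induction z using QuotientGroup.induction_on with | H b =>
  intro hd
  rw [C.bar_mk] at hd ⊢
  rw [MulAction.Quotient.smul_mk, smul_eq_mul, QuotientGroup.eq] at hd
  rw [MulAction.Quotient.smul_mk, smul_eq_mul, ramKer_mk, hU, ramFun]
  set g := (ProjGenLinGroup.mk δ * b)⁻¹ * b
  have hj : ∃ j ∈ locK v, j ^ 3 * g⁻¹ ∈ locK1 v := by
    obtain ⟨B, rfl⟩ := ProjGenLinGroup.mk_surjective b
    obtain ⟨D, hD, e⟩ := inv_mem hd
    have e' : (ProjGenLinGroup.mk D : G2 K) = ProjGenLinGroup.mk (B⁻¹ * δ * B) := by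
      rw [e, map_mul, map_mul, map_inv]
      simp only [g]
      group
    obtain ⟨s, hs⟩ := Matrix.ProjGenLinGroup.mk_eq_mk_iff.mp e'.symm
    rw [← cubeOK_conj δ B s, show B⁻¹ * δ * B * sc s = D from hs,
      cubeOK_iff_class h.three hD] at hc
    obtain ⟨j, hj, hjD⟩ := hc
    exact ⟨j⁻¹, inv_mem hj, by rw [inv_pow, ← e]; exact hjD⟩
  rw [if_pos ⟨hd, hj⟩, div_eq_inv_mul, Nat.cast_add, Nat.cast_one]
  congr 3
  have hset : {e : G2 K ⧸ locTame v 0 | Subgroup.quotientMapOfLE (locTame_le v 0) e =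
      QuotientGroup.mk b ∧ (ProjGenLinGroup.mk δ : G2 K) • e = e} =
      (fun e => b • e) '' {e : G2 K ⧸ locTame v 0 | (e.out : G2 K) ∈ locK v ∧ g • e = e} := by
    have key : ∀ e : G2 K ⧸ locTame v 0,
        ((e.out : G2 K) ∈ locK v ∧ g • e = e) ↔
          (Subgroup.quotientMapOfLE (locTame_le v 0) (b • e) = QuotientGroup.mk b ∧
            (ProjGenLinGroup.mk δ : G2 K) • b • e = b • e) := by
      intro e
      refine and_congr ?_ ?_
      · conv_rhs => rw [← QuotientGroup.out_eq' e]
        rw [MulAction.Quotient.smul_mk, smul_eq_mul, Subgroup.quotientMapOfLE_apply_mk,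
          QuotientGroup.eq]
        simp
      · show ((ProjGenLinGroup.mk δ * b)⁻¹ * b) • e = e ↔ _
        rw [mul_smul, inv_smul_eq_iff, mul_smul, eq_comm]
    ext e
    refine ⟨fun he => ⟨b⁻¹ • e, ?_, smul_inv_smul b e⟩, ?_⟩
    · show _ ∧ _
      rw [key, smul_inv_smul]
      exact he
    · rintro ⟨e, he, rfl⟩
      exact (key e).mp he
  rw [hset, Set.ncard_image_of_injective _ (MulAction.injective b), ← Nat.card_coe_set_eq]
  rfl

variable (hu : placeMap C.τ u.1 = u.1) (hL : C.UL.loc u.1 = locK u.1)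
  {kw : ∀ u : C.Fib v, LocKer C.UL u.1} (hkw : ∀ u, kw u = 1)

include hu hL hkw hr in
/-- At a ramified place the identity above is glued with the identity below. -/
theorem exists_glue_ram_one : ∃ A, C.LocGlue kw (ramKer hU) 1 1 ⊤ A := by
  have hl := C.locGlue_nonsplit hu hL h hkw (kv := ramKer hU) (γ := 1) (t := 1)
    (by rw [hU]; exact relIndex_locK1_ne_zero v) (1 : GL (Fin 2) K) ⊤
    (C.ramKer_eq_count h hU hr (cubeOK_one h.three)) ?_ fun g _ => Commute.one_right _
  · rw [map_one] at hl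
    exact ⟨_, hl⟩
  · ext x
    simp [NonSplit.twFix, NonSplit.baseFix]

include hu hL hkw hr in
/-- At a ramified place a representative is glued with its matrix, the class function below
against the trivial kernel above, by weights on boundedly many translates. -/
theorem exists_glue_ram {δ : GL (Fin 2) K} {γ : GL (Fin 2) L}
    (hδ : (ProjGenLinGroup.mk δ : G2 K) ≠ 1) (hγ : IsRep C.τ δ γ) :
    ∃ A, C.LocGlue kw (ramKer hU) (ProjGenLinGroup.mk γ) (ProjGenLinGroup.mk δ) (torus δ) A ∧
      C.ExplicitAt δ A := by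
  by_cases hgood : (∃ d : G2 K ⧸ locK v, (ProjGenLinGroup.mk δ : G2 K) • d = d) ∧ CubeOK v δ
  · obtain ⟨t, htc, htr⟩ := h.exists_translate hδ hγ hgood.1 fun _ => hgood.2
    refine ⟨_, C.locGlue_nonsplit hu hL h hkw (by rw [hU]; exact relIndex_locK1_ne_zero v) δ _
      (C.ramKer_eq_count h hU hr hgood.2) htr fun g hg => ?_, C.explicitAt_nsA hu hL h htc⟩
    obtain ⟨D, rfl⟩ := ProjGenLinGroup.mk_surjective g
    show Commute (g2Map (algebraMap K L) (ProjGenLinGroup.mk D)) _
    rw [ProjGenLinGroup.map_mk]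
    exact (commute_of_commute_up hδ
      ((mk_mem_torus_iff.mp hg).map (GeneralLinearGroup.map (algebraMap K L))) htc).map _
  · refine ⟨fun _ _ => 0, C.locGlue_zero hu hL h hkw _ ?_ fun z => ?_, C.explicitAt_zero δ⟩
    · exact Set.not_nonempty_iff_eq_empty.mp fun hne =>
        hgood ⟨h.fixes_of_twFix_nonempty hδ hγ hne, h.cubeOK_of_twFix_nonempty hr hγ hne⟩
    · by_contra hne
      exact hgood ⟨⟨_, (C.ramKer_supp h hU hne).1⟩, (C.ramKer_supp h hU hne).2⟩

end FermatAgent.LT2.Ctx
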