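import Mathlib
import Fermat.Agent.LT2.Loc.Idem
import Fermat.Agent.LT2.Spec.TraceAbove
import Fermat.Agent.LT.Descent.Setting
import Fermat.Agent.LT.Descent.GlueingRamified
import Fermat.Agent.LT2.Cusp.Split
import Fermat.Agent.LT.Descent.Spec.Tame
import Fermat.Agent.LT.Whit.GalInv

/-!
# The tame setting as a setting of deep level

The bad places are the place over three, where the kernels are the cuspidal idempotent, and the
ramified places, where the kernel below is the class function.  Eigenfunctions fixed by the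
idempotents with invariant eigenvalues are invariant under the generator.
-/

set_option autoImplicit false

noncomputable section

open Matrix IsDedekindDomain NumberField
open FermatAgent.LT.Whit (locD locD_le locK1_le_locD mk_mem_locD_iff IsTorusMod)
open scoped MatrixGroups ContDiff

namespace FermatAgent.LT

section Idempotent

variable {F E : Type*} [Field F] [NumberField F] [Field E] [NumberField E] {φ : F →+* E}
  {v : HeightOneSpectrum (𝓞 F)} {w : HeightOneSpectrum (𝓞 E)}

lemma g2Map_mem_locD_iff (h : PlacePair φ v w) (g : G2 F) :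
    g2Map φ g ∈ locD w ↔ g ∈ locD v := by
  by_cases hg : g ∈ locK v
  swap
  · exact iff_of_false (fun hd => hg ((h.g2Map_mem_locK_iff g).mp (locD_le _ hd)))
      fun hd => hg (locD_le _ hd)
  obtain ⟨k, hk, rfl⟩ := hg
  rw [ProjGenLinGroup.map_mk, mk_mem_locD_iff ((h.map_mem_locGL_iff k).mpr hk),
    mk_mem_locD_iff hk]
  refine exists_congr fun s => and_congr ?_ ?_
  · rw [GeneralLinearGroup.map_apply, GeneralLinearGroup.map_apply,
      ← map_intCast φ (s : ℤ), ← map_mul, ← map_sub, h.lt_one_iff]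
  · rw [GeneralLinearGroup.map_apply, GeneralLinearGroup.map_apply,
      ← map_intCast φ (s : ℤ), ← map_mul, ← map_add, h.lt_one_iff]

/-- The idempotent is transported by a dense map of fields. -/
lemma e11_map (h : PlacePair φ v w) {U : Level F} {U' : Level E} (hU : U.loc v = locK1 v)
    (hU' : U'.loc w = locK1 w) (hd : ∀ c : G2 E, ∃ g, c⁻¹ * g2Map φ g ∈ U'.loc w) (a b : G2 F) :
    (e11 hU').k (QuotientGroup.mk (g2Map φ a)) (QuotientGroup.mk (g2Map φ b)) =
      (e11 hU).k (QuotientGroup.mk a) (QuotientGroup.mk b) := by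
  classical
  have hi : ∀ g, g2Map φ g ∈ U'.loc w ↔ g ∈ U.loc v := fun g => by
    rw [hU, hU']; exact h.g2Map_mem_locK1_iff g
  simp only [e11, LocKer.indF_mk (hU.trans_le (locK1_le_locD v)),
    LocKer.indF_mk (hU.trans_le (locK1_le v)), LocKer.indF_mk (hU'.trans_le (locK1_le_locD w)),
    LocKer.indF_mk (hU'.trans_le (locK1_le w)), ← map_inv, ← map_mul,
    g2Map_mem_locD_iff h, h.g2Map_mem_locK_iff,
    LT2.Loc.relIndex_eq_of_dense (g2Map φ) hi (g2Map_mem_locD_iff h)
      (hU'.trans_le (locK1_le_locD w)) fun c _ => hd c,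
    LT2.Loc.relIndex_eq_of_dense (g2Map φ) hi h.g2Map_mem_locK_iff
      (hU'.trans_le (locK1_le w)) fun c _ => hd c]

end Idempotent

namespace Ctx

variable {K L : Type} [Field K] [NumberField K] [Field L] [NumberField L] [Algebra K L]
  (C : Ctx K L)

/-- The places above the chosen place have three residue classes. -/
lemma isThree_over {w : HeightOneSpectrum (𝓞 L)} (hw : C.b w = C.v₃) : Whit.IsThree w := by
  refine ⟨(C.absNorm_of_split C.v₃_split ⟨w, hw⟩).trans C.v₃_norm, ?_⟩
  rw [show (3 : L) = algebraMap K L 3 from (map_ofNat _ 3).symm, (C.pair' ⟨w, hw⟩).lt_one_iff]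
  exact C.v₃_three

variable {v : HeightOneSpectrum (𝓞 K)}

lemma nonSplit_ne (hv : ¬C.IsSplit v) {u : C.Fib v} (hu : placeMap C.τ u.1 = u.1) :
    NonSplit C.τ v u.1 :=
  haveI := C.liesOver u.2
  NonSplit.of_fixed C.twist hu (C.v₃_uniq v (C.ne_v₃ hv))

lemma mem_Ram_iff {u : C.Fib v} (hu : placeMap C.τ u.1 = u.1) (h : NonSplit C.τ v u.1) :
    v ∈ C.Ram ↔ h.Ramified := by
  refine ⟨fun hv => ?_, fun hr => (C.mem_Ram v).mpr ⟨u.1, u.2, hu, hr⟩⟩
  obtain ⟨w, hw, hfix, hval⟩ := (C.mem_Ram v).mp hv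
  obtain rfl : u = ⟨w, hw⟩ := (C.subsingleton_fib hu ⟨w, hw⟩).symm
  exact hval

open Classical in
/-- The kernels at the bad places: the idempotent at three, the class function where ramified. -/
def deepBad : C.Bad where
  eL w := if h : C.b w = C.v₃ then e11 (C.UL_v₃ w h) else (1 : LocKer C.UL w)
  eK v := if h : v = C.v₃ then e11 (U := C.UK) (h ▸ C.UK_v₃) else (1 : LocKer C.UK v)
  eL_one w hw := dif_neg fun h => hw ((C.mem_S _).2 (Or.inl h))
  eK_one v hv := dif_neg fun h => hv ((C.mem_S _).2 (Or.inl h))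
  eL_herm w := by
    split_ifs
    exacts [isHerm_e11 _, LocKer.isHerm_one]
  eK_herm v := by
    split_ifs
    exacts [isHerm_e11 _, LocKer.isHerm_one]
  eL_idem w := by
    split_ifs
    exacts [e11_mul_self _, mul_one _]
  eK_idem v := by
    split_ifs
    exacts [e11_mul_self _, mul_one _]
  eL_sg w x y := by
    obtain ⟨u, rfl⟩ := (placeMap C.τ).surjective w
    revert x y
    set e : ∀ w, LocKer C.UL w := fun w =>
      if h : C.b w = C.v₃ then e11 (C.UL_v₃ w h) else 1 with he
    show ∀ (x y : G2 L ⧸ C.UL.loc ((placeMap C.τ).symm (placeMap C.τ u))),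
      (e (placeMap C.τ u)).k ((LevelHom.ofAut C.stable).locMap _ x)
        ((LevelHom.ofAut C.stable).locMap _ y) =
          (e ((placeMap C.τ).symm (placeMap C.τ u))).k x y
    intro x y
    induction x using QuotientGroup.induction_on with | H a =>
    induction y using QuotientGroup.induction_on with | H b =>
    show (e (placeMap C.τ u)).k (QuotientGroup.mk (g2Map (C.τ : L →+* L) a))
      (QuotientGroup.mk (g2Map (C.τ : L →+* L) b)) = _
    rw [show ∀ z (_ : z = u), (e z).k (QuotientGroup.mk a) (QuotientGroup.mk b) =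
      (e u).k (QuotientGroup.mk a) (QuotientGroup.mk b) from fun z hz => by subst hz; rfl]
    swap
    · exact (placeMap C.τ).symm_apply_apply u
    have hn : C.b (placeMap C.τ u) = C.b u := (C.next ⟨u, rfl⟩).2
    by_cases hu : C.b u = C.v₃
    · rw [he]
      simp only [dif_pos hu, dif_pos (hn.trans hu)]
      refine e11_map (placePair_placeMap C.τ u) _ _ (fun c => ?_) a b
      obtain ⟨g, rfl⟩ := (bijective_g2Map C.τ).2 c
      exact ⟨g, by rw [inv_mul_cancel]; exact one_mem _⟩
    · rw [he]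
      simp only [dif_neg hu, dif_neg (hn.symm ▸ hu), LocKer.one_k]
      refine if_congr ?_ rfl rfl
      rw [QuotientGroup.eq, QuotientGroup.eq, ← map_inv, ← map_mul]
      have h := C.stable (placeMap C.τ u) (a⁻¹ * b)
      rwa [(placeMap C.τ).symm_apply_apply u] at h
  eL_up v hs u a b := by
    induction a using QuotientGroup.induction_on with | H a =>
    induction b using QuotientGroup.induction_on with | H b =>
    have hu : C.b u.1 = v := u.2
    by_cases h3 : v = C.v₃
    · subst h3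
      rw [LT2.Ctx.up_mk, LT2.Ctx.up_mk, dif_pos hu, dif_pos rfl]
      refine e11_map (C.pair' ⟨u.1, hu⟩) C.UK_v₃ (C.UL_v₃ u.1 hu) (fun c => ?_) a b
      exact LT2.exists_mem_of_dense (φ := algebraMap K L) (w := u.1) C.congrL
        (fun y r hr => C.twist.exists_near (C.v₃_split u.1 hu) y hr) c
    · simp only [dif_neg h3, dif_neg (hu.symm ▸ h3), LocKer.one_k]
      split_ifs with e1 e2 e2
      exacts [rfl, absurd ((C.up_bijective hs u).1 e1) e2,
        absurd (congrArg (C.up u) e2) e1, rfl]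
  fK v := if h : v ∈ C.Ram then ramKer (C.UK_ram v h) else (1 : LocKer C.UK v)
  glue_one v hv hs := by
    have hm := C.mem_Ram_of_nonsplit hv hs
    obtain ⟨u, hu⟩ := C.exists_fixed' hs
    have h := C.nonSplit_ne hs hu
    simp only [dif_pos hm]
    exact C.exists_glue_ram_one h (C.UK_ram v hm) ((C.mem_Ram_iff hu h).1 hm) hu
      (C.UL_ne u.1 (u.2.trans_ne (C.ne_v₃ hs))) fun u' => dif_neg (u'.2.trans_ne (C.ne_v₃ hs))
  glue_rep v hv hs δ γ hδ hγ := by
    have hm := C.mem_Ram_of_nonsplit hv hs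
    obtain ⟨u, hu⟩ := C.exists_fixed' hs
    have h := C.nonSplit_ne hs hu
    simp only [dif_pos hm]
    exact C.exists_glue_ram h (C.UK_ram v hm) ((C.mem_Ram_iff hu h).1 hm) hu
      (C.UL_ne u.1 (u.2.trans_ne (C.ne_v₃ hs))) (fun u' => dif_neg (u'.2.trans_ne (C.ne_v₃ hs))) hδ
      hγ
  norm_local v hv hs δ z hz := by
    have hm := C.mem_Ram_of_nonsplit hv hs
    obtain ⟨u, hu⟩ := C.exists_fixed' hs
    simp only [dif_pos hm] at hz
    obtain ⟨h1, h2⟩ := C.ramKer_supp (u := u) (C.nonSplit_ne hs hu) (C.UK_ram v hm) hz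
    exact Or.inl ⟨C.v₃_uniq v (C.ne_v₃ hs), ⟨_, h1⟩, h2⟩

/-- The idempotent above the chosen place. -/
lemma deepBad_eL_of {w : HeightOneSpectrum (𝓞 L)} (h : C.b w = C.v₃) :
    C.deepBad.eL w = e11 (C.UL_v₃ w h) := by
  classical
  exact dif_pos h

/-- The idempotent is trivial elsewhere. -/
lemma deepBad_eL_ne {w : HeightOneSpectrum (𝓞 L)} (h : C.b w ≠ C.v₃) :
    C.deepBad.eL w = (1 : LocKer C.UL w) := by
  classical
  exact dif_neg h

/-- The kernel at a ramified place. -/
lemma deepBad_fK {v : HeightOneSpectrum (𝓞 K)} (h : v ∈ C.Ram) :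
    C.deepBad.fK v = ramKer (C.UK_ram v h) := by
  classical
  exact dif_pos h

/-- Eigenfunctions fixed by the idempotents whose eigenvalues are invariant under the generator
are themselves invariant, by the invariance theorem for tame cusps. -/
theorem fixHyp [IsTotallyComplex L] : LT2.Spec.FixHyp (C.deepBad) := by
  classical
  intro ψ ⟨hinv, hm, hb, hrad⟩ cL hc hheck heL
  set S : Finset (HeightOneSpectrum (𝓞 L)) := (C.finite_fib C.v₃).toFinset
  have hS : ∀ w, w ∈ S ↔ C.b w = C.v₃ := fun w => by simp [S]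
  have hU : C.UL = Level.ofFinset S := by
    have key : ∀ U V : Level L, U.loc = V.loc → U = V := by
      rintro ⟨⟩ ⟨⟩ h; cases h; rfl
    refine key _ _ (funext fun w => ?_)
    by_cases h : C.b w = C.v₃
    · rw [C.UL_v₃ w h, Whit.ofFinset_loc_of_mem ((hS w).2 h)]
    · rw [C.UL_ne w h, Whit.ofFinset_loc_of_notMem (mt (hS w).1 h)]
  set P : Finset (HeightOneSpectrum (𝓞 L)) :=
    C.S.biUnion fun v => (C.finite_fib v).toFinset
  have hP : ∀ w, w ∈ P ↔ C.b w ∈ C.S := fun w => by simp [P, eq_comm]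
  have hn : ∀ w, C.b (placeMap C.τ w) = C.b w := fun w => (C.next ⟨w, rfl⟩).2
  have key : ∀ (U : Level L) (e : U = Level.ofFinset S)
      (hst : ∀ w k, g2Map (C.τ : L →+* L) k ∈ U.loc w ↔
        k ∈ U.loc ((placeMap C.τ).symm w)) (φ : Space U → ℂ),
      (∀ (k : G2 L) z, φ (k • z) = φ z) → Measurable φ → (∃ B, ∀ z, ‖φ z‖ ≤ B) →
      (∀ w k, ContDiff ℝ ∞ k → HasCompactSupport k → ∀ z,
        radialOp w (fun p q => k (H3.coshDist p q)) φ z = Whit.hT k * φ z) →
      (∀ v ∈ S, Whit.IsTameCusp v (Whit.liftF U φ)) →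
      (∀ v ∉ P, ∀ z, heckeOp v φ z = cL v * φ z) →
      ∀ z, φ ((LevelHom.ofAut hst).map z) = φ z := by
    rintro U rfl hst φ hinv hm hb hr ht hh
    refine Whit.comp_ofAut_eq C.τ hst hinv hm hb hr
      (fun v hv => C.isThree_over ((hS v).1 hv)) ht P
      (fun v hv => (hP v).2 ((C.mem_S _).2 (Or.inl ((hS v).1 hv)))) (c := cL) hh
      (fun v => by rw [hS, hS, hn]) (fun v => by rw [hP, hP, hn])
      (fun v hv => hc v fun h => hv ((hP v).2 h)) fun v hvP hvS => ?_
    have hv : C.b v ∈ C.Ram := ((C.mem_S _).1 ((hP v).1 hvP)).resolve_left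
      (mt (hS v).2 hvS)
    obtain ⟨w, hw, hfix, -⟩ := (C.mem_Ram _).1 hv
    rwa [C.eq_of_fixed hfix hw.symm]
  refine key _ hU C.stable ψ hinv hm hb hrad (fun w hw => ?_) fun w hw =>
    hheck w fun h => hw ((hP w).2 h)
  have h3 := (hS w).1 hw
  refine isTameCusp_of_finOp_e11 (C.isThree_over h3) (C.UL_v₃ w h3) fun x => ?_
  have h := heL w ((C.mem_S _).2 (Or.inl h3)) x
  rwa [C.deepBad_eL_of h3] at h

end Ctx

end FermatAgent.LT
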