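import Mathlib
import Fermat.Agent.LT.Descent.ClassesCentral
import Fermat.Agent.LT.Descent.GlueingPlaces
import Fermat.Agent.LT.Descent.GlueAbs

/-!
# Matching through the norm

A class and its norm have centralisers of equal index; elliptic classes correspond, and an
elliptic class below which is no norm has no representative.
-/

set_option autoImplicit false

noncomputable section

open Matrix IsDedekindDomain NumberField
open scoped MatrixGroups

namespace FermatAgent.LT

open TwistCtx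

section Line

variable {K L : Type*} [Field K] [Field L] [Algebra K L] {τ : L ≃+* L}

/-- The identity has a line. -/
lemma hasLine_one : HasLine (1 : G2 K) := by
  rw [← map_one ProjGenLinGroup.mk]
  exact hasLine_upper (by simp)

/-- A line below gives one above. -/
lemma HasLine.map {d : G2 K} (h : HasLine d) : HasLine (g2Map (algebraMap K L) d) := by
  obtain ⟨D, rfl, ξ, hξ, a, ha⟩ := h
  rw [ProjGenLinGroup.map_mk]
  refine hasLine_mk.mpr ⟨fun i => algebraMap K L (ξ i), fun e => hξ (funext fun i =>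
    (map_eq_zero (algebraMap K L)).mp (congrFun e i)), algebraMap K L a, funext fun i => ?_⟩
  have := congrArg (algebraMap K L) (congrFun ha i)
  simpa [Matrix.vecMul, dotProduct, Fin.sum_univ_two] using this

/-- A line above descends. -/
lemma IsTwist.hasLine_of_map (h : IsTwist K τ) {d : G2 K}
    (hd : HasLine (g2Map (algebraMap K L) d)) : HasLine d := by
  obtain ⟨D, rfl⟩ := ProjGenLinGroup.mk_surjective d
  rw [ProjGenLinGroup.map_mk] at hd
  obtain ⟨ξ, hξ, a, ha⟩ := hasLine_mk.mp hd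
  have h0 : ((upGL (L := L) D).val - a • (1 : Matrix (Fin 2) (Fin 2) L)).det = 0 :=
    Matrix.exists_vecMul_eq_zero_iff.mp
      ⟨ξ, hξ, by rw [Matrix.vecMul_sub, ha, Matrix.vecMul_smul, Matrix.vecMul_one, sub_self]⟩
  rw [Matrix.det_fin_two] at h0
  simp only [GeneralLinearGroup.map_apply, Matrix.sub_apply, Matrix.smul_apply, Matrix.one_apply_eq,
    Matrix.one_apply_ne (zero_ne_one : (0 : Fin 2) ≠ 1),
    Matrix.one_apply_ne (one_ne_zero : (1 : Fin 2) ≠ 0), smul_eq_mul, mul_one, mul_zero,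
    sub_zero] at h0
  set T := algebraMap K L D.val.trace
  have hroot : a * a - T * a + algebraMap K L D.val.det = 0 := by
    simp only [T, Matrix.trace_fin_two, Matrix.det_fin_two, map_add, map_sub, map_mul]
    linear_combination h0
  have hroot' : τ a * τ a - T * τ a + algebraMap K L D.val.det = 0 := by
    have := congrArg τ hroot
    simpa [T, h.fix] using this
  have ha' : τ a = a := by
    have e : (τ a - a) * (τ a + a - T) = 0 := by linear_combination hroot' - hroot
    rcases mul_eq_zero.mp e with e | e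
    · exact sub_eq_zero.mp e
    · have e1 : τ a = T - a := by linear_combination e
      have e2 : τ (τ a) = a := by rw [e1, map_sub, h.fix, e1]; ring
      have := h.cube a
      rwa [e2] at this
  obtain ⟨k, hk⟩ := h.surj a ha'
  have hz : (D.val - k • (1 : Matrix (Fin 2) (Fin 2) K)).det = 0 := by
    refine (algebraMap K L).injective ?_
    rw [map_zero, Matrix.det_fin_two, map_sub, map_mul, map_mul]
    simp only [Matrix.sub_apply, Matrix.smul_apply, Matrix.one_apply_eq,
      Matrix.one_apply_ne (zero_ne_one : (0 : Fin 2) ≠ 1),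
      Matrix.one_apply_ne (one_ne_zero : (1 : Fin 2) ≠ 0), smul_eq_mul, mul_one, mul_zero,
      sub_zero, map_sub, hk]
    exact h0
  obtain ⟨η, hη, e⟩ := Matrix.exists_vecMul_eq_zero_iff.mpr hz
  refine hasLine_mk.mpr ⟨η, hη, k, ?_⟩
  rwa [Matrix.vecMul_sub, Matrix.vecMul_smul, Matrix.vecMul_one, sub_eq_zero] at e

end Line

namespace TwistCtx

variable {K L : Type*} [Field K] [NumberField K] [Field L] [NumberField L] [Algebra K L]
  (X : TwistCtx K L) (ht : IsTwist K X.τ) {δ : GL (Fin 2) K} {γ : GL (Fin 2) L}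

/-- The twisted centraliser below is the centraliser. -/
lemma centralizerK_eq (d : G2 K) :
    X.σK.centralizer d = Subgroup.centralizer ({d} : Set (G2 K)) := by
  ext g
  rw [Subgroup.mem_centralizer_singleton_iff, ← mul_inv_eq_iff_eq_mul]
  rfl

lemma centralizerL_eq (c : G2 L) : X.σ.centralizer c = tcent X.τ c := by
  ext g
  rfl

include ht in
/-- Equality of the indices below and above. -/
lemma index_eq (hδ : (ProjGenLinGroup.mk δ : G2 K) ≠ 1) (hγ : IsRep X.τ δ γ)
    {B : X.Over} {P : KerPair B}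
    (G : Glue P (ProjGenLinGroup.mk γ) (ProjGenLinGroup.mk δ) (torus δ)) :
    G.subC.index ≠ 0 ∧ (X.subK (ProjGenLinGroup.mk δ) (torus δ)).index = G.subC.index := by
  show ((torus δ).map (incl (K := K) (L := L))).relIndex
      (X.σ.centralizer (ProjGenLinGroup.mk γ)) ≠ 0 ∧
    (torus δ).relIndex (X.σK.centralizer (ProjGenLinGroup.mk δ)) =
      ((torus δ).map (incl (K := K) (L := L))).relIndex (X.σ.centralizer (ProjGenLinGroup.mk γ))
  rw [centralizerK_eq, centralizerL_eq]
  by_cases h0 : δ.val.trace = 0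
  · rw [relIndex_torus two_ne_zero hδ h0, ht.relIndex_tcent hδ hγ two_ne_zero h0]
    exact ⟨two_ne_zero, rfl⟩
  · rw [centralizer_mk_eq two_ne_zero h0, ht.tcent_eq hδ hγ two_ne_zero h0,
      Subgroup.relIndex_self, Subgroup.relIndex_self]
    exact ⟨one_ne_zero, rfl⟩

include ht in
/-- A twisted element with norm in the base is a representative of its matrix. -/
lemma exists_isRep_of_nrm {δ : GL (Fin 2) K} {c : G2 L}
    (hn : X.T.nrm c = incl (ProjGenLinGroup.mk δ)) :
    ∃ γ, IsRep X.τ δ γ ∧ ProjGenLinGroup.mk γ = c := by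
  obtain ⟨Γ, rfl⟩ := ProjGenLinGroup.mk_surjective c
  have hn' : ProjGenLinGroup.mk (nrmGL X.τ Γ) = ProjGenLinGroup.mk (upGL (L := L) δ) := by
    rw [← tnrm_mk]
    exact hn
  obtain ⟨μ, hμ⟩ := Matrix.ProjGenLinGroup.mk_eq_mk_iff.mp hn'.symm
  have e := ht.gmap_nrmGL Γ
  rw [← hμ, map_mul, gmap_sc, ht.gmap_up] at e
  have hμK : X.τ (μ : L) = μ := by
    refine ht.eq_of_sq_eq ?_
    have e1 := congrArg (fun x : GL (Fin 2) L => x.val.det) e
    simp only [Units.val_mul, Matrix.det_units_conj'] at e1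
    simp only [Matrix.det_mul, det_sc] at e1
    exact mul_left_cancel₀ (Matrix.GeneralLinearGroup.det_ne_zero _) e1
  obtain ⟨m, rfl⟩ := ht.exists_unit hμK
  rw [ht.map_unit, ← mul_assoc Γ⁻¹, mul_assoc (Γ⁻¹ * upGL δ), sc_comm, ← mul_assoc] at e
  refine ⟨Γ, ⟨?_, m, hμ.symm⟩, rfl⟩
  have e' := mul_right_cancel e
  rw [mul_assoc, eq_inv_mul_iff_mul_eq] at e'
  exact e'

include ht in
/-- Classes are determined by their norms. -/
lemma mem_cls_of_nrm {γ γ' : G2 L} (e : X.T.nrm γ = X.T.nrm γ') : γ' ∈ X.σ.cls γ := by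
  have hc : IsConj (tnrm X.τ γ) (tnrm X.τ γ') := by
    show IsConj (X.T.nrm γ) (X.T.nrm γ')
    rw [e]
  exact ht.exists_tconj_iff.mpr hc

include ht in
/-- Every class contains an element with norm in the base. -/
lemma exists_mem_cls_nrm (c : G2 L) :
    ∃ δ : G2 K, IsConj (X.T.nrm c) (incl δ) ∧ ∃ γ ∈ X.σ.cls c, X.T.nrm γ = incl δ := by
  obtain ⟨d, hd⟩ := ht.exists_descend c
  refine ⟨d, hd, ?_⟩
  obtain ⟨δ, rfl⟩ := ProjGenLinGroup.mk_surjective d
  obtain ⟨γ, g, hγ, hg⟩ := ht.exists_isRep hd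
  exact ⟨_, ⟨g, hg⟩, hγ.tnrm_eq⟩

include ht in
/-- The elliptic elements above and below correspond through the norm. -/
theorem corresp_ell : X.Corresp X.ellSet (ellK (K := K)) where
  exists_norm c hc := by
    obtain ⟨δ, hconj, hγ⟩ := exists_mem_cls_nrm X ht c
    refine ⟨δ, fun hl => hc ?_, hγ⟩
    obtain ⟨g, hg⟩ := isConj_iff.mp hconj
    exact (hasLine_conj g _).mp (hg.symm ▸ hl.map)
  unique γ _ γ' _ δ h h' := mem_cls_of_nrm X ht (h.trans h'.symm)
  descend δ _ δ' _ h :=
    isConj_iff.mp (ht.isConj_of_isConj_incl (isConj_iff.mpr h))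

include ht in
/-- An elliptic element that is no norm has a matrix without representatives. -/
lemma exists_no_rep {d : G2 K} (hd : d ∈ ellK (K := K))
    (hno : ∀ c ∈ X.ellSet, X.T.nrm c ≠ incl d) :
    ∃ D : GL (Fin 2) K, ProjGenLinGroup.mk D = d ∧ d ≠ 1 ∧ ∀ Γ, ¬IsRep X.τ D Γ := by
  obtain ⟨D, rfl⟩ := ProjGenLinGroup.mk_surjective d
  refine ⟨D, rfl, fun e => hd (e ▸ hasLine_one),
    fun Γ hΓ => hno (ProjGenLinGroup.mk Γ) ?_ hΓ.tnrm_eq⟩
  show ¬HasLine (X.T.nrm _)
  rw [show X.T.nrm (ProjGenLinGroup.mk Γ) = _ from hΓ.tnrm_eq]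
  exact fun hl => hd (ht.hasLine_of_map hl)

end TwistCtx

end FermatAgent.LT
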