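import Mathlib
import Fermat.Agent.LT.Descent.GlueingRet
import Fermat.Agent.LT.Descent.Hyp.Split

/-!
# Absolute values along the extension

An automorphism carries them along, and over a place of the base they multiply to the cube.
-/

set_option autoImplicit false

noncomputable section

open Matrix IsDedekindDomain NumberField
open scoped MatrixGroups

namespace FermatAgent.LT

open TwistCtx

section AbsV

variable {F : Type*} [Field F] [NumberField F]

lemma absNorm_placeMap (τ : F ≃+* F) (w : HeightOneSpectrum (𝓞 F)) :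
    (placeMap τ w).asIdeal.absNorm = w.asIdeal.absNorm := by
  have e : (placeMap τ w).asIdeal = w.asIdeal.map (RingOfIntegers.mapRingEquiv τ) := by
    show Ideal.comap _ _ = _
    exact Ideal.comap_symm _
  rw [Ideal.absNorm_apply, Ideal.absNorm_apply, Submodule.cardQuot_apply, Submodule.cardQuot_apply]
  exact (Nat.card_congr
    (Ideal.quotientEquiv w.asIdeal _ (RingOfIntegers.mapRingEquiv τ) e).toEquiv).symm

/-- An automorphism carries the absolute values along. -/
lemma absV_placeMap (τ : F ≃+* F) (w : HeightOneSpectrum (𝓞 F)) (x : F) :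
    absV (placeMap τ w) (τ x) = absV w x := by
  have key : ∀ (m n : NNReal) (hm : m ≠ 0) (hn : n ≠ 0) (a : WithZero (Multiplicative ℤ)),
      m = n → WithZeroMulInt.toNNReal hm a = WithZeroMulInt.toNNReal hn a := by
    rintro m n hm hn a rfl; rfl
  simp only [absV, HeightOneSpectrum.adicAbv_def, valuation_placeMap]
  exact congrArg _ (key _ _ _ _ _ (by rw [absNorm_placeMap]))

end AbsV

namespace TwistCtx

/-- The absolute values of an element of the base at the places above a place multiply to its
cube. -/
theorem prod_absV_fib {K L : Type*} [Field K] [NumberField K] [Field L]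
    [NumberField L] [Algebra K L]
    [IsTotallyComplex K] [IsTotallyComplex L] [IsPrincipalIdealRing (𝓞 K)] {X : TwistCtx K L}
    {B : X.Over} (hne : ∀ v, ∃ w, B.b w = v) (hp : ∀ w, PlacePair (algebraMap K L) (B.b w) w)
    {v : HeightOneSpectrum (𝓞 K)} (x : K) :
    ∏ u : {w // B.b w = v}, absV u.1 (algebraMap K L x) = absV v x ^ 3 := by
  classical
  obtain ⟨ϖ, hϖ⟩ := v.valuation_exists_uniformizer K
  have hϖ0 : ϖ ≠ 0 := fun h => WithZero.exp_ne_zero (by rw [← hϖ, h, map_zero])
  obtain ⟨π, hπ⟩ := Hyp.exists_absV (Function.update (fun _ => 1) v (Units.mk0 ϖ hϖ0)) (by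
    filter_upwards [(Set.finite_singleton v).compl_mem_cofinite] with u hu
    rw [Function.update_of_ne hu]
    simp)
  have hπ1 : ∀ u, u ≠ v → absV u (π : K) = 1 := fun u hu => by
    rw [hπ, Function.update_of_ne hu]; simp
  have hπv : absV v (π : K) = absV v ϖ := by rw [hπ, Function.update_self]; rfl
  set F := (B.finite_fib v).toFinset
  have hF : ∀ w, w ∈ F ↔ B.b w = v := fun w => by simp [F]
  have hone : ∀ w, B.b w ≠ v → absV w (algebraMap K L (π : K)) = 1 := fun w hw => by
    rw [absV_eq_one_iff, (hp w).eq_one_iff, ← absV_eq_one_iff]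
    exact hπ1 _ hw
  have hfK := product_formula π.ne_zero
  rw [finprod_eq_single _ v hπ1, Finset.prod_eq_single X.v
    (fun w _ hw => absurd (X.uniq w) hw) fun h => absurd (Finset.mem_univ _) h] at hfK
  have hfL := product_formula (L := L) ((map_ne_zero (algebraMap K L)).mpr π.ne_zero)
  rw [finprod_eq_prod_of_mulSupport_subset _ (s := F) fun w hw => (hF w).mpr
    (by_contra fun h => hw (hone w h))] at hfL
  have hinf : ∀ w : InfinitePlace L,
      w (algebraMap K L (π : K)) ^ w.mult = X.v (π : K) ^ X.v.mult := fun w => by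
    rw [IsTotallyComplex.mult_eq, IsTotallyComplex.mult_eq, ← InfinitePlace.comap_apply,
      X.uniq (w.comap (algebraMap K L))]
  rw [Finset.prod_congr rfl fun w _ => hinf w, Finset.prod_const, Finset.card_univ,
    ← Fintype.card_congr X.T.e, Fintype.card_fin] at hfL
  have hπ3 : ∏ u : {w // B.b w = v}, absV u.1 (algebraMap K L (π : K)) = absV v (π : K) ^ 3 := by
    rw [← Finset.prod_subtype F hF fun w => absV w (algebraMap K L (π : K))]
    have hne : (X.v (π : K) ^ X.v.mult) ^ 3 ≠ 0 := by simp
    refine mul_left_cancel₀ hne ?_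
    rw [hfL, ← mul_pow, hfK, one_pow]
  rcases eq_or_ne x 0 with rfl | hx
  · obtain ⟨w, hw⟩ := hne v
    simp only [map_zero, Finset.prod_const, Finset.card_univ]
    rw [zero_pow three_ne_zero, zero_pow]
    have : Nonempty {w // B.b w = v} := ⟨⟨w, hw⟩⟩
    exact Fintype.card_ne_zero
  have hπval : v.valuation K (π : K) = WithZero.exp (-1 : ℤ) := by
    rw [← hϖ]
    have h2 : absV v ((π : K) / ϖ) = 1 := by rw [map_div₀, hπv, div_self (by simp [hϖ0])]
    rw [absV_eq_one_iff, map_div₀, div_eq_one_iff_eq (by simp [hϖ0])] at h2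
    exact h2
  set n : ℤ := -WithZero.log (v.valuation K x)
  have hunit : v.valuation K (x / (π : K) ^ n) = 1 := by
    rw [map_div₀, map_zpow₀, hπval, ← WithZero.exp_zsmul, div_eq_one_iff_eq WithZero.exp_ne_zero]
    simp [n, WithZero.exp_log, hx]
  have e1 : absV v x = absV v (π : K) ^ n := by
    have := (absV_eq_one_iff v _).mpr hunit
    rwa [map_div₀, map_zpow₀, div_eq_one_iff_eq (zpow_ne_zero _ (by simp))] at this
  have e2 : ∀ u : {w // B.b w = v}, absV u.1 (algebraMap K L x) =
      absV u.1 (algebraMap K L (π : K)) ^ n := fun u => by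
    have := (absV_eq_one_iff u.1 _).mpr
      ((((by simpa only [u.2] using hp u.1 : PlacePair (algebraMap K L) v u.1)).eq_one_iff _).mpr
        hunit)
    rwa [map_div₀, map_div₀, map_zpow₀, map_zpow₀,
      div_eq_one_iff_eq (zpow_ne_zero _ (by simp))] at this
  rw [Finset.prod_congr rfl fun u _ => e2 u, Finset.prod_zpow, hπ3, e1]
  rw [← zpow_natCast, ← zpow_natCast, ← _root_.zpow_mul, ← _root_.zpow_mul, mul_comm]

end TwistCtx

end FermatAgent.LT
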