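import Mathlib
import Fermat.Agent.CFT.Global.CubicNorm
import Fermat.Agent.LT.Descent.ClassesExistLocal
import Fermat.Agent.LT.Descent.NonSplitUnit

/-!
# Existence of representatives

A nonscalar matrix over the base has a representative as soon as at every place the extension
splits, or the matrix fixes a coset and, at exponent three, satisfies the residual cube condition,
or is conjugate to one near a scalar up to nine: the ratio of its eigenvalues is then everywhere a
local norm, hence a norm.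
-/

set_option autoImplicit false

noncomputable section

open Matrix IsDedekindDomain NumberField WithZero
open scoped MatrixGroups

namespace FermatAgent.LT

variable {K L : Type*} [Field K] [NumberField K] [Field L] [NumberField L] [Algebra K L]
  {τ : L ≃+* L}

lemma mul_qmap_qmap_cubic {R : Type*} [CommRing R] {w θ : R} (hw : w ^ 2 + w + 1 = 0) (r s t : R) :
    (r + s * θ + t * θ ^ 2) * (r + s * (w * θ) + t * (w * θ) ^ 2) *
        (r + s * (w * (w * θ)) + t * (w * (w * θ)) ^ 2) =
      r ^ 3 + θ ^ 3 * s ^ 3 + (θ ^ 3) ^ 2 * t ^ 3 - 3 * θ ^ 3 * r * s * t := by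
  linear_combination
    (r ^ 2 * s * θ + (r ^ 2 * t * w ^ 2 - r ^ 2 * t * w + r ^ 2 * t + r * s ^ 2 * w) * θ ^ 2 +
    (r * s * t * w ^ 3 + r * s * t * w ^ 2 - 2 * r * s * t * w + 3 * r * s * t +
      s ^ 3 * w - s ^ 3) *
      θ ^ 3 +
    (r * t ^ 2 * (w ^ 4 - w ^ 3 + w ^ 2) + s ^ 2 * t * w ^ 3) * θ ^ 4 +
    s * t ^ 2 * w ^ 4 * θ ^ 5 +
    t ^ 3 * (w ^ 4 - w ^ 3 + w - 1) * θ ^ 6) * hw

section FromAlgebra

variable (h : IsTwist K τ) {δ : GL (Fin 2) K} {a b : L}
  (ha : a = -algebraMap K L δ.val.det) (hb : b = algebraMap K L δ.val.trace)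

include h ha hb

omit [NumberField K] [NumberField L] in
/-- An element of `L[X]/(X² - tX + d)` whose norm is a multiple of `X` gives a
representative. -/
theorem exists_isRep_of_qnrm (hfa : τ a = a) (hfb : τ b = b) (g : QuadraticAlgebra L a b) {u : K}
    (hu : u ≠ 0) (hg : qnrm τ hfa hfb g = ⟨0, algebraMap K L u⟩) :
    ∃ γ, IsRep τ δ γ := by
  set M := (upGL (L := L) δ).val
  have hM : M * M = a • 1 + b • M := by
    rw [ha, hb, ← det_map (algebraMap K L) δ, ← trace_map (algebraMap K L) δ]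
    exact Quad.mul_self_eq M
  set f := Quad.toMat M hM
  have hmap : ∀ z, f (Cyc3.qmap τ hfa hfb z) = (f z).map τ := h.toMat_qmap hfa hfb hM
  have hdet : (f g).det = g.norm := by
    rw [Quad.toMat_apply, Quad.det_toMat M (by rw [ha, det_map]) (by rw [hb, trace_map])]
  have hn : g.norm ≠ 0 := by
    intro h0
    have e := congrArg QuadraticAlgebra.norm hg
    rw [qnrm_apply, map_mul, map_mul, h0, zero_mul, zero_mul, QuadraticAlgebra.norm_def] at e
    simp [ha, hu, Matrix.GeneralLinearGroup.det_ne_zero δ] at e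
  refine ⟨GeneralLinearGroup.mkOfDetNeZero (f g) (by rwa [hdet]), ?_, Units.mk0 u hu, ?_⟩
  · exact Commute.units_val_iff.mp (Quad.commute_lin M g.re g.im)
  · apply Units.ext
    have e := congrArg f hg
    rw [qnrm_apply, map_mul, map_mul, hmap, hmap, hmap] at e
    refine e.trans ?_
    rw [Units.val_mul, sc_val, mul_smul_comm, mul_one, Quad.toMat_apply]
    simp [M]

end FromAlgebra

/-- For a matrix near a scalar the ratio of the eigenvalues is congruent to one modulo more than
`9`. -/
theorem near_conditions {E : Type*} [Field E] [NumberField E] [Algebra K E]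
    {δ : GL (Fin 2) K} {g₁ g₂ : E} (hsum : g₁ + g₂ = algebraMap K E δ.val.trace)
    (hprod : g₁ * g₂ = algebraMap K E δ.val.det) {v : HeightOneSpectrum (𝓞 K)}
    (hnear : NearOne v δ) {P : HeightOneSpectrum (𝓞 E)} [P.asIdeal.LiesOver v.asIdeal] :
    P.valuation E (1 ^ 3 / (g₂ / g₁) - 1) < P.valuation E 9 := by
  obtain ⟨B, s, hs⟩ := hnear
  have hP := placePair_of_liesOver (L := E) v P
  set δ' := B⁻¹ * δ * B
  have htr : δ'.val.trace = δ.val.trace := by
    simp only [δ', Units.val_mul]
    rw [Matrix.trace_mul_comm, ← Matrix.mul_assoc, Units.mul_inv, Matrix.one_mul]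
  have hdet : δ'.val.det = δ.val.det := by
    simp only [δ', Units.val_mul, Matrix.det_mul]
    rw [mul_right_comm, ← Matrix.det_mul, Units.inv_mul, Matrix.det_one, one_mul]
  set σ := algebraMap K E (s : K)
  set f := algebraMap K E
  set m : Fin 2 → Fin 2 → E := fun i j => f (((s : K) • δ'.val - 1) i j)
  set b := P.valuation E (9 : E)
  have hm : ∀ i j, P.valuation E (m i j) < b := fun i j => by
    have := (hP.lt_iff _ _).mpr (hs i j)
    rwa [map_ofNat] at this
  have h9 : b ≤ 1 := by
    have := P.valuation_le_one (K := E) (9 : 𝓞 E)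
    exact_mod_cast this
  have hb0 : 0 < b := zero_le.trans_lt (hm 0 0)
  have key : ∀ g : E, g * g = f δ.val.trace * g - f δ.val.det →
      P.valuation E (σ * g - 1) < b := fun g hg => by
    set k := σ * g - 1
    have e : k * k = (m 0 0 + m 1 1) * k - (m 0 0 * m 1 1 - m 0 1 * m 1 0) := by
      simp only [k, m, σ, Matrix.sub_apply, Matrix.smul_apply, Matrix.one_apply_eq,
        Matrix.one_apply_ne (zero_ne_one : (0 : Fin 2) ≠ 1),
        Matrix.one_apply_ne (one_ne_zero : (1 : Fin 2) ≠ 0), smul_eq_mul, sub_zero, map_sub,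
        map_mul, map_one, map_zero]
      rw [← htr, ← hdet, Matrix.trace_fin_two, Matrix.det_fin_two, map_add, map_sub, map_mul,
        map_mul] at hg
      linear_combination (f (s : K)) ^ 2 * hg
    by_contra hle
    rw [not_lt] at hle
    have hk0 : (0 : WithZero (Multiplicative ℤ)) < P.valuation E k := hb0.trans_le hle
    refine lt_irrefl (P.valuation E (k * k)) ?_
    conv_lhs => rw [e]
    refine ((P.valuation E).map_sub _ _).trans_lt (max_lt ?_ ?_)
    · rw [map_mul, map_mul]
      refine mul_lt_mul_of_pos_right ((((P.valuation E).map_add _ _).trans_lt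
        (max_lt (hm 0 0) (hm 1 1))).trans_le hle) hk0
    · refine ((P.valuation E).map_sub _ _).trans_lt (max_lt ?_ ?_) <;> rw [map_mul, map_mul] <;>
        exact mul_lt_mul'' ((hm _ _).trans_le hle) ((hm _ _).trans_le hle) zero_le zero_le
  have i1 := key g₁ (by linear_combination g₁ * hsum - hprod)
  have i2 := key g₂ (by linear_combination g₂ * hsum - hprod)
  have hσ : σ ≠ 0 := by simp [σ]
  have u2 : P.valuation E (σ * g₂) = 1 :=
    val_eq_one_of_sub_lt (b := 1) (map_one _) (i2.trans_le h9)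
  have h2 : σ * g₂ ≠ 0 := fun e => by rw [e, map_zero] at u2; exact zero_ne_one u2
  rw [show (1 : E) ^ 3 / (g₂ / g₁) - 1 = ((σ * g₁ - 1) - (σ * g₂ - 1)) / (σ * g₂) by
    have := (mul_ne_zero_iff.mp h2).2
    field_simp; ring, map_div₀, u2, div_one]
  exact ((P.valuation E).map_sub _ _).trans_lt (max_lt i1 i2)

/-- The local condition at `v` for `δ` to be a norm: some place above `v` is moved by the
generator, or `δ` fixes a coset at `v`, prime to three, and satisfies the residual cube condition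
if `v` ramifies, or `δ` is near a scalar at `v`. -/
def IsLocNormAt (τ : L ≃+* L) (v : HeightOneSpectrum (𝓞 K)) (δ : GL (Fin 2) K) : Prop :=
  (∃ w : HeightOneSpectrum (𝓞 L), w.asIdeal.LiesOver v.asIdeal ∧ placeMap τ w ≠ w) ∨
    (v.valuation K 3 = 1 ∧ (∃ d : G2 K ⧸ locK v, (ProjGenLinGroup.mk δ : G2 K) • d = d) ∧
      ∀ w : HeightOneSpectrum (𝓞 L), w.asIdeal.LiesOver v.asIdeal →
        (∀ x : K, w.valuation L (algebraMap K L x) = v.valuation K x ^ 3) → CubeOK v δ) ∨
    NearOne v δ

/-- The local information used at a place: closeness of `c` to a cube, the residual cube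
condition, or closeness of `δ` to a scalar. -/
private def CubeData (v : HeightOneSpectrum (𝓞 K)) (δ : GL (Fin 2) K) (c : K) : Prop :=
  (∃ b : K, v.valuation K (b ^ 3 / c - 1) < v.valuation K 9) ∨
    (v.valuation K 3 = 1 ∧ ∃ s : Kˣ, Normalised v (δ * sc s) ∧
      (CubeOK v δ ∨ ∃ b : K, v.valuation K (b ^ 3 / c) = 1)) ∨ NearOne v δ

omit [NumberField K] [NumberField L] in
/-- A Kummer generator of the extension. -/
private lemma exists_kummer_generator (h : IsTwist K τ) {z : K} (hz : IsPrimitiveRoot z 3) :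
    ∃ (θ : L) (c : K), θ ≠ 0 ∧ τ θ = algebraMap K L z * θ ∧ algebraMap K L c = θ ^ 3 ∧
      ∀ b : K, b ^ 3 ≠ c := by
  have hz3 := hz.pow_eq_one
  have hz0 : z ≠ 0 := hz.ne_zero three_ne_zero
  obtain ⟨θ, hθ, hθτ⟩ := h.exists_eq_mul_map (u := (algebraMap K L z)⁻¹) (by
    simp only [map_inv₀, h.fix]
    rw [← mul_inv, ← mul_inv, ← map_mul, ← map_mul, show z * z * z = 1 by linear_combination hz3,
      map_one, inv_one])
  rw [inv_mul_eq_iff_eq_mul₀ (by simpa using hz0)] at hθτ
  set ω := algebraMap K L z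
  have hω3 : ω ^ 3 = 1 := by rw [← map_pow, hz3, map_one]
  obtain ⟨c, hc⟩ := h.surj (θ ^ 3) (by rw [map_pow, hθτ, mul_pow, hω3, one_mul])
  refine ⟨θ, c, hθ, hθτ, hc, fun b hb => ?_⟩
  have hb0 : algebraMap K L b ≠ 0 := fun e => by
    rw [← hb, map_pow, e, zero_pow three_ne_zero, eq_comm] at hc
    simp [hθ] at hc
  have hzL : IsPrimitiveRoot ω 3 := hz.map_of_injective (algebraMap K L).injective
  obtain ⟨i, -, hi⟩ := hzL.eq_pow_of_pow_eq_one (ξ := θ / algebraMap K L b) (by
    rw [div_pow, ← hc, ← hb, map_pow, div_self (pow_ne_zero 3 hb0)])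
  have e : τ (θ / algebraMap K L b) = θ / algebraMap K L b := by
    rw [← hi, map_pow]; exact congrArg (· ^ i) (h.fix z)
  rw [map_div₀, h.fix, hθτ, mul_div_assoc] at e
  have := mul_right_cancel₀ (div_ne_zero hθ hb0) (e.trans (one_mul _).symm)
  exact hz.ne_one (by norm_num) ((algebraMap K L).injective (this.trans (map_one _).symm))

/-- The local conditions give the local information at every place. -/
private lemma cubeData_of_local (h : IsTwist K τ) {z : K} (hz3 : z ^ 3 = 1)
    {δ : GL (Fin 2) K} (hδ : (ProjGenLinGroup.mk δ : G2 K) ≠ 1) {θ : L} (hθ : θ ≠ 0)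
    (hθτ : τ θ = algebraMap K L z * θ) {c : K} (hc : algebraMap K L c = θ ^ 3)
    (v : HeightOneSpectrum (𝓞 K)) (hloc : IsLocNormAt τ v δ) :
    CubeData v δ c := by
  have := v.isMaximal
  obtain ⟨Q, hQ, hQv⟩ := Ideal.exists_maximal_ideal_liesOver_of_isIntegral (S := 𝓞 L) v.asIdeal
  let w₀ : HeightOneSpectrum (𝓞 L) := ⟨Q, hQ.isPrime,
    Ideal.ne_bot_of_liesOver_of_ne_bot v.ne_bot Q⟩
  have : w₀.asIdeal.LiesOver v.asIdeal := hQv
  by_cases hmove : ∃ w : HeightOneSpectrum (𝓞 L), w.asIdeal.LiesOver v.asIdeal ∧ placeMap τ w ≠ w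
  · obtain ⟨w, hwv, hw⟩ := hmove
    have := hwv
    exact Or.inl (exists_cube_near_of_moved h hz3 hθ hθτ hc hw)
  rcases hloc.resolve_left hmove with ⟨h3, hfix, hcube⟩ | hnear
  swap
  · exact Or.inr (Or.inr hnear)
  push Not at hmove
  have hns := NonSplit.of_fixed (v := v) h (hmove w₀ hQv) h3
  obtain ⟨s, hs⟩ := (fixes_iff hδ).mp hfix
  refine Or.inr (Or.inl ⟨h3, s, hs, ?_⟩)
  rcases hns.inert_or_ramified with hi | hr
  · exact Or.inr (exists_cube_mul_unit hns hi hθ hc)
  · exact Or.inl (hcube w₀ hQv hr)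

/-- **The cubic norm**: with the local information at every place, the ratio of the eigenvalues is a
value of the norm form of the cubic Kummer extension of their field (Hasse norm theorem). -/
private lemma exists_cubicForm_eq_ratio {z : K} (hz : IsPrimitiveRoot z 3) {δ : GL (Fin 2) K}
    {c : K} (hdata : ∀ v, CubeData v δ c) {E : Type*} [Field E] [NumberField E] [Algebra K E]
    {g₁ g₂ : E} (hsum : g₁ + g₂ = algebraMap K E δ.val.trace)
    (hprod : g₁ * g₂ = algebraMap K E δ.val.det) (hne : ∀ b : E, b ^ 3 ≠ algebraMap K E c) :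
    ∃ r s q : E, r ^ 3 + algebraMap K E c * s ^ 3 + algebraMap K E c ^ 2 * q ^ 3 -
      3 * algebraMap K E c * r * s * q = g₂ / g₁ := by
  have hg : g₁ ≠ 0 ∧ g₂ ≠ 0 := mul_ne_zero_iff.mp
    (by rw [hprod]; simpa using Matrix.GeneralLinearGroup.det_ne_zero δ)
  refine CFT.Global.exists_cubicForm_of_local (hz.map_of_injective (algebraMap K E).injective) hne
    (div_ne_zero hg.2 hg.1) fun P => ?_
  have : P.asIdeal.LiesOver (HeightOneSpectrum.under (A := 𝓞 K) P).asIdeal := ⟨rfl⟩
  set v := HeightOneSpectrum.under (A := 𝓞 K) P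
  have hP := placePair_of_liesOver (L := E) v P
  rcases hdata v with ⟨b, hb⟩ | ⟨h3, s, hs, hor⟩ | hnear
  · refine Or.inl ⟨algebraMap K E b, ?_⟩
    rw [← map_pow, ← map_div₀, ← map_one (algebraMap K E), ← map_sub,
      ← map_ofNat (algebraMap K E) 9]
    exact (hP.lt_iff _ _).mpr hb
  · obtain ⟨hu, hcond⟩ := local_conditions hsum hprod hs (P := P)
    rcases hor with hcu | ⟨b, hb⟩
    · exact Or.inr (Or.inl (hcond h3 hcu))
    refine Or.inr (Or.inr ⟨?_, ⟨algebraMap K E b, ?_⟩, 1, ?_⟩)
    · rw [← map_ofNat (algebraMap K E) 3, hP.eq_one_iff]; exact h3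
    · rw [← map_pow, ← map_div₀, hP.eq_one_iff]; exact hb
    · rw [one_pow, one_div, map_inv₀, hu, inv_one]
  · exact Or.inr (Or.inl ⟨1, near_conditions hsum hprod hnear (P := P)⟩)

omit [NumberField K] [NumberField L] in
/-- The cube root of unity in the extension. -/
private lemma kummer_omega_rel {z : K} (hz : IsPrimitiveRoot z 3) :
    algebraMap K L z ^ 2 + algebraMap K L z + 1 = 0 := by
  have h := (hz.map_of_injective (algebraMap K L).injective).geom_sum_eq_zero (by norm_num)
  simp only [Finset.sum_range_succ, Finset.sum_range_zero, pow_zero, pow_one, zero_add] at h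
  linear_combination h

/-- Without rational eigenvalue the norm equation is solved in the quadratic field of
eigenvalues. -/
private lemma exists_isRep_of_irrational (h : IsTwist K τ) {z : K} (hz : IsPrimitiveRoot z 3)
    {δ : GL (Fin 2) K} {θ : L} (hθτ : τ θ = algebraMap K L z * θ) {c : K}
    (hc : algebraMap K L c = θ ^ 3) (hnc : ∀ b : K, b ^ 3 ≠ c) (hdata : ∀ v, CubeData v δ c)
    (hroot : ∀ r : K, r ^ 2 ≠ -δ.val.det + δ.val.trace * r) :
    ∃ γ, IsRep τ δ γ := by
  have hc0 : c ≠ 0 := fun e => hnc 0 (by simp [e])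
  set t := δ.val.trace
  set d := δ.val.det
  have hd : d ≠ 0 := Matrix.GeneralLinearGroup.det_ne_zero δ
  have hfa : τ (-algebraMap K L d) = -algebraMap K L d := by rw [map_neg, h.fix]
  have : Fact (∀ r : K, r ^ 2 ≠ -d + t * r) := ⟨hroot⟩
  have : Module.Finite K (QuadraticAlgebra K (-d) t) := .of_basis (QuadraticAlgebra.basis (-d) t)
  have : NumberField (QuadraticAlgebra K (-d) t) :=
    NumberField.of_module_finite K (QuadraticAlgebra K (-d) t)
  let om : QuadraticAlgebra K (-d) t := ⟨0, 1⟩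
  have hsum : om + star om = algebraMap K (QuadraticAlgebra K (-d) t) t := by ext <;> simp [om]
  have hprod : om * star om = algebraMap K (QuadraticAlgebra K (-d) t) d := by ext <;> simp [om]
  have hne : ∀ b : QuadraticAlgebra K (-d) t,
      b ^ 3 ≠ algebraMap K (QuadraticAlgebra K (-d) t) c := fun b hb => by
    have e := congrArg QuadraticAlgebra.norm hb
    rw [map_pow, QuadraticAlgebra.norm_algebraMap] at e
    refine hnc (c / b.norm) ?_
    rw [div_pow, e]
    field_simp
  obtain ⟨r, s, q, hrsq⟩ := exists_cubicForm_eq_ratio hz hdata hsum hprod hne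
  let ι : QuadraticAlgebra K (-d) t →+* QuadraticAlgebra L (-algebraMap K L d) (algebraMap K L t) :=
    qhom (algebraMap K L) (map_neg _ _) rfl
  let Θ : QuadraticAlgebra L (-algebraMap K L d) (algebraMap K L t) := algebraMap L _ θ
  let W : QuadraticAlgebra L (-algebraMap K L d) (algebraMap K L t) :=
    algebraMap L _ (algebraMap K L z)
  set Q := Cyc3.qmap τ hfa (h.fix t)
  have hQι : ∀ x, Q (ι x) = ι x := fun x => by ext <;> simp [Q, ι, h.fix]
  have hQΘ : Q Θ = W * Θ := by ext <;> simp [Q, Θ, W, hθτ]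
  have hQW : Q W = W := by ext <;> simp [Q, W, h.fix]
  have hW : W ^ 2 + W + 1 = 0 := by
    simpa [W] using congrArg (algebraMap L
      (QuadraticAlgebra L (-algebraMap K L d) (algebraMap K L t))) (kummer_omega_rel (L := L) hz)
  set g := ι om * (ι r + ι s * Θ + ι q * Θ ^ 2)
  refine exists_isRep_of_qnrm h rfl rfl hfa (h.fix t) g hd ?_
  have hcΘ : Θ ^ 3 = ι (algebraMap K (QuadraticAlgebra K (-d) t) c) := by
    simp only [Θ, ← map_pow, ← hc]
    ext <;> simp [ι]
  simp only [Q] at hQι hQΘ hQW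
  have e1 : qnrm τ hfa (h.fix t) g = ι (om ^ 3 * (star om / om)) := by
    rw [← hrsq, qnrm_apply]
    simp only [g, map_mul, map_add, map_pow, map_sub, map_ofNat, hQι, hQΘ, hQW]
    rw [← hcΘ, show ∀ x y₁ y₂ y₃ : QuadraticAlgebra L (-algebraMap K L d) (algebraMap K L t),
      x * y₁ * (x * y₂) * (x * y₃) = x ^ 3 * (y₁ * y₂ * y₃) from fun _ _ _ _ => by ring,
      mul_qmap_qmap_cubic hW]
  rw [e1]
  have hom : om ≠ 0 := fun e => by simpa [om] using congrArg QuadraticAlgebra.im e
  rw [show om ^ 3 * (star om / om) = (om * star om) * om by field_simp, hprod]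
  ext <;> simp [ι, om]

omit [NumberField K] in
/-- For a double eigenvalue a representative is written down directly. -/
private lemma exists_isRep_of_double (h : IsTwist K τ) {δ : GL (Fin 2) K} {a₁ : K} (ha : a₁ ≠ 0)
    (et : δ.val.trace = 2 * a₁) (ed : δ.val.det = a₁ ^ 2) :
    ∃ γ, IsRep τ δ γ := by
  refine exists_isRep_of_qnrm h rfl rfl (by rw [map_neg, h.fix]) (h.fix _)
    ⟨2 / 3, 1 / (3 * algebraMap K L a₁)⟩ (inv_ne_zero ha) ?_
  have h1L : algebraMap K L a₁ ≠ 0 := by simpa using ha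
  have e3 : (3 : L) ≠ 0 := by norm_num
  ext <;> simp [qnrm_apply, h.fix, et, ed, map_div₀, map_ofNat] <;> field_simp <;> ring

/-- For distinct rational eigenvalues the norm equation is solved over the base. -/
private lemma exists_isRep_of_distinct (h : IsTwist K τ) {z : K} (hz : IsPrimitiveRoot z 3)
    {δ : GL (Fin 2) K} {θ : L} (hθτ : τ θ = algebraMap K L z * θ) {c : K}
    (hc : algebraMap K L c = θ ^ 3) (hnc : ∀ b : K, b ^ 3 ≠ c) (hdata : ∀ v, CubeData v δ c)
    {a₁ a₂ : K} (hsum : a₁ + a₂ = δ.val.trace) (hprod : a₁ * a₂ = δ.val.det) (hne : a₁ ≠ a₂) :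
    ∃ γ, IsRep τ δ γ := by
  set t := δ.val.trace
  set d := δ.val.det
  have hfa : τ (-algebraMap K L d) = -algebraMap K L d := by rw [map_neg, h.fix]
  have ha0 : a₁ ≠ 0 := left_ne_zero_of_mul
    (by rw [hprod]; exact Matrix.GeneralLinearGroup.det_ne_zero δ)
  have h1L : algebraMap K L a₁ ≠ 0 := by simpa using ha0
  have hne' : (algebraMap K L a₂ - algebraMap K L a₁) ≠ 0 :=
    sub_ne_zero.mpr fun e => hne ((algebraMap K L).injective e).symm
  obtain ⟨r, s, q, hrsq⟩ := exists_cubicForm_eq_ratio (E := K) hz hdata (g₁ := a₁) (g₂ := a₂)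
    (by simpa using hsum) (by simpa using hprod) (fun b => by simpa using hnc b)
  simp only [Algebra.algebraMap_self, RingHom.id_apply] at hrsq
  set G := algebraMap K L r + algebraMap K L s * θ + algebraMap K L q * θ ^ 2
  set y := (G - 1) / (algebraMap K L a₂ - algebraMap K L a₁)
  set g : QuadraticAlgebra L (-algebraMap K L d) (algebraMap K L t) :=
    ⟨1 - y * algebraMap K L a₁, y⟩
  refine exists_isRep_of_qnrm h rfl rfl hfa (h.fix t) g (inv_ne_zero ha0) ?_
  have hG : G * τ G * τ (τ G) = algebraMap K L (a₂ / a₁) := by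
    simp only [G, map_add, map_mul, map_pow, h.fix, hθτ]
    rw [mul_qmap_qmap_cubic (kummer_omega_rel hz), ← hc, ← hrsq]
    simp [map_ofNat]
  -- evaluation at the two eigenvalues
  let ev : ∀ x : K, x ^ 2 = -d + t * x →
      QuadraticAlgebra L (-algebraMap K L d) (algebraMap K L t) →+* L := fun x hx =>
    (QuadraticAlgebra.lift ⟨algebraMap K L x, by
      simp only [smul_eq_mul, mul_one]
      rw [← map_mul, ← pow_two, hx, map_add, map_neg, map_mul]⟩).toRingHom
  have hev : ∀ x hx z', ev x hx z' = z'.re + z'.im * algebraMap K L x := fun x hx z' => by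
    simp [ev]
  have hx₁ : a₁ ^ 2 = -d + t * a₁ := by rw [← hprod, ← hsum]; ring
  have hx₂ : a₂ ^ 2 = -d + t * a₂ := by rw [← hprod, ← hsum]; ring
  have hQev : ∀ x hx z', ev x hx (Cyc3.qmap τ hfa (h.fix t) z') = τ (ev x hx z') :=
    fun x hx z' => by simp [hev, h.fix]
  have hinj : ∀ z' z'', ev a₁ hx₁ z' = ev a₁ hx₁ z'' → ev a₂ hx₂ z' = ev a₂ hx₂ z'' →
      z' = z'' := by
    intro z' z'' e1 e2
    rw [hev _ hx₁, hev _ hx₁] at e1
    rw [hev _ hx₂, hev _ hx₂] at e2
    have him : z'.im = z''.im := mul_right_cancel₀ hne' (by linear_combination e2 - e1)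
    refine QuadraticAlgebra.ext ?_ him
    rw [him] at e1
    exact add_right_cancel e1
  have g1 : ev a₁ hx₁ g = 1 := by rw [hev _ hx₁]; simp [g]
  have g2 : ev a₂ hx₂ g = G := by
    rw [hev _ hx₂]; simp only [g, y]; field_simp; ring
  apply hinj
  · rw [qnrm_apply, map_mul, map_mul, hQev _ hx₁, hQev _ hx₁, hQev _ hx₁, g1, map_one, map_one,
      mul_one, mul_one, hev _ hx₁]
    simp [h1L]
  · rw [qnrm_apply, map_mul, map_mul, hQev _ hx₂, hQev _ hx₂, hQev _ hx₂, g2, hG, hev _ hx₂]
    simp [div_eq_inv_mul]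

/-- **Existence of representatives**: a nonscalar matrix over `K` which is locally a norm at every
place has a representative, the ratio of its eigenvalues being then globally a norm from the cubic
extension. -/
theorem IsTwist.exists_isRep_of_local (h : IsTwist K τ) {z : K} (hz : IsPrimitiveRoot z 3)
    {δ : GL (Fin 2) K} (hδ : (ProjGenLinGroup.mk δ : G2 K) ≠ 1)
    (hloc : ∀ v : HeightOneSpectrum (𝓞 K), IsLocNormAt τ v δ) :
    ∃ γ, IsRep τ δ γ := by
  obtain ⟨θ, c, hθ, hθτ, hc, hnc⟩ := exists_kummer_generator h hz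
  have hdata : ∀ v, CubeData v δ c := fun v =>
    cubeData_of_local h hz.pow_eq_one hδ hθ hθτ hc v (hloc v)
  by_cases hroot : ∀ r : K, r ^ 2 ≠ -δ.val.det + δ.val.trace * r
  · exact exists_isRep_of_irrational h hz hθτ hc hnc hdata hroot
  push Not at hroot
  obtain ⟨a₁, ha₁⟩ := hroot
  have hprod : a₁ * (δ.val.trace - a₁) = δ.val.det := by linear_combination -ha₁
  by_cases heq : a₁ = δ.val.trace - a₁
  · rw [← heq] at hprod
    exact exists_isRep_of_double h (left_ne_zero_of_mul
      (hprod.trans_ne (Matrix.GeneralLinearGroup.det_ne_zero δ)))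
      (by linear_combination -heq) (by linear_combination -hprod)
  · exact exists_isRep_of_distinct h hz hθτ hc hnc hdata (add_sub_cancel _ _) hprod heq

end FermatAgent.LT
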